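/-
Expansions at all cusps of `j (e τ)` and of the unit `Δ (e τ) / Δ τ`, with coefficients in a
subring of `ℂ`, and their leading terms.
-/
import Fermat.Agent.ModFun.JFun

set_option autoImplicit false

noncomputable section

open Filter Function UpperHalfPlane Complex ModularCurve
open scoped Topology Manifold MatrixGroups

namespace Fermat.Agent.Igusa.Fibre

open Fermat.Agent.ModFun

section Lead

variable {R S : Type*} [CommRing R] [CommRing S]

/-- The series starts with `c q^o`. -/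
def Lead (x : LaurentSeries R) (o : ℤ) (c : R) : Prop :=
  x.coeff o = c ∧ ∀ i < o, x.coeff i = 0

theorem Lead.eq_single_mul {x : LaurentSeries R} {o : ℤ} {c : R} (h : Lead x o c) :
    ∃ p : PowerSeries R, x = HahnSeries.single o 1 * HahnSeries.ofPowerSeries ℤ R p ∧
      PowerSeries.constantCoeff p = c := by
  refine ⟨PowerSeries.mk fun n => x.coeff (o + n), ?_, by simpa using h.1⟩
  ext i
  rw [HahnSeries.coeff_single_mul, one_mul]
  rcases lt_or_ge (i - o) 0 with hi | hi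
  · rw [ofPowerSeries_coeff_of_neg _ hi, h.2 i (by omega)]
  · obtain ⟨n, hn⟩ := Int.eq_ofNat_of_zero_le hi
    rw [hn, HahnSeries.ofPowerSeries_apply_coeff, PowerSeries.coeff_mk, ← hn, add_sub_cancel]

theorem lead_single_mul (o : ℤ) (p : PowerSeries R) :
    Lead (HahnSeries.single o 1 * HahnSeries.ofPowerSeries ℤ R p) o
      (PowerSeries.constantCoeff p) := by
  refine ⟨?_, fun i hi => ?_⟩
  · rw [HahnSeries.coeff_single_mul, one_mul, sub_self, show (0 : ℤ) = ((0 : ℕ) : ℤ) from rfl,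
      HahnSeries.ofPowerSeries_apply_coeff, PowerSeries.coeff_zero_eq_constantCoeff]
  · rw [HahnSeries.coeff_single_mul, one_mul, ofPowerSeries_coeff_of_neg _ (by omega)]

theorem Lead.mul {x y : LaurentSeries R} {o o' : ℤ} {c c' : R} (hx : Lead x o c)
    (hy : Lead y o' c') : Lead (x * y) (o + o') (c * c') := by
  obtain ⟨p, rfl, rfl⟩ := hx.eq_single_mul
  obtain ⟨q, rfl, rfl⟩ := hy.eq_single_mul
  rw [mul_mul_mul_comm, HahnSeries.single_mul_single, one_mul, ← map_mul, ← map_mul]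
  exact lead_single_mul _ _

theorem lead_C (c : R) : Lead (HahnSeries.C c : LaurentSeries R) 0 c :=
  ⟨by simp [HahnSeries.C_apply], fun i hi => by simp [HahnSeries.C_apply, hi.ne]⟩

theorem Lead.coeffMap {x : LaurentSeries R} {o : ℤ} {c : R} (h : Lead x o c) (f : R →+* S) :
    Lead (ModularCurve.coeffMap f x) o (f c) :=
  ⟨by simp [h.1], fun i hi => by simp [h.2 i hi]⟩

theorem Lead.qExpand {x : LaurentSeries R} {o : ℤ} {c : R} (h : Lead x o c) (m : ℕ) [NeZero m] :
    Lead (ModularCurve.qExpand R m x) ((m : ℤ) * o) c := by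
  refine ⟨by rw [qExpand_coeff_mul, h.1], fun i hi => ?_⟩
  by_cases hd : (m : ℤ) ∣ i
  · obtain ⟨i', rfl⟩ := hd
    rw [qExpand_coeff_mul]
    exact h.2 i' (lt_of_mul_lt_mul_left hi (Int.natCast_nonneg m))
  · exact qExpand_coeff_of_not_dvd m x hd

theorem Lead.ne_zero {x : LaurentSeries R} {o : ℤ} {c : R} (h : Lead x o c) (hc : c ≠ 0) :
    x ≠ 0 := fun hx => hc (by rw [← h.1, hx]; rfl)

theorem Lead.order_eq {x : LaurentSeries R} {o : ℤ} {c : R} (h : Lead x o c) (hc : c ≠ 0) :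
    x.order = o := by
  refine le_antisymm (HahnSeries.order_le_of_coeff_ne_zero (by rw [h.1]; exact hc)) ?_
  by_contra hlt
  exact hc.elim ((mt HahnSeries.coeff_order_eq_zero.1 (h.ne_zero hc)) (h.2 _ (not_le.1 hlt))).elim

/-- Multiply the `i`-th coefficient by `u ^ i`. -/
def twR (u : Rˣ) (x : LaurentSeries R) : LaurentSeries R where
  coeff i := ((u ^ i : Rˣ) : R) * x.coeff i
  isPWO_support' := x.isPWO_support'.mono fun i hi h0 => hi (by simp [h0])

theorem coeffMap_twR {R : Type*} [CommRing R] (f : R →+* ℂ) (u : Rˣ) (x : LaurentSeries R) :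
    coeffMap f (twR u x) = twist (Units.map f u) (coeffMap f x) := by
  ext i
  rw [twist_coeff, coeffMap_coeff, coeffMap_coeff, twR, map_mul, ← Units.val_zpow_eq_zpow_val,
    ← map_zpow]
  rfl

theorem Lead.twR {x : LaurentSeries R} {o : ℤ} {c : R} (h : Lead x o c) (u : Rˣ) :
    Lead (Fibre.twR u x) o (((u ^ o : Rˣ) : R) * c) :=
  ⟨by rw [Fibre.twR, ← h.1], fun i hi => by simp [Fibre.twR, h.2 i hi]⟩

/-- The expansion of `Δ`. -/
def deltaS (R : Type*) [CommRing R] : LaurentSeries R :=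
  HahnSeries.single (1 : ℤ) 1 *
    HahnSeries.ofPowerSeries ℤ R (dedekindEtaUnit.map (Int.castRingHom R))

/-- The expansion of `1 / Δ`. -/
def deltaInvS (R : Type*) [CommRing R] : LaurentSeries R :=
  HahnSeries.single (-1 : ℤ) 1 *
    HahnSeries.ofPowerSeries ℤ R (dedekindEtaUnitInv.map (Int.castRingHom R))

theorem lead_deltaS : Lead (deltaS R) 1 1 := by
  have := lead_single_mul (R := R) 1 (dedekindEtaUnit.map (Int.castRingHom R))
  rw [← PowerSeries.coeff_zero_eq_constantCoeff_apply, PowerSeries.coeff_map,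
    PowerSeries.coeff_zero_eq_constantCoeff_apply, constantCoeff_dedekindEtaUnit, eq_intCast, Int.cast_one] at this
  exact this

theorem lead_deltaInvS : Lead (deltaInvS R) (-1) 1 := by
  have := lead_single_mul (R := R) (-1) (dedekindEtaUnitInv.map (Int.castRingHom R))
  rw [← PowerSeries.coeff_zero_eq_constantCoeff_apply, PowerSeries.coeff_map,
    PowerSeries.coeff_zero_eq_constantCoeff_apply, constantCoeff_dedekindEtaUnitInv, eq_intCast, Int.cast_one] at this
  exact this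

theorem lead_jqModC : Lead (jqModC R) (-1) 1 :=
  ⟨coeff_jqModC_neg_one R, fun _ hi => coeff_jqModC_of_lt R hi⟩

theorem deltaS_mul_deltaInvS : deltaS R * deltaInvS R = 1 := by
  rw [deltaS, deltaInvS, mul_mul_mul_comm, HahnSeries.single_mul_single, ← map_mul, ← map_mul,
    dedekindEtaUnit_mul_inv]
  simp

theorem coeffMap_deltaS (f : R →+* S) : coeffMap f (deltaS R) = deltaS S := by
  rw [deltaS, map_mul, coeffMap_single, map_one, coeffMap_ofPowerSeries,
    ← RingHom.comp_apply (PowerSeries.map f), ← PowerSeries.map_comp,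
    RingHom.ext_int (f.comp (Int.castRingHom R)) (Int.castRingHom S)]
  rfl

theorem coeffMap_deltaInvS (f : R →+* S) : coeffMap f (deltaInvS R) = deltaInvS S := by
  rw [deltaInvS, map_mul, coeffMap_single, map_one, coeffMap_ofPowerSeries,
    ← RingHom.comp_apply (PowerSeries.map f), ← PowerSeries.map_comp,
    RingHom.ext_int (f.comp (Int.castRingHom R)) (Int.castRingHom S)]
  rfl

end Lead

section Delta

local notation "Δ" => ModularForm.discriminant

theorem hasQExp_discriminant : HasQExp 1 Δ (deltaS ℂ) := by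
  have hper : Periodic (Δ ∘ ofComplex) ((1 : ℕ) : ℝ) := by
    rw [Nat.cast_one]
    exact SlashInvariantFormClass.periodic_comp_ofComplex CuspForm.discriminant
      one_mem_strictPeriods_SL
  have h := hasQExp_qExpansion (h := 1) hper CuspForm.discriminant.holo'
    ModularForm.discriminant_isZeroAtImInfty.boundedAtFilter
  rw [Nat.cast_one, qExpansion_discriminant, map_mul, HahnSeries.ofPowerSeries_X] at h
  exact h

theorem hasQExp_inv_discriminant : HasQExp 1 (Δ)⁻¹ (deltaInvS ℂ) :=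
  hasQExp_discriminant.inv.of_eq (inv_eq_of_mul_eq_one_right deltaS_mul_deltaInvS)

theorem discriminant_smul (γ : SL(2, ℤ)) (τ : ℍ) :
    Δ (γ • τ) = ((γ 1 0 : ℂ) * τ + γ 1 1) ^ 12 * Δ τ := by
  have h := congrFun (SlashInvariantForm.slash_action_generators_SL2Z
    ModularForm.discriminant_S_invariant ModularForm.discriminant_T_invariant γ) τ
  rw [ModularForm.SL_slash_apply, ModularGroup.denom_apply] at h
  have hne : ((γ 1 0 : ℂ) * τ + γ 1 1) ≠ 0 := by
    rw [← ModularGroup.denom_apply]; exact denom_ne_zero _ _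
  have h12 : (((γ 1 0 : ℂ) * τ + γ 1 1)) ^ (12 : ℤ) = ((γ 1 0 : ℂ) * τ + γ 1 1) ^ 12 :=
    zpow_ofNat _ _
  rw [zpow_neg, h12, mul_inv_eq_iff_eq_mul₀ (pow_ne_zero _ hne)] at h
  rw [h, mul_comm]

end Delta

section Decomposition

/-- `τ ↦ e τ`. -/
def sc (e : ℕ) (τ : ℍ) : ℍ := ModularForm.heckeDiagMatrix e • τ

theorem coe_sc {e : ℕ} (he : e ≠ 0) (τ : ℍ) : (sc e τ : ℂ) = e * τ := by
  rw [sc, coe_smul_of_det_pos (ModularForm.det_heckeDiagMatrix_pos e)]
  simp [num, denom, ModularForm.val_heckeDiagMatrix he]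

theorem mdifferentiable_sc (e : ℕ) : MDiff (sc e) :=
  mdifferentiable_smul (ModularForm.det_heckeDiagMatrix_pos e)

/-- `diag (e, 1) g = γ (a b; 0 d)` with `a = gcd (c, e)`. -/
theorem exists_decomp (e : ℕ) [NeZero e] (g : SL(2, ℤ)) :
    ∃ (a b d : ℕ) (γ : SL(2, ℤ)), a * d = e ∧ b < d ∧ a = Nat.gcd (g 1 0).natAbs e ∧
      (γ 0 0 * a = e * g 0 0 ∧ γ 0 0 * b + γ 0 1 * d = e * g 0 1 ∧
        γ 1 0 * a = g 1 0 ∧ γ 1 0 * b + γ 1 1 * d = g 1 1) := by
  have he : e ≠ 0 := NeZero.ne e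
  set a := Nat.gcd (g 1 0).natAbs e with ha
  have ha0 : a ≠ 0 := fun h => he (Nat.eq_zero_of_gcd_eq_zero_right h)
  obtain ⟨d, hd⟩ : a ∣ e := Nat.gcd_dvd_right _ _
  obtain ⟨C', hC⟩ : (a : ℤ) ∣ g 1 0 := Int.natCast_dvd.2 (Nat.gcd_dvd_left _ _)
  have hd0 : d ≠ 0 := by rintro rfl; simp at hd; exact he hd
  have hdet := g.det_coe
  rw [Matrix.det_fin_two] at hdet
  -- `d A` and `C'` are coprime
  have hcop : IsCoprime ((d : ℤ) * g 0 0) C' := by
    refine IsCoprime.mul_left ?_ ⟨g 1 1, -(g 0 1) * a, ?_⟩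
    · rw [Int.isCoprime_iff_gcd_eq_one, Int.gcd, Int.natAbs_natCast]
      have h2 : (g 1 0).natAbs = a * C'.natAbs := by rw [hC, Int.natAbs_mul, Int.natAbs_natCast]
      have h3 : a = a * Nat.gcd C'.natAbs d := by
        conv_lhs => rw [ha, h2, hd, Nat.gcd_mul_left]
      rw [Nat.gcd_comm]
      exact Nat.eq_of_mul_eq_mul_left (Nat.pos_of_ne_zero ha0) (by rw [← h3, mul_one])
    · rw [hC] at hdet
      linear_combination hdet
  obtain ⟨u, v, huv⟩ := hcop
  -- first completion, then shift `b` into `[0, d)`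
  set b₀ : ℤ := u * (e * g 0 1) + v * g 1 1 with hb₀
  have hdd : (-C') * (e * g 0 1) + (d : ℤ) * g 0 0 * g 1 1 = d := by
    rw [hd, Nat.cast_mul]
    linear_combination (d : ℤ) * hdet + (d : ℤ) * g 0 1 * hC
  set t : ℤ := b₀ / d with ht
  have hdpos : (0 : ℤ) < d := by exact_mod_cast Nat.pos_of_ne_zero hd0
  obtain ⟨b, hb⟩ : ∃ b : ℕ, (b : ℤ) = b₀ % d :=
    ⟨(b₀ % d).toNat, Int.toNat_of_nonneg (Int.emod_nonneg _ hdpos.ne')⟩
  have hbt : (b : ℤ) + t * d = b₀ := by rw [hb, ht, mul_comm]; exact Int.emod_add_mul_ediv b₀ d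
  refine ⟨a, b, d, ⟨!![(d : ℤ) * g 0 0, d * g 0 0 * t - v; C', C' * t + u], ?_⟩, hd.symm, ?_, rfl, ?_⟩
  · rw [Matrix.det_fin_two_of]
    linear_combination huv
  · have := Int.emod_lt_of_pos b₀ hdpos
    rw [← hb] at this
    exact_mod_cast this
  · have hde : (e : ℤ) = a * d := by exact_mod_cast hd
    refine ⟨?_, ?_, ?_, ?_⟩ <;> simp
    · linear_combination -(g 0 0) * hde
    · linear_combination (d : ℤ) * g 0 0 * hbt + (d : ℤ) * g 0 0 * hb₀ +
        ((e : ℤ) * g 0 1) * huv + v * hdd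
    · linear_combination -hC
    · linear_combination C' * hbt + C' * hb₀ + g 1 1 * huv + (-u) * hdd

/-- The point and the automorphy factor of a decomposition. -/
theorem decomp_smul {e : ℕ} [NeZero e] {g γ : SL(2, ℤ)} {a b d : ℕ} [NeZero a] [NeZero d]
    (h : γ 0 0 * a = e * g 0 0 ∧ γ 0 0 * b + γ 0 1 * d = e * g 0 1 ∧
      γ 1 0 * a = g 1 0 ∧ γ 1 0 * b + γ 1 1 * d = g 1 1) (τ : ℍ) :
    sc e (g • τ) = γ • triPoint a b d τ ∧
      ((γ 1 0 : ℂ) * (triPoint a b d τ : ℂ) + γ 1 1) * d = (g 1 0 : ℂ) * τ + g 1 1 := by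
  obtain ⟨h1, h2, h3, h4⟩ := h
  replace h1 : (γ 0 0 : ℂ) * a = e * g 0 0 := by exact_mod_cast h1
  replace h2 : (γ 0 0 : ℂ) * b + γ 0 1 * d = e * g 0 1 := by exact_mod_cast h2
  replace h3 : (γ 1 0 : ℂ) * a = g 1 0 := by exact_mod_cast h3
  replace h4 : (γ 1 0 : ℂ) * b + γ 1 1 * d = g 1 1 := by exact_mod_cast h4
  have hd : (d : ℂ) ≠ 0 := by exact_mod_cast NeZero.ne d
  have hw : (triPoint a b d τ : ℂ) = ((a : ℂ) * τ + b) / d := rfl
  have hden : ((γ 1 0 : ℂ) * (triPoint a b d τ : ℂ) + γ 1 1) * d = (g 1 0 : ℂ) * τ + g 1 1 := by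
    rw [hw]; field_simp
    linear_combination (τ : ℂ) * h3 + h4
  refine ⟨?_, hden⟩
  have hg : (g 1 0 : ℂ) * τ + g 1 1 ≠ 0 := by
    rw [← ModularGroup.denom_apply]; exact denom_ne_zero _ _
  have hγ : (γ 1 0 : ℂ) * (triPoint a b d τ : ℂ) + γ 1 1 ≠ 0 := by
    rw [← ModularGroup.denom_apply]; exact denom_ne_zero _ _
  apply UpperHalfPlane.ext
  rw [coe_sc (NeZero.ne e), coe_specialLinearGroup_apply, coe_specialLinearGroup_apply]
  simp only [algebraMap_int_eq, eq_intCast, ofReal_intCast]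
  rw [mul_div_assoc', div_eq_div_iff hg hγ, ← hden, hw]
  field_simp
  linear_combination -((γ 1 0 : ℂ) * (a * τ + b) + d * γ 1 1) * ((τ : ℂ) * h1 + h2)

end Decomposition

end Fermat.Agent.Igusa.Fibre
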