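/-
The cusp counting lemma behind irreducibility of `X₀(N)` modulo a prime.
-/
import Mathlib.Data.Nat.PrimeFin
import Mathlib.Data.Nat.Factorization.Basic
import Mathlib.Data.Nat.GCD.BigOperators
import Mathlib.Data.Nat.Cast.Field
import Mathlib.Algebra.BigOperators.Field
import Mathlib.Algebra.Order.BigOperators.Ring.Finset
import Mathlib.NumberTheory.Divisors
import Mathlib.Tactic.FieldSimp
import Mathlib.Tactic.Linarith
import Mathlib.Algebra.BigOperators.Group.Finset.Powerset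

set_option autoImplicit false

open Finset

namespace Fermat.Agent.Igusa.Fibre

/-- Alternating sum over the square-free divisors of `N`. -/
theorem sum_powerset_gcd_eq_zero {N c : ℕ} (hc : c ∣ N) (hcN : c ≠ N) (hN : N ≠ 0) :
    ∑ S ∈ N.primeFactors.powerset, (-1 : ℤ) ^ S.card * (Nat.gcd c (N / ∏ p ∈ S, p) : ℤ) ^ 2 = 0 := by
  obtain ⟨r, hr⟩ := hc
  obtain ⟨p, hp, hpr⟩ := Nat.exists_prime_and_dvd (n := r) (by rintro rfl; simp [hr] at hcN)
  have hpN : p ∈ N.primeFactors := by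
    rw [Nat.mem_primeFactors]; exact ⟨hp, hr ▸ hpr.mul_left c, hN⟩
  have hcp : c * p ∣ N := hr ▸ Nat.mul_dvd_mul_left c hpr
  rw [← Finset.insert_erase hpN, Finset.sum_powerset_insert (Finset.notMem_erase _ _),
    ← Finset.sum_add_distrib]
  refine Finset.sum_eq_zero fun S hS => ?_
  have hpS : p ∉ S := fun h => by simpa using Finset.mem_powerset.1 hS h
  rw [Finset.card_insert_of_notMem hpS, Finset.prod_insert hpS]
  set m := ∏ q ∈ S, q with hm
  have hmN : p * m ∣ N := by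
    refine dvd_trans ?_ N.prod_primeFactors_dvd
    rw [hm, ← Finset.prod_insert (f := fun q => q) hpS]
    refine Finset.prod_dvd_prod_of_subset _ _ _ ?_
    intro q hq
    rcases Finset.mem_insert.1 hq with rfl | hq
    · exact hpN
    · exact Finset.mem_of_mem_erase (Finset.mem_powerset.1 hS hq)
  have hpm : Nat.Coprime p m := by
    refine Nat.coprime_prod_right_iff.2 fun q hq => (Nat.coprime_primes hp ?_).2 (fun h => hpS (h ▸ hq))
    exact Nat.prime_of_mem_primeFactors (Finset.mem_of_mem_erase (Finset.mem_powerset.1 hS hq))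
  have hm0 : m ≠ 0 := right_ne_zero_of_mul (ne_zero_of_dvd_ne_zero hN hmN)
  have hdvd : N / (p * m) ∣ N / m := Nat.div_dvd_div_left hmN (dvd_mul_left m p)
  have heq : Nat.gcd c (N / m) = Nat.gcd c (N / (p * m)) := by
    refine Nat.dvd_antisymm (Nat.dvd_gcd (Nat.gcd_dvd_left _ _) ?_) (Nat.gcd_dvd_gcd_of_dvd_right c hdvd)
    set d := Nat.gcd c (N / m)
    rw [Nat.dvd_div_iff_mul_dvd hmN]
    have h1 : d * p ∣ N := (Nat.mul_dvd_mul_right (Nat.gcd_dvd_left _ _) p).trans hcp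
    have h2 : d * m ∣ N := by
      rw [mul_comm, ← Nat.dvd_div_iff_mul_dvd ((dvd_mul_left m p).trans hmN)]
      exact Nat.gcd_dvd_right _ _
    have h3 := Nat.lcm_dvd h1 h2
    rwa [Nat.lcm_mul_left, hpm.lcm_eq_mul, mul_comm] at h3
  rw [heq, pow_succ]
  ring

theorem sum_powerset_div_pos {N : ℕ} (hN : N ≠ 0) :
    (∑ S ∈ N.primeFactors.powerset, (-1 : ℤ) ^ S.card * ((N / ∏ p ∈ S, p : ℕ) : ℤ)) ≠ 0 := by
  intro h
  have hq : (∑ S ∈ N.primeFactors.powerset, (-1 : ℚ) ^ S.card * ((N / ∏ p ∈ S, p : ℕ) : ℚ)) = 0 := by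
    have := congrArg (fun z : ℤ => (z : ℚ)) h
    simp only [Int.cast_sum, Int.cast_mul, Int.cast_pow, Int.cast_neg, Int.cast_one, Int.cast_natCast,
      Int.cast_zero] at this
    exact this
  have : (N : ℚ) * ∏ p ∈ N.primeFactors, (1 - (p : ℚ)⁻¹) = 0 := by
    rw [← hq, Finset.prod_sub, Finset.mul_sum]
    refine Finset.sum_congr rfl fun S hS => ?_
    have hdvd : ∏ p ∈ S, p ∣ N := (Finset.prod_dvd_prod_of_subset _ _ _
      (Finset.mem_powerset.1 hS)).trans N.prod_primeFactors_dvd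
    rw [Finset.prod_const_one, mul_one, Nat.cast_div hdvd (by exact_mod_cast ne_zero_of_dvd_ne_zero hN hdvd), Nat.cast_prod,
      Finset.prod_inv_distrib]
    ring
  refine absurd this (mul_ne_zero (by exact_mod_cast hN) (Finset.prod_ne_zero_iff.2 fun p hp => ?_))
  have : (1 : ℚ) < p := by exact_mod_cast (Nat.prime_of_mem_primeFactors hp).one_lt
  linarith [inv_lt_one_of_one_lt₀ this]

/-- Only the whole set of cosets satisfies the degree conditions of the modular units. -/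
theorem eq_univ_of_sum_gcd_sq {Q : Type*} [Fintype Q] {N : ℕ} (hN : N ≠ 0) (c : Q → ℕ)
    (hc : ∀ g, c g ∣ N) (g₀ : Q) (huniq : ∀ g, c g = N → g = g₀)
    (O : Finset Q) (hO : g₀ ∈ O)
    (hsum : ∀ e ∈ N.divisors, ∑ g ∈ O, (Nat.gcd (c g) e : ℤ) ^ 2 = e * O.card)
    (huniv : ∀ e ∈ N.divisors, ∑ g, (Nat.gcd (c g) e : ℤ) ^ 2 = e * Fintype.card Q) :
    O = Finset.univ := by
  set φ := ∑ S ∈ N.primeFactors.powerset, (-1 : ℤ) ^ S.card * ((N / ∏ p ∈ S, p : ℕ) : ℤ) with hφ
  set W : Q → ℤ := fun g =>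
    ∑ S ∈ N.primeFactors.powerset, (-1 : ℤ) ^ S.card * (Nat.gcd (c g) (N / ∏ p ∈ S, p) : ℤ) ^ 2
  have key : ∀ T : Finset Q, g₀ ∈ T →
      (∀ e ∈ N.divisors, ∑ g ∈ T, (Nat.gcd (c g) e : ℤ) ^ 2 = e * T.card) →
      W g₀ = φ * T.card := by
    intro T hT hsT
    rw [← Finset.sum_eq_single_of_mem (f := W) g₀ hT fun g _ hg =>
      sum_powerset_gcd_eq_zero (hc g) (fun h => hg (huniq g h)) hN]
    simp only [W]
    rw [Finset.sum_comm, hφ, Finset.sum_mul]
    refine Finset.sum_congr rfl fun S hS => ?_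
    rw [← Finset.mul_sum, hsT _ (Nat.mem_divisors.2 ⟨Nat.div_dvd_of_dvd ((Finset.prod_dvd_prod_of_subset
      _ _ _ (Finset.mem_powerset.1 hS)).trans N.prod_primeFactors_dvd), hN⟩), mul_assoc]
  have h1 := (key O hO hsum).symm.trans (key Finset.univ (Finset.mem_univ _) (by simpa using huniv))
  exact Finset.card_eq_iff_eq_univ O |>.1 (by
    exact_mod_cast mul_left_cancel₀ (sum_powerset_div_pos hN) h1)

end Fermat.Agent.Igusa.Fibre
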