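/-
Orbits of tuples of roots under the automorphisms of a normal extension.
-/
import Mathlib.FieldTheory.Normal.Basic
import Mathlib.FieldTheory.Normal.Defs
import Mathlib.FieldTheory.Minpoly.Field
import Mathlib.FieldTheory.IsAlgClosed.Basic
import Mathlib.RingTheory.Polynomial.Basic
import Mathlib.FieldTheory.PrimitiveElement

set_option autoImplicit false

open Polynomial

namespace Fermat.Agent.Igusa.Fibre

/-- `∏ g, (X - (x g + T * u g))` as a polynomial in `X` over `M[T]`. -/
noncomputable def pairPoly {M : Type*} [CommRing M] {Q : Type*} [Fintype Q] (x u : Q → M) : M[X][X] :=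
  ∏ g, (X - C (C (x g) + X * C (u g)))

theorem pairPoly_map {M M' : Type*} [CommRing M] [CommRing M'] (f : M →+* M') {Q : Type*}
    [Fintype Q] (x u : Q → M) :
    (pairPoly x u).map (mapRingHom f) = pairPoly (f ∘ x) (f ∘ u) := by
  simp [pairPoly, Polynomial.map_prod]

/-- The product `∏ g, (X - x g)` is the specialisation at `T = 0`. -/
theorem pairPoly_eval_zero {M : Type*} [CommRing M] {Q : Type*} [Fintype Q] (x u : Q → M) :
    (pairPoly x u).map (evalRingHom 0) = ∏ g, (X - C (x g)) := by
  simp [pairPoly, Polynomial.map_prod]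

section Field

variable {K M : Type*} [Field K] [Field M] [Algebra K M] {Q : Type*} [Fintype Q]

theorem exists_pow_eq_algebraMap_of_fixed [Normal K M] (P : M) (h : ∀ σ : M ≃ₐ[K] M, σ P = P) :
    ∃ m, 0 < m ∧ ∃ r, algebraMap K M r = P ^ m := by
  have hP : IsIntegral K P := Normal.isIntegral ‹_› P
  set p := (minpoly K P).map (algebraMap K M) with hp
  have hsp : p.Splits := Normal.splits ‹_› P
  have hpm : p.Monic := (minpoly.monic hP).map _
  have hroots : ∀ r ∈ p.roots, r = P := by
    intro r hr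
    rw [mem_roots hpm.ne_zero, hp, IsRoot, eval_map, ← aeval_def] at hr
    obtain ⟨σ, hσ⟩ := minpoly.exists_algEquiv_of_root' (Algebra.IsAlgebraic.isAlgebraic P) hr
    rw [← hσ]
    exact h σ
  have hcard : p.roots = Multiset.replicate p.natDegree P := by
    rw [Multiset.eq_replicate]
    exact ⟨hsp.natDegree_eq_card_roots.symm, hroots⟩
  refine ⟨p.natDegree, by rw [hp, natDegree_map]; exact minpoly.natDegree_pos hP,
    (-1) ^ p.natDegree * (minpoly K P).coeff 0, ?_⟩
  have h0 := hsp.coeff_zero_eq_prod_roots_of_monic hpm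
  rw [hcard, Multiset.prod_replicate, hp, coeff_map, natDegree_map] at h0
  rw [map_mul, map_pow, map_neg, map_one, h0, hp, natDegree_map, ← mul_assoc, ← mul_pow,
    neg_one_mul, neg_neg, one_pow, one_mul]

/-- An automorphism permutes the pairs `(x g, u g)`. -/
theorem exists_pair_map (x u : Q → M)
    (hP : ∀ i j, ((pairPoly x u).coeff i).coeff j ∈ (algebraMap K M).range) (σ : M →ₐ[K] M)
    (g : Q) : ∃ δ, σ (x g) = x δ ∧ σ (u g) = u δ := by
  have hfix : pairPoly (σ ∘ x) (σ ∘ u) = pairPoly x u := by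
    rw [show (σ : M → M) = ⇑(σ : M →+* M) from rfl, ← pairPoly_map]
    ext i j
    rw [coeff_map, coe_mapRingHom, coeff_map]
    obtain ⟨r, hr⟩ := hP i j
    rw [← hr]
    exact σ.commutes r
  have h0 : (pairPoly x u).eval (C (σ (x g)) + X * C (σ (u g))) = 0 := by
    rw [← hfix, pairPoly, eval_prod]
    exact Finset.prod_eq_zero (Finset.mem_univ g) (by simp)
  rw [pairPoly, eval_prod, Finset.prod_eq_zero_iff] at h0
  obtain ⟨δ, -, hδ⟩ := h0
  rw [eval_sub, eval_X, eval_C, sub_eq_zero] at hδ
  refine ⟨δ, ?_, ?_⟩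
  · simpa using congrArg (fun p : M[X] => p.coeff 0) hδ
  · simpa using congrArg (fun p : M[X] => p.coeff 1) hδ

/-- The orbit of `g₀`: it injects into the conjugates of `x g₀`, and the products over it of the
companions `u e` are fixed by all automorphisms. -/
theorem exists_orbit [Normal K M] {ι : Type*} (x : Q → M) (hx : Function.Injective x)
    (u : ι → Q → M) (hP : ∀ e i j, ((pairPoly x (u e)).coeff i).coeff j ∈ (algebraMap K M).range) (g₀ : Q) :
    ∃ O : Finset Q, g₀ ∈ O ∧ O.card ≤ (minpoly K (x g₀)).natDegree ∧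
      ∀ e, ∃ m, 0 < m ∧ ∃ r, algebraMap K M r = (∏ g ∈ O, u e g) ^ m := by
  classical
  set O : Finset Q := Finset.univ.filter fun δ => ∃ σ : M ≃ₐ[K] M, σ (x g₀) = x δ with hO
  have mem : ∀ δ, δ ∈ O ↔ ∃ σ : M ≃ₐ[K] M, σ (x g₀) = x δ := by simp [hO]
  refine ⟨O, (mem g₀).2 ⟨AlgEquiv.refl, rfl⟩, ?_, fun e => ?_⟩
  · have hi : IsIntegral K (x g₀) := Normal.isIntegral ‹_› _
    rw [← natDegree_map (algebraMap K M), ← Finset.card_image_of_injective O hx]
    refine card_le_degree_of_subset_roots ?_
    intro r hr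
    rw [Finset.image_val] at hr
    have hr' : r ∈ O.image x := by simpa using hr
    obtain ⟨δ, hδ, rfl⟩ := Finset.mem_image.1 hr'
    obtain ⟨σ, hσ⟩ := (mem δ).1 hδ
    rw [mem_roots ((minpoly.monic hi).map _).ne_zero, IsRoot, eval_map, ← aeval_def, ← hσ,
      ← AlgEquiv.coe_toAlgHom σ, aeval_algHom_apply, minpoly.aeval, map_zero]
  · refine exists_pow_eq_algebraMap_of_fixed _ fun σ => ?_
    have key : ∀ g, ∃ δ, σ (x g) = x δ ∧ σ (u e g) = u e δ := fun g =>
      exists_pair_map x (u e) (hP e) (σ : M →ₐ[K] M) g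
    choose π hπx hπu using key
    have hπ : Function.Injective π := fun a b hab =>
      hx (σ.injective (by rw [hπx, hπx, hab]))
    have hmem : O.image π = O := by
      refine Finset.eq_of_subset_of_card_le ?_ (by rw [Finset.card_image_of_injective _ hπ])
      intro δ hδ
      obtain ⟨g, hg, rfl⟩ := Finset.mem_image.1 hδ
      obtain ⟨τ, hτ⟩ := (mem g).1 hg
      exact (mem _).2 ⟨τ.trans σ, by rw [AlgEquiv.trans_apply, hτ, hπx]⟩
    rw [map_prod, Finset.prod_congr rfl fun g _ => hπu g, ← Finset.prod_image fun a _ b _ h => hπ h,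
      hmem]

/-- The field generated by one tuple has degree at most the number of tuples. -/
theorem finrank_adjoin_le_card [CharZero K] [IsAlgClosed M] [Normal K M] {ι : Type*}
    [Finite ι] (x : Q → M) (hx : Function.Injective x) (u : ι → Q → M)
    (hP : ∀ e i j, ((pairPoly x (u e)).coeff i).coeff j ∈ (algebraMap K M).range)
    (hPx : ∀ i j, ((pairPoly x x).coeff i).coeff j ∈ (algebraMap K M).range) (g₀ : Q) :
    FiniteDimensional K
        (IntermediateField.adjoin K (insert (x g₀) (Set.range fun e => u e g₀))) ∧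
      Module.finrank K (IntermediateField.adjoin K (insert (x g₀) (Set.range fun e => u e g₀))) ≤
        Fintype.card Q := by
  set S : Set M := insert (x g₀) (Set.range fun e => u e g₀)
  set E := IntermediateField.adjoin K S
  have : Finite S := (Set.finite_range _).insert _ |>.to_subtype
  have hfd : FiniteDimensional K E :=
    IntermediateField.finiteDimensional_adjoin fun z _ => Algebra.IsIntegral.isIntegral z
  refine ⟨hfd, ?_⟩
  rw [← AlgHom.card K E M]
  have key : ∀ f : E →ₐ[K] M, ∃ δ, f ⟨x g₀, IntermediateField.subset_adjoin K S (Set.mem_insert _ _)⟩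
      = x δ ∧ ∀ e, f ⟨u e g₀, IntermediateField.subset_adjoin K S (Set.mem_insert_of_mem _ ⟨e, rfl⟩)⟩
        = u e δ := by
    intro f
    obtain ⟨σ, hσ⟩ : ∃ σ : M →ₐ[K] M, ∀ z : E, σ z = f z :=
      ⟨f.liftNormal M, fun z => f.liftNormal_commutes M z⟩
    obtain ⟨δ, h1, -⟩ := exists_pair_map x x hPx σ g₀
    refine ⟨δ, (hσ _).symm.trans h1, fun e => ?_⟩
    obtain ⟨δ', h1', h2'⟩ := exists_pair_map x (u e) (hP e) σ g₀
    obtain rfl : δ = δ' := hx (h1.symm.trans h1')
    exact (hσ _).symm.trans h2'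
  choose π hπx hπu using key
  refine (Fintype.card_le_of_injective π fun f f' hff' => ?_)
  refine IntermediateField.adjoin_algHom_ext K fun z hz => ?_
  rcases hz with rfl | ⟨e, rfl⟩
  · exact (hπx f).trans (hff' ▸ (hπx f').symm)
  · exact (hπu f e).trans (hff' ▸ (hπu f' e).symm)

end Field

end Fermat.Agent.Igusa.Fibre
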