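/-
Irreducibility from modular units: the abstract statement on Laurent series.
-/
import Fermat.Agent.Igusa.FibreGalois
import Fermat.Agent.Igusa.FibreCount
import Mathlib.RingTheory.LaurentSeries
import Fermat.Prelude.Def_ModularCurve_LaurentCoeff
import Mathlib.FieldTheory.RatFunc.Basic
import Mathlib.FieldTheory.AlgebraicClosure
import Mathlib.FieldTheory.IsAlgClosed.AlgebraicClosure
import Mathlib.FieldTheory.Normal.Closure
import Mathlib.Algebra.Polynomial.Inductions

set_option autoImplicit false
set_option linter.style.haveILetI false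

open Polynomial

noncomputable section

namespace Fermat.Agent.Igusa.Fibre

variable {k : Type*} [Field k]

theorem order_prod {ι : Type*} (T : Finset ι) {u : ι → LaurentSeries k} (hu : ∀ g ∈ T, u g ≠ 0) :
    (∏ g ∈ T, u g).order = ∑ g ∈ T, (u g).order := by
  classical
  induction T using Finset.induction_on with
  | empty => simp [HahnSeries.order_one]
  | insert a T ha ih =>
    rw [Finset.prod_insert ha, Finset.sum_insert ha,
      HahnSeries.order_mul (hu a (Finset.mem_insert_self _ _))
        (Finset.prod_ne_zero_iff.2 fun g hg => hu g (Finset.mem_insert_of_mem hg)),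
      ih fun g hg => hu g (Finset.mem_insert_of_mem hg)]

theorem order_algebraMap (c : k) : (algebraMap k (LaurentSeries k) c).order = 0 := by
  rw [ModularCurve.algebraMap_laurentSeries_eq_single]
  rcases eq_or_ne c 0 with rfl | hc
  · simp
  · exact HahnSeries.order_single hc

/-- A series with a pole is transcendental over the constants. -/
theorem aeval_injective_of_order_neg {s : LaurentSeries k} (hs : s.order < 0) :
    Function.Injective (aeval s : k[X] →ₐ[k] LaurentSeries k) := by
  have hs0 : s ≠ 0 := by rintro rfl; simp at hs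
  have key : ∀ q : k[X], q ≠ 0 → aeval s q ≠ 0 ∧ (aeval s q).order ≤ 0 := by
    intro q
    induction hn : q.natDegree using Nat.strong_induction_on generalizing q with
    | _ n ih =>
      intro hq
      rcases eq_or_ne q.natDegree 0 with h0 | h0
      · rw [eq_C_of_natDegree_eq_zero h0] at hq ⊢
        rw [aeval_C]
        exact ⟨by simpa using hq, (order_algebraMap _).le⟩
      · have hd : q.divX ≠ 0 := fun h => h0 (by rw [divX_eq_zero_iff.1 h, natDegree_C])
        obtain ⟨h1, h2⟩ := ih q.divX.natDegree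
          (by rw [natDegree_divX_eq_natDegree_tsub_one]; omega) q.divX rfl hd
        rw [← divX_mul_X_add q, map_add, map_mul, aeval_X, aeval_C]
        set A := aeval s q.divX * s with hA
        have hA0 : A ≠ 0 := mul_ne_zero h1 hs0
        have hAo : A.order < 0 := by rw [hA, HahnSeries.order_mul h1 hs0]; omega
        rcases eq_or_ne (q.coeff 0) 0 with hc | hc
        · rw [hc, map_zero, add_zero]; exact ⟨hA0, hAo.le⟩
        · have hc0 : (algebraMap k (LaurentSeries k) (q.coeff 0)).coeff A.order = 0 :=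
            HahnSeries.coeff_eq_zero_of_lt_order (by rw [order_algebraMap]; exact hAo)
          have hne : (A + algebraMap k (LaurentSeries k) (q.coeff 0)).coeff A.order ≠ 0 := by
            rw [HahnSeries.coeff_add, hc0, add_zero]
            exact mt HahnSeries.coeff_order_eq_zero.1 hA0
          refine ⟨fun h => hne (by rw [h]; rfl), ?_⟩
          exact (HahnSeries.order_le_of_coeff_ne_zero hne).trans hAo.le
  exact (injective_iff_map_eq_zero _).2 fun q hq => by
    by_contra h
    exact (key q h).1 hq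

variable {Q : Type*} [Fintype Q]

/-- Roots of the product `∏ (X - x g)` with coefficients in `K` are integral over `K`. -/
theorem isIntegral_of_prod {R A : Type*} [CommRing R] [CommRing A] [Algebra R A] (x : Q → A)
    (h : (∏ g, (X - C (x g))) ∈ lifts (algebraMap R A)) (g : Q) : IsIntegral R (x g) := by
  nontriviality A
  obtain ⟨q, hq, -, hqm⟩ :=
    lifts_and_natDegree_eq_and_monic h (monic_prod_of_monic _ _ fun g _ => monic_X_sub_C _)
  refine ⟨q, hqm, ?_⟩
  rw [eval₂_eq_eval_map, hq, eval_prod]
  exact Finset.prod_eq_zero (Finset.mem_univ g) (by simp)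

theorem prod_X_sub_C_mem_lifts {R A : Type*} [CommRing R] [CommRing A] (f : R →+* A) (x u : Q → A)
    (h : ∀ i j, ((pairPoly x u).coeff i).coeff j ∈ f.range) :
    (∏ g, (X - C (x g))) ∈ lifts f := by
  rw [← pairPoly_eval_zero x u, lifts_iff_coeff_lifts]
  intro i
  rw [coeff_map, coe_evalRingHom, ← coeff_zero_eq_eval_zero]
  exact h i 0

theorem prod_mem_range {R A : Type*} [CommRing R] [CommRing A] (f : R →+* A) (x u : Q → A)
    (h : ∀ i j, ((pairPoly x u).coeff i).coeff j ∈ f.range) : (∏ g, x g) ∈ f.range := by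
  have h1 := (lifts_iff_coeff_lifts _).1 (prod_X_sub_C_mem_lifts f x u h) 0
  obtain ⟨r, hr⟩ := h1
  refine ⟨(-1) ^ Fintype.card Q * r, ?_⟩
  rw [map_mul, map_pow, map_neg, map_one, hr, coeff_zero_prod]
  simp only [coeff_sub, coeff_X_zero, coeff_C_zero, zero_sub, Finset.prod_neg, ← mul_assoc,
    Finset.card_univ, ← mul_pow, neg_mul_neg, one_mul, one_pow]

/-- An element which is, together with its inverse, integral over `k[s]` has order zero. -/
theorem order_eq_zero_of_polynomial {s z : LaurentSeries k} (hs : s.order < 0) {p q : k[X]}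
    (hz : z ≠ 0) (hp : aeval s p = z) (hq : aeval s q = z⁻¹) : z.order = 0 := by
  have hpq : p * q = 1 :=
    aeval_injective_of_order_neg hs (by rw [map_mul, hp, hq, mul_inv_cancel₀ hz, map_one])
  obtain ⟨c, -, rfl⟩ := Polynomial.isUnit_iff.1 (IsUnit.of_mul_eq_one q hpq)
  rw [← hp, aeval_C, order_algebraMap]

section Main

variable {s : LaurentSeries k} (x : Q → LaurentSeries k) (g₀ : Q)

private theorem independent_pow_aux {Ω : Type*} [Field Ω] [IsAlgClosed Ω] (j : LaurentSeries k →+* Ω) (hs : s.order < 0) (hx : Function.Injective x) {N : ℕ} (hN : N ≠ 0)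
    (c : Q → ℕ) (hc : ∀ g, c g ∣ N) (huniq : ∀ g, c g = N → g = g₀) (u : ℕ → Q → LaurentSeries k)
    (hu0 : ∀ e ∈ N.divisors, ∀ g, u e g ≠ 0)
    (hord : ∀ e ∈ N.divisors, ∀ g,
      (e : ℤ) * (u e g).order = (N : ℤ) * ((Nat.gcd (c g) e : ℤ) ^ 2 - e))
    (hPx : ∀ e ∈ N.divisors, ∀ i j, ((pairPoly x (u e)).coeff i).coeff j ∈ (aeval (R := k) s).toRingHom.range)
    (hPu : ∀ e ∈ N.divisors, ∀ i j,
      ((pairPoly (u e) (u e)).coeff i).coeff j ∈ (aeval (R := k) s).toRingHom.range)
    (hPu' : ∀ e ∈ N.divisors, ∀ i j,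
      ((pairPoly (fun g => (u e g)⁻¹) (u e)).coeff i).coeff j ∈ (aeval (R := k) s).toRingHom.range)
    (a : Fin (Fintype.card Q) → k[X])
    (ha : ∑ i, aeval s (a i) * x g₀ ^ (i : ℕ) = 0) : a = 0 := by
  classical
  set φ : k[X] →+* LaurentSeries k := (aeval (R := k) s).toRingHom with hφ
  have hφi : Function.Injective φ := aeval_injective_of_order_neg hs
  let K := RatFunc k
  let L := LaurentSeries k
  have hj : Function.Injective j := j.injective
  let ψ : K →+* L := IsFractionRing.lift hφi
  have hψ : ∀ p : k[X], ψ (algebraMap k[X] K p) = φ p := IsFractionRing.lift_algebraMap hφi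
  letI : Algebra K Ω := (j.comp ψ).toAlgebra
  let M : IntermediateField K Ω := algebraicClosure K Ω
  haveI : IsAlgClosure K M := inferInstance
  haveI : Normal K M := IsAlgClosure.normal K M
  letI : Algebra k[X] Ω := (j.comp φ).toAlgebra
  haveI : IsScalarTower k[X] K Ω :=
    IsScalarTower.of_algebraMap_eq fun p => by
      show j (φ p) = j (ψ (algebraMap k[X] K p))
      rw [hψ]
  have mapj : ∀ (v w : Q → L), (∀ i l, ((pairPoly v w).coeff i).coeff l ∈ φ.range) →
      ∀ i l, ((pairPoly (j ∘ v) (j ∘ w)).coeff i).coeff l ∈ (algebraMap k[X] Ω).range := by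
    intro v w h i l
    obtain ⟨r, hr⟩ := h i l
    rw [← pairPoly_map, coeff_map, coe_mapRingHom, coeff_map, ← hr]
    exact ⟨r, rfl⟩
  have intL : ∀ (v w : Q → L), (∀ i l, ((pairPoly v w).coeff i).coeff l ∈ φ.range) →
      ∀ g, IsIntegral k[X] (j (v g)) := fun v w h g =>
    isIntegral_of_prod (j ∘ v) (prod_X_sub_C_mem_lifts _ _ _ (mapj v w h)) g
  have h1 : 1 ∈ N.divisors := Nat.one_mem_divisors.2 hN
  have hxM : ∀ g, j (x g) ∈ M := fun g =>
    mem_algebraicClosure_iff'.2 (intL x _ (hPx 1 h1) g).tower_top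
  have huM : ∀ e : N.divisors, ∀ g, j (u e g) ∈ M := fun e g =>
    mem_algebraicClosure_iff'.2 (intL _ _ (hPu e e.2) g).tower_top
  let x' : Q → M := fun g => ⟨j (x g), hxM g⟩
  let u' : N.divisors → Q → M := fun e g => ⟨j (u e g), huM e g⟩
  obtain ⟨O, hO, hOdeg, hOfix⟩ := exists_orbit (K := K) x'
    (fun g g' h => hx (hj (congrArg Subtype.val h))) u'
    (fun e i l => by
      obtain ⟨r, hr⟩ := mapj x (u e) (hPx e e.2) i l
      refine ⟨algebraMap k[X] K r, Subtype.ext ?_⟩
      have hmap := pairPoly_map (M' := Ω) (M.val.toRingHom) x' (u' e)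
      have := congrArg (fun p : Ω[X][X] => (p.coeff i).coeff l) hmap
      simp only [coeff_map, coe_mapRingHom] at this
      show algebraMap K Ω (algebraMap k[X] K r) = _
      rw [← IsScalarTower.algebraMap_apply, hr]
      exact this.symm) g₀
  -- a product with integral inverse has degree zero
  have deg0 : ∀ (e : N.divisors) (T : Finset Q),
      (∃ m, 0 < m ∧ ∃ r : K, algebraMap K Ω r = (∏ g ∈ T, j (u e g)) ^ m) →
      ∑ g ∈ T, (u e g).order = 0 := by
    rintro e T ⟨m, hm, r, hr⟩
    have hint : IsIntegral k[X] r := by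
      rw [← isIntegral_algebraMap_iff (algebraMap K Ω).injective, hr]
      exact (IsIntegral.prod _ fun g _ => intL _ _ (hPu e e.2) g).pow m
    have hint' : IsIntegral k[X] r⁻¹ := by
      rw [← isIntegral_algebraMap_iff (algebraMap K Ω).injective, map_inv₀, hr, ← inv_pow,
        ← Finset.prod_inv_distrib]
      refine (IsIntegral.prod _ fun g _ => ?_).pow m
      rw [← map_inv₀]
      exact intL _ _ (hPu' e e.2) g
    obtain ⟨p, hp⟩ := IsIntegrallyClosed.isIntegral_iff.1 hint
    obtain ⟨q, hq⟩ := IsIntegrallyClosed.isIntegral_iff.1 hint'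
    have hr' : ψ r = (∏ g ∈ T, u e g) ^ m := hj (by rw [map_pow, map_prod]; exact hr)
    have h := order_eq_zero_of_polynomial hs (p := p) (q := q)
      (pow_ne_zero m (Finset.prod_ne_zero_iff.2 fun g _ => hu0 e e.2 g))
      (by show φ p = _; rw [← hψ, hp, hr']) (by show φ q = _; rw [← hψ, hq, map_inv₀, hr'])
    rw [HahnSeries.order_pow, order_prod _ fun g _ => hu0 e e.2 g, nsmul_eq_mul] at h
    exact (mul_eq_zero.1 h).resolve_left (by exact_mod_cast hm.ne')
  have sums : ∀ T : Finset Q,
      (∀ e : N.divisors, ∃ m, 0 < m ∧ ∃ r : K, algebraMap K Ω r = (∏ g ∈ T, j (u e g)) ^ m) →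
      ∀ e ∈ N.divisors, ∑ g ∈ T, (Nat.gcd (c g) e : ℤ) ^ 2 = e * T.card := by
    intro T hT e he
    have h := congrArg (fun z : ℤ => (e : ℤ) * z) (deg0 ⟨e, he⟩ T (hT ⟨e, he⟩))
    rw [mul_zero, Finset.mul_sum, Finset.sum_congr rfl fun g _ => hord e he g, ← Finset.mul_sum,
      Finset.sum_sub_distrib, Finset.sum_const, nsmul_eq_mul] at h
    have hN' : (N : ℤ) ≠ 0 := by exact_mod_cast hN
    apply mul_left_cancel₀ hN'
    rw [mul_eq_zero, sub_eq_zero] at h
    rw [h.resolve_left hN']; ring
  have hOuniv : O = Finset.univ := by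
    refine eq_univ_of_sum_gcd_sq hN c hc g₀ huniq O hO (sums O fun e => ?_)
      (fun e he => (sums Finset.univ (fun e => ?_) e he).trans (by rw [Finset.card_univ]))
    · obtain ⟨m, hm, r, hr⟩ := hOfix e
      refine ⟨m, hm, r, ?_⟩
      have := congrArg Subtype.val hr
      simpa [u'] using this
    · obtain ⟨r, hr⟩ := prod_mem_range (algebraMap k[X] Ω) (j ∘ u e) _ (mapj _ _ (hPu e e.2))
      refine ⟨1, one_pos, algebraMap k[X] K r, ?_⟩
      rw [← IsScalarTower.algebraMap_apply, hr, pow_one]
      rfl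
  -- conclude by the degree of `x g₀`
  set P : K[X] := ∑ i, C (algebraMap k[X] K (a i)) * X ^ (i : ℕ) with hP
  have hroot : aeval (x' g₀) P = 0 := by
    apply Subtype.val_injective
    rw [← IntermediateField.aeval_coe]
    show aeval (j (x g₀)) P = 0
    rw [hP, map_sum, ← map_zero j, ← ha, map_sum]
    refine Finset.sum_congr rfl fun i _ => ?_
    rw [map_mul, map_mul, aeval_C, map_pow, aeval_X, ← IsScalarTower.algebraMap_apply, map_pow]
    rfl
  have hP0 : P = 0 := by
    by_contra hne
    have h2 := natDegree_le_of_dvd (minpoly.dvd K _ hroot) hne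
    have h3 : P.natDegree < Fintype.card Q := by
      rw [natDegree_lt_iff_degree_lt hne, hP]
      exact (degree_sum_fin_lt _).trans_le le_rfl
    rw [hOuniv, Finset.card_univ] at hOdeg
    omega
  funext i
  have := congrArg (fun p : K[X] => p.coeff i) hP0
  simpa [hP, finsetSum_coeff, coeff_C_mul_X_pow, Fin.val_inj] using this

/-- The core statement: modular units force all tuples to be conjugate over `k(s)`, so the
powers of `x g₀` below the number of tuples are independent over `k[s]`. -/
theorem independent_pow (hs : s.order < 0) (hx : Function.Injective x) {N : ℕ} (hN : N ≠ 0)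
    (c : Q → ℕ) (hc : ∀ g, c g ∣ N) (huniq : ∀ g, c g = N → g = g₀) (u : ℕ → Q → LaurentSeries k)
    (hu0 : ∀ e ∈ N.divisors, ∀ g, u e g ≠ 0)
    (hord : ∀ e ∈ N.divisors, ∀ g,
      (e : ℤ) * (u e g).order = (N : ℤ) * ((Nat.gcd (c g) e : ℤ) ^ 2 - e))
    (hPx : ∀ e ∈ N.divisors, ∀ i j, ((pairPoly x (u e)).coeff i).coeff j ∈ (aeval (R := k) s).toRingHom.range)
    (hPu : ∀ e ∈ N.divisors, ∀ i j,
      ((pairPoly (u e) (u e)).coeff i).coeff j ∈ (aeval (R := k) s).toRingHom.range)
    (hPu' : ∀ e ∈ N.divisors, ∀ i j,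
      ((pairPoly (fun g => (u e g)⁻¹) (u e)).coeff i).coeff j ∈ (aeval (R := k) s).toRingHom.range)
    (a : Fin (Fintype.card Q) → k[X])
    (ha : ∑ i, aeval s (a i) * x g₀ ^ (i : ℕ) = 0) : a = 0 :=
  independent_pow_aux x g₀ (algebraMap _ (AlgebraicClosure (LaurentSeries k))) hs hx hN c hc huniq u hu0 hord hPx hPu hPu' a ha

private theorem exists_dependence_aux {Ω : Type*} [Field Ω] [IsAlgClosed Ω] (j : LaurentSeries k →+* Ω) [CharZero k] (hs : s.order < 0) (hx : Function.Injective x)
    {ι : Type*} [Finite ι] (u : ι → Q → LaurentSeries k)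
    (hPx : ∀ i j, ((pairPoly x x).coeff i).coeff j ∈ (aeval (R := k) s).toRingHom.range)
    (hPu : ∀ e i j, ((pairPoly x (u e)).coeff i).coeff j ∈ (aeval (R := k) s).toRingHom.range)
    (hPu' : ∀ e i j, ((pairPoly (u e) x).coeff i).coeff j ∈ (aeval (R := k) s).toRingHom.range)
    (z : Fin (Fintype.card Q + 1) → LaurentSeries k)
    (hz : ∀ i, z i ∈ IntermediateField.adjoin k
      (insert s (insert (x g₀) (Set.range fun e => u e g₀)))) :
    ∃ a : Fin (Fintype.card Q + 1) → k[X], a ≠ 0 ∧ ∑ i, aeval s (a i) * z i = 0 := by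
  classical
  set φ : k[X] →+* LaurentSeries k := (aeval (R := k) s).toRingHom with hφ
  have hφi : Function.Injective φ := aeval_injective_of_order_neg hs
  let K := RatFunc k
  let L := LaurentSeries k
  have hj : Function.Injective j := j.injective
  let ψ : K →+* L := IsFractionRing.lift hφi
  have hψ : ∀ p : k[X], ψ (algebraMap k[X] K p) = φ p := IsFractionRing.lift_algebraMap hφi
  haveI : CharZero K := charZero_of_injective_algebraMap (algebraMap k K).injective
  letI : Algebra K Ω := (j.comp ψ).toAlgebra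
  let M : IntermediateField K Ω := algebraicClosure K Ω
  haveI : IsAlgClosure K M := inferInstance
  haveI : Normal K M := IsAlgClosure.normal K M
  haveI : IsAlgClosed M := IsAlgClosure.isAlgClosed K
  letI : Algebra k[X] Ω := (j.comp φ).toAlgebra
  haveI : IsScalarTower k[X] K Ω :=
    IsScalarTower.of_algebraMap_eq fun p => by
      show j (φ p) = j (ψ (algebraMap k[X] K p))
      rw [hψ]
  have mapj : ∀ (v w : Q → L), (∀ i l, ((pairPoly v w).coeff i).coeff l ∈ φ.range) →
      ∀ i l, ((pairPoly (j ∘ v) (j ∘ w)).coeff i).coeff l ∈ (algebraMap k[X] Ω).range := by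
    intro v w h i l
    obtain ⟨r, hr⟩ := h i l
    rw [← pairPoly_map, coeff_map, coe_mapRingHom, coeff_map, ← hr]
    exact ⟨r, rfl⟩
  have intL : ∀ (v w : Q → L), (∀ i l, ((pairPoly v w).coeff i).coeff l ∈ φ.range) →
      ∀ g, IsIntegral k[X] (j (v g)) := fun v w h g =>
    isIntegral_of_prod (j ∘ v) (prod_X_sub_C_mem_lifts _ _ _ (mapj v w h)) g
  have hxM : ∀ g, j (x g) ∈ M := fun g =>
    mem_algebraicClosure_iff'.2 (intL x _ hPx g).tower_top
  have huM : ∀ e g, j (u e g) ∈ M := fun e g =>
    mem_algebraicClosure_iff'.2 (intL _ _ (hPu' e) g).tower_top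
  let x' : Q → M := fun g => ⟨j (x g), hxM g⟩
  let u' : ι → Q → M := fun e g => ⟨j (u e g), huM e g⟩
  have toM : ∀ (v w : Q → M) (v₀ w₀ : Q → L), (∀ g, (v g : Ω) = j (v₀ g)) →
      (∀ g, (w g : Ω) = j (w₀ g)) →
      (∀ i l, ((pairPoly v₀ w₀).coeff i).coeff l ∈ φ.range) →
      ∀ i l, ((pairPoly v w).coeff i).coeff l ∈ (algebraMap K M).range := by
    intro v w v₀ w₀ hv hw h i l
    obtain ⟨r, hr⟩ := mapj v₀ w₀ h i l
    refine ⟨algebraMap k[X] K r, Subtype.ext ?_⟩
    have hmap : (pairPoly v w).map (mapRingHom M.val.toRingHom) = pairPoly (j ∘ v₀) (j ∘ w₀) := by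
      rw [pairPoly_map, show M.val.toRingHom ∘ v = j ∘ v₀ from funext hv,
        show M.val.toRingHom ∘ w = j ∘ w₀ from funext hw]
    have := congrArg (fun p : Ω[X][X] => (p.coeff i).coeff l) hmap
    simp only [coeff_map, coe_mapRingHom] at this
    show algebraMap K Ω (algebraMap k[X] K r) = _
    rw [← IsScalarTower.algebraMap_apply, hr]
    exact this.symm
  obtain ⟨hfd, hrk⟩ := finrank_adjoin_le_card (K := K) x' (fun g g' h => hx (hj (congrArg Subtype.val h)))
    u' (fun e => toM _ _ x (u e) (fun _ => rfl) (fun _ => rfl) (hPu e))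
    (toM _ _ x x (fun _ => rfl) (fun _ => rfl) hPx) g₀
  set E := IntermediateField.adjoin K (insert (x' g₀) (Set.range fun e => u' e g₀))
  have hsub : ∀ w ∈ IntermediateField.adjoin k (insert s (insert (x g₀) (Set.range fun e => u e g₀))),
      j w ∈ IntermediateField.map M.val E := by
    intro w hw
    change w ∈ ((IntermediateField.map M.val E).toSubfield.comap j)
    revert w
    intro w hw
    refine IntermediateField.adjoin_induction k ?_ ?_ ?_ ?_ ?_ hw
    · intro y hy
      rcases hy with rfl | rfl | ⟨e, rfl⟩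
      · have := (IntermediateField.map M.val E).algebraMap_mem (algebraMap k[X] K X)
        rw [← IsScalarTower.algebraMap_apply] at this
        have hX : φ X = y := by simp [hφ]
        rw [← hX]
        exact this
      · exact ⟨x' g₀, IntermediateField.subset_adjoin K _ (Set.mem_insert _ _), rfl⟩
      · exact ⟨u' e g₀, IntermediateField.subset_adjoin K _ (Set.mem_insert_of_mem _ ⟨e, rfl⟩), rfl⟩
    · intro r
      have := (IntermediateField.map M.val E).algebraMap_mem (algebraMap k[X] K (C r))
      rw [← IsScalarTower.algebraMap_apply] at this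
      have hC : φ (C r) = algebraMap k L r := by simp [hφ, L]
      rw [← hC]
      exact this
    · exact fun _ _ _ _ => add_mem
    · exact fun _ _ => inv_mem
    · exact fun _ _ _ _ => mul_mem
  haveI : FiniteDimensional K (IntermediateField.map M.val E) :=
    Module.Finite.equiv (IntermediateField.equivMap E M.val).toLinearEquiv
  have hrk' : Module.finrank K (IntermediateField.map M.val E) ≤ Fintype.card Q := by
    rw [← LinearEquiv.finrank_eq (IntermediateField.equivMap E M.val).toLinearEquiv]
    exact hrk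
  let zE : Fin (Fintype.card Q + 1) → IntermediateField.map M.val E := fun i =>
    ⟨j (z i), hsub _ (hz i)⟩
  have hdep : ¬ LinearIndependent K zE := fun h => by
    have := h.fintype_card_le_finrank
    simp only [Fintype.card_fin] at this
    omega
  have hdep' : ¬ LinearIndependent k[X] fun i => j (z i) := fun h => hdep <| by
    have h' : LinearIndependent K fun i => j (z i) :=
      (LinearIndependent.iff_fractionRing k[X] K).1 h
    exact LinearIndependent.of_comp (IntermediateField.map M.val E).val.toLinearMap h'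
  rw [Fintype.not_linearIndependent_iff] at hdep'
  obtain ⟨a, ha, i, hi⟩ := hdep'
  refine ⟨a, fun h => hi (congrFun h i), hj ?_⟩
  rw [map_sum, map_zero, ← ha]
  refine Finset.sum_congr rfl fun l _ => ?_
  rw [Algebra.smul_def, map_mul]
  rfl

/-- In characteristic zero, any `#Q + 1` elements of the field of a tuple are dependent. -/
theorem exists_dependence [CharZero k] (hs : s.order < 0) (hx : Function.Injective x)
    {ι : Type*} [Finite ι] (u : ι → Q → LaurentSeries k)
    (hPx : ∀ i j, ((pairPoly x x).coeff i).coeff j ∈ (aeval (R := k) s).toRingHom.range)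
    (hPu : ∀ e i j, ((pairPoly x (u e)).coeff i).coeff j ∈ (aeval (R := k) s).toRingHom.range)
    (hPu' : ∀ e i j, ((pairPoly (u e) x).coeff i).coeff j ∈ (aeval (R := k) s).toRingHom.range)
    (z : Fin (Fintype.card Q + 1) → LaurentSeries k)
    (hz : ∀ i, z i ∈ IntermediateField.adjoin k
      (insert s (insert (x g₀) (Set.range fun e => u e g₀)))) :
    ∃ a : Fin (Fintype.card Q + 1) → k[X], a ≠ 0 ∧ ∑ i, aeval s (a i) * z i = 0 :=
  exists_dependence_aux x g₀ (algebraMap _ (AlgebraicClosure (LaurentSeries k))) hs hx u hPx hPu hPu' z hz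

end Main

end Fermat.Agent.Igusa.Fibre
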