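/-
The tuples `(j (e g τ), Δ (e g τ) / Δ (g τ))` over the cosets of `Γ₀(N)`: the symmetric functions
are polynomials in `j` with integral coefficients, hence irreducibility modulo a prime.
-/
import Fermat.Agent.Igusa.FibreExpansion
import Fermat.Agent.Igusa.FibreLaurent
import Fermat.Agent.ModFun.LevelOne
import Fermat.Agent.Gamma0.Basic
import Mathlib.RingTheory.Polynomial.Cyclotomic.Roots
import Mathlib.RingTheory.RootsOfUnity.Complex

set_option autoImplicit false
set_option linter.style.haveILetI false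

noncomputable section

open Filter Function UpperHalfPlane Complex ModularCurve CongruenceSubgroup Polynomial
open scoped Topology Manifold MatrixGroups

namespace Fermat.Agent.Igusa.Fibre

open Fermat.Agent.ModFun

variable (N : ℕ) [NeZero N] (V : Subring ℂ)

/-- Holomorphic functions with an expansion in `q_N` with coefficients in `V`. -/
def Gd : Subring ((ℍ → ℂ) × LaurentSeries V) where
  carrier := {p | MDiff p.1 ∧ HasQExp N p.1 (coeffMap V.subtype p.2)}
  mul_mem' {p q} hp hq := ⟨hp.1.mul hq.1, by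
    show HasQExp N (p.1 * q.1) (coeffMap V.subtype (p.2 * q.2))
    rw [map_mul]; exact hp.2.mul hq.2⟩
  one_mem' := ⟨mdifferentiable_const, by
    show HasQExp N 1 (coeffMap V.subtype 1)
    rw [map_one]; exact HasQExp.one⟩
  add_mem' {p q} hp hq := ⟨hp.1.add hq.1, by
    show HasQExp N (p.1 + q.1) (coeffMap V.subtype (p.2 + q.2))
    rw [map_add]; exact hp.2.add hq.2⟩
  zero_mem' := ⟨mdifferentiable_const, by
    show HasQExp N 0 (coeffMap V.subtype 0)
    rw [map_zero]; exact HasQExp.zero⟩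
  neg_mem' {p} hp := ⟨hp.1.neg, by
    show HasQExp N (-p.1) (coeffMap V.subtype (-p.2))
    rw [map_neg]; exact hp.2.neg⟩

theorem mem_Gd_iff {p : (ℍ → ℂ) × LaurentSeries V} :
    p ∈ Gd N V ↔ MDiff p.1 ∧ HasQExp N p.1 (coeffMap V.subtype p.2) := Iff.rfl

/-- `j` in the variable `q_N`. -/
def jt (R : Type*) [CommRing R] : LaurentSeries R := qExpand R N (jqModC R)

theorem coeffMap_jt {R S : Type*} [CommRing R] [CommRing S] (f : R →+* S) :
    coeffMap f (jt N R) = jt N S := by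
  rw [jt, coeffMap_qExpand, coeffMap_jqModC, jt]

theorem algebraMap_eq_C {A : Type*} [CommRing A] (a : A) :
    algebraMap A (LaurentSeries A) a = HahnSeries.C a := by
  rw [HahnSeries.algebraMap_apply', show algebraMap A (PowerSeries A) a = PowerSeries.C a by simp,
    HahnSeries.ofPowerSeries_C]

theorem coeffMap_aeval_jt {R S : Type*} [CommRing R] [CommRing S] (f : R →+* S) (P : R[X]) :
    coeffMap f (aeval (jt N R) P) = aeval (jt N S) (P.map f) := by
  have h : (coeffMap f).comp (algebraMap R (LaurentSeries R)) =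
      (algebraMap S (LaurentSeries S)).comp f := by
    ext r i
    simp [algebraMap_eq_C, HahnSeries.C_apply, HahnSeries.coeff_single, apply_ite f]
  rw [aeval_def, aeval_def, eval₂_map, ← h, ← coeffMap_jt N f, hom_eval₂]

/-- A level one member of `Gd` is a polynomial in `j` over `V`. -/
theorem mem_range_of_invariant {p : (ℍ → ℂ) × LaurentSeries V} (hp : p ∈ Gd N V)
    (hinv : ∀ (γ : SL(2, ℤ)) τ, p.1 (γ • τ) = p.1 τ) :
    p.2 ∈ (aeval (R := V) (jt N V)).toRingHom.range := by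
  obtain ⟨y, hy, hexp⟩ := HasQExp.exists_of_periodic (h := 1) N
    (show HasQExp (1 * N) p.1 (coeffMap V.subtype p.2) by rw [one_mul]; exact hp.2)
    (Eventually.of_forall fun τ => by
      rw [Nat.cast_one, ← UpperHalfPlane.modular_T_smul]; exact hinv _ τ)
  have hyV : ∀ k, y.coeff k ∈ V := fun k => by
    have := congrArg (fun s : LaurentSeries ℂ => s.coeff ((N : ℤ) * k)) hy
    simp only [coeffMap_coeff, qExpand_coeff_mul] at this
    rw [← this]
    exact SetLike.coe_mem _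
  obtain ⟨P, hPV, hPy, -, -⟩ := exists_polynomial_jfun V hp.1 hinv hexp hyV
  have hlift : P ∈ Polynomial.lifts V.subtype :=
    (lifts_iff_coeff_lifts _).2 fun i => ⟨⟨_, hPV i⟩, rfl⟩
  obtain ⟨P', rfl⟩ := hlift
  refine ⟨P', ?_⟩
  have hinj : Function.Injective (coeffMap V.subtype) := fun a b hab => by
    ext k
    simpa using congrArg (fun s : LaurentSeries ℂ => s.coeff k) hab
  apply hinj
  show coeffMap V.subtype (aeval (jt N V) P') = _
  rw [coeffMap_aeval_jt, hy, hPy]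
  exact aeval_algHom_apply (qExpandAlgHomC ℂ N) (jqModC ℂ) _

theorem pairPoly_mem_range {Q : Type*} [Fintype Q] (F H : Q → Gd N V)
    (hperm : ∀ γ : SL(2, ℤ), ∃ π : Q ≃ Q, ∀ q τ,
      (F q).1.1 (γ • τ) = (F (π q)).1.1 τ ∧ (H q).1.1 (γ • τ) = (H (π q)).1.1 τ)
    (i l : ℕ) :
    ((pairPoly (fun q => (F q).1.2) (fun q => (H q).1.2)).coeff i).coeff l ∈
      (aeval (R := V) (jt N V)).toRingHom.range := by
  set c := ((pairPoly F H).coeff i).coeff l with hc
  let ev : ℍ → (Gd N V →+* ℂ) := fun τ =>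
    ((Pi.evalRingHom (fun _ : ℍ => ℂ) τ).comp (RingHom.fst _ _)).comp (Gd N V).subtype
  have hev : ∀ τ, c.1.1 τ =
      ((pairPoly (fun q => (F q).1.1 τ) (fun q => (H q).1.1 τ)).coeff i).coeff l := by
    intro τ
    have := pairPoly_map (ev τ) F H
    rw [show c.1.1 τ = ev τ c from rfl, hc, ← coeff_map, ← coe_mapRingHom, ← coeff_map, this]
    rfl
  have hinv : ∀ (γ : SL(2, ℤ)) τ, c.1.1 (γ • τ) = c.1.1 τ := by
    intro γ τ
    obtain ⟨π, hπ⟩ := hperm γ
    rw [hev, hev]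
    congr 2
    exact Fintype.prod_equiv π _ _ fun q => by simp only [(hπ q τ).1, (hπ q τ).2]
  have hmem := mem_range_of_invariant N V c.2 hinv
  have := pairPoly_map ((RingHom.snd _ _).comp (Gd N V).subtype) F H
  rw [show ((pairPoly (fun q => (F q).1.2) (fun q => (H q).1.2)).coeff i).coeff l = c.1.2 by
    rw [show c.1.2 = ((RingHom.snd _ _).comp (Gd N V).subtype) c from rfl, hc, ← coeff_map,
      ← coe_mapRingHom, ← coeff_map, this]
    rfl]
  exact hmem

theorem pairPoly_red {Q : Type*} [Fintype Q] (x u : Q → LaurentSeries V) {k : Type*} [CommRing k]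
    (f : V →+* k) {x' u' : Q → LaurentSeries k} (hx : ∀ q, coeffMap f (x q) = x' q)
    (hu : ∀ q, coeffMap f (u q) = u' q)
    (h : ∀ i l, ((pairPoly x u).coeff i).coeff l ∈ (aeval (R := V) (jt N V)).toRingHom.range)
    (i l : ℕ) :
    ((pairPoly x' u').coeff i).coeff l ∈ (aeval (R := k) (jt N k)).toRingHom.range := by
  obtain ⟨P, hP⟩ := h i l
  refine ⟨P.map f, ?_⟩
  show aeval (jt N k) (P.map f) = _
  rw [← coeffMap_aeval_jt, show aeval (jt N V) P = ((pairPoly x u).coeff i).coeff l from hP,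
    ← coeff_map, ← coe_mapRingHom, ← coeff_map, pairPoly_map,
    show coeffMap f ∘ x = x' from funext hx, show coeffMap f ∘ u = u' from funext hu]

section Values

local notation "Δ" => ModularForm.discriminant

variable {N}

instance : Fintype (Gamma0.Coset N) := Fintype.ofFinite _

/-- The lift of a coset. -/
def rep (q : Gamma0.Coset N) : SL(2, ℤ) := q.out⁻¹

variable (N) in
/-- The gcd of the lower left entry with `N`. -/
def lev (q : Gamma0.Coset N) : ℕ := Nat.gcd ((rep q) 1 0).natAbs N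

/-- `j (e g τ)` at the coset. -/
def jV (e : ℕ) (q : Gamma0.Coset N) (τ : ℍ) : ℂ := jfun (sc e (rep q • τ))

/-- `Δ (e g τ) / Δ (g τ)` at the coset. -/
def uV (e : ℕ) (q : Gamma0.Coset N) (τ : ℍ) : ℂ := Δ (sc e (rep q • τ)) / Δ (rep q • τ)

theorem eq_level {q : Gamma0.Coset N} {e : ℕ} (he : e ∣ N) :
    Nat.gcd ((rep q) 1 0).natAbs e = Nat.gcd (lev N q) e := by
  rw [lev, Nat.gcd_assoc, Nat.gcd_eq_right he]

theorem mem_Gamma0_iff_gcd {g : SL(2, ℤ)} : g ∈ Gamma0 N ↔ Nat.gcd (g 1 0).natAbs N = N := by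
  rw [Gamma0_mem, ZMod.intCast_zmod_eq_zero_iff_dvd, Int.natCast_dvd, Nat.gcd_eq_right_iff_dvd]

theorem exists_Gamma0_rep (q : Gamma0.Coset N) (γ : SL(2, ℤ)) :
    ∃ ε ∈ Gamma0 N, rep q * γ = ε * rep (γ⁻¹ • q) := by
  refine ⟨q.out⁻¹ * γ * (γ⁻¹ • q).out, ?_, by simp [rep]⟩
  have h : (Gamma0.mk N (γ⁻¹ * q.out)) = Gamma0.mk N (γ⁻¹ • q).out := by
    show _ = QuotientGroup.mk (γ⁻¹ • q).out
    rw [QuotientGroup.out_eq']
    conv_rhs => rw [← QuotientGroup.out_eq' q]
    rfl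
  have h' := QuotientGroup.eq.1 h
  simpa [mul_inv_rev, inv_inv] using h'

theorem sc_smul_Gamma0 {e : ℕ} (he : e ∣ N) {ε : SL(2, ℤ)} (hε : ε ∈ Gamma0 N) (τ : ℍ) :
    ∃ γ : SL(2, ℤ), sc e (ε • τ) = γ • sc e τ ∧
      (γ 1 0 : ℂ) * (sc e τ : ℂ) + γ 1 1 = (ε 1 0 : ℂ) * τ + ε 1 1 := by
  have he0 : e ≠ 0 := ne_zero_of_dvd_ne_zero (NeZero.ne N) he
  haveI : NeZero e := ⟨he0⟩
  obtain ⟨a, b, d, γ, had, hbd, ha, h⟩ := exists_decomp e ε
  have hae : a = e := by
    rw [ha, Nat.gcd_eq_right_iff_dvd]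
    exact he.trans (Nat.gcd_eq_right_iff_dvd.1 (mem_Gamma0_iff_gcd.1 hε))
  subst hae
  obtain rfl : d = 1 := mul_left_cancel₀ he0 (by rw [had, mul_one])
  obtain rfl : b = 0 := by omega
  obtain ⟨h1, h2⟩ := decomp_smul (e := a) h τ
  have htri : triPoint a 0 1 τ = sc a τ := (heckeDiagMatrix_smul_eq_triPoint a τ).symm
  rw [htri] at h1 h2
  exact ⟨γ, h1, by simpa using h2⟩

theorem jV_smul {e : ℕ} (he : e ∣ N) (γ : SL(2, ℤ)) (q : Gamma0.Coset N) (τ : ℍ) :
    jV e q (γ • τ) = jV e (γ⁻¹ • q) τ := by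
  obtain ⟨ε, hε, h⟩ := exists_Gamma0_rep q γ
  obtain ⟨γ', h1, -⟩ := sc_smul_Gamma0 he hε (rep (γ⁻¹ • q) • τ)
  rw [jV, jV, smul_smul, h, ← smul_smul, h1, jfun_smul]

theorem uV_smul {e : ℕ} (he : e ∣ N) (γ : SL(2, ℤ)) (q : Gamma0.Coset N) (τ : ℍ) :
    uV e q (γ • τ) = uV e (γ⁻¹ • q) τ := by
  obtain ⟨ε, hε, h⟩ := exists_Gamma0_rep q γ
  obtain ⟨γ', h1, h2⟩ := sc_smul_Gamma0 he hε (rep (γ⁻¹ • q) • τ)
  rw [uV, uV, smul_smul, h, ← smul_smul, h1, discriminant_smul, discriminant_smul, h2,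
    mul_div_mul_left]
  exact pow_ne_zero _ (by rw [← ModularGroup.denom_apply]; exact denom_ne_zero _ _)

theorem mdifferentiable_rep (q : Gamma0.Coset N) : MDiff (fun τ : ℍ => rep q • τ) :=
  mdifferentiable_smul (g := ((rep q : SL(2, ℤ)) : GL (Fin 2) ℝ)) (by simp)

theorem mdifferentiable_jV (e : ℕ) (q : Gamma0.Coset N) : MDiff (jV e q) :=
  mdifferentiable_jfun.comp ((mdifferentiable_sc e).comp (mdifferentiable_rep q))

theorem mdifferentiable_uV (e : ℕ) (q : Gamma0.Coset N) : MDiff (uV e q) :=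
  (CuspForm.discriminant.holo'.comp ((mdifferentiable_sc e).comp (mdifferentiable_rep q))).div
    (CuspForm.discriminant.holo'.comp (mdifferentiable_rep q))
    fun _ => ModularForm.discriminant_ne_zero _

theorem mdifferentiable_uV_inv (e : ℕ) (q : Gamma0.Coset N) : MDiff (uV e q)⁻¹ := by
  have h : MDiff (fun τ : ℍ => ModularForm.discriminant (rep q • τ) /
      ModularForm.discriminant (sc e (rep q • τ))) :=
    (CuspForm.discriminant.holo'.comp (mdifferentiable_rep q)).div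
    (CuspForm.discriminant.holo'.comp ((mdifferentiable_sc e).comp (mdifferentiable_rep q)))
    (fun _ => ModularForm.discriminant_ne_zero _)
  rwa [show (uV e q)⁻¹ = fun τ : ℍ => ModularForm.discriminant (rep q • τ) /
      ModularForm.discriminant (sc e (rep q • τ)) from funext fun τ => by simp [uV, inv_div]]

variable {V}

/-- Expansions of `f ((a τ + b) / d)` over `V`. -/
theorem exists_exp_triPoint (a b d : ℕ) [NeZero a] [NeZero d] (hd : d ∣ N) {f : ℍ → ℂ}
    {S : LaurentSeries V} {o : ℤ} {c : V} (hS : Lead S o c)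
    (hf : HasQExp 1 f (coeffMap V.subtype S)) {z : Vˣ} (hz : Units.map V.subtype z = zetaU d) :
    ∃ X : LaurentSeries V, HasQExp N (fun τ => f (triPoint a b d τ)) (coeffMap V.subtype X) ∧
      Lead X (((N / d * a : ℕ) : ℤ) * o) ((((z ^ b) ^ o : Vˣ) : V) * c) := by
  obtain ⟨r, rfl⟩ := hd
  haveI : NeZero r := ⟨fun h => NeZero.ne (d * r) (by rw [h, mul_zero])⟩
  refine ⟨qExpand V r (qExpand V a (twR (z ^ b) S)), ?_, ?_⟩
  · rw [coeffMap_qExpand, coeffMap_qExpand, coeffMap_twR, map_pow]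
    have := (hf.comp_triPoint a b d).expand_period r
    rwa [← hz] at this
  · have := ((hS.twR (z ^ b)).qExpand a).qExpand r
    rwa [Nat.mul_div_cancel_left r (NeZero.pos d), Nat.cast_mul, mul_assoc]

theorem coeffMap_jqModC_V : coeffMap V.subtype (jqModC V) = jqModC ℂ := coeffMap_jqModC _

section Roots

variable (hroot : ∀ d, d ∣ N → ∃ z : Vˣ, Units.map V.subtype z = zetaU d)

include hroot

theorem exists_exp_jV {e : ℕ} (he : e ∣ N) (q : Gamma0.Coset N) :
    ∃ X : LaurentSeries V, HasQExp N (jV e q) (coeffMap V.subtype X) ∧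
      ∀ (a b d : ℕ) (γ : SL(2, ℤ)), a * d = e → a = Nat.gcd ((rep q) 1 0).natAbs e →
        (γ 0 0 * a = e * rep q 0 0 ∧ γ 0 0 * b + γ 0 1 * d = e * rep q 0 1 ∧
          γ 1 0 * a = rep q 1 0 ∧ γ 1 0 * b + γ 1 1 * d = rep q 1 1) →
        ∀ z : Vˣ, Units.map V.subtype z = zetaU d →
          Lead X (-((N / d * a : ℕ) : ℤ)) (((z ^ b)⁻¹ : Vˣ) : V) := by
  have he0 : e ≠ 0 := ne_zero_of_dvd_ne_zero (NeZero.ne N) he
  haveI : NeZero e := ⟨he0⟩
  have key : ∀ (a b d : ℕ) (γ : SL(2, ℤ)), a * d = e →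
      (γ 0 0 * a = e * rep q 0 0 ∧ γ 0 0 * b + γ 0 1 * d = e * rep q 0 1 ∧
          γ 1 0 * a = rep q 1 0 ∧ γ 1 0 * b + γ 1 1 * d = rep q 1 1) →
        ∀ z : Vˣ, Units.map V.subtype z = zetaU d →
      ∃ X : LaurentSeries V, HasQExp N (jV e q) (coeffMap V.subtype X) ∧
        Lead X (-((N / d * a : ℕ) : ℤ)) (((z ^ b)⁻¹ : Vˣ) : V) := by
    intro a b d γ had h z hz
    haveI : NeZero a := ⟨fun h0 => he0 (by rw [← had, h0, zero_mul])⟩
    haveI : NeZero d := ⟨fun h0 => he0 (by rw [← had, h0, mul_zero])⟩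
    obtain ⟨X, hX, hl⟩ := exists_exp_triPoint (N := N) a b d ((had ▸ dvd_mul_left d a).trans he)
      (f := jfun) lead_jqModC (by rw [coeffMap_jqModC_V]; exact hasQExp_jfun) hz
    refine ⟨X, hX.congr (Eventually.of_forall fun τ => ?_), ?_⟩
    · rw [jV, (decomp_smul h τ).1, jfun_smul]
    · simpa [zpow_neg_one] using hl
  obtain ⟨a, b, d, γ, had, -, -, h⟩ := exists_decomp e (rep q)
  obtain ⟨z, hz⟩ := hroot d ((had ▸ dvd_mul_left d a).trans he)
  obtain ⟨X, hX, -⟩ := key a b d γ had h z hz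
  refine ⟨X, hX, fun a' b' d' γ' had' _ h' z' hz' => ?_⟩
  obtain ⟨X', hX', hl⟩ := key a' b' d' γ' had' h' z' hz'
  have : X = X' := by
    ext i
    have := congrArg (fun s : LaurentSeries ℂ => s.coeff i) (hX.unique hX')
    simpa using this
  exact this ▸ hl

theorem exists_exp_uV (hN : IsUnit (N : V)) {e : ℕ} (he : e ∣ N) (q : Gamma0.Coset N) :
    ∃ (X Y : LaurentSeries V) (o : ℤ) (c : Vˣ),
      HasQExp N (uV e q) (coeffMap V.subtype X) ∧ HasQExp N (uV e q)⁻¹ (coeffMap V.subtype Y) ∧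
      Lead X o c ∧ X * Y = 1 ∧
      (e : ℤ) * o = N * ((Nat.gcd (lev N q) e : ℤ) ^ 2 - e) := by
  have he0 : e ≠ 0 := ne_zero_of_dvd_ne_zero (NeZero.ne N) he
  haveI : NeZero e := ⟨he0⟩
  obtain ⟨a, b, d, γ, had, -, ha, h⟩ := exists_decomp e (rep q)
  haveI : NeZero a := ⟨fun h0 => he0 (by rw [← had, h0, zero_mul])⟩
  haveI : NeZero d := ⟨fun h0 => he0 (by rw [← had, h0, mul_zero])⟩
  have hdN : d ∣ N := (had ▸ dvd_mul_left d a).trans he
  obtain ⟨z, hz⟩ := hroot d hdN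
  obtain ⟨Xw, hXw, hlw⟩ := exists_exp_triPoint (N := N) a b d hdN (f := Δ) lead_deltaS
    (by rw [coeffMap_deltaS]; exact hasQExp_discriminant) hz
  obtain ⟨Yw, hYw, hlw'⟩ := exists_exp_triPoint (N := N) a b d hdN (f := (Δ)⁻¹) lead_deltaInvS
    (by rw [coeffMap_deltaInvS]; exact hasQExp_inv_discriminant) hz
  obtain ⟨dU, hdU⟩ : IsUnit ((d : V) ^ 12) := by
    obtain ⟨r, hr⟩ := hdN
    refine IsUnit.pow _ (isUnit_of_mul_isUnit_left (y := (r : V)) ?_)
    rwa [← Nat.cast_mul, ← hr]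
  have hτ : HasQExp N (Δ) (coeffMap V.subtype (qExpand V N (deltaS V))) := by
    rw [coeffMap_qExpand, coeffMap_deltaS]
    simpa using hasQExp_discriminant.expand_period N
  have hτ' : HasQExp N (Δ)⁻¹ (coeffMap V.subtype (qExpand V N (deltaInvS V))) := by
    rw [coeffMap_qExpand, coeffMap_deltaInvS]
    simpa using hasQExp_inv_discriminant.expand_period N
  set X := HahnSeries.C ((dU⁻¹ : Vˣ) : V) * Xw * qExpand V N (deltaInvS V) with hX
  set Y := HahnSeries.C (dU : V) * Yw * qExpand V N (deltaS V) with hY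
  have hval : ∀ τ, uV e q τ = ((d : ℂ) ^ 12)⁻¹ * Δ (triPoint a b d τ) * (Δ τ)⁻¹ := by
    intro τ
    obtain ⟨h1, h2⟩ := decomp_smul h τ
    rw [uV, h1, discriminant_smul, discriminant_smul, ← h2, mul_pow]
    have : ((γ 1 0 : ℂ) * (triPoint a b d τ : ℂ) + γ 1 1) ≠ 0 := by
      rw [← ModularGroup.denom_apply]; exact denom_ne_zero _ _
    field_simp
  have hC : ∀ v : V, coeffMap V.subtype (HahnSeries.C v : LaurentSeries V) =
      HahnSeries.C (v : ℂ) := fun v => by
    rw [HahnSeries.C_apply, coeffMap_single]; rfl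
  have hdC : ((dU : V) : ℂ) = (d : ℂ) ^ 12 := by rw [hdU]; simp
  have hXexp : HasQExp N (uV e q) (coeffMap V.subtype X) := by
    rw [hX, map_mul, map_mul, hC]
    refine (((hXw.const_mul _).mul hτ')).congr (Eventually.of_forall fun τ => ?_)
    have hinv : (((dU⁻¹ : Vˣ) : V) : ℂ) = ((d : ℂ) ^ 12)⁻¹ := by
      refine eq_inv_of_mul_eq_one_left ?_
      rw [← hdC, ← Subring.coe_mul, Units.inv_mul, Subring.coe_one]
    rw [hval]
    simp only [Pi.mul_apply, Pi.inv_apply, hinv]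
  have hYexp : HasQExp N (uV e q)⁻¹ (coeffMap V.subtype Y) := by
    rw [hY, map_mul, map_mul, hC]
    refine (((hYw.const_mul _).mul hτ)).congr (Eventually.of_forall fun τ => ?_)
    rw [Pi.inv_apply, hval]
    simp only [Pi.mul_apply, Pi.inv_apply, hdC, mul_inv, inv_inv]
  have hXY : X * Y = 1 := by
    ext i
    have h1 := hXexp.mul hYexp
    have h2 : uV e q * (uV e q)⁻¹ = 1 := by
      ext τ
      exact mul_inv_cancel₀ (by simp [uV, ModularForm.discriminant_ne_zero])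
    rw [h2, ← map_mul] at h1
    have := congrArg (fun s : LaurentSeries ℂ => s.coeff i) (h1.unique HasQExp.one)
    rw [← map_one (coeffMap V.subtype)] at this
    simpa only [coeffMap_coeff, Subring.subtype_apply, Subtype.coe_inj] using this
  have hlX := ((lead_C ((dU⁻¹ : Vˣ) : V)).mul hlw).mul (lead_deltaInvS.qExpand N)
  refine ⟨X, Y, (0 : ℤ) + ((N / d * a : ℕ) : ℤ) * 1 + (N : ℤ) * (-1), dU⁻¹ * (z ^ b) ^ (1 : ℤ), hXexp, hYexp, ?_, hXY, ?_⟩
  · simpa [hX, Units.val_mul] using hlX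
  · rw [← eq_level he, ← ha]
    obtain ⟨r, hr⟩ := hdN
    have hNd : N / d = r := Nat.div_eq_of_eq_mul_right (NeZero.pos d) hr
    rw [hNd, ← had, hr]
    push_cast
    ring

end Roots

end Values

end Fermat.Agent.Igusa.Fibre
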