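/-
Irreducibility of `X₀(N)` modulo a prime not dividing `N`, and the degree bound in characteristic
zero, in terms of `q`-expansions.
-/
import Fermat.Agent.Igusa.FibreCusp
import Mathlib.RingTheory.Valuation.ValuationSubring

set_option autoImplicit false
set_option linter.style.haveILetI false

noncomputable section

open Filter Function UpperHalfPlane Complex ModularCurve CongruenceSubgroup Polynomial
open scoped MatrixGroups

namespace Fermat.Agent.Igusa.Fibre

open Fermat.Agent.ModFun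

/-- A valuation subring contains every root of unity, as a unit. -/
theorem exists_unit_zetaU (A : ValuationSubring ℂ) {d : ℕ} (hd : d ≠ 0) :
    ∃ z : A.toSubringˣ, Units.map A.toSubring.subtype z = zetaU d := by
  have hprim : IsPrimitiveRoot (zetaU d : ℂ) d := Complex.isPrimitiveRoot_exp d hd
  have mem : ∀ w : ℂ, w ^ d = 1 → w ∈ A := fun w hw => by
    rcases A.mem_or_inv_mem w with h | h
    · exact h
    · have hw0 : w ≠ 0 := fun h0 => by simp [h0, zero_pow hd] at hw
      have : w = w⁻¹ ^ (d - 1) := by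
        rw [← mul_left_inj' (pow_ne_zero (d - 1) hw0), ← pow_succ', Nat.sub_add_cancel
          (Nat.one_le_iff_ne_zero.2 hd), hw, ← mul_pow, inv_mul_cancel₀ hw0, one_pow]
      rw [this]
      exact pow_mem h _
  exact ⟨⟨⟨_, mem _ hprim.pow_eq_one⟩,
    ⟨_, mem _ (by rw [inv_pow, hprim.pow_eq_one, inv_one] : ((zetaU d : ℂ)⁻¹) ^ d = 1)⟩,
    Subtype.ext (mul_inv_cancel₀ (zetaU d).ne_zero), Subtype.ext (inv_mul_cancel₀ (zetaU d).ne_zero)⟩,
    Units.ext rfl⟩

variable {N : ℕ} [NeZero N]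

/-- The coset of `1`. -/
def q₀ : Gamma0.Coset N := Gamma0.mk N 1

theorem rep_q₀_mem : rep (q₀ : Gamma0.Coset N) ∈ Gamma0 N := by
  have h : Gamma0.mk N 1 = Gamma0.mk N (q₀ : Gamma0.Coset N).out := (QuotientGroup.out_eq' _).symm
  have := QuotientGroup.eq.1 h
  rw [inv_one, one_mul] at this
  exact inv_mem this

omit [NeZero N] in
theorem eq_of_rep_mul_mem {q q' : Gamma0.Coset N} (h : rep q * (rep q')⁻¹ ∈ Gamma0 N) : q = q' := by
  rw [rep, rep, inv_inv] at h
  rw [← QuotientGroup.out_eq' q, ← QuotientGroup.out_eq' q']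
  exact QuotientGroup.eq.2 h

theorem eq_q₀_of_lev {q : Gamma0.Coset N} (h : lev N q = N) : q = q₀ :=
  eq_of_rep_mul_mem (mul_mem (mem_Gamma0_iff_gcd.2 h) (inv_mem rep_q₀_mem))

theorem jV_q₀ {e : ℕ} (he : e ∣ N) : jV e (q₀ : Gamma0.Coset N) = jNfun e := by
  funext τ
  obtain ⟨γ, h, -⟩ := sc_smul_Gamma0 he rep_q₀_mem τ
  rw [jV, h, jfun_smul]
  rfl

theorem isPrimitiveRoot_map {V : Subring ℂ} {k : Type*} [Field k] (f : V →+* k)
    (hN : IsUnit (N : V)) {d : ℕ} (hd : d ∣ N) {z : Vˣ} (hz : Units.map V.subtype z = zetaU d) :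
    IsPrimitiveRoot (f (z : V)) d := by
  have hd0 : d ≠ 0 := ne_zero_of_dvd_ne_zero (NeZero.ne N) hd
  have h1 : IsPrimitiveRoot (z : V) d :=
    IsPrimitiveRoot.of_map_of_injective (f := V.subtype) (by
      have : (((z : V)) : ℂ) = (zetaU d : ℂ) := by rw [← hz]; rfl
      show IsPrimitiveRoot (((z : V)) : ℂ) d
      rw [this]
      exact Complex.isPrimitiveRoot_exp d hd0) Subtype.val_injective
  haveI : NeZero (d : k) := by
    refine ⟨fun h => ?_⟩
    obtain ⟨r, rfl⟩ := hd
    have h' := (hN.map f).ne_zero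
    rw [map_natCast, Nat.cast_mul, h, zero_mul] at h'
    exact h' rfl
  have hroot : (cyclotomic d k).IsRoot (f (z : V)) := by
    rw [← map_cyclotomic d f]
    exact (h1.isRoot_cyclotomic (Nat.pos_of_ne_zero hd0)).map
  exact isRoot_cyclotomic_iff.1 hroot

theorem order_jt_neg {k : Type*} [Field k] : (jt N k).order < 0 := by
  rw [((lead_jqModC (R := k)).qExpand N).order_eq (x := jt N k) one_ne_zero]
  have : (0 : ℤ) < N := by exact_mod_cast NeZero.pos N
  omega

section Series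

variable {V : Subring ℂ} (hroot : ∀ d, d ∣ N → ∃ z : Vˣ, Units.map V.subtype z = zetaU d)
  (hN : IsUnit (N : V))

theorem coeffMap_subtype_injective : Function.Injective (coeffMap V.subtype) := fun a b hab => by
  ext k
  simpa using congrArg (fun s : LaurentSeries ℂ => s.coeff k) hab

include hroot

/-- The series of `j (e g τ)` over `V`. -/
def jX {e : ℕ} (he : e ∣ N) (q : Gamma0.Coset N) : LaurentSeries V :=
  (exists_exp_jV hroot he q).choose

theorem hasQExp_jX {e : ℕ} (he : e ∣ N) (q : Gamma0.Coset N) :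
    HasQExp N (jV e q) (coeffMap V.subtype (jX hroot he q)) :=
  (exists_exp_jV hroot he q).choose_spec.1

theorem jX_q₀ {e : ℕ} [NeZero e] (he : e ∣ N) :
    jX hroot he q₀ = qExpand V N (jqNModC V e) := by
  apply coeffMap_subtype_injective
  refine (hasQExp_jX hroot he q₀).unique ?_
  rw [coeffMap_qExpand, coeffMap_jqNModC, jV_q₀ he]
  simpa using (hasQExp_jNfun e).expand_period N

/-- The member of `Gd` given by `j (e g τ)`. -/
def jG {e : ℕ} (he : e ∣ N) (q : Gamma0.Coset N) : Gd N V :=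
  ⟨(jV e q, jX hroot he q), mdifferentiable_jV e q, hasQExp_jX hroot he q⟩

theorem injective_red {k : Type*} [Field k] (f : V →+* k) (hN : IsUnit (N : V)) :
    Function.Injective fun q => coeffMap f (jX hroot (dvd_refl N) q) := by
  intro q q' hqq'
  obtain ⟨a, b, d, γ, had, hbd, ha, h⟩ := exists_decomp N (rep q)
  obtain ⟨a', b', d', γ', had', hbd', ha', h'⟩ := exists_decomp N (rep q')
  have hd0 : d ≠ 0 := by omega
  have hd0' : d' ≠ 0 := by omega
  obtain ⟨z, hz⟩ := hroot d (had ▸ dvd_mul_left d a)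
  obtain ⟨z', hz'⟩ := hroot d' (had' ▸ dvd_mul_left d' a')
  have l := ((exists_exp_jV hroot (dvd_refl N) q).choose_spec.2 a b d γ had ha h z hz).coeffMap f
  have l' :=
    ((exists_exp_jV hroot (dvd_refl N) q').choose_spec.2 a' b' d' γ' had' ha' h' z' hz').coeffMap f
  have hne : ∀ v : Vˣ, f (v : V) ≠ 0 := fun v => (v.isUnit.map f).ne_zero
  change coeffMap f (jX hroot (dvd_refl N) q) = coeffMap f (jX hroot (dvd_refl N) q') at hqq'
  rw [show (exists_exp_jV hroot (dvd_refl N) q).choose = jX hroot (dvd_refl N) q from rfl,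
    hqq'] at l
  rw [show (exists_exp_jV hroot (dvd_refl N) q').choose = jX hroot (dvd_refl N) q' from rfl] at l'
  have ho := (l.order_eq (hne _)).symm.trans (l'.order_eq (hne _))
  rw [show N / d = a from Nat.div_eq_of_eq_mul_left (Nat.pos_of_ne_zero hd0) had.symm,
    show N / d' = a' from Nat.div_eq_of_eq_mul_left (Nat.pos_of_ne_zero hd0') had'.symm,
    neg_inj, Nat.cast_inj] at ho
  obtain rfl : a = a' := Nat.mul_self_inj.1 ho
  obtain rfl : d = d' := mul_left_cancel₀
    (fun h0 => NeZero.ne N (by rw [← had, h0, zero_mul]) : a ≠ 0) (had.trans had'.symm)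
  obtain rfl : z = z' := Units.map_injective (f := (V.subtype : V →* ℂ)) Subtype.val_injective
    (hz.trans hz'.symm)
  have hc : f ((((z ^ b)⁻¹ : Vˣ)) : V) = f ((((z ^ b')⁻¹ : Vˣ)) : V) := by
    rw [show N / d = a from Nat.div_eq_of_eq_mul_left (Nat.pos_of_ne_zero hd0) had.symm] at l l'
    exact l.1.symm.trans l'.1
  obtain rfl : b = b' := by
    refine (isPrimitiveRoot_map f hN (had ▸ dvd_mul_left d a) hz).pow_inj hbd hbd' ?_
    rw [map_units_inv, map_units_inv, inv_inj] at hc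
    simpa using hc
  refine eq_of_rep_mul_mem ?_
  rw [Gamma0_mem, ZMod.intCast_zmod_eq_zero_iff_dvd]
  obtain ⟨-, -, h3, h4⟩ := h
  obtain ⟨-, -, h3', h4'⟩ := h'
  refine ⟨γ 1 0 * γ' 1 1 - γ 1 1 * γ' 1 0, ?_⟩
  have hNad : (N : ℤ) = a * d := by exact_mod_cast had.symm
  rw [Matrix.SpecialLinearGroup.coe_mul, Matrix.SpecialLinearGroup.coe_inv,
    Matrix.adjugate_fin_two]
  simp [Matrix.mul_apply, Fin.sum_univ_two]
  rw [← h3, ← h4, ← h3', ← h4', hNad]
  ring

include hN

/-- The series of `Δ (e g τ) / Δ (g τ)` over `V`. -/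
def uX {e : ℕ} (he : e ∣ N) (q : Gamma0.Coset N) : LaurentSeries V :=
  (exists_exp_uV hroot hN he q).choose

/-- The member of `Gd` given by `Δ (e g τ) / Δ (g τ)`. -/
def uG {e : ℕ} (he : e ∣ N) (q : Gamma0.Coset N) : Gd N V :=
  ⟨(uV e q, uX hroot hN he q), mdifferentiable_uV e q,
    (exists_exp_uV hroot hN he q).choose_spec.choose_spec.choose_spec.choose_spec.1⟩

/-- The inverse of `uG`. -/
def vG {e : ℕ} (he : e ∣ N) (q : Gamma0.Coset N) : Gd N V :=
  ⟨((uV e q)⁻¹, (exists_exp_uV hroot hN he q).choose_spec.choose), mdifferentiable_uV_inv e q,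
    (exists_exp_uV hroot hN he q).choose_spec.choose_spec.choose_spec.choose_spec.2.1⟩

theorem red_uG {k : Type*} [Field k] (f : V →+* k) {e : ℕ} (he : e ∣ N) (q : Gamma0.Coset N) :
    coeffMap f (uG hroot hN he q).1.2 ≠ 0 ∧
    (e : ℤ) * (coeffMap f (uG hroot hN he q).1.2).order =
      N * ((Nat.gcd (lev N q) e : ℤ) ^ 2 - e) ∧
    coeffMap f (vG hroot hN he q).1.2 = (coeffMap f (uG hroot hN he q).1.2)⁻¹ := by
  obtain ⟨o, c, -, -, hl, hXY, ho⟩ := (exists_exp_uV hroot hN he q).choose_spec.choose_spec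
  have hc : f (c : V) ≠ 0 := (c.isUnit.map f).ne_zero
  refine ⟨(hl.coeffMap f).ne_zero hc, ?_, (inv_eq_of_mul_eq_one_right ?_).symm⟩
  · show (e : ℤ) * (coeffMap f (uX hroot hN he q)).order = _
    rw [uX, (hl.coeffMap f).order_eq hc, ho]
  · rw [← map_mul]
    exact (congrArg (coeffMap f) hXY).trans (map_one _)

/-- Irreducibility modulo a prime not dividing `N`: the powers of `j (N τ)` below the index of
`Γ₀(N)` are independent over `k[j]`. -/
theorem independent_jqNModC {k : Type*} [Field k] (f : V →+* k)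
    (a : Fin (Fintype.card (Gamma0.Coset N)) → k[X])
    (ha : ∑ i, aeval (jqModC k) (a i) * jqNModC k N ^ (i : ℕ) = 0) : a = 0 := by
  have hperm : ∀ (F H : ℕ → Gamma0.Coset N → ℍ → ℂ) (e e' : ℕ),
      (∀ γ q τ, F e q (γ • τ) = F e (γ⁻¹ • q) τ) → (∀ γ q τ, H e' q (γ • τ) = H e' (γ⁻¹ • q) τ) →
      ∀ γ : SL(2, ℤ), ∃ π : Gamma0.Coset N ≃ Gamma0.Coset N, ∀ q τ,
        F e q (γ • τ) = F e (π q) τ ∧ H e' q (γ • τ) = H e' (π q) τ :=
    fun F H e e' hF hH γ => ⟨MulAction.toPerm γ⁻¹, fun q τ => ⟨hF γ q τ, hH γ q τ⟩⟩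
  classical
  let xk : Gamma0.Coset N → LaurentSeries k := fun q => coeffMap f (jX hroot (dvd_refl N) q)
  let uk : ℕ → Gamma0.Coset N → LaurentSeries k := fun e q =>
    if he : e ∣ N then coeffMap f (uG hroot hN he q).1.2 else 0
  have huk : ∀ {e : ℕ} (he : e ∣ N) q, uk e q = coeffMap f (uG hroot hN he q).1.2 :=
    fun he q => dif_pos he
  have hu : ∀ {e : ℕ}, e ∣ N → ∀ γ q τ, uV e q (γ • τ) = uV e (γ⁻¹ • q : Gamma0.Coset N) τ :=
    fun he γ q τ => uV_smul he γ q τ
  refine independent_pow (s := jt N k) xk q₀ order_jt_neg (injective_red hroot f hN)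
    (NeZero.ne N) (lev N) (fun q => Nat.gcd_dvd_right _ _) (fun q hq => eq_q₀_of_lev hq) uk
    (fun e he q => ?_) (fun e he q => ?_) (fun e he => ?_) (fun e he => ?_) (fun e he => ?_) a ?_
  all_goals try replace he := Nat.dvd_of_mem_divisors he
  · rw [huk he]; exact (red_uG hroot hN f he q).1
  · rw [huk he]; exact (red_uG hroot hN f he q).2.1
  · exact pairPoly_red N V _ _ f (fun q => rfl) (fun q => (huk he q).symm)
      (pairPoly_mem_range N V (fun q => jG hroot (dvd_refl N) q) (fun q => uG hroot hN he q)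
        (hperm jV uV N e (fun γ q τ => jV_smul (dvd_refl N) γ q τ) (hu he)))
  · exact pairPoly_red N V _ _ f (fun q => (huk he q).symm) (fun q => (huk he q).symm)
      (pairPoly_mem_range N V (fun q => uG hroot hN he q) (fun q => uG hroot hN he q)
        (hperm uV uV e e (hu he) (hu he)))
  · refine pairPoly_red N V _ _ f (fun q => ?_) (fun q => (huk he q).symm)
      (pairPoly_mem_range N V (fun q => vG hroot hN he q) (fun q => uG hroot hN he q)
        (hperm (fun e q => (uV e q)⁻¹) uV e e (fun γ q τ => ?_) (hu he)))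
    · rw [huk he]; exact (red_uG hroot hN f he q).2.2
    · show (uV e q (γ • τ))⁻¹ = (uV e (γ⁻¹ • q) τ)⁻¹
      rw [hu he]
  · have hx0 : xk q₀ = qExpand k N (jqNModC k N) := by
      show coeffMap f (jX hroot (dvd_refl N) q₀) = _
      rw [jX_q₀, coeffMap_qExpand, coeffMap_jqNModC]
    rw [hx0, ← map_zero (qExpand k N), ← ha, map_sum]
    refine Finset.sum_congr rfl fun i _ => ?_
    rw [map_mul, map_pow]
    exact congrArg (· * _) (aeval_algHom_apply (qExpandAlgHomC k N) (jqModC k) (a i))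

end Series

/-- In characteristic zero the field of all `j (d τ)` has degree at most the index over `ℂ(j)`. -/
theorem exists_dependence_fullC (z : Fin (Fintype.card (Gamma0.Coset N) + 1) → LaurentSeries ℂ)
    (hz : ∀ i, z i ∈ modularFunctionFieldFullC ℂ N) :
    ∃ a : Fin (Fintype.card (Gamma0.Coset N) + 1) → ℂ[X],
      a ≠ 0 ∧ ∑ i, aeval (jqModC ℂ) (a i) * z i = 0 := by
  classical
  let V : Subring ℂ := ⊤
  have hroot : ∀ d, d ∣ N → ∃ z : Vˣ, Units.map V.subtype z = zetaU d := fun d _ =>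
    ⟨⟨⟨(zetaU d : ℂ), trivial⟩, ⟨((zetaU d)⁻¹ : ℂˣ), trivial⟩, Subtype.ext (zetaU d).mul_inv,
      Subtype.ext (zetaU d).inv_mul⟩, Units.ext rfl⟩
  have hN : IsUnit (N : V) := IsUnit.of_mul_eq_one (⟨((N : ℂ))⁻¹, trivial⟩ : V)
    (Subtype.ext (by simpa using mul_inv_cancel₀ (show (N : ℂ) ≠ 0 by exact_mod_cast NeZero.ne N)))
  let ι := {e : ℕ // e ∈ N.divisors}
  have hdvd : ∀ e : ι, e.1 ∣ N := fun e => Nat.dvd_of_mem_divisors e.2
  let xk : Gamma0.Coset N → LaurentSeries ℂ := fun q =>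
    coeffMap V.subtype (jX hroot (dvd_refl N) q)
  let uk : ι → Gamma0.Coset N → LaurentSeries ℂ := fun e q =>
    coeffMap V.subtype (jX hroot (hdvd e) q)
  have hP : ∀ {e e' : ℕ} (he : e ∣ N) (he' : e' ∣ N),
      ∀ i l, ((pairPoly (fun q => coeffMap V.subtype (jX hroot he q))
        (fun q => coeffMap V.subtype (jX hroot he' q))).coeff i).coeff l ∈
          (aeval (R := ℂ) (jt N ℂ)).toRingHom.range := fun {e e'} he he' =>
    pairPoly_red N V _ _ V.subtype (fun q => rfl) (fun q => rfl)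
      (pairPoly_mem_range N V (fun q => jG hroot he q) (fun q => jG hroot he' q)
        fun γ => ⟨MulAction.toPerm γ⁻¹, fun q τ => ⟨jV_smul he γ q τ, jV_smul he' γ q τ⟩⟩)
  have hz' : ∀ i, qExpand ℂ N (z i) ∈ IntermediateField.adjoin ℂ
      (insert (jt N ℂ) (insert (xk q₀) (Set.range fun e => uk e q₀))) := fun i => by
    have hmap : (modularFunctionFieldFullC ℂ N).map (qExpandAlgHomC ℂ N) ≤
        IntermediateField.adjoin ℂ (insert (jt N ℂ) (insert (xk q₀) (Set.range fun e => uk e q₀))) := by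
      rw [modularFunctionFieldFullC, IntermediateField.adjoin_map]
      refine IntermediateField.adjoin.mono _ _ _ ?_
      rintro _ ⟨w, ⟨d, hne, hd, rfl⟩, rfl⟩
      haveI := hne
      refine Set.mem_insert_of_mem _ (Set.mem_insert_of_mem _
        ⟨⟨d, Nat.mem_divisors.2 ⟨hd, NeZero.ne N⟩⟩, ?_⟩)
      show coeffMap V.subtype (jX hroot hd q₀) = qExpand ℂ N (qExpand ℂ d (jqModC ℂ))
      rw [jX_q₀, coeffMap_qExpand, coeffMap_jqNModC]
      rfl
    exact hmap ⟨z i, hz i, rfl⟩
  obtain ⟨a, ha, hsum⟩ := exists_dependence (s := jt N ℂ) xk q₀ order_jt_neg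
    (injective_red hroot V.subtype hN) uk (hP (dvd_refl N) (dvd_refl N))
    (fun e => hP (dvd_refl N) (hdvd e)) (fun e => hP (hdvd e) (dvd_refl N))
    (fun i => qExpand ℂ N (z i)) hz'
  refine ⟨a, ha, qExpand_injective N ?_⟩
  rw [map_sum, map_zero, ← hsum]
  refine Finset.sum_congr rfl fun i _ => ?_
  rw [map_mul]
  exact congrArg (· * _) (aeval_algHom_apply (qExpandAlgHomC ℂ N) (jqModC ℂ) (a i)).symm

end Fermat.Agent.Igusa.Fibre
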