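/-
The interface between the smooth slice models (Legendre / level three families) and the good
reduction of `X₀(N)`: a finite extension of the function field of `X₀(N)` with good reduction,
in which the degree of `j` is preserved by reduction.
-/
import Fermat.Agent.Curve.Setup
import Fermat.Prelude.Def_ModularCurve_ArithmeticGalois

set_option autoImplicit false

noncomputable section

namespace Fermat.Agent.Igusa

open AlgebraicCurve ModularCurve IntermediateField

/-- the element `j` of the function field of `X₀(N)` over `ℚ̄` -/
def jBar (N : ℕ) [NeZero N] : modularFunctionFieldBar N :=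
  ⟨coeffEmb (AlgebraicClosure ℚ) jq,
    coeffEmb_mem_laurentBaseChange _ (modularFunctionField_le_full N (jq_mem N))⟩

@[simp]
theorem coe_jBar (N : ℕ) [NeZero N] :
    (jBar N : LaurentSeries (AlgebraicClosure ℚ)) = coeffEmb (AlgebraicClosure ℚ) jq :=
  rfl

/-- What a slice must provide: a finite extension `F'` of the function field of `X₀(N)` with good
reduction along `A`, such that the degree of `j` is preserved by the reduction. Nothing is
required about Galois groups, separability of the special fibre or `q`-expansions. -/
structure X0Slice (N : ℕ) [NeZero N] (A : ValuationSubring (AlgebraicClosure ℚ)) where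
  /-- the slice function field -/
  F' : Type
  [field : Field F']
  [algebra : Algebra (AlgebraicClosure ℚ) F']
  [isCurveOver : IsCurveOver (AlgebraicClosure ℚ) F']
  [essFiniteType : Algebra.EssFiniteType (AlgebraicClosure ℚ) F']
  /-- the special fibre -/
  Fb' : Type
  [fieldBar : Field Fb']
  [algebraBar : Algebra (IsLocalRing.ResidueField A) Fb']
  [isCurveOverBar : IsCurveOver (IsLocalRing.ResidueField A) Fb']
  [essFiniteTypeBar : Algebra.EssFiniteType (IsLocalRing.ResidueField A) Fb']
  /-- good reduction of the slice -/
  good : Curve.GoodReduction A F' (IsLocalRing.ResidueField A) Fb'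
  good_π : good.π = IsLocalRing.residue A
  /-- the forgetful map to `X₀(N)` -/
  ι : modularFunctionFieldBar N →ₐ[AlgebraicClosure ℚ] F'
  j_mem : ι (jBar N) ∈ good.V
  j_transcendental : Transcendental (IsLocalRing.ResidueField A) (good.φ ⟨ι (jBar N), j_mem⟩)
  j_degree_eq : Module.finrank (AlgebraicClosure ℚ)⟮ι (jBar N)⟯ F' =
    Module.finrank (IsLocalRing.ResidueField A)⟮good.φ ⟨ι (jBar N), j_mem⟩⟯ Fb'
  j_degree_pos : 0 < Module.finrank (AlgebraicClosure ℚ)⟮ι (jBar N)⟯ F'

attribute [instance] X0Slice.field X0Slice.algebra X0Slice.isCurveOver X0Slice.essFiniteType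
  X0Slice.fieldBar X0Slice.algebraBar X0Slice.isCurveOverBar X0Slice.essFiniteTypeBar

end Fermat.Agent.Igusa

end
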