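/-
Truncated computations with the integral `q`-series of `E₄` and `Δ`.
-/
import Fermat.Prelude.Def_ModularCurve_X0
import Mathlib.RingTheory.PowerSeries.Expand
import Mathlib.RingTheory.PowerSeries.Trunc

set_option autoImplicit false

noncomputable section

namespace Fermat.Agent.Igusa.QList

open PowerSeries ModularCurve
open scoped PowerSeries.WithPiTopology

/-- `l` lists the coefficients of `s` below `n`. -/
def Approx (n : ℕ) (s : PowerSeries ℤ) (l : List ℤ) : Prop :=
  ∀ i < n, coeff i s = l.getD i 0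

/-- truncated product -/
def mulT (n : ℕ) (a b : List ℤ) : List ℤ :=
  (List.range n).map fun i => ((List.range (i + 1)).map fun k => a.getD k 0 * b.getD (i - k) 0).sum

/-- truncated linear combination -/
def linT (n : ℕ) (x : ℤ) (a : List ℤ) (y : ℤ) (b : List ℤ) : List ℤ :=
  (List.range n).map fun i => x * a.getD i 0 + y * b.getD i 0

/-- truncated multiplication by `X ^ m` -/
def shiftT (n m : ℕ) (a : List ℤ) : List ℤ :=
  (List.range n).map fun i => if i < m then 0 else a.getD (i - m) 0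

/-- truncated substitution `X ↦ X ^ p` -/
def expandT (n p : ℕ) (a : List ℤ) : List ℤ :=
  (List.range n).map fun i => if i % p = 0 then a.getD (i / p) 0 else 0

theorem getD_range_map (f : ℕ → ℤ) {n i : ℕ} (h : i < n) :
    ((List.range n).map f).getD i 0 = f i := by
  simp [List.getD_eq_getElem?_getD, h]

theorem sum_range_map (f : ℕ → ℤ) (n : ℕ) :
    ((List.range n).map f).sum = ∑ k ∈ Finset.range n, f k := by
  induction n with
  | zero => simp
  | succ n ih => simp [List.range_succ, Finset.sum_range_succ, ih]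

variable {n : ℕ} {s t : PowerSeries ℤ} {a b : List ℤ}

theorem Approx.mul (hs : Approx n s a) (ht : Approx n t b) : Approx n (s * t) (mulT n a b) := by
  intro i hi
  rw [mulT, getD_range_map _ hi, sum_range_map, coeff_mul,
    Finset.Nat.sum_antidiagonal_eq_sum_range_succ (fun x y => coeff x s * coeff y t)]
  refine Finset.sum_congr rfl fun k hk => ?_
  rw [Finset.mem_range] at hk
  rw [hs k (by omega), ht (i - k) (by omega)]

theorem Approx.lin (hs : Approx n s a) (ht : Approx n t b) (x y : ℤ) :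
    Approx n (C x * s + C y * t) (linT n x a y b) := by
  intro i hi
  rw [linT, getD_range_map _ hi, map_add, coeff_C_mul, coeff_C_mul, hs i hi, ht i hi]

theorem Approx.shift (hs : Approx n s a) (m : ℕ) : Approx n (X ^ m * s) (shiftT n m a) := by
  intro i hi
  rw [shiftT, getD_range_map _ hi, coeff_X_pow_mul']
  rcases Nat.lt_or_ge i m with h | h
  · rw [if_neg (by omega), if_pos h]
  · rw [if_pos (by omega), if_neg (by omega), hs _ (by omega)]

theorem Approx.expand (hs : Approx n s a) {p : ℕ} (hp : p ≠ 0) :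
    Approx n (PowerSeries.expand p hp s) (expandT n p a) := by
  intro i hi
  rw [expandT, getD_range_map _ hi]
  rcases Nat.eq_zero_or_pos (i % p) with h | h
  · rw [if_pos h]
    obtain ⟨j, rfl⟩ := Nat.dvd_of_mod_eq_zero h
    rw [coeff_expand_mul, Nat.mul_div_cancel_left _ (Nat.pos_of_ne_zero hp), hs j
      (lt_of_le_of_lt (Nat.le_mul_of_pos_left j (Nat.pos_of_ne_zero hp)) hi)]
  · rw [if_neg (by omega), coeff_expand_of_not_dvd]
    exact fun h' => by rw [Nat.mod_eq_zero_of_dvd h'] at h; omega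

theorem Approx.of_eq (hs : Approx n s a) (h : a = b) : Approx n s b := h ▸ hs

theorem Approx.coeff_eq_zero (hs : Approx n s a) (h : a = List.replicate n 0) {i : ℕ}
    (hi : i < n) : coeff i s = 0 := by
  rw [hs i hi, h]; simp [List.getD_eq_getElem?_getD, hi]

theorem approx_one : Approx 17 (1 : PowerSeries ℤ) (1 :: List.replicate 16 0) := by
  intro i hi
  rw [coeff_one]
  interval_cases i <;> rfl

/-- the partial products of `∏ (1 - X ^ (k + 1))` -/
def etaTable : List (List ℤ) := [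
  [1, 0, 0, 0, 0, 0, 0, 0, 0, 0, 0, 0, 0, 0, 0, 0, 0],
  [1, -1, 0, 0, 0, 0, 0, 0, 0, 0, 0, 0, 0, 0, 0, 0, 0],
  [1, -1, -1, 1, 0, 0, 0, 0, 0, 0, 0, 0, 0, 0, 0, 0, 0],
  [1, -1, -1, 0, 1, 1, -1, 0, 0, 0, 0, 0, 0, 0, 0, 0, 0],
  [1, -1, -1, 0, 0, 2, 0, 0, -1, -1, 1, 0, 0, 0, 0, 0, 0],
  [1, -1, -1, 0, 0, 1, 1, 1, -1, -1, -1, 0, 0, 1, 1, -1, 0],
  [1, -1, -1, 0, 0, 1, 0, 2, 0, -1, -1, -1, -1, 0, 2, 0, 1],
  [1, -1, -1, 0, 0, 1, 0, 1, 1, 0, -1, -1, -2, 0, 0, 0, 2],
  [1, -1, -1, 0, 0, 1, 0, 1, 0, 1, 0, -1, -2, -1, 0, -1, 1],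
  [1, -1, -1, 0, 0, 1, 0, 1, 0, 0, 1, 0, -2, -1, -1, -1, 0],
  [1, -1, -1, 0, 0, 1, 0, 1, 0, 0, 0, 1, -1, -1, -1, -2, 0],
  [1, -1, -1, 0, 0, 1, 0, 1, 0, 0, 0, 0, 0, 0, -1, -2, -1],
  [1, -1, -1, 0, 0, 1, 0, 1, 0, 0, 0, 0, -1, 1, 0, -2, -1],
  [1, -1, -1, 0, 0, 1, 0, 1, 0, 0, 0, 0, -1, 0, 1, -1, -1],
  [1, -1, -1, 0, 0, 1, 0, 1, 0, 0, 0, 0, -1, 0, 0, 0, 0],
  [1, -1, -1, 0, 0, 1, 0, 1, 0, 0, 0, 0, -1, 0, 0, -1, 1],
  [1, -1, -1, 0, 0, 1, 0, 1, 0, 0, 0, 0, -1, 0, 0, -1, 0]]

theorem etaTable_step : ∀ j < 16, linT 17 1 (etaTable.getD j []) (-1)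
    (shiftT 17 (j + 1) (etaTable.getD j [])) = etaTable.getD (j + 1) [] := by
  decide +kernel

theorem approx_partialProd : ∀ j ≤ 16,
    Approx 17 (∏ k ∈ Finset.range j, (1 - X ^ (k + 1) : PowerSeries ℤ)) (etaTable.getD j []) := by
  intro j
  induction j with
  | zero => intro _; exact approx_one
  | succ j ih =>
    intro hj
    rw [Finset.prod_range_succ, ← etaTable_step j (by omega)]
    have h := (ih (by omega)).lin ((ih (by omega)).shift (j + 1)) 1 (-1)
    refine fun i hi => (?_ : _ = _).trans (h i hi)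
    congr 1
    rw [map_one, map_neg, map_one]
    ring

theorem coeff_partialProd_stable {m : ℕ} (s : Finset ℕ) (hs : Finset.range m ⊆ s) {i : ℕ}
    (hi : i ≤ m) : coeff i (∏ k ∈ s, (1 - X ^ (k + 1) : PowerSeries ℤ)) =
      coeff i (∏ k ∈ Finset.range m, (1 - X ^ (k + 1) : PowerSeries ℤ)) := by
  rw [← Finset.prod_sdiff hs]
  have key : ∀ T : Finset ℕ, (∀ k ∈ T, m ≤ k) → ∀ j ≤ m,
      coeff j (∏ k ∈ T, (1 - X ^ (k + 1) : PowerSeries ℤ)) = if j = 0 then 1 else 0 := by
    intro T
    induction T using Finset.induction_on with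
    | empty => intro _ j _; simp [coeff_one]
    | insert k T hk ih =>
      intro hT j hj
      have hkm := hT k (Finset.mem_insert_self _ _)
      rw [Finset.prod_insert hk, sub_mul, one_mul, map_sub, coeff_X_pow_mul', if_neg (by omega),
        sub_zero, ih (fun x hx => hT x (Finset.mem_insert_of_mem hx)) j hj]
  rw [coeff_mul, Finset.sum_eq_single (0, i)]
  · rw [key _ (fun k hk => by
      have := (Finset.mem_sdiff.1 hk).2
      rw [Finset.mem_range] at this; omega) 0 (Nat.zero_le _), if_pos rfl, one_mul]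
  · intro x hx hne
    rw [Finset.HasAntidiagonal.mem_antidiagonal] at hx
    have hx1 : x.1 ≠ 0 := fun h => hne (Prod.ext h (by omega))
    rw [key _ (fun k hk => by
      have := (Finset.mem_sdiff.1 hk).2
      rw [Finset.mem_range] at this; omega) x.1 (by omega), if_neg hx1, zero_mul]
  · simp

theorem approx_etaProd : Approx 17 etaProd (etaTable.getD 16 []) := by
  intro i hi
  rw [← approx_partialProd 16 le_rfl i hi, etaProd]
  have h := ((PowerSeries.WithPiTopology.multipliable_one_sub_X_pow ℤ).hasProd.map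
    (f := fun k : ℕ => (1 - X ^ (k + 1) : PowerSeries ℤ)) (MonoidHom.id _) continuous_id)
  have hc := ((PowerSeries.WithPiTopology.continuous_coeff ℤ i).tendsto _).comp h
  refine tendsto_nhds_unique hc (Filter.Tendsto.congr' ?_ tendsto_const_nhds)
  filter_upwards [Filter.Ici_mem_atTop (Finset.range 16)] with s hs
  exact (coeff_partialProd_stable s hs (by omega)).symm

theorem approx_dedekindEtaUnit : Approx 17 dedekindEtaUnit [1, -24, 252, -1472, 4830, -6048, -16744, 84480, -113643, -115920, 534612, -370944, -577738, 401856, 1217160, 987136, -6905934] := by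
  have h1 := approx_etaProd
  have h2 : Approx 17 (etaProd * etaProd) [1, -2, -1, 2, 1, 2, -2, 0, -2, -2, 1, 0, 0, 2, 3, -2, 2] := (h1.mul h1).of_eq (by decide +kernel)
  have h4 : Approx 17 (etaProd * etaProd * (etaProd * etaProd)) [1, -4, 2, 8, -5, -4, -10, 8, 9, 0, 14, -16, -10, -4, 0, -8, 14] :=
    (h2.mul h2).of_eq (by decide +kernel)
  have h8 : Approx 17 _ [1, -8, 20, 0, -70, 64, 56, 0, -125, -160, 308, 0, 110, 0, -520, 0, 57] := (h4.mul h4).of_eq (by decide +kernel)
  have h16 : Approx 17 _ [1, -16, 104, -320, 260, 1248, -3712, 1664, 6890, -7280, -5568, -4160, 33176, 4640, -74240, 29824, 14035] := (h8.mul h8).of_eq (by decide +kernel)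
  have hU : Approx 17 _ [1, -24, 252, -1472, 4830, -6048, -16744, 84480, -113643, -115920, 534612, -370944, -577738, 401856, 1217160, 987136, -6905934] := (h16.mul h8).of_eq (by decide +kernel)
  rw [dedekindEtaUnit]
  convert hU using 1
  ring

theorem approx_eisenstein4 : Approx 17 eisenstein4 [1, 240, 2160, 6720, 17520, 30240, 60480, 82560, 140400, 181680, 272160, 319680, 490560, 527520, 743040, 846720, 1123440] := by
  intro i hi
  rw [eisenstein4, coeff_mk]
  interval_cases i <;> decide +kernel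

end Fermat.Agent.Igusa.QList

end
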