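/-
Identities between the integral `q`-series of `E₄` and `Δ` of levels `2` and `3`, by the Sturm
bound.
-/
import Fermat.Agent.Igusa.QList
import Fermat.Agent.Gamma0.Cusps
import Fermat.Agent.ModFun.JFun
import Fermat.Agent.Newform.Degeneracy
import Fermat.Prelude.Thm_ModularForm_sturm_bound_Gamma0
import Fermat.Prelude.Thm_CongruenceSubgroup_one_mem_strictPeriods_Gamma0

set_option autoImplicit false

noncomputable section

namespace Fermat.Agent.Igusa

open UpperHalfPlane ModularCurve CongruenceSubgroup Matrix.SpecialLinearGroup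
open scoped MatrixGroups ModularForm Manifold

/-- `s` is the `q`-expansion of a modular form of weight `k` on `Γ₀(N)`. -/
def IsFormExp (N : ℕ) (k : ℤ) (s : PowerSeries ℤ) : Prop :=
  ∃ f : ModularForm (Gamma0 N) k, qExpansion 1 ⇑f = s.map (Int.castRingHom ℂ)

theorem exists_dilateForm {N d : ℕ} [NeZero N] (hd : d ∣ N) {F : Type*} [FunLike F ℍ ℂ] {k : ℤ}
    [ModularFormClass F 𝒮ℒ k] (f : F) :
    ∃ g : ModularForm (Gamma0 N) k, ⇑g = Newform.dilate d ⇑f := by
  have hd0 : d ≠ 0 := ne_zero_of_dvd_ne_zero (NeZero.ne N) hd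
  refine ⟨⟨⟨Newform.dilate d ⇑f, fun γ hγ => Newform.dilate_slash_eq_self k hd0 (M := 1)
    (by simpa using hd) (fun δ hδ => SlashInvariantFormClass.slash_action_eq f δ ?_) γ hγ⟩, ?_, ?_⟩, rfl⟩
  · obtain ⟨x, -, rfl⟩ := Subgroup.mem_map.1 hδ
    exact ⟨x, rfl⟩
  · show MDiff (Newform.dilate d ⇑f)
    rw [Newform.dilate_eq_smul_slash k hd0]
    exact ((ModularFormClass.holo f).slash k _).const_smul _
  · intro c hc
    show c.IsBoundedAt (Newform.dilate d ⇑f) k
    have hcusp : IsCusp (ModularForm.heckeDiagMatrix d • c) 𝒮ℒ := by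
      rw [Subgroup.IsArithmetic.isCusp_iff_isCusp_SL2Z, isCusp_SL2Z_iff] at hc
      rw [isCusp_SL2Z_iff]
      obtain ⟨c, rfl⟩ := hc
      let D : GL (Fin 2) ℚ := Matrix.GeneralLinearGroup.mkOfDetNeZero !![(d : ℚ), 0; 0, 1]
        (by simp [Matrix.det_fin_two_of, hd0])
      refine ⟨D • c, ?_⟩
      have hD : ModularForm.heckeDiagMatrix d = Matrix.GeneralLinearGroup.map (Rat.castHom ℝ) D := by
        refine Matrix.GeneralLinearGroup.ext fun i j => ?_
        fin_cases i <;> fin_cases j <;>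
          simp [D, ModularForm.val_heckeDiagMatrix hd0, Matrix.GeneralLinearGroup.mkOfDetNeZero]
      rw [hD, ← Rat.coe_castHom, OnePoint.map_smul]
    rw [Newform.dilate_eq_smul_slash k hd0]
    intro g hg
    have h1 := (OnePoint.IsBoundedAt.smul_iff.mp (ModularFormClass.bdd_at_cusps f hcusp)) g hg
    rw [ModularForm.smul_slash]
    exact Filter.BoundedAtFilter.smul _ h1

theorem qExpansion_dilate {N d : ℕ} [NeZero N] (_hd : d ∣ N) (hd0 : d ≠ 0) {F : Type*}
    [FunLike F ℍ ℂ] {k : ℤ} [ModularFormClass F 𝒮ℒ k] (f : F) (g : ModularForm (Gamma0 N) k)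
    (hg : ⇑g = Newform.dilate d ⇑f) :
    qExpansion 1 ⇑g = PowerSeries.expand d hd0 (qExpansion 1 ⇑f) := by
  ext n
  refine (ModularFormClass.qExpansion_coeff_unique one_pos
    (CongruenceSubgroup.one_mem_strictPeriods_Gamma0 N)
    (c := fun n => (PowerSeries.expand d hd0 (qExpansion 1 ⇑f)).coeff n) (f := g) (fun τ => ?_)
    n).symm
  have hinj : Function.Injective fun m : ℕ => d * m :=
    fun a b hab => Nat.eq_of_mul_eq_mul_left (Nat.pos_of_ne_zero hd0) hab
  refine (hinj.hasSum_iff fun x hx => ?_).mp ?_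
  · rw [PowerSeries.coeff_expand_of_not_dvd _ _ _ (fun hdx => hx ⟨x / d, Nat.mul_div_cancel' hdx⟩)]
    simp
  · have h : (1 : ℝ) ∈ (𝒮ℒ : Subgroup (GL (Fin 2) ℝ)).strictPeriods := by simp
    have := ModularForm.hasSum_qExpansion f one_pos h (ModularForm.heckeDiagMatrix d • τ)
    rw [hg]
    simpa [Function.comp_def, PowerSeries.coeff_expand_mul, Newform.qParam_dilate hd0, pow_mul,
      Newform.dilate_apply] using this

theorem isFormExp_of_levelOne {N d : ℕ} [NeZero N] (hd : d ∣ N) (hd0 : d ≠ 0) {F : Type*}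
    [FunLike F ℍ ℂ] {k : ℤ} [ModularFormClass F 𝒮ℒ k] (f : F) {s : PowerSeries ℤ}
    (hs : qExpansion 1 ⇑f = s.map (Int.castRingHom ℂ)) :
    IsFormExp N k (PowerSeries.expand d hd0 s) := by
  obtain ⟨g, hg⟩ := exists_dilateForm (N := N) hd f
  refine ⟨g, ?_⟩
  rw [qExpansion_dilate hd hd0 f g hg, hs, PowerSeries.map_expand]

namespace IsFormExp

variable {N : ℕ} {k l : ℤ} {s t : PowerSeries ℤ}

theorem mul [NeZero N] (hs : IsFormExp N k s) (ht : IsFormExp N l t) {m : ℤ} (hm : k + l = m) :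
    IsFormExp N m (s * t) := by
  subst hm
  obtain ⟨f, hf⟩ := hs
  obtain ⟨g, hg⟩ := ht
  refine ⟨f.mul g, ?_⟩
  rw [ModularForm.qExpansion_mul one_pos (CongruenceSubgroup.one_mem_strictPeriods_Gamma0 N), hf,
    hg, map_mul]

theorem add [NeZero N] (hs : IsFormExp N k s) (ht : IsFormExp N k t) : IsFormExp N k (s + t) := by
  obtain ⟨f, hf⟩ := hs
  obtain ⟨g, hg⟩ := ht
  refine ⟨f + g, ?_⟩
  rw [FunLike.coe_add, UpperHalfPlane.qExpansion_add
    (ModularFormClass.analyticAt_cuspFunction_zero f one_pos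
      (CongruenceSubgroup.one_mem_strictPeriods_Gamma0 N))
    (ModularFormClass.analyticAt_cuspFunction_zero g one_pos
      (CongruenceSubgroup.one_mem_strictPeriods_Gamma0 N)), hf, hg, map_add]

theorem smul [NeZero N] (hs : IsFormExp N k s) (c : ℤ) : IsFormExp N k (PowerSeries.C c * s) := by
  obtain ⟨f, hf⟩ := hs
  refine ⟨(c : ℂ) • f, ?_⟩
  rw [show ⇑((c : ℂ) • f) = (c : ℂ) • ⇑f from rfl, UpperHalfPlane.qExpansion_smul
    (ModularFormClass.analyticAt_cuspFunction_zero f one_pos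
      (CongruenceSubgroup.one_mem_strictPeriods_Gamma0 N)), hf, map_mul, PowerSeries.map_C,
    PowerSeries.smul_eq_C_mul]
  rfl

theorem eq_zero [NeZero N] (hs : IsFormExp N k s) {b : ℕ}
    (hb : (k * (Gamma0 N).index).toNat / 12 ≤ b) (h : ∀ i ≤ b, PowerSeries.coeff i s = 0) :
    s = 0 := by
  obtain ⟨f, hf⟩ := hs
  have h0 : f = 0 := ModularForm.sturm_bound_Gamma0 N f fun n hn => by
    rw [hf, PowerSeries.coeff_map, h n (hn.trans hb), map_zero]
  rw [h0, show ⇑(0 : ModularForm (Gamma0 N) k) = 0 from rfl, UpperHalfPlane.qExpansion_zero] at hf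
  exact PowerSeries.map_injective (Int.castRingHom ℂ) Int.cast_injective (by rw [← hf, map_zero])

end IsFormExp

section Series

open PowerSeries

/-- `q ∏ (1 - q^n)^24` -/
def deltaPS : PowerSeries ℤ := X * dedekindEtaUnit

theorem isFormExp_eisenstein4 {N d : ℕ} [NeZero N] (hd : d ∣ N) (hd0 : d ≠ 0) :
    IsFormExp N 4 (expand d hd0 eisenstein4) :=
  isFormExp_of_levelOne hd hd0 ModularForm.E₄ ModFun.qExpansion_E₄

theorem isFormExp_deltaPS {N d : ℕ} [NeZero N] (hd : d ∣ N) (hd0 : d ≠ 0) :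
    IsFormExp N 12 (expand d hd0 deltaPS) :=
  isFormExp_of_levelOne hd hd0 CuspForm.discriminant (by
    rw [deltaPS, map_mul, PowerSeries.map_X, ← ModFun.qExpansion_discriminant]
    rfl)

/-- weight 36 relation between forms of level 2 -/
theorem levelTwo_relation (d : ℕ) (hd : d = 1 ∨ d = 2) :
    ∀ hd0 : d ≠ 0, expand d hd0 eisenstein4 ^ 3 * deltaPS * expand 2 two_ne_zero deltaPS =
      (deltaPS + C (if d = 1 then 256 else 16) * expand 2 two_ne_zero deltaPS) ^ 3 := by
  intro hd0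
  set c : ℤ := if d = 1 then 256 else 16 with hc
  have hdvd : d ∣ 2 := by rcases hd with rfl | rfl <;> norm_num
  set E := expand d hd0 eisenstein4 with hE'
  set X₁ := deltaPS with hX'
  set Y := expand 2 two_ne_zero deltaPS with hY'
  have hE : IsFormExp 2 4 E := isFormExp_eisenstein4 hdvd hd0
  have hX : IsFormExp 2 12 X₁ := by
    have := isFormExp_deltaPS (N := 2) (one_dvd 2) one_ne_zero
    rwa [PowerSeries.expand_one_apply] at this
  have hY : IsFormExp 2 12 Y := isFormExp_deltaPS dvd_rfl two_ne_zero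
  have hR : IsFormExp 2 12 (X₁ + C c * Y) := hX.add (hY.smul c)
  have hP : IsFormExp 2 36 (E * E * E * X₁ * Y
      + C (-1) * ((X₁ + C c * Y) * (X₁ + C c * Y) * (X₁ + C c * Y))) :=
    ((((hE.mul hE (m := 8) (by norm_num)).mul hE (m := 12) (by norm_num)).mul hX
      (m := 24) (by norm_num)).mul hY (m := 36) (by norm_num)).add
      (((hR.mul hR (m := 24) (by norm_num)).mul hR (m := 36) (by norm_num)).smul (-1))
  have hi : (Gamma0 2).index = 3 := by
    rw [Gamma0.index_Gamma0]; decide +kernel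
  have aE : QList.Approx 17 E _ := QList.approx_eisenstein4.expand hd0
  have aX := QList.approx_dedekindEtaUnit.shift 1
  rw [pow_one, show X * dedekindEtaUnit = X₁ from rfl] at aX
  have aY : QList.Approx 17 Y _ := aX.expand two_ne_zero
  have aR := aX.lin aY 1 c
  rw [map_one, one_mul] at aR
  have a0 := ((((aE.mul aE).mul aE).mul aX).mul aY).lin ((aR.mul aR).mul aR) 1 (-1)
  rw [map_one, one_mul] at a0
  have hzero := hP.eq_zero (b := 9) (by rw [hi]; rfl) fun i hi' => by
    refine a0.coeff_eq_zero ?_ (by omega)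
    rw [hc]
    rcases hd with rfl | rfl <;> decide +kernel
  rw [map_neg, map_one] at hzero
  linear_combination hzero

/-- weight 48 relation between forms of level 3, the square of the relation of `t₃` -/
theorem levelThree_relation (d : ℕ) (hd : d = 1 ∨ d = 3) :
    ∀ hd0 : d ≠ 0, deltaPS * expand 3 three_ne_zero deltaPS *
        (expand d hd0 eisenstein4 ^ 3 - C (if d = 1 then 756 else 36) * deltaPS
          - C (if d = 1 then 19131876 else 756) * expand 3 three_ne_zero deltaPS) ^ 2 =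
      (deltaPS ^ 2 + C (if d = 1 then 196830 else 270) * deltaPS * expand 3 three_ne_zero deltaPS
        + C (if d = 1 then 387420489 else 729) * expand 3 three_ne_zero deltaPS ^ 2) ^ 2 := by
  intro hd0
  set c₃ : ℤ := if d = 1 then 756 else 36 with hc3
  set c₁ : ℤ := if d = 1 then 19131876 else 756 with hc1
  set c₂ : ℤ := if d = 1 then 196830 else 270 with hc2
  set c₀ : ℤ := if d = 1 then 387420489 else 729 with hc0
  have hdvd : d ∣ 3 := by rcases hd with rfl | rfl <;> norm_num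
  set E := expand d hd0 eisenstein4 with hE'
  set X₁ := deltaPS with hX'
  set Y := expand 3 three_ne_zero deltaPS with hY'
  have hE : IsFormExp 3 4 E := isFormExp_eisenstein4 hdvd hd0
  have hX : IsFormExp 3 12 X₁ := by
    have := isFormExp_deltaPS (N := 3) (one_dvd 3) one_ne_zero
    rwa [PowerSeries.expand_one_apply] at this
  have hY : IsFormExp 3 12 Y := isFormExp_deltaPS dvd_rfl three_ne_zero
  have hA : IsFormExp 3 12 (E * E * E + C (-c₃) * X₁ + C (-c₁) * Y) :=
    (((hE.mul hE (m := 8) (by norm_num)).mul hE (m := 12) (by norm_num)).add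
      (hX.smul (-c₃))).add (hY.smul (-c₁))
  have hB : IsFormExp 3 24 (X₁ * X₁ + C c₂ * (X₁ * Y) + C c₀ * (Y * Y)) :=
    ((hX.mul hX (m := 24) (by norm_num)).add ((hX.mul hY (m := 24) (by norm_num)).smul c₂)).add
      ((hY.mul hY (m := 24) (by norm_num)).smul c₀)
  have hP : IsFormExp 3 48 (X₁ * Y * ((E * E * E + C (-c₃) * X₁ + C (-c₁) * Y) *
      (E * E * E + C (-c₃) * X₁ + C (-c₁) * Y))
      + C (-1) * ((X₁ * X₁ + C c₂ * (X₁ * Y) + C c₀ * (Y * Y)) *
        (X₁ * X₁ + C c₂ * (X₁ * Y) + C c₀ * (Y * Y)))) :=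
    ((hX.mul hY (m := 24) (by norm_num)).mul (hA.mul hA (m := 24) (by norm_num))
      (m := 48) (by norm_num)).add ((hB.mul hB (m := 48) (by norm_num)).smul (-1))
  have hi : (Gamma0 3).index = 4 := by
    rw [Gamma0.index_Gamma0]; decide +kernel
  have aE : QList.Approx 17 E _ := QList.approx_eisenstein4.expand hd0
  have aX := QList.approx_dedekindEtaUnit.shift 1
  rw [pow_one, show X * dedekindEtaUnit = X₁ from rfl] at aX
  have aY : QList.Approx 17 Y _ := aX.expand three_ne_zero
  have aA := (((aE.mul aE).mul aE).lin aX 1 (-c₃)).lin aY 1 (-c₁)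
  rw [map_one, one_mul, one_mul] at aA
  have aB := ((aX.mul aX).lin (aX.mul aY) 1 c₂).lin (aY.mul aY) 1 c₀
  rw [map_one, one_mul, one_mul] at aB
  have a0 := ((aX.mul aY).mul (aA.mul aA)).lin (aB.mul aB) 1 (-1)
  rw [map_one, one_mul] at a0
  have hzero := hP.eq_zero (b := 16) (by rw [hi]; rfl) fun i hi' => by
    refine a0.coeff_eq_zero ?_ (by omega)
    rw [hc3, hc1, hc2, hc0]
    rcases hd with rfl | rfl <;> decide +kernel
  simp only [map_neg, map_one] at hzero
  linear_combination hzero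

end Series

end Fermat.Agent.Igusa

end
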