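/-
The Hauptmoduln `t₂ = (η(τ)/η(2τ))^24` of `X₀(2)` and `t₃ = (η(τ)/η(3τ))^12` of `X₀(3)` as Laurent
series with integral coefficients.
-/
import Fermat.Prelude.Def_ModularCurve_X0ModL
import Fermat.Prelude.Def_ModularCurve_ArithmeticGalois
import Fermat.Agent.Igusa.FibreLaurent
import Fermat.Agent.Igusa.QIdentity
import Fermat.Agent.ModFun.ModularPolynomial
import Fermat.Prelude.Def_ModularCurve_ModularUnit
import Mathlib.FieldTheory.RatFunc.IntermediateField
import Mathlib.FieldTheory.RatFunc.AsPolynomial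
import Mathlib.FieldTheory.Relrank

set_option autoImplicit false

noncomputable section

namespace Fermat.Agent.Igusa

open ModularCurve

open Polynomial IntermediateField in
/-- The degree of `J = P(t)/Q(t)` in `t`. -/
theorem relfinrank_adjoin_of_mul_aeval_eq {K L : Type*} [Field K] [Field L] [Algebra K L]
    {t J : L} (ht : Transcendental K t) {P Q : K[X]} (hc : IsCoprime P Q)
    (hQ : Q ≠ 0) (hJ : J * aeval t Q = aeval t P) :
    K⟮J⟯ ≤ K⟮t⟯ ∧ relfinrank K⟮J⟯ K⟮t⟯ = max P.natDegree Q.natDegree := by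
  classical
  let φ : RatFunc K →ₐ[K] L :=
    K⟮t⟯.val.comp (RatFunc.algEquivOfTranscendental t ht).toAlgHom
  have hφp : ∀ g : K[X], φ (algebraMap K[X] (RatFunc K) g) = aeval t g := fun g => by
    simp [φ, RatFunc.algEquivOfTranscendental_algebraMap]
  set f : RatFunc K := algebraMap K[X] (RatFunc K) P / algebraMap K[X] (RatFunc K) Q with hf
  have hQt : aeval t Q ≠ 0 := fun h => ht ⟨Q, hQ, h⟩
  have hφf : φ f = J := by
    rw [hf, map_div₀, hφp, hφp, ← hJ, mul_div_cancel_right₀ _ hQt]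
  have hX : φ RatFunc.X = t := by
    rw [← RatFunc.algebraMap_X, hφp, aeval_X]
  have h1 : K⟮J⟯ = (K⟮f⟯).map φ := by rw [adjoin_map, Set.image_singleton, hφf]
  have h2 : K⟮t⟯ = (⊤ : IntermediateField K (RatFunc K)).map φ := by
    rw [← RatFunc.adjoin_X, adjoin_map, Set.image_singleton, hX]
  refine ⟨?_, ?_⟩
  · rw [h1, h2]; exact IntermediateField.map_mono φ le_top
  · rw [h1, h2, relfinrank_map_map, relfinrank_top_right, RatFunc.finrank_eq_max_natDegree]
    have hfd : f.num * Q = P * f.denom := by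
      rw [RatFunc.num_mul_eq_mul_denom_iff hQ]
    have hd0 := f.denom_ne_zero
    have hcd := f.isCoprime_num_denom
    have hA : Associated f.denom Q :=
      associated_of_dvd_dvd (hcd.symm.dvd_of_dvd_mul_left ⟨P, by rw [hfd]; ring⟩)
        (hc.symm.dvd_of_dvd_mul_left ⟨f.num, by rw [← hfd]; ring⟩)
    have hN : Associated f.num P :=
      associated_of_dvd_dvd (hcd.dvd_of_dvd_mul_right ⟨Q, by rw [← hfd]⟩)
        (hc.dvd_of_dvd_mul_right ⟨f.denom, by rw [hfd]⟩)
    rw [natDegree_eq_of_degree_eq (degree_eq_degree_of_associated hA),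
      natDegree_eq_of_degree_eq (degree_eq_degree_of_associated hN)]

variable (R : Type*) [CommRing R]

/-- `q⁻¹ ∏ (1 - q^n)^e / (1 - q^(p n))^e` -/
def hauptSeries (p e : ℕ) [NeZero p] : LaurentSeries R :=
  HahnSeries.single (-1 : ℤ) 1 *
    HahnSeries.ofPowerSeries ℤ R ((etaProd ^ e).map (Int.castRingHom R)) *
    qExpand R p (HahnSeries.ofPowerSeries ℤ R
      ((etaProd.invOfUnit 1 ^ e).map (Int.castRingHom R)))

/-- `t₂ = (η(τ)/η(2τ))^24` -/
def t2Series : LaurentSeries R := hauptSeries R 2 24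

/-- `t₃ = (η(τ)/η(3τ))^12` -/
def t3Series : LaurentSeries R := hauptSeries R 3 12

variable {R}

theorem coeffMap_hauptSeries {S : Type*} [CommRing S] (f : R →+* S) (p e : ℕ) [NeZero p] :
    coeffMap f (hauptSeries R p e) = hauptSeries S p e := by
  simp only [hauptSeries, map_mul, coeffMap_single, map_one, coeffMap_ofPowerSeries,
    ModularCurve.coeffMap_qExpand]
  have h : ∀ u : PowerSeries ℤ,
      (u.map (Int.castRingHom R)).map f = u.map (Int.castRingHom S) := fun u => by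
    rw [← RingHom.comp_apply (PowerSeries.map f) (PowerSeries.map (Int.castRingHom R)),
      ← PowerSeries.map_comp, RingHom.ext_int (f.comp (Int.castRingHom R)) (Int.castRingHom S)]
  rw [h, h]

theorem hauptSeries_eq_single_mul (p e : ℕ) [NeZero p] :
    ∃ u : PowerSeries R, PowerSeries.constantCoeff u = 1 ∧
      hauptSeries R p e = HahnSeries.single (-1 : ℤ) 1 * HahnSeries.ofPowerSeries ℤ R u := by
  refine ⟨(etaProd ^ e).map (Int.castRingHom R) *
    PowerSeries.expand p (NeZero.ne p) ((etaProd.invOfUnit 1 ^ e).map (Int.castRingHom R)), ?_, ?_⟩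
  · rw [map_mul, PowerSeries.constantCoeff_expand]
    have h : ∀ u : PowerSeries ℤ, PowerSeries.constantCoeff (u.map (Int.castRingHom R)) =
        ((PowerSeries.constantCoeff u : ℤ) : R) := fun u => by
      rw [← PowerSeries.coeff_zero_eq_constantCoeff, ← PowerSeries.coeff_zero_eq_constantCoeff,
        PowerSeries.coeff_map]
      rfl
    simp [h, PowerSeries.constantCoeff_invOfUnit, constantCoeff_etaProd]
  · rw [hauptSeries, map_mul, mul_assoc]
    congr 2
    ext k
    by_cases hk : (p : ℤ) ∣ k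
    · obtain ⟨j, rfl⟩ := hk
      rw [qExpand_coeff_mul]
      rcases lt_or_ge j 0 with hj | hj
      · rw [ofPowerSeries_coeff_of_neg _ hj, ofPowerSeries_coeff_of_neg _ (mul_neg_of_pos_of_neg
          (by exact_mod_cast Nat.pos_of_ne_zero (NeZero.ne p)) hj)]
      · lift j to ℕ using hj
        rw [← Nat.cast_mul, HahnSeries.ofPowerSeries_apply_coeff,
          HahnSeries.ofPowerSeries_apply_coeff, PowerSeries.coeff_expand_mul]
    · rw [qExpand_coeff_of_not_dvd p _ hk]
      rcases lt_or_ge k 0 with hj | hj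
      · rw [ofPowerSeries_coeff_of_neg _ hj]
      · lift k to ℕ using hj
        rw [HahnSeries.ofPowerSeries_apply_coeff, PowerSeries.coeff_expand_of_not_dvd]
        exact fun h => hk (Int.natCast_dvd_natCast.2 h)

theorem coeffMap_t2Series {S : Type*} [CommRing S] (f : R →+* S) :
    coeffMap f (t2Series R) = t2Series S :=
  coeffMap_hauptSeries f 2 24

theorem coeffMap_t3Series {S : Type*} [CommRing S] (f : R →+* S) :
    coeffMap f (t3Series R) = t3Series S :=
  coeffMap_hauptSeries f 3 12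

theorem coeff_hauptSeries_neg_one (p e : ℕ) [NeZero p] :
    (hauptSeries R p e).coeff (-1) = 1 := by
  obtain ⟨u, hu, h⟩ := hauptSeries_eq_single_mul (R := R) p e
  rw [h, HahnSeries.coeff_single_mul, one_mul, sub_self, show (0 : ℤ) = ((0 : ℕ) : ℤ) from rfl,
    HahnSeries.ofPowerSeries_apply_coeff, PowerSeries.coeff_zero_eq_constantCoeff, hu]

theorem coeff_hauptSeries_of_lt (p e : ℕ) [NeZero p] {k : ℤ} (hk : k < -1) :
    (hauptSeries R p e).coeff k = 0 := by
  obtain ⟨u, -, h⟩ := hauptSeries_eq_single_mul (R := R) p e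
  rw [h, HahnSeries.coeff_single_mul, one_mul, ofPowerSeries_coeff_of_neg _ (by omega)]

theorem t2Series_ne_zero [Nontrivial R] : t2Series R ≠ 0 := fun h => by
  have h1 : (t2Series R).coeff (-1) = 1 := coeff_hauptSeries_neg_one 2 24
  simp [h] at h1

theorem t3Series_ne_zero [Nontrivial R] : t3Series R ≠ 0 := fun h => by
  have h1 : (t3Series R).coeff (-1) = 1 := coeff_hauptSeries_neg_one 3 12
  simp [h] at h1

theorem transcendental_hauptSeries (K : Type*) [Field K] (p e : ℕ) [NeZero p] :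
    Transcendental K (hauptSeries K p e) := by
  have h1 : (hauptSeries K p e).coeff (-1) ≠ 0 := by
    rw [coeff_hauptSeries_neg_one]; exact one_ne_zero
  have h : (hauptSeries K p e).order < 0 :=
    (HahnSeries.order_le_of_coeff_ne_zero h1).trans_lt (by norm_num)
  rw [transcendental_iff_injective]
  exact Fibre.aeval_injective_of_order_neg h

theorem transcendental_t2Series (K : Type*) [Field K] : Transcendental K (t2Series K) :=
  transcendental_hauptSeries K 2 24

theorem transcendental_t3Series (K : Type*) [Field K] : Transcendental K (t3Series K) :=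
  transcendental_hauptSeries K 3 12

/-! ### The covering maps to the `j`-line -/

section RatSeries

open PowerSeries

/-- integral power series as rational Laurent series -/
def toRatSeries : PowerSeries ℤ →+* LaurentSeries ℚ :=
  (HahnSeries.ofPowerSeries ℤ ℚ).comp (PowerSeries.map (Int.castRingHom ℚ))

theorem toRatSeries_expand (p : ℕ) [NeZero p] (u : PowerSeries ℤ) :
    toRatSeries (expand p (NeZero.ne p) u) = qExpand ℚ p (toRatSeries u) := by
  simp only [toRatSeries, RingHom.comp_apply, PowerSeries.map_expand]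
  ext k
  by_cases hk : (p : ℤ) ∣ k
  · obtain ⟨j, rfl⟩ := hk
    rw [qExpand_coeff_mul]
    rcases lt_or_ge j 0 with hj | hj
    · rw [ofPowerSeries_coeff_of_neg _ hj, ofPowerSeries_coeff_of_neg _ (mul_neg_of_pos_of_neg
        (by exact_mod_cast Nat.pos_of_ne_zero (NeZero.ne p)) hj)]
    · lift j to ℕ using hj
      rw [← Nat.cast_mul, HahnSeries.ofPowerSeries_apply_coeff,
        HahnSeries.ofPowerSeries_apply_coeff, PowerSeries.coeff_expand_mul]
  · rw [qExpand_coeff_of_not_dvd p _ hk]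
    rcases lt_or_ge k 0 with hj | hj
    · rw [ofPowerSeries_coeff_of_neg _ hj]
    · lift k to ℕ using hj
      rw [HahnSeries.ofPowerSeries_apply_coeff, PowerSeries.coeff_expand_of_not_dvd]
      exact fun h => hk (Int.natCast_dvd_natCast.2 h)

theorem toRatSeries_deltaPS : toRatSeries deltaPS = deltaSeries := by
  rw [deltaPS, map_mul, deltaSeries]
  congr 1
  simp [toRatSeries]

theorem jq_mul_deltaSeries :
    jqModC ℚ * deltaSeries = toRatSeries eisenstein4 ^ 3 := by
  have h : jNum * dedekindEtaUnit = eisenstein4 ^ 3 := by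
    rw [jNum, mul_assoc, mul_comm dedekindEtaUnitInv, dedekindEtaUnit_mul_inv, mul_one]
  have h' := congrArg toRatSeries h
  rw [map_mul, map_pow] at h'
  rw [← h', jqModC, deltaSeries, toRatSeries, RingHom.comp_apply, RingHom.comp_apply,
    dedekindEtaUnitQ, mul_mul_mul_comm, HahnSeries.single_mul_single]
  norm_num

theorem jqN_mul_deltaSeriesN (p : ℕ) [NeZero p] :
    jqNModC ℚ p * deltaSeriesN p = toRatSeries (expand p (NeZero.ne p) eisenstein4) ^ 3 := by
  rw [toRatSeries_expand, jqNModC, deltaSeriesN, ← map_mul, ← map_pow, jq_mul_deltaSeries]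

theorem hauptSeries_pow_mul_deltaSeriesN (p e k : ℕ) [NeZero p] (he : e * k = 24)
    (hk : (p : ℤ) - k = 1) :
    hauptSeries ℚ p e ^ k * deltaSeriesN p = deltaSeries := by
  set a := HahnSeries.ofPowerSeries ℤ ℚ (etaProd.map (Int.castRingHom ℚ)) with ha
  set b := HahnSeries.ofPowerSeries ℤ ℚ ((etaProd.invOfUnit 1).map (Int.castRingHom ℚ)) with hb
  have hab : a * b = 1 := by
    rw [ha, hb, ← map_mul, ← map_mul, PowerSeries.mul_invOfUnit _ 1 (by
      rw [constantCoeff_etaProd]; rfl), map_one, map_one]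
  have hu : HahnSeries.ofPowerSeries ℤ ℚ dedekindEtaUnitQ = a ^ 24 := by
    rw [ha, dedekindEtaUnitQ, dedekindEtaUnit, map_pow, map_pow]
  have hba : qExpand ℚ p b ^ (e * k) * qExpand ℚ p (a ^ 24) = 1 := by
    rw [he, ← map_pow, ← map_mul, ← mul_pow, mul_comm b, hab, one_pow, map_one]
  rw [hauptSeries, deltaSeriesN, deltaSeries, hu, map_mul (qExpand ℚ p), qExpand_single, mul_one,
    map_pow, map_pow, ← ha, map_pow (PowerSeries.map _), map_pow (HahnSeries.ofPowerSeries ℤ ℚ),
    ← hb, map_pow (qExpand ℚ p), mul_pow, mul_pow, ← pow_mul, ← pow_mul, HahnSeries.single_pow,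
    one_pow]
  calc HahnSeries.single (k • (-1 : ℤ)) (1 : ℚ) * a ^ (e * k) * qExpand ℚ p b ^ (e * k) *
        (HahnSeries.single (p : ℤ) 1 * qExpand ℚ p (a ^ 24))
      = (HahnSeries.single (k • (-1 : ℤ)) (1 : ℚ) * HahnSeries.single (p : ℤ) 1) * a ^ (e * k) *
          (qExpand ℚ p b ^ (e * k) * qExpand ℚ p (a ^ 24)) := by ring
    _ = HahnSeries.single 1 1 * a ^ 24 := by
      rw [hba, mul_one, HahnSeries.single_mul_single, one_mul, he, nsmul_eq_mul,
        show (k : ℤ) * -1 + (p : ℤ) = 1 by omega]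

theorem t2Series_mul_deltaSeriesN : t2Series ℚ * deltaSeriesN 2 = deltaSeries := by
  simpa [t2Series] using hauptSeries_pow_mul_deltaSeriesN 2 24 1 rfl (by norm_num)

theorem t3Series_sq_mul_deltaSeriesN : t3Series ℚ ^ 2 * deltaSeriesN 3 = deltaSeries :=
  hauptSeries_pow_mul_deltaSeriesN 3 12 2 rfl (by norm_num)

theorem isMonicOfOrder_hauptSeries (p e : ℕ) [NeZero p] :
    IsMonicOfOrder (hauptSeries ℚ p e) (-1) := by
  have h1 : (hauptSeries ℚ p e).coeff (-1) ≠ 0 := by
    rw [coeff_hauptSeries_neg_one]; exact one_ne_zero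
  have h : (hauptSeries ℚ p e).order = -1 := by
    refine le_antisymm (HahnSeries.order_le_of_coeff_ne_zero h1) ?_
    by_contra hlt
    exact (HahnSeries.coeff_order_eq_zero.not.2 (fun h => h1 (by rw [h]; rfl)))
      (coeff_hauptSeries_of_lt p e (not_le.1 hlt))
  exact ⟨h, by rw [HahnSeries.leadingCoeff_eq, h, coeff_hauptSeries_neg_one]⟩

theorem isMonicOfOrder_jqModC : IsMonicOfOrder (jqModC ℚ) (-1) := by
  have h1 : (jqModC ℚ).coeff (-1) ≠ 0 := by rw [jqModC_rat, coeff_jq_neg_one]; exact one_ne_zero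
  have h : (jqModC ℚ).order = -1 := by
    refine le_antisymm (HahnSeries.order_le_of_coeff_ne_zero h1) ?_
    by_contra hlt
    exact (HahnSeries.coeff_order_eq_zero.not.2 (fun h => h1 (by rw [h]; rfl)))
      (coeff_jqModC_of_lt ℚ (not_le.1 hlt))
  exact ⟨h, by rw [HahnSeries.leadingCoeff_eq, h, jqModC_rat, coeff_jq_neg_one]⟩

private theorem t2_cover {J t X Y E c : LaurentSeries ℚ} {a : ℕ} (hY : Y ≠ 0)
    (hJ : J * t ^ a * Y ^ 3 = E ^ 3 * X * Y) (ht : t * Y = X)
    (hrel : E ^ 3 * X * Y = (X + c * Y) ^ 3) : J * t ^ a = (t + c) ^ 3 := by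
  refine mul_right_cancel₀ (pow_ne_zero 3 hY) ?_
  rw [hJ, hrel, ← ht]; ring

private theorem t3_cover {J t X Y E c₃ c₁ c₂ c₀ : LaurentSeries ℚ} (hY : Y ≠ 0)
    (hJ : J * Y = E ^ 3) (ht : t ^ 2 * Y = X)
    (hrel : X * Y * (E ^ 3 - c₃ * X - c₁ * Y) ^ 2 = (X ^ 2 + c₂ * X * Y + c₀ * Y ^ 2) ^ 2)
    (hne : t * J - c₃ * t ^ 3 - c₁ * t + (t ^ 4 + c₂ * t ^ 2 + c₀) ≠ 0) :
    J * t = t ^ 4 + c₃ * t ^ 3 + c₂ * t ^ 2 + c₁ * t + c₀ := by
  have h2 : (t * J - c₃ * t ^ 3 - c₁ * t) ^ 2 = (t ^ 4 + c₂ * t ^ 2 + c₀) ^ 2 := by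
    refine mul_right_cancel₀ (pow_ne_zero 4 hY) ?_
    calc (t * J - c₃ * t ^ 3 - c₁ * t) ^ 2 * Y ^ 4
        = (t ^ 2 * Y) * Y * (J * Y - c₃ * (t ^ 2 * Y) - c₁ * Y) ^ 2 := by ring
      _ = X * Y * (E ^ 3 - c₃ * X - c₁ * Y) ^ 2 := by rw [hJ, ht]
      _ = _ := by rw [hrel, ← ht]; ring
  rcases sq_eq_sq_iff_eq_or_eq_neg.1 h2 with h | h
  · linear_combination h
  · exact absurd (by rw [h]; ring) hne

private theorem lead_ne_zero {J t : LaurentSeries ℚ} (ht : IsMonicOfOrder t (-1)) {m : ℤ}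
    (hJ : IsMonicOfOrder (t * J) m) (hm : m = -4) (c₃ c₁ c₂ c₀ : ℚ) :
    t * J - HahnSeries.C c₃ * t ^ 3 - HahnSeries.C c₁ * t +
      (t ^ 4 + HahnSeries.C c₂ * t ^ 2 + HahnSeries.C c₀) ≠ 0 := by
  subst hm
  intro h
  have h2 : IsMonicOfOrder (t ^ 2) (-2) := by simpa [pow_two] using ht.mul ht
  have h3 : IsMonicOfOrder (t ^ 3) (-3) := by simpa [pow_succ] using h2.mul ht
  have h4 : IsMonicOfOrder (t ^ 4) (-4) := by simpa [pow_succ] using h3.mul ht
  have hc : (HahnSeries.C c₀ : LaurentSeries ℚ).coeff (-4) = 0 :=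
    HahnSeries.coeff_single_of_ne (show (-4 : ℤ) ≠ 0 by norm_num)
  have h' := congrArg (fun f : LaurentSeries ℚ => f.coeff (-4)) h
  simp only [hc, HahnSeries.coeff_add, HahnSeries.coeff_sub, HahnSeries.C_mul_eq_smul,
    HahnSeries.coeff_smul, smul_eq_mul, hJ.coeff_self, h4.coeff_self,
    h3.coeff_of_lt (show (-4 : ℤ) < -3 by norm_num), h2.coeff_of_lt (show (-4 : ℤ) < -2 by norm_num),
    ht.coeff_of_lt (show (-4 : ℤ) < -1 by norm_num), HahnSeries.coeff_zero] at h'
  norm_num at h'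

theorem levelTwo_rat (d : ℕ) (hd : d = 1 ∨ d = 2) (hd0 : d ≠ 0) :
    toRatSeries (expand d hd0 eisenstein4) ^ 3 * deltaSeries * deltaSeriesN 2 =
      (deltaSeries + (if d = 1 then 256 else 16) * deltaSeriesN 2) ^ 3 := by
  have h := congrArg toRatSeries (levelTwo_relation d hd hd0)
  rw [show expand 2 two_ne_zero deltaPS = expand 2 (NeZero.ne 2) deltaPS from rfl] at h
  simp only [map_mul, map_pow, map_add, toRatSeries_deltaPS, toRatSeries_expand 2 deltaPS] at h
  rw [deltaSeriesN, h]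
  rcases hd with rfl | rfl <;> simp [map_ofNat]

theorem levelThree_rat (d : ℕ) (hd : d = 1 ∨ d = 3) (hd0 : d ≠ 0) :
    deltaSeries * deltaSeriesN 3 *
        (toRatSeries (expand d hd0 eisenstein4) ^ 3
          - HahnSeries.C (if d = 1 then 756 else 36 : ℚ) * deltaSeries
          - HahnSeries.C (if d = 1 then 19131876 else 756 : ℚ) * deltaSeriesN 3) ^ 2 =
      (deltaSeries ^ 2
        + HahnSeries.C (if d = 1 then 196830 else 270 : ℚ) * deltaSeries * deltaSeriesN 3
        + HahnSeries.C (if d = 1 then 387420489 else 729 : ℚ) * deltaSeriesN 3 ^ 2) ^ 2 := by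
  have h := congrArg toRatSeries (levelThree_relation d hd hd0)
  rw [show expand 3 three_ne_zero deltaPS = expand 3 (NeZero.ne 3) deltaPS from rfl] at h
  simp only [map_mul, map_pow, map_add, map_sub, toRatSeries_deltaPS,
    toRatSeries_expand 3 deltaPS] at h
  rw [deltaSeriesN]
  rcases hd with rfl | rfl <;>
    simpa [map_ofNat, toRatSeries, HahnSeries.C_apply, ← HahnSeries.ofPowerSeries_C] using h

theorem jq_mul_t2Series_rat :
    jqModC ℚ * t2Series ℚ ^ 2 = (t2Series ℚ + 256) ^ 3 := by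
  refine t2_cover (deltaSeriesN_ne_zero 2) ?_ t2Series_mul_deltaSeriesN
    (levelTwo_rat 1 (Or.inl rfl) one_ne_zero)
  rw [PowerSeries.expand_one_apply, ← jq_mul_deltaSeries, ← t2Series_mul_deltaSeriesN]
  ring

theorem jqN_mul_t2Series_rat :
    jqNModC ℚ 2 * t2Series ℚ = (t2Series ℚ + 16) ^ 3 := by
  have h := t2_cover (J := jqNModC ℚ 2) (a := 1) (deltaSeriesN_ne_zero 2) ?_
    t2Series_mul_deltaSeriesN (levelTwo_rat 2 (Or.inr rfl) two_ne_zero)
  · simpa using h
  rw [show toRatSeries (expand 2 two_ne_zero eisenstein4) ^ 3 = _ from (jqN_mul_deltaSeriesN 2).symm,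
    ← t2Series_mul_deltaSeriesN]
  ring

theorem jq_mul_t3Series_rat :
    jqModC ℚ * t3Series ℚ ^ 3 = (t3Series ℚ + 27) * (t3Series ℚ + 243) ^ 3 := by
  have ht := isMonicOfOrder_hauptSeries 3 12
  have hJ : IsMonicOfOrder (t3Series ℚ * (jqModC ℚ * t3Series ℚ ^ 2)) (-1 + (-1 + (-1 + -1))) :=
    ht.mul (isMonicOfOrder_jqModC.mul (by rw [pow_two]; exact ht.mul ht))
  have h := t3_cover (J := jqModC ℚ * t3Series ℚ ^ 2) (deltaSeriesN_ne_zero 3) ?_
    t3Series_sq_mul_deltaSeriesN (levelThree_rat 1 (Or.inl rfl) one_ne_zero)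
    (lead_ne_zero ht hJ (by norm_num) _ _ _ _)
  · simp only [if_pos, map_ofNat] at h
    linear_combination h
  rw [mul_assoc, t3Series_sq_mul_deltaSeriesN, PowerSeries.expand_one_apply, jq_mul_deltaSeries]

theorem jqN_mul_t3Series_rat :
    jqNModC ℚ 3 * t3Series ℚ = (t3Series ℚ + 27) * (t3Series ℚ + 3) ^ 3 := by
  have ht := isMonicOfOrder_hauptSeries 3 12
  have hJ : IsMonicOfOrder (t3Series ℚ * jqNModC ℚ 3) (-1 + ((3 : ℕ) : ℤ) * -1) :=
    ht.mul (isMonicOfOrder_jqModC.qExpand 3)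
  have h := t3_cover (J := jqNModC ℚ 3) (deltaSeriesN_ne_zero 3) (jqN_mul_deltaSeriesN 3)
    t3Series_sq_mul_deltaSeriesN (levelThree_rat 3 (Or.inr rfl) three_ne_zero)
    (lead_ne_zero ht hJ (by norm_num) _ _ _ _)
  simp only [show ¬ (3 : ℕ) = 1 from by norm_num, if_false, map_ofNat] at h
  linear_combination h

theorem coeffMap_intCast_injective : Function.Injective (coeffMap (Int.castRingHom ℚ)) :=
  fun _ _ h => HahnSeries.ext (funext fun k => Int.cast_injective
    (congrArg (fun f : LaurentSeries ℚ => f.coeff k) h))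

end RatSeries

theorem jq_mul_t2Series (R : Type*) [CommRing R] :
    jqModC R * t2Series R ^ 2 = (t2Series R + 256) ^ 3 := by
  have h : jqModC ℤ * t2Series ℤ ^ 2 = (t2Series ℤ + 256) ^ 3 := coeffMap_intCast_injective (by
    simpa [coeffMap_t2Series, coeffMap_t3Series, coeffMap_jqModC, coeffMap_jqNModC, map_ofNat]
      using jq_mul_t2Series_rat)
  simpa [coeffMap_t2Series, coeffMap_t3Series, coeffMap_jqModC, coeffMap_jqNModC, map_ofNat]
    using congrArg (coeffMap (Int.castRingHom R)) h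

theorem jqN_mul_t2Series (R : Type*) [CommRing R] :
    jqNModC R 2 * t2Series R = (t2Series R + 16) ^ 3 := by
  have h : jqNModC ℤ 2 * t2Series ℤ = (t2Series ℤ + 16) ^ 3 := coeffMap_intCast_injective (by
    simpa [coeffMap_t2Series, coeffMap_t3Series, coeffMap_jqModC, coeffMap_jqNModC, map_ofNat]
      using jqN_mul_t2Series_rat)
  simpa [coeffMap_t2Series, coeffMap_t3Series, coeffMap_jqModC, coeffMap_jqNModC, map_ofNat]
    using congrArg (coeffMap (Int.castRingHom R)) h

theorem jq_sub_mul_t2Series (R : Type*) [CommRing R] :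
    (jqModC R - 1728) * t2Series R ^ 2 = (t2Series R + 64) * (t2Series R - 512) ^ 2 := by
  linear_combination jq_mul_t2Series R

theorem jq_mul_t3Series (R : Type*) [CommRing R] :
    jqModC R * t3Series R ^ 3 = (t3Series R + 27) * (t3Series R + 243) ^ 3 := by
  have h : jqModC ℤ * t3Series ℤ ^ 3 = (t3Series ℤ + 27) * (t3Series ℤ + 243) ^ 3 := coeffMap_intCast_injective (by
    simpa [coeffMap_t2Series, coeffMap_t3Series, coeffMap_jqModC, coeffMap_jqNModC, map_ofNat]
      using jq_mul_t3Series_rat)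
  simpa [coeffMap_t2Series, coeffMap_t3Series, coeffMap_jqModC, coeffMap_jqNModC, map_ofNat]
    using congrArg (coeffMap (Int.castRingHom R)) h

theorem jqN_mul_t3Series (R : Type*) [CommRing R] :
    jqNModC R 3 * t3Series R = (t3Series R + 27) * (t3Series R + 3) ^ 3 := by
  have h : jqNModC ℤ 3 * t3Series ℤ = (t3Series ℤ + 27) * (t3Series ℤ + 3) ^ 3 := coeffMap_intCast_injective (by
    simpa [coeffMap_t2Series, coeffMap_t3Series, coeffMap_jqModC, coeffMap_jqNModC, map_ofNat]
      using jqN_mul_t3Series_rat)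
  simpa [coeffMap_t2Series, coeffMap_t3Series, coeffMap_jqModC, coeffMap_jqNModC, map_ofNat]
    using congrArg (coeffMap (Int.castRingHom R)) h

theorem jq_sub_mul_t3Series (R : Type*) [CommRing R] :
    (jqModC R - 1728) * t3Series R ^ 3 = (t3Series R ^ 2 - 486 * t3Series R - 19683) ^ 2 := by
  linear_combination jq_mul_t3Series R

/-! ### Degrees over the `j`-line -/

open IntermediateField

variable (K : Type*) [Field K]

theorem adjoin_jq_le_adjoin_t2Series : K⟮jqModC K⟯ ≤ K⟮t2Series K⟯ := by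
  rw [adjoin_simple_le_iff]
  have h := jq_mul_t2Series K
  rw [← eq_div_iff (pow_ne_zero _ t2Series_ne_zero)] at h
  rw [h]
  exact div_mem (pow_mem (add_mem (mem_adjoin_simple_self K _) (ofNat_mem _ _)) _)
    (pow_mem (mem_adjoin_simple_self K _) _)

theorem adjoin_jq_le_adjoin_t3Series : K⟮jqModC K⟯ ≤ K⟮t3Series K⟯ := by
  rw [adjoin_simple_le_iff]
  have h := jq_mul_t3Series K
  rw [← eq_div_iff (pow_ne_zero _ t3Series_ne_zero)] at h
  rw [h]
  exact div_mem (mul_mem (add_mem (mem_adjoin_simple_self K _) (ofNat_mem _ _))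
    (pow_mem (add_mem (mem_adjoin_simple_self K _) (ofNat_mem _ _)) _))
    (pow_mem (mem_adjoin_simple_self K _) _)

open Polynomial in
theorem relfinrank_t2Series (h2 : (2 : K) ≠ 0) : relfinrank K⟮jqModC K⟯ K⟮t2Series K⟯ = 3 := by
  have hc : IsCoprime ((X + C (256 : K)) ^ 3) (X ^ 2) := by
    refine IsCoprime.pow ?_
    have h0 : (256 : K) ≠ 0 := by
      rw [show (256 : K) = 2 ^ 8 by norm_num]; exact pow_ne_zero _ h2
    exact ⟨C (256 : K)⁻¹, -C (256 : K)⁻¹, by
      rw [show C (256 : K)⁻¹ * (X + C 256) + -C (256 : K)⁻¹ * X = C ((256 : K)⁻¹) * C 256 by ring,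
        ← C_mul, inv_mul_cancel₀ h0, C_1]⟩
  have h := relfinrank_adjoin_of_mul_aeval_eq (transcendental_t2Series K) hc
    (pow_ne_zero _ X_ne_zero) (J := jqModC K) (by
      have h' := jq_mul_t2Series K
      simpa [map_ofNat] using h')
  rw [h.2, natDegree_pow, natDegree_pow, natDegree_X_add_C, natDegree_X]
  rfl

open Polynomial in
theorem relfinrank_t3Series (h3 : (3 : K) ≠ 0) : relfinrank K⟮jqModC K⟯ K⟮t3Series K⟯ = 4 := by
  have hu : ∀ m : ℕ, IsCoprime (X + C ((3 : K) ^ m)) (X : K[X]) := fun m =>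
    ⟨C ((3 : K) ^ m)⁻¹, -C ((3 : K) ^ m)⁻¹, by
      rw [show C ((3 : K) ^ m)⁻¹ * (X + C ((3 : K) ^ m)) + -C ((3 : K) ^ m)⁻¹ * X
        = C ((3 : K) ^ m)⁻¹ * C ((3 : K) ^ m) by ring,
        ← C_mul, inv_mul_cancel₀ (pow_ne_zero _ h3), C_1]⟩
  have hc : IsCoprime ((X + C (27 : K)) * (X + C (243 : K)) ^ 3) (X ^ 3) := by
    refine IsCoprime.mul_left ?_ (IsCoprime.pow ?_)
    · rw [show (27 : K) = 3 ^ 3 by norm_num]; exact (hu 3).pow_right
    · rw [show (243 : K) = 3 ^ 5 by norm_num]; exact hu 5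
  have h := relfinrank_adjoin_of_mul_aeval_eq (transcendental_t3Series K) hc
    (pow_ne_zero _ X_ne_zero) (J := jqModC K) (by
      have h' := jq_mul_t3Series K
      simpa [map_ofNat] using h')
  rw [h.2, natDegree_mul (X_add_C_ne_zero _) (pow_ne_zero _ (X_add_C_ne_zero _)), natDegree_pow,
    natDegree_pow, natDegree_X_add_C, natDegree_X_add_C, natDegree_X]
  rfl

/-! ### Membership in the modular function fields -/

variable {M : ℕ} [NeZero M]

theorem t2Series_mem_modularFunctionFieldC : t2Series ℚ ∈ modularFunctionFieldC ℚ 2 := by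
  have hle : modularFunctionFieldC ℚ 2 ≤ ℚ⟮t2Series ℚ⟯ := by
    rw [modularFunctionFieldC, adjoin_le_iff]
    rintro x (rfl | rfl)
    · exact adjoin_jq_le_adjoin_t2Series ℚ (mem_adjoin_simple_self ℚ _)
    · rw [eq_div_iff t2Series_ne_zero |>.2 (jqN_mul_t2Series ℚ)]
      exact div_mem (pow_mem (add_mem (mem_adjoin_simple_self ℚ _) (ofNat_mem _ _)) _)
        (mem_adjoin_simple_self ℚ _)
  have hj : ℚ⟮jqModC ℚ⟯ ≤ modularFunctionFieldC ℚ 2 :=
    adjoin_simple_le_iff.2 (jqModC_mem ℚ 2)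
  have h := relfinrank_mul_relfinrank hj hle
  rw [ModFun.relfinrank_modularFunctionFieldC, relfinrank_t2Series ℚ two_ne_zero,
    show dedekindPsi 2 = 3 by decide +kernel] at h
  exact relfinrank_eq_one_iff.1 (by omega) (mem_adjoin_simple_self ℚ _)

theorem t3Series_mem_modularFunctionFieldC : t3Series ℚ ∈ modularFunctionFieldC ℚ 3 := by
  have hle : modularFunctionFieldC ℚ 3 ≤ ℚ⟮t3Series ℚ⟯ := by
    rw [modularFunctionFieldC, adjoin_le_iff]
    rintro x (rfl | rfl)
    · exact adjoin_jq_le_adjoin_t3Series ℚ (mem_adjoin_simple_self ℚ _)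
    · rw [eq_div_iff t3Series_ne_zero |>.2 (jqN_mul_t3Series ℚ)]
      exact div_mem (mul_mem (add_mem (mem_adjoin_simple_self ℚ _) (ofNat_mem _ _))
        (pow_mem (add_mem (mem_adjoin_simple_self ℚ _) (ofNat_mem _ _)) _))
        (mem_adjoin_simple_self ℚ _)
  have hj : ℚ⟮jqModC ℚ⟯ ≤ modularFunctionFieldC ℚ 3 :=
    adjoin_simple_le_iff.2 (jqModC_mem ℚ 3)
  have h := relfinrank_mul_relfinrank hj hle
  rw [ModFun.relfinrank_modularFunctionFieldC, relfinrank_t3Series ℚ three_ne_zero,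
    show dedekindPsi 3 = 4 by decide +kernel] at h
  exact relfinrank_eq_one_iff.1 (by omega) (mem_adjoin_simple_self ℚ _)

theorem t2Series_mem_full (hM : 2 ∣ M) : t2Series ℚ ∈ modularFunctionFieldFull M :=
  full_degeneracy_le hM (modularFunctionField_le_full 2 t2Series_mem_modularFunctionFieldC)

theorem t3Series_mem_full (hM : 3 ∣ M) : t3Series ℚ ∈ modularFunctionFieldFull M :=
  full_degeneracy_le hM (modularFunctionField_le_full 3 t3Series_mem_modularFunctionFieldC)

theorem t2Series_mem_bar (L : Type*) [Field L] [Algebra ℚ L] (hM : 2 ∣ M) :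
    t2Series L ∈ laurentBaseChange L (modularFunctionFieldFull M) := by
  rw [← coeffMap_t2Series (algebraMap ℚ L)]
  exact coeffEmb_mem_laurentBaseChange L (t2Series_mem_full hM)

theorem t3Series_mem_bar (L : Type*) [Field L] [Algebra ℚ L] (hM : 3 ∣ M) :
    t3Series L ∈ laurentBaseChange L (modularFunctionFieldFull M) := by
  rw [← coeffMap_t3Series (algebraMap ℚ L)]
  exact coeffEmb_mem_laurentBaseChange L (t3Series_mem_full hM)

/-- `t₂` as an element of `modularFunctionFieldBar M` -/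
def t2Bar (M : ℕ) [NeZero M] (hM : 2 ∣ M) : modularFunctionFieldBar M :=
  ⟨t2Series (AlgebraicClosure ℚ), t2Series_mem_bar _ hM⟩

/-- `t₃` as an element of `modularFunctionFieldBar M` -/
def t3Bar (M : ℕ) [NeZero M] (hM : 3 ∣ M) : modularFunctionFieldBar M :=
  ⟨t3Series (AlgebraicClosure ℚ), t3Series_mem_bar _ hM⟩

@[simp]
theorem coe_t2Bar (M : ℕ) [NeZero M] (hM : 2 ∣ M) :
    (t2Bar M hM : LaurentSeries (AlgebraicClosure ℚ)) = t2Series _ := rfl

@[simp]
theorem coe_t3Bar (M : ℕ) [NeZero M] (hM : 3 ∣ M) :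
    (t3Bar M hM : LaurentSeries (AlgebraicClosure ℚ)) = t3Series _ := rfl

end Fermat.Agent.Igusa

end
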