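/-
Branch values of `j`, `t₂` and `t₃` on `X₀(M)` in characteristic zero.
-/
import Fermat.Agent.Igusa.HauptmodulSeries
import Fermat.Agent.Igusa.JacobianSlice
import Fermat.Agent.Curve.BasicPlace
import Fermat.Agent.Curve.BasicModular
import Fermat.Agent.Curve.ConstExtModular
import Fermat.Agent.Curve.ConstExtPlace
import Fermat.Agent.Places.Gamma0

set_option autoImplicit false
set_option linter.style.haveILetI false

noncomputable section

namespace Fermat.Agent.Igusa

open AlgebraicCurve ModularCurve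

section Cover

variable {K F : Type*} [Field K] [CharZero K] [Field F] [Algebra K F]

/-- A function with at most the ramification of the modular `j`. -/
structure JRamified (v : Place K F) (J : F) : Prop where
  le_three : v.ord J ≤ 3
  le_two : v.ord (J - algebraMap K F 1728) ≤ 2
  le_one : ∀ c : K, c ≠ 0 → c ≠ 1728 → v.ord (J - algebraMap K F c) ≤ 1

omit [CharZero K] in
theorem mem_maximalIdeal_of_ord_pos (v : Place K F) (a : v.toValuationSubring)
    (h : 0 < v.ord (a : F)) : a ∈ IsLocalRing.maximalIdeal v.toValuationSubring := by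
  rw [IsLocalRing.mem_maximalIdeal]
  intro hu
  obtain ⟨u, hu⟩ := hu
  have := v.ord_coe_unit u
  rw [hu] at this
  omega

omit [CharZero K] in
/-- a polynomial expression in `t` has value its value at `α` -/
theorem ord_aeval_eq_zero {v : Place K F} {t : F} {α : K}
    (hpos : 0 < v.ord (t - algebraMap K F α)) {P : Polynomial K} (hP : P.eval α ≠ 0) :
    Polynomial.aeval t P ≠ 0 ∧ v.ord (Polynomial.aeval t P) = 0 := by
  have hne : t - algebraMap K F α ≠ 0 := fun h0 => by rw [h0, Place.ord_zero] at hpos; omega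
  have hmem : t - algebraMap K F α ∈ v.toValuationSubring := Curve.mem_of_ord_nonneg v hpos.le
  have ht : t ∈ v.toValuationSubring := by
    simpa using add_mem hmem (v.algebraMap_mem' α)
  obtain ⟨Q, hQ⟩ := Polynomial.dvd_iff_isRoot.2
    (show (P - Polynomial.C (P.eval α)).IsRoot α by simp)
  have hQmem : Polynomial.aeval t Q ∈ v.toValuationSubring := by
    rw [Polynomial.aeval_eq_sum_range]
    refine sum_mem fun i _ => ?_
    rw [Algebra.smul_def]
    exact mul_mem (v.algebraMap_mem' _) (pow_mem ht _)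
  have hA : Polynomial.aeval t P =
      algebraMap K F (P.eval α) + (t - algebraMap K F α) * Polynomial.aeval t Q := by
    conv_lhs => rw [show P = Polynomial.C (P.eval α) + (Polynomial.X - Polynomial.C α) * Q by
      rw [← hQ]; ring]
    simp
  have hc : algebraMap K F (P.eval α) ≠ 0 := by simpa using hP
  have hord : v.ord (Polynomial.aeval t P) = 0 := by
    rw [hA, Curve.ord_add_eq_left v hc, Curve.ord_algebraMap]
    intro h0
    have h2 := Curve.ord_nonneg_of_mem v hQmem
    rw [Curve.ord_algebraMap, v.ord_mul hne (right_ne_zero_of_mul h0)]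
    omega
  refine ⟨fun h0 => ?_, hord⟩
  rw [hA] at h0
  have h1 : algebraMap K F (P.eval α) = -((t - algebraMap K F α) * Polynomial.aeval t Q) :=
    eq_neg_of_add_eq_zero_left h0
  have h2 := congrArg v.ord h1
  rw [Curve.ord_algebraMap, Curve.ord_neg] at h2
  have hQ0 : Polynomial.aeval t Q ≠ 0 := by
    intro h; rw [h, mul_zero, neg_zero] at h1; exact hc h1
  rw [v.ord_mul hne hQ0] at h2
  have := Curve.ord_nonneg_of_mem v hQmem
  omega

omit [CharZero K] in
theorem aeval_ne_zero_of_ord_pos {v : Place K F} {t : F} {α : K}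
    (hpos : 0 < v.ord (t - algebraMap K F α)) {P : Polynomial K} (hP : P ≠ 0) :
    Polynomial.aeval t P ≠ 0 := by
  intro h
  have hal : IsAlgebraic K t := ⟨P, hP, h⟩
  have h1 : IsAlgebraic K (t - algebraMap K F α) := hal.sub (isAlgebraic_algebraMap α)
  have := Curve.ord_eq_zero_of_isAlgebraic v h1
  omega

omit [CharZero K] in
/-- If `(J - c) t^a = (t - α)^m · R(t)` with `R(α) ≠ 0` and `v (J - c) ≤ m`, then
`v (t - α) = 1`. -/
theorem ord_eq_one_of_factor {v : Place K F} {J t : F} {α c : K} {a m : ℕ} {R : Polynomial K}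
    (hα : α ≠ 0) (hpos : 0 < v.ord (t - algebraMap K F α)) (hm : 0 < m)
    (hle : v.ord (J - algebraMap K F c) ≤ m) (hR : R.eval α ≠ 0)
    (hrel : (J - algebraMap K F c) * t ^ a = (t - algebraMap K F α) ^ m * Polynomial.aeval t R) :
    v.ord (t - algebraMap K F α) = 1 := by
  obtain ⟨hR0, hRord⟩ := ord_aeval_eq_zero hpos hR
  obtain ⟨ht0, htord⟩ := ord_aeval_eq_zero (P := Polynomial.X) hpos (by simpa using hα)
  rw [Polynomial.aeval_X] at ht0 htord
  have hne : t - algebraMap K F α ≠ 0 := fun h0 => by rw [h0, Place.ord_zero] at hpos; omega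
  have hJ : J - algebraMap K F c ≠ 0 := by
    intro h0
    rw [h0, zero_mul] at hrel
    exact mul_ne_zero (pow_ne_zero _ hne) hR0 hrel.symm
  have h := congrArg v.ord hrel
  rw [v.ord_mul hJ (pow_ne_zero _ ht0), v.ord_mul (pow_ne_zero _ hne) hR0, Curve.ord_pow,
    Curve.ord_pow, hRord, htord, mul_zero, add_zero, add_zero] at h
  rw [h] at hle
  nlinarith

/-- Above a `j`-ramified function, `t` with `j t² = (t + 256)³` is only branched at `0`, `-64`. -/
theorem ord_sub_eq_one_of_t2_relation {v : Place K F} {J t : F} (hJ : JRamified v J)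
    (hrel : J * t ^ 2 = (t + 256) ^ 3) {α : K} (h0 : α ≠ 0) (h64 : α ≠ -64)
    (hpos : 0 < v.ord (t - algebraMap K F α)) : v.ord (t - algebraMap K F α) = 1 := by
  by_cases h256 : α = -256
  · subst h256
    refine ord_eq_one_of_factor (c := 0) (a := 2) (m := 3) (R := 1) h0 hpos (by norm_num)
      (by rw [map_zero, sub_zero]; exact_mod_cast hJ.le_three) (by simp) ?_
    simp only [map_zero, sub_zero, map_neg, map_ofNat, map_one, mul_one]
    rw [hrel]; ring
  by_cases h512 : α = 512
  · subst h512
    refine ord_eq_one_of_factor (c := 1728) (a := 2) (m := 2)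
      (R := Polynomial.X + Polynomial.C 64) h0 hpos (by norm_num)
      (by exact_mod_cast hJ.le_two) (by norm_num) ?_
    simp only [map_ofNat, map_add, Polynomial.aeval_X]
    linear_combination hrel
  set β : K := (α + 256) ^ 3 / α ^ 2 with hβ
  have hβ' : β * α ^ 2 = (α + 256) ^ 3 := by rw [hβ]; field_simp
  have hβ0 : β ≠ 0 := fun h => h256 (by
    rw [h, zero_mul] at hβ'
    exact eq_neg_of_add_eq_zero_left (eq_zero_of_pow_eq_zero hβ'.symm))
  have hβ1 : β ≠ 1728 := fun h => by
    have h' : (α + 64) * (α - 512) ^ 2 = 0 := by rw [h] at hβ'; linear_combination -hβ'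
    rcases mul_eq_zero.1 h' with h' | h'
    · exact h64 (eq_neg_of_add_eq_zero_left h')
    · exact h512 (sub_eq_zero.1 (eq_zero_of_pow_eq_zero h'))
  set R : Polynomial K := Polynomial.X ^ 2 + Polynomial.C (α + 768 - β) * Polynomial.X +
    Polynomial.C (196608 + α * (α + 768 - β))
  refine ord_eq_one_of_factor (c := β) (a := 2) (m := 1) (R := R) h0 hpos one_pos
    (by exact_mod_cast hJ.le_one β hβ0 hβ1) ?_ ?_
  · -- the derivative of `(X + 256)³ - β X²` does not vanish at `α`
    intro hR
    have h1 : 3 * α ^ 2 + 2 * (768 - β) * α + 196608 = 0 := by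
      have : R.eval α = 0 := hR
      simp only [R, Polynomial.eval_add, Polynomial.eval_mul, Polynomial.eval_pow,
        Polynomial.eval_X, Polynomial.eval_C] at this
      linear_combination this
    have h2 : (α + 256) ^ 2 * (α - 512) = 0 := by linear_combination α * h1 + 2 * hβ'
    rcases mul_eq_zero.1 h2 with h2 | h2
    · exact h256 (eq_neg_of_add_eq_zero_left (eq_zero_of_pow_eq_zero h2))
    · exact h512 (sub_eq_zero.1 h2)
  · have hβ'' : algebraMap K F β * algebraMap K F α ^ 2 = (algebraMap K F α + 256) ^ 3 := by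
      simpa [map_ofNat] using congrArg (algebraMap K F) hβ'
    simp only [R, map_add, map_sub, map_mul, map_pow, map_ofNat, Polynomial.aeval_X,
      Polynomial.aeval_C, pow_one]
    linear_combination hrel - hβ''

/-- Above a `j`-ramified function, `t` with `j t³ = (t + 27)(t + 243)³` is only branched at `0`,
`-27`. -/
theorem ord_sub_eq_one_of_t3_relation {v : Place K F} {J t : F} (hJ : JRamified v J)
    (hrel : J * t ^ 3 = (t + 27) * (t + 243) ^ 3) {α : K} (h0 : α ≠ 0) (h27 : α ≠ -27)
    (hpos : 0 < v.ord (t - algebraMap K F α)) : v.ord (t - algebraMap K F α) = 1 := by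
  by_cases h243 : α = -243
  · subst h243
    refine ord_eq_one_of_factor (c := 0) (a := 3) (m := 3)
      (R := Polynomial.X + Polynomial.C 27) h0 hpos (by norm_num)
      (by rw [map_zero, sub_zero]; exact_mod_cast hJ.le_three) (by norm_num) ?_
    simp only [map_zero, sub_zero, map_neg, map_ofNat, map_add, Polynomial.aeval_X]
    rw [hrel]; ring
  by_cases hs : α ^ 2 - 486 * α - 19683 = 0
  · refine ord_eq_one_of_factor (c := 1728) (a := 3) (m := 2)
      (R := (Polynomial.X + Polynomial.C (α - 486)) ^ 2) h0 hpos (by norm_num)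
      (by exact_mod_cast hJ.le_two) ?_ ?_
    · simp only [Polynomial.eval_pow, Polynomial.eval_add, Polynomial.eval_X, Polynomial.eval_C]
      refine pow_ne_zero _ fun h => ?_
      have h' : (78732 : K) = 0 := by linear_combination ((α - 243) / 2) * h - hs
      norm_num at h'
    · have hs' : algebraMap K F α ^ 2 - 486 * algebraMap K F α - 19683 = 0 := by
        simpa [map_ofNat] using congrArg (algebraMap K F) hs
      simp only [map_ofNat, map_pow, map_add, map_sub, Polynomial.aeval_X, Polynomial.aeval_C]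
      rw [← mul_pow]
      have e : (t - algebraMap K F α) * (t + (algebraMap K F α - 486)) =
          t ^ 2 - 486 * t - 19683 := by linear_combination -hs'
      rw [e]
      linear_combination hrel
  set β : K := (α + 27) * (α + 243) ^ 3 / α ^ 3 with hβ
  have hβ' : β * α ^ 3 = (α + 27) * (α + 243) ^ 3 := by rw [hβ]; field_simp
  have hβ0 : β ≠ 0 := fun h => by
    rw [h, zero_mul] at hβ'
    rcases mul_eq_zero.1 hβ'.symm with h' | h'
    · exact h27 (eq_neg_of_add_eq_zero_left h')
    · exact h243 (eq_neg_of_add_eq_zero_left (eq_zero_of_pow_eq_zero h'))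
  have hβ1 : β ≠ 1728 := fun h => by
    rw [h] at hβ'
    refine hs (eq_zero_of_pow_eq_zero (n := 2) ?_)
    linear_combination -hβ'
  set R : Polynomial K := Polynomial.X ^ 3 + Polynomial.C (α + 756 - β) * Polynomial.X ^ 2 +
    Polynomial.C (196830 + α * (α + 756 - β)) * Polynomial.X +
    Polynomial.C (19131876 + α * (196830 + α * (α + 756 - β)))
  refine ord_eq_one_of_factor (c := β) (a := 3) (m := 1) (R := R) h0 hpos one_pos
    (by exact_mod_cast hJ.le_one β hβ0 hβ1) ?_ ?_
  · intro hR
    have h1 : 4 * α ^ 3 + 3 * (756 - β) * α ^ 2 + 393660 * α + 19131876 = 0 := by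
      have : R.eval α = 0 := hR
      simp only [R, Polynomial.eval_add, Polynomial.eval_mul, Polynomial.eval_pow,
        Polynomial.eval_X, Polynomial.eval_C] at this
      linear_combination this
    have h2 : (α + 243) ^ 2 * (α ^ 2 - 486 * α - 19683) = 0 := by
      linear_combination α * h1 + 3 * hβ'
    rcases mul_eq_zero.1 h2 with h2 | h2
    · exact h243 (eq_neg_of_add_eq_zero_left (eq_zero_of_pow_eq_zero h2))
    · exact hs h2
  · have hβ'' : algebraMap K F β * algebraMap K F α ^ 3 =
        (algebraMap K F α + 27) * (algebraMap K F α + 243) ^ 3 := by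
      simpa [map_ofNat] using congrArg (algebraMap K F) hβ'
    simp only [R, map_add, map_sub, map_mul, map_pow, map_ofNat, Polynomial.aeval_X,
      Polynomial.aeval_C, pow_one]
    linear_combination hrel - hβ'' 

end Cover

section Modular

local notation "Qbar" => AlgebraicClosure ℚ

variable {M : ℕ} [NeZero M] (P : Place Qbar (modularFunctionFieldBar M))

theorem jRamified_modularFunctionFieldC (v : Place ℂ (modularFunctionFieldC ℂ M)) :
    JRamified v (Places.x0Model M).jF := by
  have key : ∀ (c : ℂ) (m : ℕ), (∀ τ, ModFun.jfun τ = c → Places.ellPeriod ⊤ τ = m) →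
      v.ord ((Places.x0Model M).jF - algebraMap ℂ _ c) ≤ m := by
    intro c m hc
    rcases le_or_gt (v.ord ((Places.x0Model M).jF - algebraMap ℂ _ c)) 0 with h | h
    · exact h.trans (by positivity)
    obtain ⟨τ, hτ, rfl⟩ := ((Places.x0Model M).ord_jF_sub_pos_iff v c).1 h
    have h2 := (Places.x0Model M).ord_jF_sub_jfun τ
    rw [hc τ hτ, hτ] at h2
    have h3 := Places.ellPeriod_pos (Places.x0Model M).neg_one_mem τ
    nlinarith
  refine ⟨?_, ?_, fun c h0 h1 => (Places.x0Model M).ord_jF_sub_le_one v h0 h1⟩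
  · have h := key 0 3 fun τ hτ => by rw [Places.ellPeriod_top_eq, if_pos hτ]
    rw [map_zero, sub_zero] at h
    exact_mod_cast h
  · exact_mod_cast key 1728 2 fun τ hτ => by
      rw [Places.ellPeriod_top_eq, hτ, if_neg (by norm_num), if_pos rfl]

theorem jRamified_jBar : JRamified P (jBar M) := by
  haveI : Algebra.IsAlgebraic ℚ Qbar := AlgebraicClosure.isAlgebraic ℚ
  let ι : Qbar →+* ℂ := (IsAlgClosed.lift : Qbar →ₐ[ℚ] ℂ).toRingHom
  letI : Algebra Qbar ℂ := ι.toAlgebra
  letI : Algebra Qbar (modularFunctionFieldC ℂ M) :=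
    ((algebraMap ℂ (modularFunctionFieldC ℂ M)).comp ι).toAlgebra
  letI : Algebra (modularFunctionFieldBar M) (modularFunctionFieldC ℂ M) :=
    (ModFun.barToC M ι).toAlgebra
  haveI : IsScalarTower Qbar ℂ (modularFunctionFieldC ℂ M) := IsScalarTower.of_algebraMap_eq' rfl
  haveI : IsScalarTower Qbar (modularFunctionFieldBar M) (modularFunctionFieldC ℂ M) := by
    refine IsScalarTower.of_algebraMap_eq fun a => Subtype.ext ?_
    show algebraMap ℂ (LaurentSeries ℂ) (ι a) = coeffMap ι (algebraMap Qbar (LaurentSeries Qbar) a)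
    rw [algebraMap_laurentSeries_eq_single, algebraMap_laurentSeries_eq_single, coeffMap_single]
  have h : ∀ x : modularFunctionFieldBar M,
      ((algebraMap (modularFunctionFieldBar M) (modularFunctionFieldC ℂ M) x :
        modularFunctionFieldC ℂ M) : LaurentSeries ℂ) = coeffMap ι (x : LaurentSeries Qbar) :=
    fun _ => rfl
  haveI : Curve.IsConstExt Qbar (modularFunctionFieldBar M) ℂ (modularFunctionFieldC ℂ M) := by
    refine Curve.isConstExt_laurent h (IntermediateField.adjoin.mono _ _ _ ?_)
    have hj : ∀ (d : ℕ) (_ : NeZero d), d ∣ M → qExpand ℂ d (jqModC ℂ) ∈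
        coeffMap ι '' (modularFunctionFieldBar M : Set (LaurentSeries Qbar)) := by
      intro d _ hd
      refine ⟨coeffEmb Qbar (qExpand ℚ d jq),
        coeffEmb_mem_laurentBaseChange _ (jqd_mem_full M hd), ?_⟩
      rw [coeffEmb, ← jqModC_rat, coeffMap_coeffMap, ModularCurve.coeffMap_qExpand,
        coeffMap_jqModC]
    rintro x (rfl | rfl)
    · have h1 := hj 1 inferInstance (one_dvd M)
      rw [qExpand_one_apply] at h1
      exact h1
    · exact hj M inferInstance dvd_rfl
  have hC := jRamified_modularFunctionFieldC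
    (Curve.placeExt ℂ (modularFunctionFieldC ℂ M) P)
  have hjeq : algebraMap (modularFunctionFieldBar M) (modularFunctionFieldC ℂ M) (jBar M) =
      (Places.x0Model M).jF := by
    refine Subtype.ext ?_
    rw [h, coe_jBar, Places.x0Model_jF, coeffEmb, ← jqModC_rat, coeffMap_coeffMap, coeffMap_jqModC]
  have hord : ∀ c : Qbar, P.ord (jBar M - algebraMap _ _ c) =
      (Curve.placeExt ℂ (modularFunctionFieldC ℂ M) P).ord
        ((Places.x0Model M).jF - algebraMap ℂ _ (ι c)) := by
    intro c
    rw [← Curve.ord_placeExt (Ω := ℂ) (E := modularFunctionFieldC ℂ M) P, map_sub, hjeq,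
      ← IsScalarTower.algebraMap_apply, IsScalarTower.algebraMap_apply Qbar ℂ]
    rfl
  refine ⟨?_, ?_, fun c h0 h1 => ?_⟩
  · have h' := hord 0
    rw [map_zero, map_zero, map_zero, sub_zero, sub_zero] at h'
    rw [h']
    exact hC.le_three
  · rw [hord 1728, map_ofNat]
    exact hC.le_two
  · rw [hord c]
    exact hC.le_one _ ((map_ne_zero ι).2 h0) fun hh => h1 (ι.injective (by rw [hh, map_ofNat]))

/-- `j` on `X₀(M)` is only branched at `0`, `1728`. -/
theorem ord_jBar_sub_eq_one {α : Qbar} (h0 : α ≠ 0) (h1728 : α ≠ 1728)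
    (hpos : 0 < P.ord (jBar M - algebraMap _ _ α)) :
    P.ord (jBar M - algebraMap _ _ α) = 1 := by
  have h := (jRamified_jBar P).le_one α h0 h1728
  omega

theorem coeffEmb_jq_bar : coeffEmb Qbar jq = jqModC Qbar := by
  rw [coeffEmb, ← jqModC_rat, coeffMap_jqModC]

theorem jBar_mul_t2Bar (hM : 2 ∣ M) :
    jBar M * t2Bar M hM ^ 2 = (t2Bar M hM + 256) ^ 3 := by
  apply (modularFunctionFieldBar M).val.injective
  simp only [map_mul, map_pow, map_add, map_ofNat]
  show coeffEmb Qbar jq * _ = _
  rw [coeffEmb_jq_bar]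
  exact jq_mul_t2Series Qbar

theorem jBar_mul_t3Bar (hM : 3 ∣ M) :
    jBar M * t3Bar M hM ^ 3 = (t3Bar M hM + 27) * (t3Bar M hM + 243) ^ 3 := by
  apply (modularFunctionFieldBar M).val.injective
  simp only [map_mul, map_pow, map_add, map_ofNat]
  show coeffEmb Qbar jq * _ = _
  rw [coeffEmb_jq_bar]
  exact jq_mul_t3Series Qbar

/-- `t₂` on `X₀(M)`, `2 ∣ M`, is only branched at `0`, `-64`. -/
theorem ord_t2Bar_sub_eq_one (hM : 2 ∣ M) {α : Qbar} (h0 : α ≠ 0) (h64 : α ≠ -64)
    (hpos : 0 < P.ord (t2Bar M hM - algebraMap _ _ α)) :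
    P.ord (t2Bar M hM - algebraMap _ _ α) = 1 :=
  ord_sub_eq_one_of_t2_relation (jRamified_jBar P) (jBar_mul_t2Bar hM) h0 h64 hpos

/-- `t₃` on `X₀(M)`, `3 ∣ M`, is only branched at `0`, `-27`. -/
theorem ord_t3Bar_sub_eq_one (hM : 3 ∣ M) {α : Qbar} (h0 : α ≠ 0) (h27 : α ≠ -27)
    (hpos : 0 < P.ord (t3Bar M hM - algebraMap _ _ α)) :
    P.ord (t3Bar M hM - algebraMap _ _ α) = 1 :=
  ord_sub_eq_one_of_t3_relation (jRamified_jBar P) (jBar_mul_t3Bar hM) h0 h27 hpos

end Modular

end Fermat.Agent.Igusa

end
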