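/-
Laurent series which are quotients of `A`-integral series by series with non-zero reduction, and
their reduction.
-/
import Fermat.Prelude.Def_ModularCurve_LaurentCoeff
import Mathlib.RingTheory.Valuation.ValuationSubring
import Mathlib.Algebra.Polynomial.AlgebraMap
import Mathlib.RingTheory.LocalRing.ResidueField.Basic

set_option autoImplicit false

noncomputable section

namespace Fermat.Agent.Igusa

open ModularCurve

variable {K : Type*} [Field K] (A : ValuationSubring K)

theorem coeffMap_subtype_injective : Function.Injective (coeffMap A.subtype) := by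
  intro x y h
  ext k
  simpa using congrArg (fun s => s.coeff k) h

theorem coeffMap_residue_ne_zero_imp {v : LaurentSeries A}
    (h : coeffMap (IsLocalRing.residue A) v ≠ 0) : coeffMap A.subtype v ≠ 0 := fun h0 =>
  h (by rw [coeffMap_subtype_injective A (h0.trans (map_zero (coeffMap A.subtype)).symm), map_zero])

/-- quotients of integral series, the denominator with non-zero reduction -/
def quotSeries : Subring (LaurentSeries K) where
  carrier := {x | ∃ u v : LaurentSeries A, coeffMap (IsLocalRing.residue A) v ≠ 0 ∧
    x * coeffMap A.subtype v = coeffMap A.subtype u}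
  zero_mem' := ⟨0, 1, by simp, by simp⟩
  one_mem' := ⟨1, 1, by simp, by simp⟩
  add_mem' := by
    rintro x y ⟨u, v, hv, h⟩ ⟨u', v', hv', h'⟩
    refine ⟨u * v' + u' * v, v * v', by rw [map_mul]; exact mul_ne_zero hv hv', ?_⟩
    simp only [map_mul, map_add, ← h, ← h']
    ring
  neg_mem' := by
    rintro x ⟨u, v, hv, h⟩
    exact ⟨-u, v, hv, by rw [map_neg, ← h, neg_mul]⟩
  mul_mem' := by
    rintro x y ⟨u, v, hv, h⟩ ⟨u', v', hv', h'⟩
    refine ⟨u * u', v * v', by rw [map_mul]; exact mul_ne_zero hv hv', ?_⟩
    simp only [map_mul, ← h, ← h']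
    ring

theorem coeffMap_mem_quotSeries (u : LaurentSeries A) :
    coeffMap A.subtype u ∈ quotSeries A :=
  ⟨u, 1, by simp, by simp⟩

/-- numerator -/
def quotSeriesNum (x : quotSeries A) : LaurentSeries A := x.2.choose

/-- denominator -/
def quotSeriesDen (x : quotSeries A) : LaurentSeries A := x.2.choose_spec.choose

theorem quotSeriesDen_ne (x : quotSeries A) :
    coeffMap (IsLocalRing.residue A) (quotSeriesDen A x) ≠ 0 :=
  x.2.choose_spec.choose_spec.1

theorem quotSeries_mul_den (x : quotSeries A) :
    (x : LaurentSeries K) * coeffMap A.subtype (quotSeriesDen A x) =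
      coeffMap A.subtype (quotSeriesNum A x) :=
  x.2.choose_spec.choose_spec.2

theorem reduction_unique {x : LaurentSeries K} {u v u' v' : LaurentSeries A}
    (h : x * coeffMap A.subtype v = coeffMap A.subtype u)
    (h' : x * coeffMap A.subtype v' = coeffMap A.subtype u') :
    coeffMap (IsLocalRing.residue A) u * coeffMap (IsLocalRing.residue A) v' =
      coeffMap (IsLocalRing.residue A) u' * coeffMap (IsLocalRing.residue A) v := by
  rw [← map_mul, ← map_mul]
  refine congrArg _ (coeffMap_subtype_injective A ?_)
  rw [map_mul, map_mul, ← h, ← h']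
  ring

/-- the function underlying the reduction of quotients of integral series -/
def redFun (x : quotSeries A) : LaurentSeries (IsLocalRing.ResidueField A) :=
  coeffMap (IsLocalRing.residue A) (quotSeriesNum A x) /
    coeffMap (IsLocalRing.residue A) (quotSeriesDen A x)

theorem redFun_eq_div (x : quotSeries A) (u v : LaurentSeries A)
    (hv : coeffMap (IsLocalRing.residue A) v ≠ 0)
    (h : (x : LaurentSeries K) * coeffMap A.subtype v = coeffMap A.subtype u) :
    redFun A x = coeffMap (IsLocalRing.residue A) u / coeffMap (IsLocalRing.residue A) v := by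
  rw [redFun, div_eq_div_iff (quotSeriesDen_ne A x) hv]
  exact reduction_unique A (x := (x : LaurentSeries K)) (quotSeries_mul_den A x) h

theorem redFun_add (x y : quotSeries A) : redFun A (x + y) = redFun A x + redFun A y := by
  have hv : coeffMap (IsLocalRing.residue A) (quotSeriesDen A x * quotSeriesDen A y) ≠ 0 := by
    rw [map_mul]
    exact mul_ne_zero (quotSeriesDen_ne A x) (quotSeriesDen_ne A y)
  rw [redFun_eq_div A (x + y)
      (quotSeriesNum A x * quotSeriesDen A y + quotSeriesDen A x * quotSeriesNum A y)
      (quotSeriesDen A x * quotSeriesDen A y) hv (by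
        rw [map_add, map_mul, map_mul, map_mul, ← quotSeries_mul_den A x,
          ← quotSeries_mul_den A y, Subring.coe_add]
        ring)]
  rw [redFun, redFun, div_add_div _ _ (quotSeriesDen_ne A x) (quotSeriesDen_ne A y), map_add,
    map_mul, map_mul, map_mul]

theorem redFun_mul (x y : quotSeries A) : redFun A (x * y) = redFun A x * redFun A y := by
  have hv : coeffMap (IsLocalRing.residue A) (quotSeriesDen A x * quotSeriesDen A y) ≠ 0 := by
    rw [map_mul]
    exact mul_ne_zero (quotSeriesDen_ne A x) (quotSeriesDen_ne A y)
  rw [redFun_eq_div A (x * y) (quotSeriesNum A x * quotSeriesNum A y)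
      (quotSeriesDen A x * quotSeriesDen A y) hv (by
        rw [map_mul, map_mul, ← quotSeries_mul_den A x,
          ← quotSeries_mul_den A y, Subring.coe_mul]
        ring)]
  rw [redFun, redFun, div_mul_div_comm, map_mul, map_mul]

theorem redFun_one : redFun A 1 = 1 := by
  rw [redFun_eq_div A 1 1 1 (by rw [map_one]; exact one_ne_zero)
    (by rw [Subring.coe_one, one_mul]), map_one, div_one]

theorem redFun_zero : redFun A 0 = 0 := by
  rw [redFun_eq_div A 0 0 1 (by rw [map_one]; exact one_ne_zero)
    (by rw [Subring.coe_zero, zero_mul, map_zero]), map_zero, zero_div]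

/-- reduction of quotients of integral series -/
def redSeries : quotSeries A →+* LaurentSeries (IsLocalRing.ResidueField A) where
  toFun := redFun A
  map_one' := redFun_one A
  map_zero' := redFun_zero A
  map_add' := redFun_add A
  map_mul' := redFun_mul A

theorem redSeries_eq_div {x : LaurentSeries K} (hx : x ∈ quotSeries A) {u v : LaurentSeries A}
    (hv : coeffMap (IsLocalRing.residue A) v ≠ 0)
    (h : x * coeffMap A.subtype v = coeffMap A.subtype u) :
    redSeries A ⟨x, hx⟩ =
      coeffMap (IsLocalRing.residue A) u / coeffMap (IsLocalRing.residue A) v :=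
  redFun_eq_div A ⟨x, hx⟩ u v hv h

theorem redSeries_coeffMap (u : LaurentSeries A) :
    redSeries A ⟨coeffMap A.subtype u, coeffMap_mem_quotSeries A u⟩ =
      coeffMap (IsLocalRing.residue A) u := by
  rw [redSeries_eq_div A (coeffMap_mem_quotSeries A u) (v := 1) (u := u)
    (by rw [map_one]; exact one_ne_zero) (by rw [map_one, mul_one]), map_one, div_one]

/-- evaluation of an integral polynomial at an integral series commutes with coefficient maps -/
theorem coeffMap_eval₂ {R S : Type*} [CommRing R] [CommRing S] (f : R →+* S) (P : Polynomial R)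
    (u : LaurentSeries R) :
    coeffMap f (P.eval₂ HahnSeries.C u) = (P.map f).eval₂ HahnSeries.C (coeffMap f u) := by
  rw [Polynomial.hom_eval₂, Polynomial.eval₂_map]
  congr 1
  ext r : 1
  exact (coeffMap_single f 0 r)

end Fermat.Agent.Igusa

end
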