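/-
`j_N` is a simple root of the modular polynomial in every characteristic.
-/
import Fermat.Agent.ModFun.ModularPolynomial
import Fermat.Prelude.Def_ModularCurve_X0ModL

set_option autoImplicit false

noncomputable section

namespace Fermat.Agent.Igusa

open ModularCurve Polynomial Fermat.Agent.ModFun

/-- substitute `X = j` in an integral polynomial -/
def evalJR (R : Type*) [CommRing R] : Polynomial ℤ →+* LaurentSeries R :=
  Polynomial.eval₂RingHom (Int.castRingHom (LaurentSeries R)) (jqModC R)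

/-- the value at `(j, j_N)` of the `Y`-derivative of the modular polynomial -/
def derivAtJ (R : Type*) [CommRing R] {N : ℕ} [NeZero N] (data : ModularPolynomialData N) :
    LaurentSeries R :=
  data.Φ.derivative.eval₂ (evalJR R) (jqNModC R N)

variable {N : ℕ} [NeZero N]

theorem coeffMap_comp_evalJR {R S : Type*} [CommRing R] [CommRing S] (f : R →+* S) :
    (coeffMap f).comp (evalJR R) = evalJR S := by
  refine Polynomial.ringHom_ext' (Subsingleton.elim _ _) ?_
  rw [RingHom.comp_apply, evalJR, evalJR, coe_eval₂RingHom, coe_eval₂RingHom, eval₂_X, eval₂_X,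
    coeffMap_jqModC]

theorem coeffMap_derivAtJ {R S : Type*} [CommRing R] [CommRing S] (f : R →+* S)
    (data : ModularPolynomialData N) : coeffMap f (derivAtJ R data) = derivAtJ S data := by
  rw [derivAtJ, derivAtJ, Polynomial.hom_eval₂, coeffMap_comp_evalJR, coeffMap_jqNModC]

theorem coeff_qExpand_twist (M : ℕ) [NeZero M] (u : ℂˣ) :
    (qExpand ℂ M (twist u (jqModC ℂ))).coeff (-(M : ℤ)) = (u : ℂ)⁻¹ ∧
      ∀ k : ℤ, k < -(M : ℤ) → (qExpand ℂ M (twist u (jqModC ℂ))).coeff k = 0 := by
  refine ⟨?_, fun k hk => ?_⟩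
  · rw [show -(M : ℤ) = (M : ℤ) * (-1) by ring, qExpand_coeff_mul, twist_coeff,
      coeff_jqModC_neg_one, mul_one, zpow_neg_one]
  · by_cases hd : (M : ℤ) ∣ k
    · obtain ⟨m, rfl⟩ := hd
      rw [qExpand_coeff_mul, twist_coeff]
      have hM : (0 : ℤ) < M := by exact_mod_cast Nat.pos_of_ne_zero (NeZero.ne M)
      have hm : m < -1 := by
        by_contra hcon
        push Not at hcon
        have := mul_le_mul_of_nonneg_left hcon hM.le
        omega
      rw [coeff_jqModC_of_lt ℂ hm, mul_zero]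
    · exact qExpand_coeff_of_not_dvd _ _ hd

theorem conjSeries_of_pos {a b d : ℕ} (ha : a ≠ 0) :
    conjSeries (a, b, d) = (haveI : NeZero (a * a) := ⟨mul_ne_zero ha ha⟩
      qExpand ℂ (a * a) (twist (zetaU d ^ b) (jqModC ℂ))) :=
  dif_neg ha

theorem conjSeries_top : conjSeries (N, 0, 1) = qExpand ℂ N (jqNModC ℂ N) := by
  rw [conjSeries_of_pos (NeZero.ne N), pow_zero]
  have h1 : twist 1 (jqModC ℂ) = jqModC ℂ := by
    ext k
    rw [twist_coeff]
    simp
  haveI : NeZero (N * N) := ⟨mul_ne_zero (NeZero.ne N) (NeZero.ne N)⟩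
  rw [h1, jqNModC, qExpand_qExpand]

theorem top_mem_hnfSet : (N, 0, 1) ∈ hnfSet N := by
  simp [hnfSet, Nat.pos_of_ne_zero (NeZero.ne N)]

theorem leadingCoeff_conj_sub {t : ℕ × ℕ × ℕ} (ht : t ∈ hnfSet N) (hne : t ≠ (N, 0, 1)) :
    (conjSeries (N, 0, 1) - conjSeries t).leadingCoeff = 1 := by
  obtain ⟨a, b, d⟩ := t
  simp only [hnfSet, Finset.mem_filter, Finset.mem_product, Finset.mem_range] at ht
  obtain ⟨-, had, hbd, -⟩ := ht
  have hN := NeZero.ne N
  have hd : d ≠ 0 := fun h => hN (by rw [← had, h, mul_zero])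
  have ha : a ≠ 0 := fun h => hN (by rw [← had, h, zero_mul])
  have hd2 : 2 ≤ d := by
    by_contra hcon
    have h1 : d = 1 := by omega
    subst h1
    apply hne
    have hb : b = 0 := by omega
    have : a = N := by simpa using had
    rw [hb, this]
  have halt : a < N := by
    have := Nat.mul_le_mul_left a hd2
    omega
  haveI : NeZero (a * a) := ⟨mul_ne_zero ha ha⟩
  haveI : NeZero (N * N) := ⟨mul_ne_zero hN hN⟩
  rw [conjSeries_of_pos hN, conjSeries_of_pos ha, pow_zero]
  have h0 := coeff_qExpand_twist (N * N) (1 : ℂˣ)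
  have h1 := coeff_qExpand_twist (a * a) (zetaU d ^ b)
  have hlt : -((N * N : ℕ) : ℤ) < -((a * a : ℕ) : ℤ) := by
    have : a * a < N * N := Nat.mul_self_lt_mul_self halt
    omega
  set x := qExpand ℂ (N * N) (twist 1 (jqModC ℂ))
  set y := qExpand ℂ (a * a) (twist (zetaU d ^ b) (jqModC ℂ))
  have hc : (x - y).coeff (-((N * N : ℕ) : ℤ)) = 1 := by
    rw [HahnSeries.coeff_sub, h0.1, h1.2 _ hlt]
    simp
  have hne' : x - y ≠ 0 := fun h => by simp [h] at hc
  have hord : (x - y).order = -((N * N : ℕ) : ℤ) := by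
    refine le_antisymm (HahnSeries.order_le_of_coeff_ne_zero (by rw [hc]; exact one_ne_zero)) ?_
    by_contra hcon
    push Not at hcon
    refine (HahnSeries.coeff_order_eq_zero.not.mpr hne') ?_
    rw [HahnSeries.coeff_sub, h0.2 _ hcon, h1.2 _ (hcon.trans hlt), sub_zero]
  rw [HahnSeries.leadingCoeff_eq, hord, hc]

theorem exists_coeff_derivAtJ_complex (data : ModularPolynomialData N) :
    ∃ m : ℤ, (derivAtJ ℂ data).coeff m = 1 := by
  classical
  have hcomp : (qExpand ℂ N).comp (evalJR ℂ) = Polynomial.eval₂RingHom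
      (Int.castRingHom (LaurentSeries ℂ)) (qExpand ℂ N (jqModC ℂ)) := by
    refine Polynomial.ringHom_ext' (Subsingleton.elim _ _) ?_
    rw [RingHom.comp_apply, evalJR, coe_eval₂RingHom, coe_eval₂RingHom, eval₂_X, eval₂_X]
  have key : qExpand ℂ N (derivAtJ ℂ data) =
      ∏ t ∈ (hnfSet N).erase (N, 0, 1), (conjSeries (N, 0, 1) - conjSeries t) := by
    rw [derivAtJ, Polynomial.hom_eval₂, hcomp, ← conjSeries_top, ← Polynomial.eval_map,
      ← Polynomial.derivative_map, map_Φ_jqModC data, derivative_prod_finset,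
      Polynomial.eval_finsetSum, Finset.sum_eq_single_of_mem (N, 0, 1) top_mem_hnfSet]
    · simp [Polynomial.eval_prod]
    · intro t _ hne
      simp only [derivative_X_sub_C, mul_one, Polynomial.eval_prod]
      exact Finset.prod_eq_zero (Finset.mem_erase.mpr ⟨Ne.symm hne, top_mem_hnfSet⟩) (by simp)
  have hlead : (qExpand ℂ N (derivAtJ ℂ data)).leadingCoeff = 1 := by
    rw [key]
    refine Finset.prod_induction _ (fun x : LaurentSeries ℂ => x.leadingCoeff = 1)
      (fun x y hx hy => by rw [HahnSeries.leadingCoeff_mul, hx, hy, mul_one])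
      HahnSeries.leadingCoeff_one fun t ht => ?_
    obtain ⟨hne, ht⟩ := Finset.mem_erase.mp ht
    exact leadingCoeff_conj_sub ht hne
  rw [HahnSeries.leadingCoeff_eq] at hlead
  by_cases hd : (N : ℤ) ∣ (qExpand ℂ N (derivAtJ ℂ data)).order
  · obtain ⟨m, hm⟩ := hd
    exact ⟨m, by rwa [hm, qExpand_coeff_mul] at hlead⟩
  · rw [qExpand_coeff_of_not_dvd _ _ hd] at hlead
    exact absurd hlead zero_ne_one

/-- `j_N` is a simple root of the modular polynomial over every field. -/
theorem derivAtJ_ne_zero (k : Type*) [Field k] (data : ModularPolynomialData N) :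
    derivAtJ k data ≠ 0 := by
  obtain ⟨m, hm⟩ := exists_coeff_derivAtJ_complex data
  rw [← coeffMap_derivAtJ (Int.castRingHom ℂ) data, coeffMap_coeff] at hm
  have h1 : (derivAtJ ℤ data).coeff m = 1 := by
    have : (((derivAtJ ℤ data).coeff m : ℤ) : ℂ) = 1 := hm
    exact_mod_cast this
  intro h0
  have := congrArg (fun s : LaurentSeries k => s.coeff m) h0
  rw [← coeffMap_derivAtJ (Int.castRingHom k) data] at this
  simp [h1] at this

end Fermat.Agent.Igusa

end
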