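/-
Residual linear algebra over valuation subrings: lifts of independent families, primitive
polynomials, and the characteristic polynomial of a multiplication.
-/
import Mathlib.RingTheory.Valuation.ValuationSubring
import Mathlib.FieldTheory.IntermediateField.Adjoin.Basic
import Mathlib.LinearAlgebra.Matrix.Charpoly.Minpoly
import Mathlib.LinearAlgebra.Charpoly.ToMatrix
import Mathlib.LinearAlgebra.Matrix.Charpoly.Basic
import Mathlib.RingTheory.Algebraic.Basic
import Mathlib.Algebra.BigOperators.Field

set_option autoImplicit false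

noncomputable section

namespace Fermat.Agent.Igusa

open Polynomial IntermediateField

section Residual

variable {L F Lb Fb : Type*} [Field L] [Field F] [Field Lb] [Field Fb] [Algebra L F]
  [Algebra Lb Fb] {V : ValuationSubring F} {φ : V →+* Fb}
  (hcompat : ∀ a : L, ∀ h : algebraMap L F a ∈ V, φ ⟨algebraMap L F a, h⟩ ∈ (algebraMap Lb Fb).range)

/-- among finitely many elements of `L` not all zero there is one dividing all the others in `V` -/
theorem exists_max_div {ι : Type*} [Fintype ι] (a : ι → L) (ha : ∃ i, a i ≠ 0) :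
    ∃ m, a m ≠ 0 ∧ ∀ i, algebraMap L F (a i / a m) ∈ V := by
  classical
  obtain ⟨i₀, hi₀⟩ := ha
  obtain ⟨m, -, hm⟩ := Finset.exists_max_image Finset.univ
    (fun i => V.valuation (algebraMap L F (a i))) ⟨i₀, Finset.mem_univ _⟩
  have hm0 : a m ≠ 0 := by
    intro h0
    have := hm i₀ (Finset.mem_univ _)
    rw [h0, map_zero, map_zero, le_zero_iff, map_eq_zero,
      map_eq_zero_iff _ (algebraMap L F).injective] at this
    exact hi₀ this
  refine ⟨m, hm0, fun i => ?_⟩
  rw [map_div₀, ← V.valuation_le_one_iff, map_div₀]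
  exact div_le_one_of_le₀ (hm i (Finset.mem_univ _)) zero_le'

include hcompat

theorem exists_reduced_relation {ι : Type*} [Fintype ι] (b : ι → V) (a : ι → L) (m : ι)
    (hm0 : a m ≠ 0) (hdiv : ∀ i, algebraMap L F (a i / a m) ∈ V) :
    ∃ β : ι → Lb, β m = 1 ∧
      ∃ h : (∑ i, a i • (b i : F)) / algebraMap L F (a m) ∈ V,
        φ ⟨_, h⟩ = ∑ i, β i • φ (b i) := by
  classical
  choose β hβ using fun i => hcompat (a i / a m) (hdiv i)
  refine ⟨Function.update β m 1, Function.update_self _ _ _, ?_⟩
  have hβm : algebraMap Lb Fb (β m) = 1 := by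
    rw [hβ m]
    have : (⟨algebraMap L F (a m / a m), hdiv m⟩ : V) = 1 := by
      apply Subtype.ext
      simp [div_self hm0]
    rw [this, map_one]
  have hsum : (∑ i, a i • (b i : F)) / algebraMap L F (a m) =
      ((∑ i, ⟨algebraMap L F (a i / a m), hdiv i⟩ * b i : V) : F) := by
    push_cast
    rw [Finset.sum_div]
    refine Finset.sum_congr rfl fun i _ => ?_
    rw [Algebra.smul_def, map_div₀]
    ring
  refine ⟨hsum ▸ SetLike.coe_mem _, ?_⟩
  have : (⟨_, hsum ▸ SetLike.coe_mem _⟩ : V) =
      ∑ i, ⟨algebraMap L F (a i / a m), hdiv i⟩ * b i := Subtype.ext hsum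
  rw [this, map_sum]
  refine Finset.sum_congr rfl fun i _ => ?_
  rw [map_mul, Algebra.smul_def]
  rcases eq_or_ne i m with rfl | hne
  · rw [Function.update_self, map_one, ← hβm, hβ]
  · rw [Function.update_of_ne hne, hβ]

/-- lifts of independent residues are independent -/
theorem linearIndependent_of_reduction {ι : Type*} [Fintype ι] (b : ι → V)
    (hb : LinearIndependent Lb fun i => φ (b i)) :
    LinearIndependent L fun i => (b i : F) := by
  rw [Fintype.linearIndependent_iff]
  intro a ha
  by_contra hne
  push Not at hne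
  obtain ⟨m, hm0, hdiv⟩ := exists_max_div (V := V) a hne
  obtain ⟨β, hβm, h, hφ⟩ := exists_reduced_relation hcompat b a m hm0 hdiv
  have h0 : (⟨_, h⟩ : V) = 0 := Subtype.ext (by simp [ha])
  rw [h0, map_zero] at hφ
  have := Fintype.linearIndependent_iff.mp hb β hφ.symm m
  rw [hβm] at this
  exact one_ne_zero this

/-- coordinates with respect to lifts of independent residues of an integral element are integral -/
theorem coeff_mem_of_reduction (hker : ∀ g : V, ¬ IsUnit g → φ g = 0) {ι : Type*} [Fintype ι]
    (b : ι → V) (hb : LinearIndependent Lb fun i => φ (b i)) (a : ι → L)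
    (hf : ∑ i, a i • (b i : F) ∈ V) (i : ι) : algebraMap L F (a i) ∈ V := by
  by_contra hi
  have hne : ∃ j, a j ≠ 0 := ⟨i, fun h => hi (by rw [h, map_zero]; exact zero_mem _)⟩
  obtain ⟨m, hm0, hdiv⟩ := exists_max_div (V := V) a hne
  obtain ⟨β, hβm, h, hφ⟩ := exists_reduced_relation hcompat b a m hm0 hdiv
  have hm0' : algebraMap L F (a m) ≠ 0 := by simpa using hm0
  have hmV : algebraMap L F (a m) ∉ V := fun hmV => hi (by
    have := mul_mem (hdiv i) hmV
    rwa [← map_mul, div_mul_cancel₀ _ hm0] at this)
  have hinv : (algebraMap L F (a m))⁻¹ ∈ V := (V.mem_or_inv_mem _).resolve_left hmV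
  have hnu : ¬ IsUnit (⟨_, h⟩ : V) := by
    have hinvnu : ¬ IsUnit (⟨_, hinv⟩ : V) := by
      intro hu
      obtain ⟨w, hw⟩ := hu.exists_right_inv
      have hw' : (algebraMap L F (a m))⁻¹ * (w : F) = 1 := congrArg Subtype.val hw
      have : (w : F) = algebraMap L F (a m) := by
        field_simp at hw'
        exact hw'
      exact hmV (this ▸ w.2)
    have hfac : (⟨_, h⟩ : V) = ⟨_, hf⟩ * ⟨_, hinv⟩ := Subtype.ext (div_eq_mul_inv _ _)
    rw [hfac]
    exact fun hu => hinvnu (isUnit_of_mul_isUnit_right hu)
  rw [hker _ hnu] at hφ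
  have := Fintype.linearIndependent_iff.mp hb β hφ.symm m
  rw [hβm] at this
  exact one_ne_zero this

/-- the residual degree is at most the degree -/
theorem finrank_le_of_reduction [Module.Finite L F] (E : Submodule Lb Fb)
    (hE : ∀ y ∈ E, y ∈ φ.range) :
    Module.Finite Lb E ∧ Module.finrank Lb E ≤ Module.finrank L F := by
  have key : ∀ (s : Finset E), LinearIndependent Lb (fun x : s => ((x : E) : Fb)) →
      s.card ≤ Module.finrank L F := by
    intro s hs
    choose b hb using fun x : s => hE _ (x : E).2
    have hind : LinearIndependent Lb fun x : s => φ (b x) := by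
      simpa [hb] using hs
    have := (linearIndependent_of_reduction hcompat b hind).fintype_card_le_finrank
    simpa using this
  have hrank : Module.rank Lb E ≤ Module.finrank L F := by
    refine rank_le fun s hs => key s ?_
    exact hs.map' E.subtype (Submodule.ker_subtype _)
  have hfin : Module.Finite Lb E :=
    Module.rank_lt_aleph0_iff.mp (hrank.trans_lt (Cardinal.natCast_lt_aleph0))
  refine ⟨hfin, ?_⟩
  rw [← Module.finrank_eq_rank] at hrank
  exact_mod_cast hrank

end Residual

section Primitive

variable {K : Type*} [Field K] (A : ValuationSubring K)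

/-- a non-zero polynomial is a constant times a primitive one -/
theorem exists_primitive_polynomial (P : Polynomial K) (hP : P ≠ 0) :
    ∃ (c : K) (Q : Polynomial A), c ≠ 0 ∧ Q.map (IsLocalRing.residue A) ≠ 0 ∧
      P = C c * Q.map A.subtype := by
  classical
  have hne : P.support.Nonempty := by rwa [Polynomial.support_nonempty]
  obtain ⟨i, hi, hmax⟩ := Finset.exists_max_image P.support (fun i => A.valuation (P.coeff i)) hne
  have hc : P.coeff i ≠ 0 := Polynomial.mem_support_iff.mp hi
  have hmem : ∀ n, (C (P.coeff i)⁻¹ * P).coeff n ∈ A := by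
    intro n
    rw [Polynomial.coeff_C_mul, ← A.valuation_le_one_iff, map_mul, map_inv₀]
    rcases eq_or_ne (P.coeff n) 0 with h0 | h0
    · simp [h0]
    · rw [inv_mul_le_one₀ ((Valuation.pos_iff _).mpr hc)]
      exact hmax n (Polynomial.mem_support_iff.mpr h0)
  have hlift : C (P.coeff i)⁻¹ * P ∈ Polynomial.lifts A.subtype :=
    (Polynomial.lifts_iff_coeff_lifts _).mpr fun n => ⟨⟨_, hmem n⟩, rfl⟩
  obtain ⟨Q, hQ⟩ := (Polynomial.mem_lifts _).mp hlift
  refine ⟨P.coeff i, Q, hc, fun h0 => ?_, ?_⟩
  · have h1 : (IsLocalRing.residue A) (Q.coeff i) = 0 := by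
      rw [← Polynomial.coeff_map, h0, Polynomial.coeff_zero]
    have h2 : Q.coeff i = 1 := by
      apply Subtype.ext
      have := congrArg (fun R => R.coeff i) hQ
      simp only [Polynomial.coeff_map, Polynomial.coeff_C_mul, inv_mul_cancel₀ hc] at this
      exact this
    rw [h2, map_one] at h1
    exact one_ne_zero h1
  · rw [hQ, ← mul_assoc, ← map_mul, mul_inv_cancel₀ hc, map_one, one_mul]

/-- normal form of the elements of `K(x)` -/
theorem exists_normalForm {F : Type*} [Field F] [Algebra K F] {x : F} {a : F} (ha : a ∈ K⟮x⟯)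
    (ha0 : a ≠ 0) :
    ∃ (c : K) (P Q : Polynomial A), c ≠ 0 ∧ P.map (IsLocalRing.residue A) ≠ 0 ∧
      Q.map (IsLocalRing.residue A) ≠ 0 ∧
      a = algebraMap K F c *
        (Polynomial.aeval x (P.map A.subtype) / Polynomial.aeval x (Q.map A.subtype)) := by
  obtain ⟨r, s, rfl⟩ := (IntermediateField.mem_adjoin_simple_iff K a).mp ha
  have hr : r ≠ 0 := fun h => ha0 (by simp [h])
  have hs : s ≠ 0 := fun h => ha0 (by simp [h])
  obtain ⟨c, P, hc, hP, rfl⟩ := exists_primitive_polynomial A r hr
  obtain ⟨d, Q, hd, hQ, rfl⟩ := exists_primitive_polynomial A s hs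
  refine ⟨c / d, P, Q, div_ne_zero hc hd, hP, hQ, ?_⟩
  rw [map_mul, map_mul, Polynomial.aeval_C, Polynomial.aeval_C, map_div₀, div_mul_div_comm]

end Primitive

section Charpoly

open Matrix Module

variable {E R : Type*} [Field E] [Field R] [Algebra E R]

theorem charpoly_blockDiagonal {S m o : Type*} [CommRing S] [Fintype m] [DecidableEq m]
    [Fintype o] [DecidableEq o] (M : o → Matrix m m S) :
    (blockDiagonal M).charpoly = ∏ i, (M i).charpoly := by
  have : charmatrix (blockDiagonal M) = blockDiagonal fun i => charmatrix (M i) := by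
    ext ⟨i, k⟩ ⟨j, k'⟩
    by_cases hk : k = k'
    · subst hk
      by_cases hij : i = j
      · subst hij; simp [blockDiagonal_apply_eq]
      · simp [blockDiagonal_apply_eq, hij]
    · simp [blockDiagonal_apply_ne _ _ _ hk, hk]
  rw [Matrix.charpoly, this, det_blockDiagonal]
  rfl

/-- the characteristic polynomial of a multiplication is a power of the minimal polynomial -/
theorem charpoly_leftMulMatrix_eq_minpoly_pow [FiniteDimensional E R] {ι : Type*} [Fintype ι]
    [DecidableEq ι] (b : Basis ι E R) (y : R) :
    ∃ r : ℕ, (Algebra.leftMulMatrix b y).charpoly = minpoly E y ^ r := by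
  classical
  have hy : IsIntegral E y := IsIntegral.of_finite E y
  let pb := IntermediateField.adjoin.powerBasis hy
  let c := Module.finBasis (IntermediateField.adjoin E {y}) R
  refine ⟨Module.finrank (IntermediateField.adjoin E {y}) R, ?_⟩
  have h1 : (Algebra.leftMulMatrix b y).charpoly =
      (Algebra.leftMulMatrix (pb.basis.smulTower c) y).charpoly := by
    rw [Algebra.leftMulMatrix_apply, Algebra.leftMulMatrix_apply, LinearMap.charpoly_toMatrix,
      LinearMap.charpoly_toMatrix]
  have h2 : algebraMap (IntermediateField.adjoin E {y}) R pb.gen = y := by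
    simp [pb, IntermediateField.adjoin.powerBasis_gen]
  have h3 := congrArg (Algebra.leftMulMatrix (pb.basis.smulTower c)) h2
  rw [h1, ← h3, Algebra.smulTower_leftMulMatrix_algebraMap, charpoly_blockDiagonal,
    Finset.prod_const, Finset.card_univ, Fintype.card_fin, charpoly_leftMulMatrix pb]
  rw [IntermediateField.adjoin.powerBasis_gen, IntermediateField.minpoly_gen]

end Charpoly

end Fermat.Agent.Igusa

end
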