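/-
The function field of `X₀(N)` over `ℚ̄` as the extension `ℚ̄(j)(j_N)`, and the valuation induced by
a slice.
-/
import Fermat.Agent.Igusa.JacobianSlice
import Fermat.Agent.Igusa.JacobianGauss
import Fermat.Agent.ModFun.Field
import Fermat.Agent.Curve.BasicModular
import Fermat.Prelude.Def_ModularCurve_ReductionModL

set_option autoImplicit false

noncomputable section

namespace Fermat.Agent.Igusa

open AlgebraicCurve ModularCurve IntermediateField Polynomial

set_option synthInstance.maxHeartbeats 400000

local notation "Qb" => AlgebraicClosure ℚ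

variable (N : ℕ) [NeZero N]

/-- the element `j_N` of the function field of `X₀(N)` over `ℚ̄` -/
def jNBar : modularFunctionFieldBar N :=
  ⟨coeffEmb Qb (qExpand ℚ N jq), coeffEmb_mem_laurentBaseChange _ (jqd_mem_full N dvd_rfl)⟩

theorem coeffEmb_jq : coeffEmb Qb jq = jqModC Qb := by
  rw [← jqModC_rat, coeffEmb, coeffMap_jqModC]

theorem coeffEmb_qExpand_jq (d : ℕ) [NeZero d] :
    coeffEmb Qb (qExpand ℚ d jq) = jqNModC Qb d := by
  rw [coeffEmb, coeffMap_qExpand, ← jqModC_rat, coeffMap_jqModC]; rfl

theorem coe_jBar' : (jBar N : LaurentSeries Qb) = jqModC Qb := by rw [coe_jBar, coeffEmb_jq]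

theorem coe_jNBar : (jNBar N : LaurentSeries Qb) = jqNModC Qb N := coeffEmb_qExpand_jq N

/-- `ℚ̄(j)` -/
abbrev JField : IntermediateField Qb (modularFunctionFieldBar N) :=
  IntermediateField.adjoin Qb {jBar N}

theorem adjoin_jBar_jNBar :
    IntermediateField.adjoin Qb ({jBar N, jNBar N} : Set (modularFunctionFieldBar N)) = ⊤ := by
  refine IntermediateField.lift_injective (modularFunctionFieldBar N) ?_
  show IntermediateField.lift _ = IntermediateField.lift _
  rw [IntermediateField.lift_adjoin, IntermediateField.lift_top, Set.image_pair, coe_jBar',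
    coe_jNBar]
  exact (Fermat.Agent.ModFun.laurentBaseChange_full_eq N Qb).symm

theorem adjoin_jNBar_eq_top : IntermediateField.adjoin (JField N) {jNBar N} = ⊤ := by
  rw [← IntermediateField.restrictScalars_eq_top_iff (K := Qb), adjoin_simple_adjoin_simple]
  exact adjoin_jBar_jNBar N

/-- substitute `X = j` in an integral polynomial -/
def evalJBar : Polynomial ℤ →+* modularFunctionFieldBar N :=
  Polynomial.eval₂RingHom (Int.castRingHom _) (jBar N)

theorem eval_phi_jNBar (data : ModularPolynomialData N) :
    data.Φ.eval₂ (evalJBar N) (jNBar N) = 0 := by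
  apply (modularFunctionFieldBar N).val.toRingHom.injective
  rw [map_zero, Polynomial.hom_eval₂,
    show (modularFunctionFieldBar N).val.toRingHom (jNBar N) = jqNModC Qb N from coe_jNBar N]
  refine Eq.trans ?_ (Fermat.Agent.ModFun.eval_modularPolynomial Qb data)
  refine Polynomial.eval₂_congr ?_ rfl rfl
  refine Polynomial.ringHom_ext' (Subsingleton.elim _ _) ?_
  simp only [evalJBar, RingHom.comp_apply, coe_eval₂RingHom, eval₂_X]
  exact coe_jBar' N

/-- substitute `X = j` in an integral polynomial, inside `ℚ̄(j)` -/
def evalJField : Polynomial ℤ →+* JField N :=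
  Polynomial.eval₂RingHom (Int.castRingHom _) ⟨jBar N, mem_adjoin_simple_self Qb _⟩

theorem algebraMap_comp_evalJField :
    (algebraMap (JField N) (modularFunctionFieldBar N)).comp (evalJField N) = evalJBar N := by
  refine Polynomial.ringHom_ext' (Subsingleton.elim _ _) ?_
  simp [evalJBar, evalJField]

theorem isIntegral_jNBar : IsIntegral (JField N) (jNBar N) := by
  obtain ⟨data⟩ := Fermat.Agent.ModFun.nonempty_modularPolynomialData N
  refine ⟨data.Φ.map (evalJField N), data.monic.map _, ?_⟩
  rw [Polynomial.eval₂_map, algebraMap_comp_evalJField]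
  exact eval_phi_jNBar N data

instance finite_jField : Module.Finite (JField N) (modularFunctionFieldBar N) := by
  have h1 := adjoin.finiteDimensional (isIntegral_jNBar N)
  have h2 : Module.Finite (JField N) (⊤ : IntermediateField (JField N) (modularFunctionFieldBar N)) := by
    rw [← adjoin_jNBar_eq_top N]; exact h1
  exact Module.Finite.equiv (IntermediateField.topEquiv (F := JField N)
    (E := modularFunctionFieldBar N)).toLinearEquiv

theorem natDegree_minpoly_jNBar :
    (minpoly (JField N) (jNBar N)).natDegree =
      Module.finrank (JField N) (modularFunctionFieldBar N) := by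
  rw [← IntermediateField.adjoin.finrank (isIntegral_jNBar N), adjoin_jNBar_eq_top,
    IntermediateField.finrank_top']

end Fermat.Agent.Igusa

end
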