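/-
The valuation on the function field of `X₀(N)` induced by a slice has residual degree equal to
the degree over `ℚ̄(j)`.
-/
import Fermat.Agent.Igusa.JacobianBase
import Fermat.Agent.Curve.ReductionLattice

set_option autoImplicit false

noncomputable section

namespace Fermat.Agent.Igusa.X0Slice

open AlgebraicCurve ModularCurve IntermediateField Polynomial

set_option synthInstance.maxHeartbeats 400000

local notation "Qb" => AlgebraicClosure ℚ
local notation "FN" N => modularFunctionFieldBar N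
local notation "kk" A => IsLocalRing.ResidueField A

variable {N : ℕ} [NeZero N] {A : ValuationSubring (AlgebraicClosure ℚ)} (S : X0Slice N A)

/-- the valuation subring induced on the function field of `X₀(N)` -/
def V₀ : ValuationSubring (FN N) := S.good.V.comap S.ι.toRingHom

theorem mem_V₀_iff {f : FN N} : f ∈ S.V₀ ↔ S.ι f ∈ S.good.V := Iff.rfl

/-- reduction, with values in the special fibre of the slice -/
def φ₀ : S.V₀ →+* S.Fb' where
  toFun f := S.good.φ ⟨S.ι (f : FN N), f.2⟩
  map_one' := by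
    refine Eq.trans (congrArg S.good.φ ?_) (map_one S.good.φ)
    exact Subtype.ext (map_one S.ι)
  map_zero' := by
    refine Eq.trans (congrArg S.good.φ ?_) (map_zero S.good.φ)
    exact Subtype.ext (map_zero S.ι)
  map_add' f g := by
    refine Eq.trans (congrArg S.good.φ ?_) (map_add S.good.φ _ _)
    exact Subtype.ext (map_add S.ι _ _)
  map_mul' f g := by
    refine Eq.trans (congrArg S.good.φ ?_) (map_mul S.good.φ _ _)
    exact Subtype.ext (map_mul S.ι _ _)

theorem φ₀_apply (f : S.V₀) : S.φ₀ f = S.good.φ ⟨S.ι (f : FN N), f.2⟩ := rfl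

theorem algebraMap_mem_iff {c : Qb} : algebraMap Qb (FN N) c ∈ S.V₀ ↔ c ∈ A := by
  rw [mem_V₀_iff, AlgHom.commutes, S.good.mem_V_iff]

/-- integral constants -/
def constV : A →+* S.V₀ :=
  ((algebraMap Qb (FN N)).comp A.subtype).codRestrict S.V₀.toSubring
    fun a => S.algebraMap_mem_iff.2 a.2

theorem coe_constV (a : A) : (S.constV a : FN N) = algebraMap Qb (FN N) (a : Qb) := rfl

theorem φ₀_constV (a : A) :
    S.φ₀ (S.constV a) = algebraMap (kk A) S.Fb' (IsLocalRing.residue A a) := by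
  rw [← S.good_π, ← S.good.φ_algebraMap a, φ₀_apply]
  exact congrArg S.good.φ (Subtype.ext (S.ι.commutes (a : Qb)))

theorem φ₀_eq_zero_of_not_isUnit {f : S.V₀} (hf : ¬ IsUnit f) : S.φ₀ f = 0 := by
  by_contra h
  apply hf
  have hu : IsUnit (⟨S.ι (f : FN N), f.2⟩ : S.good.V) := by
    by_contra hnu
    apply h
    rw [φ₀_apply]
    have hmax : (RingHom.ker S.good.φ).IsMaximal :=
      RingHom.ker_isMaximal_of_surjective S.good.φ S.good.φ_surjective
    exact RingHom.mem_ker.mp (by rwa [IsLocalRing.eq_maximalIdeal hmax, IsLocalRing.mem_maximalIdeal])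
  obtain ⟨w, hw⟩ := hu.exists_right_inv
  have hf0 : (f : FN N) ≠ 0 := by
    intro h0
    apply h
    rw [show f = 0 from Subtype.ext h0, map_zero]
  have hw' : S.ι (f : FN N) * (w : S.F') = 1 := congrArg Subtype.val hw
  have hinv : ((f : FN N))⁻¹ ∈ S.V₀ := by
    rw [mem_V₀_iff, map_inv₀, inv_eq_of_mul_eq_one_right hw']
    exact w.2
  exact IsUnit.of_mul_eq_one ⟨_, hinv⟩ (Subtype.ext (mul_inv_cancel₀ hf0))

theorem isUnit_iff_φ₀_ne_zero (f : S.V₀) : IsUnit f ↔ S.φ₀ f ≠ 0 :=
  ⟨fun h => (h.map S.φ₀).ne_zero, fun h => by_contra fun h' => h (S.φ₀_eq_zero_of_not_isUnit h')⟩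

/-- `j` as an integral element -/
def jV : S.V₀ := ⟨jBar N, S.j_mem⟩

/-- the reduction of `j` -/
def jRed : S.Fb' := S.φ₀ S.jV

theorem jRed_transcendental : Transcendental (kk A) S.jRed := S.j_transcendental

/-- evaluation of an integral polynomial at `j` -/
def evA : Polynomial A →+* S.V₀ := Polynomial.eval₂RingHom S.constV S.jV

theorem coe_evA (P : Polynomial A) :
    (S.evA P : FN N) = Polynomial.aeval (jBar N) (P.map A.subtype) := by
  rw [Polynomial.aeval_def, Polynomial.eval₂_map, evA, coe_eval₂RingHom]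
  exact Polynomial.hom_eval₂ P S.constV S.V₀.subtype S.jV

theorem φ₀_evA (P : Polynomial A) :
    S.φ₀ (S.evA P) = Polynomial.aeval S.jRed (P.map (IsLocalRing.residue A)) := by
  rw [Polynomial.aeval_def, Polynomial.eval₂_map, evA, coe_eval₂RingHom, Polynomial.hom_eval₂]
  exact Polynomial.eval₂_congr (RingHom.ext fun a => S.φ₀_constV a) rfl rfl

theorem φ₀_evA_ne_zero {P : Polynomial A} (hP : P.map (IsLocalRing.residue A) ≠ 0) :
    S.φ₀ (S.evA P) ≠ 0 := by
  rw [φ₀_evA]
  exact fun h => S.jRed_transcendental ⟨_, hP, h⟩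

theorem isUnit_evA {P : Polynomial A} (hP : P.map (IsLocalRing.residue A) ≠ 0) :
    IsUnit (S.evA P) :=
  (S.isUnit_iff_φ₀_ne_zero _).2 (S.φ₀_evA_ne_zero hP)

/-- the valuation subring of `ℚ̄(j)` -/
abbrev O : ValuationSubring (JField N) := S.V₀.comap (algebraMap (JField N) (FN N))

/-- normal form in the valuation subring of `ℚ̄(j)` -/
theorem exists_normalForm_O (a : S.O) :
    ∃ (c : A) (P Q : Polynomial A), Q.map (IsLocalRing.residue A) ≠ 0 ∧
      ((a : JField N) : FN N) * (S.evA Q : FN N) =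
        algebraMap Qb (FN N) (c : Qb) * (S.evA P : FN N) := by
  rcases eq_or_ne ((a : JField N) : FN N) 0 with h0 | h0
  · exact ⟨0, 0, 1, by simp, by simp [h0]⟩
  obtain ⟨c, P, Q, hc, hP, hQ, h⟩ := exists_normalForm A (a : JField N).2 h0
  have hu := S.isUnit_evA hP
  have hQ0 : (S.evA Q : FN N) ≠ 0 := fun h => S.φ₀_evA_ne_zero hQ (by
    rw [show S.evA Q = 0 from Subtype.ext h, map_zero])
  rw [← S.coe_evA, ← S.coe_evA] at h
  have key : ((a : JField N) : FN N) * (S.evA Q : FN N) =
      algebraMap Qb (FN N) c * (S.evA P : FN N) := by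
    rw [h, mul_assoc, div_mul_cancel₀ _ hQ0]
  have hcA : c ∈ A := by
    rw [← S.algebraMap_mem_iff]
    obtain ⟨w, hw⟩ := hu.exists_right_inv
    have hw' : (S.evA P : FN N) * (w : FN N) = 1 := congrArg Subtype.val hw
    have : algebraMap Qb (FN N) c =
        ((a : JField N) : FN N) * (S.evA Q : FN N) * (w : FN N) := by
      rw [key, mul_assoc, hw', mul_one]
    rw [this]
    exact mul_mem (mul_mem a.2 (S.evA Q).2) w.2
  exact ⟨⟨c, hcA⟩, P, Q, hQ, key⟩

/-- `k(j̄)` -/
abbrev jRedField : IntermediateField (kk A) S.Fb' := IntermediateField.adjoin (kk A) {S.jRed}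

theorem φ₀_evA_mem (P : Polynomial A) : S.φ₀ (S.evA P) ∈ S.jRedField := by
  rw [φ₀_evA]
  exact IntermediateField.algebra_adjoin_le_adjoin _ _ (Polynomial.aeval_mem_adjoin_singleton _ _)

/-- integral elements of `ℚ̄(j)` -/
def inclO : S.O →+* S.V₀ :=
  ((algebraMap (JField N) (FN N)).comp S.O.subtype).codRestrict S.V₀.toSubring fun a => a.2

theorem coe_inclO (a : S.O) : (S.inclO a : FN N) = ((a : JField N) : FN N) := rfl

theorem φ₀_inclO_mem (a : S.O) : S.φ₀ (S.inclO a) ∈ S.jRedField := by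
  obtain ⟨c, P, Q, hQ, h⟩ := S.exists_normalForm_O a
  have h' : S.inclO a * S.evA Q = S.constV c * S.evA P := Subtype.ext h
  have h'' := congrArg S.φ₀ h'
  rw [map_mul, map_mul] at h''
  rw [eq_div_of_mul_eq (S.φ₀_evA_ne_zero hQ) h'']
  refine div_mem (mul_mem ?_ (S.φ₀_evA_mem P)) (S.φ₀_evA_mem Q)
  rw [φ₀_constV]
  exact IntermediateField.algebraMap_mem _ _

/-- reduction on `ℚ̄(j)` -/
def ψ : S.O →+* S.jRedField :=
  (S.φ₀.comp S.inclO).codRestrict S.jRedField.toSubfield S.φ₀_inclO_mem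

theorem coe_ψ (a : S.O) : (S.ψ a : S.Fb') = S.φ₀ (S.inclO a) := rfl

theorem hcompat (a : JField N) (h : algebraMap (JField N) (FN N) a ∈ S.V₀) :
    S.φ₀ ⟨_, h⟩ ∈ (algebraMap S.jRedField S.Fb').range :=
  ⟨S.ψ ⟨a, h⟩, rfl⟩

/-- integral polynomials in `j`, inside `ℚ̄(j)` -/
def evAO (P : Polynomial A) : S.O :=
  ⟨⟨S.evA P, by
    rw [coe_evA]
    exact IntermediateField.algebra_adjoin_le_adjoin _ _
      (Polynomial.aeval_mem_adjoin_singleton _ _)⟩, (S.evA P).2⟩

theorem inclO_evAO (P : Polynomial A) : S.inclO (S.evAO P) = S.evA P := rfl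

theorem coe_ψ_evAO (P : Polynomial A) :
    (S.ψ (S.evAO P) : S.Fb') = Polynomial.aeval S.jRed (P.map (IsLocalRing.residue A)) :=
  S.φ₀_evA P

theorem ψ_surjective : Function.Surjective S.ψ := by
  intro y
  obtain ⟨r, s, hy⟩ := (IntermediateField.mem_adjoin_simple_iff (kk A) (y : S.Fb')).mp y.2
  rcases eq_or_ne y 0 with rfl | hy0
  · exact ⟨0, map_zero _⟩
  have hy0' : (y : S.Fb') ≠ 0 := fun h => hy0 (Subtype.ext h)
  have hs : s ≠ 0 := fun h => hy0' (by rw [hy, h, map_zero, div_zero])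
  obtain ⟨P, rfl⟩ := Polynomial.map_surjective _ IsLocalRing.residue_surjective r
  obtain ⟨Q, rfl⟩ := Polynomial.map_surjective _ IsLocalRing.residue_surjective s
  have hQ : S.ψ (S.evAO Q) ≠ 0 := fun h => by
    have := congrArg Subtype.val h
    rw [coe_ψ_evAO] at this
    exact S.jRed_transcendental ⟨_, hs, this⟩
  have hu : IsUnit (S.evAO Q) := by
    obtain ⟨w, hw⟩ := (S.isUnit_evA hs).exists_right_inv
    have hne : ((S.evA Q : FN N)) ≠ 0 := fun h => by
      have hw' : (S.evA Q : FN N) * (w : FN N) = 1 := congrArg Subtype.val hw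
      simp [h] at hw'
    have hmem : ((S.evAO Q : JField N))⁻¹ ∈ S.O := by
      rw [ValuationSubring.mem_comap, map_inv₀]
      show ((S.evA Q : FN N))⁻¹ ∈ S.V₀
      rw [inv_eq_of_mul_eq_one_right (congrArg Subtype.val hw)]
      exact w.2
    refine IsUnit.of_mul_eq_one ⟨_, hmem⟩ (Subtype.ext (mul_inv_cancel₀ ?_))
    exact fun h => hne (congrArg Subtype.val h)
  obtain ⟨u, hu⟩ := hu
  refine ⟨S.evAO P * ↑u⁻¹, ?_⟩
  have : S.ψ (↑u⁻¹) = (S.ψ (S.evAO Q))⁻¹ := by
    refine eq_inv_of_mul_eq_one_left ?_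
    rw [← map_mul, ← hu, Units.inv_mul, map_one]
  apply Subtype.ext
  rw [map_mul, this, hy, ← S.coe_ψ_evAO, ← S.coe_ψ_evAO]
  push_cast
  rw [div_eq_mul_inv]

/-- the reduction of the function field of `X₀(N)` inside the special fibre of the slice -/
def resField : IntermediateField (kk A) S.Fb' where
  toSubalgebra :=
    { carrier := Set.range S.φ₀
      mul_mem' := by
        rintro _ _ ⟨a, rfl⟩ ⟨b, rfl⟩
        exact ⟨a * b, map_mul _ _ _⟩
      one_mem' := ⟨1, map_one _⟩
      add_mem' := by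
        rintro _ _ ⟨a, rfl⟩ ⟨b, rfl⟩
        exact ⟨a + b, map_add _ _ _⟩
      zero_mem' := ⟨0, map_zero _⟩
      algebraMap_mem' := fun c => by
        obtain ⟨a, rfl⟩ := IsLocalRing.residue_surjective c
        exact ⟨S.constV a, S.φ₀_constV a⟩ }
  inv_mem' := by
    rintro _ ⟨a, rfl⟩
    rcases eq_or_ne (S.φ₀ a) 0 with h | h
    · exact ⟨0, by rw [h, inv_zero, map_zero]⟩
    · obtain ⟨u, rfl⟩ := (S.isUnit_iff_φ₀_ne_zero a).2 h
      exact ⟨↑u⁻¹, eq_inv_of_mul_eq_one_left (by rw [← map_mul, Units.inv_mul, map_one])⟩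

theorem mem_resField {y : S.Fb'} : y ∈ S.resField ↔ ∃ f, S.φ₀ f = y := Iff.rfl

theorem jRedField_le : S.jRedField ≤ S.resField := by
  rw [IntermediateField.adjoin_simple_le_iff]
  exact ⟨S.jV, rfl⟩

/-- the reduction of the function field of `X₀(N)`, over `k(j̄)` -/
abbrev resFieldE : IntermediateField S.jRedField S.Fb' :=
  IntermediateField.extendScalars S.jRedField_le

theorem finrank_eqs :
    Module.finrank S.jRedField S.resFieldE = Module.finrank (JField N) (FN N) ∧
      Module.finrank S.resFieldE S.Fb' = finrankAlong Qb S.ι ∧ FiniteAlong Qb S.ι := by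
  letI algι : Algebra (FN N) S.F' := algebraAlong S.ι
  letI : Algebra (JField N) S.F' := (S.ι.toRingHom.comp (algebraMap (JField N) (FN N))).toAlgebra
  haveI : IsScalarTower (JField N) (FN N) S.F' := IsScalarTower.of_algebraMap_eq fun _ => rfl
  -- the degree of `j` upstairs
  let e : JField N ≃+* (IntermediateField.adjoin Qb {S.ι (jBar N)}) :=
    ((IntermediateField.equivMap (JField N) S.ι).trans
      (IntermediateField.equivOfEq (by rw [IntermediateField.adjoin_map, Set.image_singleton]))).toRingEquiv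
  have he : ∀ a, ((e a : IntermediateField.adjoin Qb {S.ι (jBar N)}) : S.F') =
      algebraMap (JField N) S.F' a := fun a => rfl
  have hdeg : Module.finrank (JField N) S.F' =
      Module.finrank (IntermediateField.adjoin Qb {S.ι (jBar N)}) S.F' :=
    Algebra.finrank_eq_of_equiv_equiv e (RingEquiv.refl S.F') (RingHom.ext fun a => he a)
  have hfin : Module.Finite (JField N) S.F' :=
    Module.finite_of_finrank_pos (hdeg ▸ S.j_degree_pos)
  haveI hfin' : Module.Finite (FN N) S.F' := Module.Finite.right (JField N) (FN N) S.F'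
  -- residual degrees
  obtain ⟨hfin1, h1⟩ := finrank_le_of_reduction (L := JField N) (Lb := S.jRedField) S.hcompat
    S.resFieldE.toSubmodule (fun y hy => (RingHom.mem_range).2 hy)
  have hcompat' : ∀ a : FN N, ∀ h : algebraMap (FN N) S.F' a ∈ S.good.V,
      S.good.φ ⟨_, h⟩ ∈ (algebraMap S.resFieldE S.Fb').range := fun a h =>
    ⟨⟨S.φ₀ ⟨a, h⟩, ⟨⟨a, h⟩, rfl⟩⟩, rfl⟩
  obtain ⟨hfin2, h2⟩ := finrank_le_of_reduction (L := FN N) (Lb := S.resFieldE) hcompat'
    ⊤ (fun y _ => (RingHom.mem_range).2 (S.good.φ_surjective y))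
  have h2' : Module.finrank S.resFieldE S.Fb' ≤ Module.finrank (FN N) S.F' := by
    rwa [finrank_top] at h2
  -- multiplicativity
  have ht : Module.finrank S.jRedField S.resFieldE * Module.finrank S.resFieldE S.Fb' =
      Module.finrank S.jRedField S.Fb' := Module.finrank_mul_finrank _ _ _
  have hb : Module.finrank S.jRedField S.Fb' =
      Module.finrank (JField N) (FN N) * Module.finrank (FN N) S.F' := by
    rw [Module.finrank_mul_finrank, hdeg]
    exact S.j_degree_eq.symm
  have h1' : Module.finrank S.jRedField S.resFieldE ≤ Module.finrank (JField N) (FN N) := h1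
  have hp1 : 0 < Module.finrank (JField N) (FN N) := Module.finrank_pos
  have hp2 : 0 < Module.finrank (FN N) S.F' := Module.finrank_pos
  have hmul := ht.trans hb
  refine ⟨?_, ?_, hfin'⟩
  · by_contra hne
    have hlt := lt_of_le_of_ne h1' hne
    exact absurd hmul (Nat.ne_of_lt (Nat.mul_lt_mul_of_lt_of_le hlt h2' hp2))
  · by_contra hne
    have hlt := lt_of_le_of_ne h2' hne
    exact absurd hmul (Nat.ne_of_lt (Nat.mul_lt_mul_of_le_of_lt h1' hlt hp1))

end Fermat.Agent.Igusa.X0Slice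

end
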