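/-
The reduction of `j_N` generates the reduced function field: the modular polynomial has no
repeated factor at `j_N`.
-/
import Fermat.Agent.Igusa.JacobianValuation
import Fermat.Agent.Igusa.JacobianSeries
import Fermat.Agent.Igusa.JacobianSimpleRoot

set_option autoImplicit false

noncomputable section

namespace Fermat.Agent.Igusa

open ModularCurve Polynomial

/-- `j` is transcendental over every field of constants -/
theorem transcendental_jqModC (k : Type*) [Field k] : Transcendental k (jqModC k) := by
  rintro ⟨P, hP, h⟩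
  have h' := congrArg (fun s : LaurentSeries k => s.coeff (-(P.natDegree : ℤ))) h
  simp only [Polynomial.aeval_eq_sum_range, HahnSeries.coeff_sum] at h'
  rw [Finset.sum_range_succ, Finset.sum_eq_zero (fun i hi => ?_), zero_add] at h'
  · rw [Algebra.smul_def, algebraMap_laurentSeries_eq_single, HahnSeries.coeff_single_mul,
      sub_zero, coeff_jqModC_pow_self, mul_one, HahnSeries.coeff_zero] at h'
    exact Polynomial.leadingCoeff_ne_zero.mpr hP h'
  · rw [Algebra.smul_def, algebraMap_laurentSeries_eq_single, HahnSeries.coeff_single_mul,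
      sub_zero, coeff_jqModC_pow_of_lt k (by simpa using (Finset.mem_range.mp hi)), mul_zero]

namespace X0Slice

open IntermediateField AlgebraicCurve

set_option synthInstance.maxHeartbeats 400000

local notation "Qb" => AlgebraicClosure ℚ
local notation "FN" N => modularFunctionFieldBar N
local notation "kk" A => IsLocalRing.ResidueField A

variable {N : ℕ} [NeZero N] {A : ValuationSubring (AlgebraicClosure ℚ)} (S : X0Slice N A)

/-- the `q`-expansion -/
def qExp : (FN N) →+* LaurentSeries Qb := (modularFunctionFieldBar N).val.toRingHom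

omit [NeZero N] in
theorem qExp_apply (f : FN N) : qExp (N := N) f = (f : LaurentSeries Qb) := rfl

/-- integral polynomials in the series `j` -/
def serA : Polynomial A →+* LaurentSeries A :=
  Polynomial.eval₂RingHom HahnSeries.C (jqModC A)

theorem qExp_evA (P : Polynomial A) :
    qExp (S.evA P : FN N) = coeffMap A.subtype (serA P) := by
  have : (qExp.comp S.V₀.subtype).comp S.evA = (coeffMap A.subtype).comp serA := by
    refine Polynomial.ringHom_ext (fun a => ?_) ?_
    · simp only [RingHom.comp_apply, evA, serA, coe_eval₂RingHom, eval₂_C]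
      show ((algebraMap Qb (FN N) (a : Qb) : FN N) : LaurentSeries Qb) = _
      rw [show ((algebraMap Qb (FN N) (a : Qb) : FN N) : LaurentSeries Qb) =
        algebraMap Qb (LaurentSeries Qb) (a : Qb) from rfl, algebraMap_laurentSeries_eq_single]
      exact (coeffMap_single A.subtype 0 a).symm
    · simp only [RingHom.comp_apply, evA, serA, coe_eval₂RingHom, eval₂_X]
      rw [coeffMap_jqModC]
      exact coe_jBar' N
  exact RingHom.congr_fun this P

theorem residue_serA (P : Polynomial A) :
    coeffMap (IsLocalRing.residue A) (serA P) =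
      Polynomial.aeval (jqModC (kk A)) (P.map (IsLocalRing.residue A)) := by
  rw [serA, coe_eval₂RingHom, coeffMap_eval₂, coeffMap_jqModC, Polynomial.aeval_def]
  refine Polynomial.eval₂_congr (RingHom.ext fun c => ?_) rfl rfl
  rw [algebraMap_laurentSeries_eq_single]
  rfl

theorem residue_serA_ne_zero {P : Polynomial A} (hP : P.map (IsLocalRing.residue A) ≠ 0) :
    coeffMap (IsLocalRing.residue A) (serA P) ≠ 0 := by
  rw [residue_serA]
  exact fun h => transcendental_jqModC _ ⟨_, hP, h⟩

theorem qExp_constV (c : A) :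
    qExp (algebraMap Qb (FN N) (c : Qb)) = coeffMap A.subtype (HahnSeries.C c) := by
  show algebraMap Qb (LaurentSeries Qb) (c : Qb) = _
  rw [algebraMap_laurentSeries_eq_single]
  exact (coeffMap_single A.subtype 0 c).symm

theorem qExp_inclO_mem (a : S.O) : qExp (S.inclO a : FN N) ∈ quotSeries A := by
  obtain ⟨c, P, Q, hQ, h⟩ := S.exists_normalForm_O a
  refine ⟨HahnSeries.C c * serA P, serA Q, residue_serA_ne_zero hQ, ?_⟩
  rw [← S.qExp_evA Q, map_mul, ← qExp_constV (N := N), ← S.qExp_evA P, ← map_mul, ← map_mul, ← h]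
  rfl

/-- `q`-expansion of integral elements of `ℚ̄(j)` -/
def serO : S.O →+* quotSeries A :=
  (qExp.comp (S.V₀.subtype.comp S.inclO)).codRestrict (quotSeries A) S.qExp_inclO_mem

/-- reduction of `q`-expansions on `ℚ̄(j)` -/
def ρO : S.O →+* LaurentSeries (kk A) := (redSeries A).comp S.serO

theorem ρO_apply {a : S.O} {c : A} {P Q : Polynomial A}
    (hQ : Q.map (IsLocalRing.residue A) ≠ 0)
    (h : ((a : JField N) : FN N) * (S.evA Q : FN N) =
        algebraMap Qb (FN N) (c : Qb) * (S.evA P : FN N)) :
    S.ρO a = Polynomial.aeval (jqModC (kk A))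
        (Polynomial.C (IsLocalRing.residue A c) * P.map (IsLocalRing.residue A)) /
      Polynomial.aeval (jqModC (kk A)) (Q.map (IsLocalRing.residue A)) := by
  have hser : qExp (S.inclO a : FN N) * coeffMap A.subtype (serA Q) =
      coeffMap A.subtype (HahnSeries.C c * serA P) := by
    rw [← S.qExp_evA Q, map_mul, ← qExp_constV (N := N), ← S.qExp_evA P, ← map_mul, ← map_mul, ← h]
    rfl
  have := redSeries_eq_div A (S.qExp_inclO_mem a) (residue_serA_ne_zero hQ) hser
  refine Eq.trans this ?_
  rw [map_mul, residue_serA, residue_serA, map_mul, Polynomial.aeval_C,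
    algebraMap_laurentSeries_eq_single]
  congr 2
  exact coeffMap_single _ _ _

theorem ρO_eq_zero_of_ψ {a : S.O} (ha : S.ψ a = 0) : S.ρO a = 0 := by
  obtain ⟨c, P, Q, hQ, h⟩ := S.exists_normalForm_O a
  have h' : S.inclO a * S.evA Q = S.constV c * S.evA P := Subtype.ext h
  have h'' := congrArg S.φ₀ h'
  rw [map_mul, map_mul, ← coe_ψ, ha, φ₀_constV, φ₀_evA S P, ZeroMemClass.coe_zero, zero_mul,
    ← Polynomial.aeval_C (x := S.jRed), ← map_mul] at h''
  have hpoly : Polynomial.C (IsLocalRing.residue A c) * P.map (IsLocalRing.residue A) = 0 := by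
    by_contra hne
    exact S.jRed_transcendental ⟨_, hne, h''.symm⟩
  rw [S.ρO_apply hQ h, hpoly, map_zero, zero_div]

/-- `j` in the valuation subring of `ℚ̄(j)` -/
def jO : S.O := ⟨⟨jBar N, mem_adjoin_simple_self Qb _⟩, S.jV.2⟩

theorem ρO_jO : S.ρO S.jO = jqModC (kk A) := by
  rw [S.ρO_apply (a := S.jO) (c := 1) (P := Polynomial.X) (Q := 1)
    (by rw [Polynomial.map_one]; exact one_ne_zero) ?_]
  · simp
  · simp [jO, evA, jV]

/-- substitute `X = j` in an integral polynomial, in the valuation subring -/
def evalJO : Polynomial ℤ →+* S.O := Polynomial.eval₂RingHom (Int.castRingHom _) S.jO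

theorem subtype_comp_evalJO : S.O.subtype.comp S.evalJO = evalJField N := by
  refine Polynomial.ringHom_ext' (Subsingleton.elim _ _) ?_
  simp only [evalJO, evalJField, RingHom.comp_apply, coe_eval₂RingHom, eval₂_X]
  rfl

theorem ρO_comp_evalJO : S.ρO.comp S.evalJO = evalJR (kk A) := by
  refine Polynomial.ringHom_ext' (Subsingleton.elim _ _) ?_
  simp only [evalJO, evalJR, RingHom.comp_apply, coe_eval₂RingHom, eval₂_X]
  exact S.ρO_jO

theorem jNBar_mem_V₀ : jNBar N ∈ S.V₀ := by
  obtain ⟨data⟩ := Fermat.Agent.ModFun.nonempty_modularPolynomialData N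
  have hint : IsIntegral S.V₀ (jNBar N) := by
    refine ⟨data.Φ.map (S.inclO.comp S.evalJO), data.monic.map _, ?_⟩
    rw [Polynomial.eval₂_map]
    refine Eq.trans ?_ (eval_phi_jNBar N data)
    refine Polynomial.eval₂_congr ?_ rfl rfl
    rw [← algebraMap_comp_evalJField, ← S.subtype_comp_evalJO]
    rfl
  obtain ⟨v, hv⟩ := IsIntegrallyClosed.isIntegral_iff.mp hint
  exact hv ▸ v.2

/-- `j_N` as an integral element -/
def jNV : S.V₀ := ⟨jNBar N, S.jNBar_mem_V₀⟩

/-- the reduction of `j_N` -/
def jNRed : S.resFieldE := ⟨S.φ₀ S.jNV, ⟨S.jNV, rfl⟩⟩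

theorem natDegree_minpoly_jNRed :
    (minpoly S.jRedField S.jNRed).natDegree = Module.finrank (JField N) (FN N) := by
  classical
  set n := Module.finrank (JField N) (FN N) with hn
  have hn0 : 0 < n := Module.finrank_pos
  have hR : Module.finrank S.jRedField S.resFieldE = n := S.finrank_eqs.1
  haveI : Module.Finite S.jRedField S.resFieldE := Module.finite_of_finrank_pos (hR.symm ▸ hn0)
  haveI : Nonempty (Fin n) := ⟨⟨0, hn0⟩⟩
  let bE := Module.finBasisOfFinrankEq S.jRedField S.resFieldE hR
  choose bV hbV using fun i : Fin n => S.mem_resField.mp (bE i).2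
  have hind' : LinearIndependent S.jRedField fun i => S.φ₀ (bV i) := by
    have := bE.linearIndependent.map' S.resFieldE.val.toLinearMap
      (LinearMap.ker_eq_bot.mpr S.resFieldE.val.injective)
    have e : (fun i => S.φ₀ (bV i)) = S.resFieldE.val.toLinearMap ∘ bE := funext hbV
    rw [e]
    exact this
  let bK := basisOfLinearIndependentOfCardEqFinrank
    (linearIndependent_of_reduction S.hcompat bV hind') (Fintype.card_fin n)
  have hbK : ∀ i, bK i = (bV i : FN N) := fun i => by
    simp [bK]
  have hcoef : ∀ i j, (bK.repr (jNBar N * bK j) i) ∈ S.O := by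
    intro i j
    refine coeff_mem_of_reduction S.hcompat (fun g => S.φ₀_eq_zero_of_not_isUnit) bV hind'
      (fun i => bK.repr (jNBar N * bK j) i) ?_ i
    have hsum : ∑ i, bK.repr (jNBar N * bK j) i • (bV i : FN N) = jNBar N * bK j := by
      simp_rw [← hbK]
      exact bK.sum_repr _
    rw [hsum, hbK]
    exact mul_mem S.jNBar_mem_V₀ (bV j).2
  let M : Matrix (Fin n) (Fin n) S.O := Matrix.of fun i j => ⟨_, hcoef i j⟩
  have hMK : M.map S.O.subtype = Algebra.leftMulMatrix bK (jNBar N) := by
    ext i j
    rw [Algebra.leftMulMatrix_eq_repr_mul]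
    rfl
  have hME : M.map S.ψ = Algebra.leftMulMatrix bE S.jNRed := by
    ext i j
    rw [Algebra.leftMulMatrix_eq_repr_mul]
    suffices h : ∑ i, S.ψ (M i j) • bE i = S.jNRed * bE j by
      rw [← h, bE.repr_sum_self]
      rfl
    apply Subtype.ext
    have hid : ∑ i, S.inclO (M i j) * bV i = S.jNV * bV j := by
      apply Subtype.ext
      push_cast
      have : ∑ i, bK.repr (jNBar N * bK j) i • bK i = jNBar N * bK j := bK.sum_repr _
      simp_rw [hbK, Algebra.smul_def] at this
      simp only [M, Matrix.of_apply, coe_inclO, jNV]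
      simp_rw [hbK]
      exact this
    have := congrArg S.φ₀ hid
    rw [map_sum, map_mul] at this
    simp_rw [map_mul, hbV, ← coe_ψ] at this
    simpa [IntermediateField.coe_sum, IntermediateField.smul_def, jNRed] using this
  set H := M.charpoly with hH
  have hHmonic : H.Monic := M.charpoly_monic
  have hHK : H.map S.O.subtype = minpoly (JField N) (jNBar N) := by
    have h1 : H.map S.O.subtype = (Algebra.leftMulMatrix bK (jNBar N)).charpoly := by
      rw [← hMK, Matrix.charpoly_map]
    have hroot : Polynomial.aeval (jNBar N) (H.map S.O.subtype) = 0 := by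
      rw [h1]
      apply (injective_iff_map_eq_zero (Algebra.leftMulMatrix bK)).mp
        (Algebra.leftMulMatrix_injective bK)
      rw [← Polynomial.aeval_algHom_apply, Matrix.aeval_self_charpoly]
    refine Polynomial.eq_of_monic_of_dvd_of_natDegree_le (minpoly.monic (isIntegral_jNBar N))
      (hHmonic.map _) (minpoly.dvd _ _ hroot) ?_
    rw [natDegree_minpoly_jNBar, h1, Matrix.charpoly_natDegree_eq_dim, Fintype.card_fin]
  obtain ⟨data⟩ := Fermat.Agent.ModFun.nonempty_modularPolynomialData N
  set Φo := data.Φ.map S.evalJO with hΦo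
  have hdvd : H ∣ Φo := by
    rw [← Polynomial.map_dvd_map S.O.subtype Subtype.val_injective hHmonic, hHK, hΦo,
      Polynomial.map_map, S.subtype_comp_evalJO]
    refine minpoly.dvd _ _ ?_
    rw [Polynomial.aeval_def, Polynomial.eval₂_map, algebraMap_comp_evalJField]
    exact eval_phi_jNBar N data
  -- the reduced characteristic polynomial is a power of the minimal polynomial
  obtain ⟨r, hr⟩ := charpoly_leftMulMatrix_eq_minpoly_pow bE S.jNRed
  rw [← hME, Matrix.charpoly_map, ← hH] at hr
  have hdeg : n = r * (minpoly S.jRedField S.jNRed).natDegree := by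
    rw [← Polynomial.natDegree_pow, ← hr, hHmonic.natDegree_map, hH,
      Matrix.charpoly_natDegree_eq_dim, Fintype.card_fin]
  rcases Nat.lt_or_ge r 2 with hr2 | hr2
  · interval_cases r
    · omega
    · omega
  exfalso
  obtain ⟨h₀, hh₀⟩ := Polynomial.map_surjective S.ψ S.ψ_surjective (minpoly S.jRedField S.jNRed)
  have hρ : H.map S.ρO = (h₀.map S.ρO) ^ r := by
    rw [← hh₀, ← Polynomial.map_pow] at hr
    rw [← Polynomial.map_pow]
    refine Polynomial.ext fun i => ?_
    rw [Polynomial.coeff_map, Polynomial.coeff_map, ← sub_eq_zero, ← map_sub]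
    apply S.ρO_eq_zero_of_ψ
    rw [map_sub, ← Polynomial.coeff_map, ← Polynomial.coeff_map, hr, sub_self]
  set y := jqNModC (kk A) N with hy
  have hHy : (H.map S.ρO).eval y = 0 := by
    have hK : H.eval₂ ((algebraMap (JField N) (FN N)).comp S.O.subtype) (jNBar N) = 0 := by
      rw [← Polynomial.eval₂_map, hHK]
      exact minpoly.aeval _ _
    have hq : qExp (jNBar N) ∈ quotSeries A := by
      rw [qExp_apply, coe_jNBar, ← coeffMap_jqNModC A.subtype N]
      exact coeffMap_mem_quotSeries A _
    have hs : H.eval₂ S.serO (⟨_, hq⟩ : quotSeries A) = 0 := by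
      apply Subtype.val_injective
      rw [ZeroMemClass.coe_zero]
      show (quotSeries A).subtype (H.eval₂ S.serO ⟨_, hq⟩) = 0
      rw [Polynomial.hom_eval₂]
      have := congrArg qExp hK
      rw [Polynomial.hom_eval₂, map_zero] at this
      exact this
    have := congrArg (redSeries A) hs
    rw [Polynomial.hom_eval₂, map_zero] at this
    have hred : redSeries A ⟨_, hq⟩ = y := by
      rw [hy, ← coeffMap_jqNModC (IsLocalRing.residue A) N, ← redSeries_coeffMap A]
      congr 1
      exact Subtype.ext ((coe_jNBar N).trans (coeffMap_jqNModC A.subtype N).symm)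
    rw [hred] at this
    rw [Polynomial.eval_map]
    exact this
  rw [hρ, Polynomial.eval_pow] at hHy
  have hroot := eq_zero_of_pow_eq_zero hHy
  obtain ⟨c, hc⟩ := (Polynomial.map_dvd S.ρO hdvd)
  rw [hρ, hΦo, Polynomial.map_map, S.ρO_comp_evalJO] at hc
  have hder := congrArg (fun p => (derivative p).eval y) hc
  have h0 : (derivative ((h₀.map S.ρO) ^ r * c)).eval y = 0 := by
    obtain ⟨s, rfl⟩ : ∃ s, r = s + 2 := ⟨r - 2, by omega⟩
    simp [derivative_mul, derivative_pow, hroot]
  beta_reduce at hder
  rw [h0, Polynomial.derivative_map, Polynomial.eval_map] at hder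
  exact derivAtJ_ne_zero (kk A) data hder

theorem linearIndependent_pow_jNRed :
    LinearIndependent S.jRedField
      fun i : Fin (Module.finrank (JField N) (FN N)) => S.φ₀ (S.jNV ^ (i : ℕ)) := by
  rw [← S.natDegree_minpoly_jNRed]
  have := (linearIndependent_pow (K := S.jRedField) S.jNRed).map' S.resFieldE.val.toLinearMap
    (LinearMap.ker_eq_bot.mpr S.resFieldE.val.injective)
  have e : (fun i : Fin (minpoly S.jRedField S.jNRed).natDegree => S.φ₀ (S.jNV ^ (i : ℕ))) =
      S.resFieldE.val.toLinearMap ∘
        fun i : Fin (minpoly S.jRedField S.jNRed).natDegree => S.jNRed ^ (i : ℕ) := by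
    funext i
    simp [jNRed]
  rw [e]
  exact this

end X0Slice

end Fermat.Agent.Igusa

end
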