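/-
The Gauss valuation of the function field of `X₀(M)` along a place of `ℚ̄` prime to `M`, its
reduction `q`-expansion by `q`-expansion, and the Gauss reduction with `x = j`.
-/
import Fermat.Agent.Igusa.JacobianResidual
import Fermat.Agent.Igusa.FibreIrred
import Fermat.Agent.Gamma0.Cusps
import Fermat.Agent.Curve.GaussReduction
import Mathlib.RingTheory.Valuation.LocalSubring

set_option autoImplicit false
set_option linter.style.haveILetI false

noncomputable section

namespace Fermat.Agent.Igusa.GaussX0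

open AlgebraicCurve ModularCurve IntermediateField Polynomial

set_option synthInstance.maxHeartbeats 400000

local notation "Qb" => AlgebraicClosure ℚ
local notation "kk" A => IsLocalRing.ResidueField A

section CommonDenominator

variable {K F : Type*} [Field K] [Field F] [Algebra K F] {x : F}

/-- Finitely many elements of `K(x)` have a common denominator in `K[x]`. -/
theorem exists_common_denom {ι : Type*} [Fintype ι] (a : ι → K⟮x⟯) :
    ∃ (S : K[X]) (P : ι → K[X]), S ≠ 0 ∧ aeval x S ≠ 0 ∧
      ∀ i, (a i : F) * aeval x S = aeval x (P i) := by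
  classical
  have key : ∀ i, ∃ r s : K[X], s ≠ 0 ∧ aeval x s ≠ 0 ∧ (a i : F) * aeval x s = aeval x r := by
    intro i
    obtain ⟨r, s, h⟩ := (mem_adjoin_simple_iff K (a i : F)).1 (a i).2
    rcases eq_or_ne (aeval x s) 0 with hs | hs
    · exact ⟨0, 1, one_ne_zero, by simp, by simp [h, hs]⟩
    · exact ⟨r, s, fun h0 => hs (by simp [h0]), hs, by rw [h, div_mul_cancel₀ _ hs]⟩
  choose r s hs hsx hrs using key
  refine ⟨∏ i, s i, fun i => r i * ∏ j ∈ Finset.univ.erase i, s j,
    Finset.prod_ne_zero_iff.2 fun i _ => hs i, ?_, fun i => ?_⟩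
  · rw [map_prod]
    exact Finset.prod_ne_zero_iff.2 fun i _ => hsx i
  · rw [← Finset.mul_prod_erase _ _ (Finset.mem_univ i), map_mul, map_mul, ← mul_assoc, hrs]

end CommonDenominator

variable {M : ℕ} [NeZero M] {A : ValuationSubring (AlgebraicClosure ℚ)}

theorem card_coset : Fintype.card (Gamma0.Coset M) = dedekindPsi M := by
  rw [← Nat.card_eq_fintype_card, Gamma0.card_coset]

/-- `j (M τ)` has degree the index over `k (j)`, for the residue field `k` at a place prime to
`M`. -/
theorem independent_res (hM : IsUnit (M : A))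
    (a : Fin (dedekindPsi M) → (kk A)[X])
    (ha : ∑ i, aeval (jqModC (kk A)) (a i) * jqNModC (kk A) M ^ (i : ℕ) = 0) : a = 0 := by
  haveI : Algebra.IsAlgebraic ℚ Qb := AlgebraicClosure.isAlgebraic ℚ
  let σ : Qb →+* ℂ := (IsAlgClosed.lift : Qb →ₐ[ℚ] ℂ).toRingHom
  haveI : IsLocalRing A.toSubring := inferInstanceAs (IsLocalRing A)
  haveI : IsLocalRing (A.toSubring.map σ) :=
    IsLocalRing.of_surjective' (σ.restrict A.toSubring (A.toSubring.map σ) fun x hx => ⟨x, hx, rfl⟩)
      (by rintro ⟨_, x, hx, rfl⟩; exact ⟨⟨x, hx⟩, rfl⟩)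
  obtain ⟨B, hB⟩ := LocalSubring.exists_le_valuationSubring (LocalSubring.mk (A.toSubring.map σ))
  obtain ⟨hle, hloc⟩ := hB
  let e : A →+* B.toLocalSubring.toSubring :=
    (Subring.inclusion hle).comp
      (σ.restrict A.toSubring (A.toSubring.map σ) fun x hx => ⟨x, hx, rfl⟩)
  have hunit : ∀ x : A, IsUnit (e x) → IsUnit x := fun x hx => by
    have hres : ∀ y ∈ A.toSubring, σ y ∈ A.toSubring.map σ := fun y hy => ⟨y, hy, rfl⟩
    have h1 : IsUnit (σ.restrict A.toSubring (A.toSubring.map σ) hres x) :=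
      hloc.map_nonunit _ hx
    obtain ⟨w, hw⟩ := h1.exists_right_inv
    obtain ⟨y, hy, hyw⟩ := w.2
    refine IsUnit.of_mul_eq_one ⟨y, hy⟩ (Subtype.ext (σ.injective ?_))
    have hw' := congrArg Subtype.val hw
    show σ ((x : Qb) * y) = σ 1
    rw [map_mul, map_one, hyw]
    exact hw'
  let eB : A →+* B := e
  haveI : IsLocalHom eB := ⟨hunit⟩
  let m : (kk A) →+* (kk B) := IsLocalRing.ResidueField.map eB
  let a' : Fin (Fintype.card (Gamma0.Coset M)) → (kk B)[X] := fun i =>
    (a (Fin.cast card_coset i)).map m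
  have h0 : a' = 0 := by
    refine Fibre.independent_jqNModC (V := B.toSubring)
      (fun d hd => Fibre.exists_unit_zetaU B (ne_zero_of_dvd_ne_zero (NeZero.ne M) hd))
      (by simpa using hM.map eB) (IsLocalRing.residue B) a' ?_
    have h := congrArg (coeffMap m) ha
    rw [map_sum, map_zero] at h
    rw [← h]
    refine Fintype.sum_equiv (finCongr card_coset) _ _ fun i => ?_
    rw [map_mul, map_pow, coeffMap_jqNModC]
    congr 1
    rw [show aeval (jqModC (kk A)) (a (finCongr card_coset i)) =
      (a (finCongr card_coset i)).eval₂ HahnSeries.C (jqModC (kk A)) by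
        rw [aeval_def]; exact eval₂_congr (RingHom.ext fun c => by
          rw [algebraMap_laurentSeries_eq_single]; rfl) rfl rfl, coeffMap_eval₂, coeffMap_jqModC,
      aeval_def]
    exact eval₂_congr (RingHom.ext fun c => by
      rw [algebraMap_laurentSeries_eq_single]; rfl) rfl rfl
  funext i
  have := congrFun h0 (Fin.cast card_coset.symm i)
  exact (Polynomial.map_eq_zero m).1 this

local notation "FM" => modularFunctionFieldBar M

theorem coe_aeval_jBar (P : Qb[X]) :
    ((aeval (jBar M) P : FM) : LaurentSeries Qb) = aeval (jqModC Qb) P := by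
  rw [← coe_jBar' M]
  exact (aeval_algHom_apply (modularFunctionFieldBar M).val (jBar M) P).symm

theorem coeffMap_serA (P : A[X]) :
    coeffMap A.subtype (X0Slice.serA P) = aeval (jqModC Qb) (P.map A.subtype) := by
  rw [X0Slice.serA, coe_eval₂RingHom, coeffMap_eval₂, coeffMap_jqModC, aeval_def]
  exact eval₂_congr (RingHom.ext fun c => by
    rw [algebraMap_laurentSeries_eq_single]; rfl) rfl rfl

theorem finrank_jField : Module.finrank (JField M) FM = dedekindPsi M := by
  have h1 : IntermediateField.lift (JField M) = Qb⟮jqModC Qb⟯ := by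
    rw [show IntermediateField.lift (JField M) = (JField M).map (modularFunctionFieldBar M).val
      from rfl, adjoin_map, Set.image_singleton]
    exact congrArg (fun z => Qb⟮z⟯) (coe_jBar' M)
  have h2 : IntermediateField.lift (⊤ : IntermediateField Qb FM) = modularFunctionFieldC Qb M := by
    rw [IntermediateField.lift_top]
    exact ModFun.laurentBaseChange_full_eq M Qb
  rw [← relfinrank_top_right (JField M),
    ← IntermediateField.relfinrank_map_map (JField M) ⊤ (modularFunctionFieldBar M).val,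
    show (JField M).map (modularFunctionFieldBar M).val = IntermediateField.lift (JField M) from rfl,
    show (⊤ : IntermediateField Qb FM).map (modularFunctionFieldBar M).val =
      IntermediateField.lift (⊤ : IntermediateField Qb FM) from rfl, h1, h2]
  exact ModFun.relfinrank_modularFunctionFieldC Qb M

theorem coe_algebraMap_bar (a : Qb) :
    ((algebraMap Qb FM a : FM) : LaurentSeries Qb) = HahnSeries.C a := by
  show algebraMap Qb (LaurentSeries Qb) a = _
  rw [algebraMap_laurentSeries_eq_single]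
  rfl

/-- The series of a normal form. -/
def serSum (P : Fin (dedekindPsi M) → A[X]) : LaurentSeries A :=
  ∑ i, X0Slice.serA (P i) * jqNModC A M ^ (i : ℕ)

theorem residue_serSum_mem (P : Fin (dedekindPsi M) → A[X]) :
    coeffMap (IsLocalRing.residue A) (serSum P) ∈ modularFunctionFieldFullC (kk A) M := by
  rw [serSum, map_sum]
  refine sum_mem fun i _ => ?_
  rw [map_mul, map_pow, coeffMap_jqNModC, X0Slice.residue_serA]
  exact mul_mem ((Algebra.adjoin_le (S := (modularFunctionFieldFullC (kk A) M).toSubalgebra)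
      (Set.singleton_subset_iff.mpr (jqModC_mem_full (kk A) M)))
        (aeval_mem_adjoin_singleton _ _))
    (pow_mem (jqModCd_mem_full (kk A) M dvd_rfl) _)

/-- Every non-zero function is a constant times a quotient of integral series with non-zero
reduction. -/
theorem exists_normal (hM : IsUnit (M : A)) (f : FM) (hf : f ≠ 0) :
    ∃ (c : Qb) (u v : LaurentSeries A), c ≠ 0 ∧
      coeffMap (IsLocalRing.residue A) u ≠ 0 ∧ coeffMap (IsLocalRing.residue A) v ≠ 0 ∧
      coeffMap (IsLocalRing.residue A) u ∈ modularFunctionFieldFullC (kk A) M ∧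
      coeffMap (IsLocalRing.residue A) v ∈ modularFunctionFieldFullC (kk A) M ∧
      (f : LaurentSeries Qb) * coeffMap A.subtype v = HahnSeries.C c * coeffMap A.subtype u := by
  classical
  have hint := isIntegral_jNBar M
  have hdeg : (minpoly (JField M) (jNBar M)).natDegree = dedekindPsi M := by
    rw [natDegree_minpoly_jNBar, finrank_jField]
  have hmem : f ∈ Algebra.adjoin (JField M) {jNBar M} := by
    rw [← adjoin_simple_toSubalgebra_of_isAlgebraic hint.isAlgebraic, adjoin_jNBar_eq_top]
    exact IntermediateField.mem_top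
  obtain ⟨p, rfl⟩ := (Algebra.adjoin_singleton_eq_range_aeval (JField M) (jNBar M)).le hmem
  set r := p %ₘ minpoly (JField M) (jNBar M) with hr
  have hfr : aeval (jNBar M) p = aeval (jNBar M) r :=
    (aeval_modByMonic_eq_self_of_root (minpoly.aeval _ _)).symm
  have hrdeg : r.natDegree < dedekindPsi M := by
    rw [← hdeg]
    refine natDegree_modByMonic_lt _ (minpoly.monic hint) fun h => ?_
    rw [h, natDegree_one] at hdeg
    exact (Gamma0.dedekindPsi_pos M).ne hdeg
  obtain ⟨S, P, hS, -, hSP⟩ := exists_common_denom (K := Qb) (x := jBar M)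
    (fun i : Fin (dedekindPsi M) => r.coeff i)
  have key : aeval (jNBar M) p * aeval (jBar M) S =
      ∑ i : Fin (dedekindPsi M), aeval (jBar M) (P i) * jNBar M ^ (i : ℕ) := by
    rw [hfr, aeval_eq_sum_range' hrdeg, Finset.sum_mul,
      ← Fin.sum_univ_eq_sum_range (fun i => r.coeff i • jNBar M ^ i * aeval (jBar M) S)]
    refine Finset.sum_congr rfl fun i _ => ?_
    rw [Algebra.smul_def, ← hSP i]
    exact mul_right_comm _ _ _
  have hex : ∃ i, P i ≠ 0 := by
    by_contra hall
    push Not at hall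
    simp only [hall, map_zero, zero_mul, Finset.sum_const_zero] at key
    refine mul_ne_zero hf ?_ key
    intro h0
    have := congrArg (fun z : FM => (z : LaurentSeries Qb)) h0
    rw [coe_aeval_jBar] at this
    exact transcendental_jqModC Qb ⟨S, hS, this⟩
  choose! c Q hc hQ hPQ using fun i => exists_primitive_polynomial A (P i)
  obtain ⟨i₀, hi₀⟩ := hex
  obtain ⟨m, hm, hmax⟩ := Finset.exists_max_image (Finset.univ.filter fun i => P i ≠ 0)
    (fun i => A.valuation (c i)) ⟨i₀, by simp [hi₀]⟩
  replace hm : P m ≠ 0 := (Finset.mem_filter.1 hm).2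
  have hdiv : ∀ i, P i ≠ 0 → c i / c m ∈ A := fun i hi => by
    rw [← A.valuation_le_one_iff, map_div₀]
    exact div_le_one_of_le₀ (hmax i (by simp [hi])) zero_le'
  let R : Fin (dedekindPsi M) → A[X] := fun i =>
    if h : P i ≠ 0 then Polynomial.C (⟨c i / c m, hdiv i h⟩ : A) * Q i else 0
  have hR : ∀ i, Polynomial.C (c m) * (R i).map A.subtype = P i := fun i => by
    by_cases h : P i ≠ 0
    · simp only [R, dif_pos h, Polynomial.map_mul, Polynomial.map_C]
      rw [← mul_assoc, ← map_mul]
      show Polynomial.C (c m * (c i / c m)) * _ = _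
      rw [mul_div_cancel₀ _ (hc m hm), ← hPQ i h]
    · simp only [R, dif_neg h, Polynomial.map_zero, mul_zero]
      exact (not_not.1 h).symm
  obtain ⟨d, S₀, hd, hS₀, hSd⟩ := exists_primitive_polynomial A S hS
  refine ⟨c m / d, serSum R, X0Slice.serA S₀, div_ne_zero (hc m hm) hd, ?_,
    X0Slice.residue_serA_ne_zero hS₀, residue_serSum_mem R, ?_, ?_⟩
  · intro h0
    have hz : ∑ i, aeval (jqModC (kk A)) ((R i).map (IsLocalRing.residue A)) *
        jqNModC (kk A) M ^ (i : ℕ) = 0 := by
      rw [← h0, serSum, map_sum]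
      refine Finset.sum_congr rfl fun i _ => ?_
      rw [map_mul, map_pow, coeffMap_jqNModC, X0Slice.residue_serA]
    have h1 := congrFun (independent_res hM _ hz) m
    simp only [R, dif_pos hm, Pi.zero_apply, Polynomial.map_mul, Polynomial.map_C] at h1
    rcases mul_eq_zero.1 h1 with h1 | h1
    · rw [Polynomial.C_eq_zero] at h1
      have : (⟨c m / c m, hdiv m hm⟩ : A) = 1 := Subtype.ext (div_self (hc m hm))
      rw [this, map_one] at h1
      exact one_ne_zero h1
    · exact hQ m hm h1
  · rw [X0Slice.residue_serA]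
    exact (Algebra.adjoin_le (S := (modularFunctionFieldFullC (kk A) M).toSubalgebra)
      (Set.singleton_subset_iff.mpr (jqModC_mem_full (kk A) M)))
        (aeval_mem_adjoin_singleton _ _)
  · have h := congrArg (fun z : FM => (z : LaurentSeries Qb)) key
    rw [hSd] at h
    simp only [MulMemClass.coe_mul, AddSubmonoidClass.coe_finsetSum, SubmonoidClass.coe_pow,
      coe_aeval_jBar, coe_jNBar, ← hR, map_mul, Polynomial.aeval_C] at h
    have hsum : coeffMap A.subtype (serSum R) =
        ∑ i, aeval (jqModC Qb) ((R i).map A.subtype) * jqNModC Qb M ^ (i : ℕ) := by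
      rw [serSum, map_sum]
      refine Finset.sum_congr rfl fun i _ => ?_
      rw [map_mul, map_pow, coeffMap_jqNModC, coeffMap_serA]
    simp only [coe_algebraMap_bar, mul_assoc, ← Finset.mul_sum] at h
    rw [← hsum, ← coeffMap_serA S₀] at h
    have hd' : (HahnSeries.C d : LaurentSeries Qb) ≠ 0 := by simpa using hd
    rw [map_div₀, div_mul_eq_mul_div, eq_div_iff hd', mul_assoc,
      mul_comm _ (HahnSeries.C d : LaurentSeries Qb)]
    exact h

theorem mem_quotSeries_of_normal {x : LaurentSeries Qb} {c : Qb} (hc : c ∈ A)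
    {u v : LaurentSeries A} (hv : coeffMap (IsLocalRing.residue A) v ≠ 0)
    (h : x * coeffMap A.subtype v = HahnSeries.C c * coeffMap A.subtype u) :
    ∃ hx : x ∈ quotSeries A, redSeries A ⟨x, hx⟩ =
      HahnSeries.C (IsLocalRing.residue A ⟨c, hc⟩) * coeffMap (IsLocalRing.residue A) u /
        coeffMap (IsLocalRing.residue A) v := by
  have hC : coeffMap A.subtype (HahnSeries.C (⟨c, hc⟩ : A) : LaurentSeries A) = HahnSeries.C c :=
    coeffMap_single _ _ _
  have h' : x * coeffMap A.subtype v =
      coeffMap A.subtype (HahnSeries.C (⟨c, hc⟩ : A) * u) := by rw [map_mul, hC, h]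
  refine ⟨⟨_, v, hv, h'⟩, ?_⟩
  refine (redSeries_eq_div A _ hv h').trans ?_
  rw [map_mul]
  congr 2
  exact coeffMap_single _ _ _

theorem mem_of_mem_quotSeries {x : LaurentSeries Qb} {c : Qb}
    {u v : LaurentSeries A} (hu : coeffMap (IsLocalRing.residue A) u ≠ 0)
    (h : x * coeffMap A.subtype v = HahnSeries.C c * coeffMap A.subtype u)
    (hx : x ∈ quotSeries A) : c ∈ A := by
  by_contra hc
  obtain ⟨hinv, hmax⟩ : ∃ h : c⁻¹ ∈ A, IsLocalRing.residue A ⟨c⁻¹, h⟩ = 0 := by
    refine ⟨(A.mem_or_inv_mem c).resolve_left hc, ?_⟩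
    rw [IsLocalRing.residue_eq_zero_iff, IsLocalRing.mem_maximalIdeal]
    intro hu'
    obtain ⟨w, hw⟩ := hu'.exists_right_inv
    have hw' : c⁻¹ * (w : Qb) = 1 := congrArg Subtype.val hw
    refine hc ?_
    rw [← inv_inv c, inv_eq_of_mul_eq_one_right hw']
    exact w.2
  obtain ⟨u', v', hv', h'⟩ := hx
  have hc0 : c ≠ 0 := fun h0 => hc (h0 ▸ zero_mem A)
  have hC : coeffMap A.subtype (HahnSeries.C (⟨c⁻¹, hinv⟩ : A) : LaurentSeries A) =
      HahnSeries.C c⁻¹ := coeffMap_single _ _ _
  have key : u * v' = HahnSeries.C (⟨c⁻¹, hinv⟩ : A) * (u' * v) := by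
    apply coeffMap_subtype_injective A
    rw [map_mul, map_mul, map_mul, hC, ← h']
    have hcc : (HahnSeries.C c⁻¹ * HahnSeries.C c : LaurentSeries Qb) = 1 := by
      rw [← map_mul, inv_mul_cancel₀ hc0, map_one]
    calc coeffMap A.subtype u * coeffMap A.subtype v'
        = HahnSeries.C c⁻¹ * HahnSeries.C c * coeffMap A.subtype u * coeffMap A.subtype v' := by
          rw [hcc, one_mul]
      _ = HahnSeries.C c⁻¹ * (x * coeffMap A.subtype v) * coeffMap A.subtype v' := by
          rw [h, mul_assoc (HahnSeries.C c⁻¹)]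
      _ = _ := by ring
  have := congrArg (coeffMap (IsLocalRing.residue A)) key
  rw [map_mul, map_mul, show coeffMap (IsLocalRing.residue A)
      (HahnSeries.C (⟨c⁻¹, hinv⟩ : A) : LaurentSeries A) = HahnSeries.C (0 : kk A) from
    (coeffMap_single _ _ _).trans (by rw [hmax]; rfl), map_zero, zero_mul] at this
  exact mul_ne_zero hu hv' this

variable (hM : IsUnit (M : A))

/-- The Gauss valuation ring of the function field of `X₀(M)`. -/
def V : ValuationSubring FM where
  toSubring := (quotSeries A).comap (modularFunctionFieldBar M).val.toRingHom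
  mem_or_inv_mem' f := by
    rcases eq_or_ne f 0 with rfl | hf
    · exact Or.inl (Subring.zero_mem _)
    obtain ⟨c, u, v, hc, hu, hv, -, -, h⟩ := exists_normal hM f hf
    rcases A.mem_or_inv_mem c with hcA | hcA
    · exact Or.inl (mem_quotSeries_of_normal hcA hv h).1
    · refine Or.inr (mem_quotSeries_of_normal (x := ((f⁻¹ : FM) : LaurentSeries Qb))
        (u := v) (v := u) hcA hu ?_).1
      have hf' : (f : LaurentSeries Qb) ≠ 0 := fun h0 => hf (Subtype.ext h0)
      have hC : (HahnSeries.C c⁻¹ : LaurentSeries Qb) * HahnSeries.C c = 1 := by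
        rw [← map_mul, inv_mul_cancel₀ hc, map_one]
      show ((f : LaurentSeries Qb))⁻¹ * _ = _
      rw [inv_mul_eq_div, div_eq_iff hf', mul_assoc, mul_comm (coeffMap A.subtype v), h,
        ← mul_assoc, hC, one_mul]

theorem mem_V_iff {f : FM} : f ∈ V hM ↔ (f : LaurentSeries Qb) ∈ quotSeries A := Iff.rfl

/-- Reduction, as Laurent series. -/
def red : V hM →+* LaurentSeries (kk A) :=
  (redSeries A).comp
    (((modularFunctionFieldBar M).val.toRingHom.comp (V hM).subtype).codRestrict (quotSeries A)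
      fun f => f.2)

theorem red_apply (f : V hM) : red hM f = redSeries A ⟨((f : FM) : LaurentSeries Qb), f.2⟩ := rfl

/-- Integral functions in normal form. -/
theorem exists_normal_V (f : V hM) (hf : (f : FM) ≠ 0) :
    ∃ (c : A) (u v : LaurentSeries A), c ≠ 0 ∧
      coeffMap (IsLocalRing.residue A) u ≠ 0 ∧ coeffMap (IsLocalRing.residue A) v ≠ 0 ∧
      coeffMap (IsLocalRing.residue A) u ∈ modularFunctionFieldFullC (kk A) M ∧
      coeffMap (IsLocalRing.residue A) v ∈ modularFunctionFieldFullC (kk A) M ∧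
      ((f : FM) : LaurentSeries Qb) * coeffMap A.subtype v =
        HahnSeries.C (c : Qb) * coeffMap A.subtype u ∧
      red hM f = HahnSeries.C (IsLocalRing.residue A c) * coeffMap (IsLocalRing.residue A) u /
        coeffMap (IsLocalRing.residue A) v := by
  obtain ⟨c, u, v, hc, hu, hv, hu', hv', h⟩ := exists_normal hM (f : FM) hf
  have hcA := mem_of_mem_quotSeries hu h f.2
  exact ⟨⟨c, hcA⟩, u, v, fun h0 => hc (congrArg Subtype.val h0), hu, hv, hu', hv', h,
    (red_apply hM f).trans (mem_quotSeries_of_normal hcA hv h).2⟩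

theorem red_mem (f : V hM) : red hM f ∈ modularFunctionFieldFullC (kk A) M := by
  rcases eq_or_ne (f : FM) 0 with h0 | h0
  · rw [show f = 0 from Subtype.ext h0, map_zero]
    exact zero_mem _
  obtain ⟨c, u, v, -, -, -, hu', hv', -, hr⟩ := exists_normal_V hM f h0
  rw [hr]
  refine div_mem (mul_mem ?_ hu') hv'
  rw [show HahnSeries.C (IsLocalRing.residue A c) =
    algebraMap (kk A) (LaurentSeries (kk A)) (IsLocalRing.residue A c) by
      rw [algebraMap_laurentSeries_eq_single]; rfl]
  exact IntermediateField.algebraMap_mem _ _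

/-- The reduction of `X₀(M)`. -/
def φ : V hM →+* modularFunctionFieldFullC (kk A) M :=
  (red hM).codRestrict (modularFunctionFieldFullC (kk A) M).toSubfield (red_mem hM)

theorem coe_φ (f : V hM) : (φ hM f : LaurentSeries (kk A)) = red hM f := rfl

theorem algebraMap_mem_iff (a : Qb) : algebraMap Qb FM a ∈ V hM ↔ a ∈ A := by
  have h : ((algebraMap Qb FM a : FM) : LaurentSeries Qb) * coeffMap A.subtype 1 =
      HahnSeries.C a * coeffMap A.subtype 1 := by
    congr 1
    show algebraMap Qb (LaurentSeries Qb) a = _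
    rw [algebraMap_laurentSeries_eq_single]
    rfl
  have h1 : coeffMap (IsLocalRing.residue A) 1 ≠ 0 := by rw [map_one]; exact one_ne_zero
  exact ⟨fun hx => mem_of_mem_quotSeries h1 h hx, fun ha => (mem_quotSeries_of_normal ha h1 h).1⟩

theorem φ_algebraMap (a : A) :
    φ hM ⟨algebraMap Qb FM a, (algebraMap_mem_iff hM a).2 a.2⟩ =
      algebraMap (kk A) (modularFunctionFieldFullC (kk A) M) (IsLocalRing.residue A a) := by
  apply Subtype.ext
  rw [coe_φ, red_apply]
  have h1 : coeffMap (IsLocalRing.residue A) 1 ≠ 0 := by rw [map_one]; exact one_ne_zero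
  have h : ((algebraMap Qb FM a : FM) : LaurentSeries Qb) * coeffMap A.subtype 1 =
      HahnSeries.C (a : Qb) * coeffMap A.subtype 1 := by
    congr 1
    show algebraMap Qb (LaurentSeries Qb) (a : Qb) = _
    rw [algebraMap_laurentSeries_eq_single]
    rfl
  rw [(mem_quotSeries_of_normal a.2 h1 h).2, map_one, mul_one, div_one]
  show _ = algebraMap (kk A) (LaurentSeries (kk A)) _
  rw [algebraMap_laurentSeries_eq_single]
  rfl

/-- Functions with integral expansion reduce coefficientwise. -/
theorem φ_coeffMap (y : LaurentSeries A) (f : FM)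
    (hf : (f : LaurentSeries Qb) = coeffMap A.subtype y) :
    ∃ h : f ∈ V hM, (φ hM ⟨f, h⟩ : LaurentSeries (kk A)) = coeffMap (IsLocalRing.residue A) y := by
  have h : f ∈ V hM := by rw [mem_V_iff, hf]; exact coeffMap_mem_quotSeries A y
  refine ⟨h, ?_⟩
  rw [coe_φ, red_apply, ← redSeries_coeffMap A y]
  exact congrArg (redSeries A) (Subtype.ext hf)

theorem isUnit_of_φ_ne_zero {f : V hM} (hf : φ hM f ≠ 0) : IsUnit f := by
  have hf0 : (f : FM) ≠ 0 := fun h0 => hf (by rw [show f = 0 from Subtype.ext h0, map_zero])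
  obtain ⟨c, u, v, -, hu, hv, -, -, h, hr⟩ := exists_normal_V hM f hf0
  have hcu : IsUnit c := by
    by_contra hnu
    apply hf
    apply Subtype.ext
    rw [coe_φ, hr, (IsLocalRing.residue_eq_zero_iff c).2
      ((IsLocalRing.mem_maximalIdeal c).2 hnu), map_zero, zero_mul, zero_div]
    rfl
  obtain ⟨w, hw⟩ := hcu.exists_right_inv
  have hw' : (c : Qb) * (w : Qb) = 1 := congrArg Subtype.val hw
  have hinv : (f : FM)⁻¹ ∈ V hM := by
    refine (mem_quotSeries_of_normal (x := (((f : FM)⁻¹ : FM) : LaurentSeries Qb))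
      (u := v) (v := u) w.2 hu ?_).1
    have hf' : ((f : FM) : LaurentSeries Qb) ≠ 0 := fun h0 => hf0 (Subtype.ext h0)
    show (((f : FM) : LaurentSeries Qb))⁻¹ * _ = _
    have hC : (HahnSeries.C (w : Qb) : LaurentSeries Qb) * HahnSeries.C (c : Qb) = 1 := by
      rw [← map_mul, mul_comm, hw', map_one]
    rw [inv_mul_eq_div, div_eq_iff hf', mul_assoc, mul_comm (coeffMap A.subtype v), h, ← mul_assoc,
      hC, one_mul]
  exact IsUnit.of_mul_eq_one ⟨_, hinv⟩ (Subtype.ext (mul_inv_cancel₀ hf0))

/-- `j (d τ)` as an integral function. -/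
theorem exists_jd {d : ℕ} [NeZero d] (hd : d ∣ M) :
    ∃ f : V hM, ((f : FM) : LaurentSeries Qb) = jqNModC Qb d ∧
      (φ hM f : LaurentSeries (kk A)) = jqNModC (kk A) d := by
  let z : FM := ⟨coeffEmb Qb (qExpand ℚ d jq),
    coeffEmb_mem_laurentBaseChange _ (jqd_mem_full M hd)⟩
  have hz : (z : LaurentSeries Qb) = coeffMap A.subtype (jqNModC A d) := by
    rw [coeffMap_jqNModC]; exact coeffEmb_qExpand_jq d
  obtain ⟨h, h'⟩ := φ_coeffMap hM _ z hz
  exact ⟨⟨z, h⟩, coeffEmb_qExpand_jq d, by rw [h', coeffMap_jqNModC]⟩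

theorem φ_surjective : Function.Surjective (φ hM) := by
  rintro ⟨x, hx⟩
  suffices h : ∃ f, (φ hM f : LaurentSeries (kk A)) = x by
    obtain ⟨f, hf⟩ := h
    exact ⟨f, Subtype.ext hf⟩
  unfold modularFunctionFieldFullC at hx
  induction hx using IntermediateField.adjoin_induction with
  | mem x hx =>
    obtain ⟨d, hne, hdvd, rfl⟩ := hx
    obtain ⟨f, -, hf⟩ := @exists_jd M _ A hM d hne hdvd
    exact ⟨f, hf⟩
  | algebraMap c =>
    obtain ⟨a, rfl⟩ := IsLocalRing.residue_surjective c
    exact ⟨_, congrArg Subtype.val (φ_algebraMap hM a)⟩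
  | add x y _ _ hx hy =>
    obtain ⟨f, rfl⟩ := hx
    obtain ⟨g, rfl⟩ := hy
    exact ⟨f + g, by rw [map_add]; rfl⟩
  | mul x y _ _ hx hy =>
    obtain ⟨f, rfl⟩ := hx
    obtain ⟨g, rfl⟩ := hy
    exact ⟨f * g, by rw [map_mul]; rfl⟩
  | inv x _ hx =>
    obtain ⟨f, rfl⟩ := hx
    by_cases h0 : φ hM f = 0
    · exact ⟨0, by simp [h0]⟩
    · obtain ⟨w, rfl⟩ := isUnit_of_φ_ne_zero hM h0
      exact ⟨↑w⁻¹, eq_inv_of_mul_eq_one_left (by
        rw [← MulMemClass.coe_mul, ← map_mul, Units.inv_mul, map_one]; rfl)⟩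

/-- `j` as an integral function. -/
theorem jBar_mem : jBar M ∈ V hM :=
  (φ_coeffMap hM (jqModC A) (jBar M) (by rw [coeffMap_jqModC]; exact coe_jBar' M)).1

theorem coe_φ_jBar :
    (φ hM ⟨jBar M, jBar_mem hM⟩ : LaurentSeries (kk A)) = jqModC (kk A) := by
  obtain ⟨h, h'⟩ := φ_coeffMap hM (jqModC A) (jBar M) (by rw [coeffMap_jqModC]; exact coe_jBar' M)
  rw [h', coeffMap_jqModC]

/-- the reduction of `j` -/
abbrev jRed : modularFunctionFieldFullC (kk A) M := φ hM ⟨jBar M, jBar_mem hM⟩

theorem coe_aeval_jRed (P : (kk A)[X]) :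
    ((aeval (jRed hM) P : modularFunctionFieldFullC (kk A) M) : LaurentSeries (kk A)) =
      aeval (jqModC (kk A)) P := by
  rw [← coe_φ_jBar hM]
  exact (aeval_algHom_apply (modularFunctionFieldFullC (kk A) M).val (jRed hM) P).symm

theorem φ_jBar_transcendental : Transcendental (kk A) (φ hM ⟨jBar M, jBar_mem hM⟩) := fun h => by
  have := h.algHom (modularFunctionFieldFullC (kk A) M).val
  rw [show (modularFunctionFieldFullC (kk A) M).val (φ hM ⟨jBar M, jBar_mem hM⟩) = jqModC (kk A)
    from coe_φ_jBar hM] at this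
  exact transcendental_jqModC _ this

/-- integral functions of `j` reduce to functions of `j` -/
theorem φ_jField_mem (a : JField M) (h : algebraMap (JField M) FM a ∈ V hM) :
    φ hM ⟨_, h⟩ ∈ (kk A)⟮jRed hM⟯ := by
  rcases eq_or_ne ((a : FM)) 0 with h0 | h0
  · rw [show (⟨_, h⟩ : V hM) = 0 from Subtype.ext h0, map_zero]
    exact zero_mem _
  obtain ⟨c, P, Q, hc, hP, hQ, hPQ⟩ := exists_normalForm A a.2 h0
  have heq : ((a : FM) : LaurentSeries Qb) * coeffMap A.subtype (X0Slice.serA Q) =
      HahnSeries.C c * coeffMap A.subtype (X0Slice.serA P) := by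
    rw [coeffMap_serA, coeffMap_serA, ← coe_aeval_jBar (M := M), ← coe_aeval_jBar (M := M), hPQ, ← MulMemClass.coe_mul,
      mul_assoc, div_mul_cancel₀, MulMemClass.coe_mul]
    · rw [coe_algebraMap_bar]
    · intro h1
      have h2 := congrArg (fun z : FM => (z : LaurentSeries Qb)) h1
      rw [coe_aeval_jBar, ← coeffMap_serA] at h2
      exact coeffMap_residue_ne_zero_imp A (X0Slice.residue_serA_ne_zero hQ) h2
  have hcA := mem_of_mem_quotSeries (X0Slice.residue_serA_ne_zero hP) heq h
  obtain ⟨_, hr⟩ := mem_quotSeries_of_normal hcA (X0Slice.residue_serA_ne_zero hQ) heq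
  have e : φ hM ⟨_, h⟩ = algebraMap (kk A) _ (IsLocalRing.residue A ⟨c, hcA⟩) *
      aeval (jRed hM) (P.map (IsLocalRing.residue A)) / aeval (jRed hM) (Q.map (IsLocalRing.residue A)) := by
    apply Subtype.ext
    rw [coe_φ, red_apply]
    refine hr.trans ?_
    rw [X0Slice.residue_serA, X0Slice.residue_serA, ← coe_aeval_jRed hM, ← coe_aeval_jRed hM]
    push_cast
    rw [algebraMap_laurentSeries_eq_single]
    rfl
  rw [e]
  exact div_mem (mul_mem (IntermediateField.algebraMap_mem _ _)
    (IntermediateField.algebra_adjoin_le_adjoin _ _ (aeval_mem_adjoin_singleton _ _)))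
    (IntermediateField.algebra_adjoin_le_adjoin _ _ (aeval_mem_adjoin_singleton _ _))

set_option maxHeartbeats 1600000 in
theorem finrank_res :
    Module.finrank (kk A)⟮jRed hM⟯ (modularFunctionFieldFullC (kk A) M) =
      dedekindPsi M := by
  classical
  obtain ⟨hfin, hle⟩ := finrank_le_of_reduction (L := JField M) (Lb := (kk A)⟮(jRed hM)⟯) (φ := φ hM)
    (fun a h => ⟨⟨φ hM ⟨_, h⟩, φ_jField_mem hM a h⟩, rfl⟩) (⊤ : Submodule (kk A)⟮(jRed hM)⟯ (modularFunctionFieldFullC (kk A) M))
    (fun y _ => φ_surjective hM y)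
  haveI := hfin
  haveI : Module.Finite (kk A)⟮(jRed hM)⟯ (modularFunctionFieldFullC (kk A) M) := Module.Finite.equiv Submodule.topEquiv
  rw [finrank_top, finrank_jField] at hle
  refine le_antisymm hle ?_
  let jN : (modularFunctionFieldFullC (kk A) M) := ⟨jqNModC (kk A) M, jqModCd_mem_full (kk A) M dvd_rfl⟩
  have hind : LinearIndependent (kk A)⟮(jRed hM)⟯ fun i : Fin (dedekindPsi M) => jN ^ (i : ℕ) := by
    rw [Fintype.linearIndependent_iff]
    intro g hg
    obtain ⟨S, P, hS, hSx, hSP⟩ := exists_common_denom g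
    have hz : ∑ i, aeval (jRed hM) (P i) * jN ^ (i : ℕ) = 0 := by
      have h1 : (∑ i, g i • jN ^ (i : ℕ)) * aeval (jRed hM) S = 0 := by rw [hg, zero_mul]
      rw [Finset.sum_mul] at h1
      rw [← h1]
      refine Finset.sum_congr rfl fun i _ => ?_
      rw [← hSP, Algebra.smul_def]
      exact mul_right_comm _ _ _
    have hP := independent_res hM P (by
      have h2 := congrArg (fun z : (modularFunctionFieldFullC (kk A) M) => (z : LaurentSeries (kk A))) hz
      simp only [AddSubmonoidClass.coe_finsetSum, MulMemClass.coe_mul, SubmonoidClass.coe_pow] at h2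
      refine Eq.trans (Finset.sum_congr rfl fun i _ => ?_) h2
      rw [coe_aeval_jRed])
    intro i
    have h3 := hSP i
    rw [hP, Pi.zero_apply, map_zero, mul_eq_zero] at h3
    exact Subtype.ext (h3.resolve_right hSx)
  simpa using hind.fintype_card_le_finrank

/-- The Gauss reduction of `X₀(M)` with `x = j`. -/
def gaussJ : Curve.GaussReduction A FM (kk A) (modularFunctionFieldFullC (kk A) M) where
  π := IsLocalRing.residue A
  π_surjective := IsLocalRing.residue_surjective
  V := V hM
  mem_V_iff := algebraMap_mem_iff hM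
  φ := φ hM
  φ_surjective := φ_surjective hM
  φ_algebraMap := φ_algebraMap hM
  x := ⟨jBar M, jBar_mem hM⟩
  x_transcendental := φ_jBar_transcendental hM
  degree_eq := by rw [finrank_res]; exact finrank_jField
  degree_pos := by rw [finrank_res]; exact Gamma0.dedekindPsi_pos M

end Fermat.Agent.Igusa.GaussX0

end
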