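/-
If a function `x` has at most one branch value in every residue disc, and the residue field is
separable over `k(x̄)`, then the special fibre of the chart over `A[x]` is normal.

Proof (purity of the branch locus in elementary form): near a residue disc with centre `c` the
lattice of integral functions and the lattice of those vanishing over `c`, divided by `x - c`, are
dual for the trace; a failure of this on the special fibre would lift to a value `α` in the disc.
-/
import Fermat.Agent.Igusa.TameDual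

set_option autoImplicit false

noncomputable section

namespace Fermat.Agent.Igusa

open AlgebraicCurve IntermediateField Polynomial Curve
open scoped IntermediateField.algebraAdjoinAdjoin

universe uK uF uk uFb

variable {K : Type uK} [Field K] [CharZero K] {A : ValuationSubring K}
  {F : Type uF} [Field F] [Algebra K F] [IsFunctionFieldOne K F]
  {k : Type uk} [Field k] {Fb : Type uFb} [Field Fb] [Algebra k Fb]
  {G : Curve.GaussReduction A F k Fb} {a c : A}
  {bC bD : Fin (Module.finrank k⟮G.φ G.x⟯ Fb) → G.V}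
  {M : Matrix (Fin (Module.finrank k⟮G.φ G.x⟯ Fb)) (Fin (Module.finrank k⟮G.φ G.x⟯ Fb)) A[X]}

omit [CharZero K] [IsFunctionFieldOne K F] in
theorem aeval_mem_kx (p : k[X]) : aeval (G.φ G.x) p ∈ k⟮G.φ G.x⟯ :=
  algebra_adjoin_le_adjoin k _ (aeval_mem_adjoin_singleton k _)

omit [CharZero K] [IsFunctionFieldOne K F] in
theorem aeval_X_sub_C_ne_zero (u : k) : aeval (G.φ G.x) (X - C u) ≠ 0 := fun h =>
  X_sub_C_ne_zero u (aeval_xBar_injective G (by rw [h, map_zero]))

omit [CharZero K] [IsFunctionFieldOne K F] in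
/-- The pairing does not degenerate generically. -/
theorem pairing_det_ne_zero [Algebra.IsSeparable k⟮G.φ G.x⟯ Fb] (hC : IsLiftBasis G bC)
    (hD : IsLiftBasis G bD)
    (hM : ∀ i j, (Algebra.trace k⟮G.φ G.x⟯ Fb (G.φ (bC i) * G.φ (bD j)) : Fb) =
      aeval (G.φ G.x) (X - C (G.π c)) * aeval (G.φ G.x) ((M i j).map G.π)) :
    (M.map (mapRingHom G.π)).det ≠ 0 := by
  classical
  have := finiteDimensional_xBar G
  intro h0
  obtain ⟨v, hv0, hv⟩ := Matrix.exists_mulVec_eq_zero_iff.2 h0
  let e : Fin (Module.finrank k⟮G.φ G.x⟯ Fb) → k⟮G.φ G.x⟯ := fun j =>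
    ⟨aeval (G.φ G.x) (v j), aeval_mem_kx _⟩
  have hz : ∑ j, e j • G.φ (bD j) = 0 := by
    refine (traceForm_nondegenerate k⟮G.φ G.x⟯ Fb).1 _ fun w => ?_
    rw [Algebra.traceForm_apply, ← hC.basisBar.sum_repr w, Finset.mul_sum, map_sum]
    refine Finset.sum_eq_zero fun i _ => ?_
    rw [mul_smul_comm, map_smul, IsLiftBasis.basisBar_apply]
    suffices h : Algebra.trace k⟮G.φ G.x⟯ Fb ((∑ j, e j • G.φ (bD j)) * G.φ (bC i)) = 0 by
      rw [h, smul_zero]
    apply Subtype.ext
    simp only [Finset.sum_mul, map_sum, smul_mul_assoc, map_smul, smul_eq_mul]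
    rw [AddSubmonoidClass.coe_finsetSum, ZeroMemClass.coe_zero]
    have hi : aeval (G.φ G.x) ((M.map (mapRingHom G.π)).mulVec v i) = 0 := by rw [hv]; simp
    rw [Matrix.mulVec, dotProduct, map_sum] at hi
    rw [← mul_zero (aeval (G.φ G.x) (X - C (G.π c))), ← hi, Finset.mul_sum]
    refine Finset.sum_congr rfl fun j _ => ?_
    rw [MulMemClass.coe_mul, mul_comm (G.φ (bD j)), hM i j, map_mul, Matrix.map_apply,
      coe_mapRingHom]
    show aeval (G.φ G.x) (v j) * _ = _
    ring
  obtain ⟨j, hj⟩ := Function.ne_iff.1 hv0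
  exact hj (aeval_xBar_injective G (by
    rw [Pi.zero_apply, map_zero]
    exact congrArg Subtype.val (Fintype.linearIndependent_iff.1 hD.indep e hz j)))

/-- The pairing does not degenerate in the residue disc. -/
theorem pairing_eval_ne_zero [IsAlgClosed K] (hca : G.π c = G.π a)
    (hbr : ∀ α : A, G.π α = G.π a → α ≠ c →
      ∀ P : Place K F, 0 < P.ord ((G.x : F) - algebraMap K F (α : K)) →
        P.ord ((G.x : F) - algebraMap K F (α : K)) = 1)
    (hC : IsLocalBasis G (IntOver K (G.x : F)) a bC)
    (hD : IsLocalBasis G (IntVanish G (c : K)) a bD)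
    (hM : ∀ i j, (Algebra.trace K⟮(G.x : F)⟯ F ((bC i : F) * (bD j : F)) : F) =
      ((G.x : F) - algebraMap K F (c : K)) * (tameEval G (M i j) : F))
    (hdet : (M.map (mapRingHom G.π)).det ≠ 0) :
    (M.map (mapRingHom G.π)).det.eval (G.π a) ≠ 0 := by
  classical
  have := finiteDimensional_x G
  have := isSeparable_x G
  have hW := isChartModule_intVanish G (c : K)
  intro h0
  rw [← RingHom.mapMatrix_apply, ← RingHom.map_det, coe_mapRingHom] at h0 hdet
  obtain ⟨α, hα, hαa⟩ := exists_root_lift G _ _ le_rfl hdet a h0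
  have hdetK : ((M.map (evalRingHom α)).map A.subtype).det = 0 := by
    rw [← RingHom.mapMatrix_apply, ← RingHom.mapMatrix_apply, ← RingHom.map_det,
      ← RingHom.map_det, coe_evalRingHom, hα, map_zero]
  obtain ⟨lam, hlam0, hlam⟩ := Matrix.exists_mulVec_eq_zero_iff.2 hdetK
  set h : F := ∑ j, algebraMap K F (lam j) * (bD j : F) with hh
  have hhW : IntVanish G (c : K) h := hW.sum _ _ fun j _ => hW.smul _ (hD.mem j)
  have hlift : ∀ i, ∃ U : K[X], (Algebra.trace K⟮(G.x : F)⟯ F ((bC i : F) * h) : F) =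
      aeval (G.x : F) ((X - C (c : K)) * ((X - C (α : K)) * U)) := by
    intro i
    let S : K[X] := ∑ j, C (lam j) * (M i j).map A.subtype
    have hS : S.IsRoot (α : K) := by
      have := congrFun hlam i
      simp only [Matrix.mulVec, dotProduct, Matrix.map_apply, Pi.zero_apply,
        coe_evalRingHom] at this
      rw [IsRoot.def, ← this, eval_finsetSum]
      refine Finset.sum_congr rfl fun j _ => ?_
      rw [eval_mul, eval_C, show (α : K) = A.subtype α from rfl, eval_map, eval₂_at_apply,
        mul_comm]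
    obtain ⟨U, hU⟩ := dvd_iff_isRoot.2 hS
    refine ⟨U, ?_⟩
    rw [← hU, hh, Finset.mul_sum, map_sum, AddSubmonoidClass.coe_finsetSum, map_mul,
      map_sum, Finset.mul_sum]
    refine Finset.sum_congr rfl fun j _ => ?_
    have hsm : (bC i : F) * (algebraMap K F (lam j) * (bD j : F)) =
        (algebraMap K K⟮(G.x : F)⟯ (lam j)) • ((bC i : F) * (bD j : F)) := by
      rw [Algebra.smul_def, ← IsScalarTower.algebraMap_apply]; ring
    rw [hsm, map_smul, smul_eq_mul, MulMemClass.coe_mul, hM i j, map_mul, aeval_C,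
      map_sub, aeval_X, aeval_C, coe_tameEval]
    show algebraMap K F (lam j) * _ = _
    ring
  have hne := sub_algebraMap_ne_zero (transcendental_x G) (α : K)
  have hw : IntVanish G (c : K) (h / ((G.x : F) - algebraMap K F (α : K))) := by
    rcases eq_or_ne h 0 with h00 | h00
    · rw [h00, zero_div]; exact hW.zero
    have hover : ∀ P : Place K F, 0 < P.ord ((G.x : F) - algebraMap K F (α : K)) →
        P.ord ((G.x : F) - algebraMap K F (α : K)) + (if α = c then 1 else 0) ≤ P.ord h := by
      intro P hP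
      by_cases hαc : α = c
      · have := ord_gt_of_trace_dvd hC hαa hhW.1 1 (fun i => by
          obtain ⟨U, hU⟩ := hlift i
          refine ⟨U, ?_⟩
          rw [hU, hαc]; congr 1; ring) P hP h00
        rw [if_pos hαc]
        omega
      · have := ord_gt_of_trace_dvd hC hαa hhW.1 0 (fun i => by
          obtain ⟨U, hU⟩ := hlift i
          refine ⟨(X - C (c : K)) * U, ?_⟩
          rw [hU]; congr 1; ring) P hP h00
        rw [if_neg hαc, hbr α hαa hαc P hP]
        omega
    constructor
    · refine intOver_of_forall_place fun P hxP => mem_of_ord_nonneg P ?_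
      rw [ord_div P h00 hne]
      have h1 := ord_nonneg_of_mem P (intOver_mem_place hhW.1 P hxP)
      have h2 := ord_nonneg_of_mem P (sub_mem hxP (P.algebraMap_mem' (α : K)))
      by_cases hP : 0 < P.ord ((G.x : F) - algebraMap K F (α : K))
      · have := hover P hP
        split_ifs at this <;> omega
      · omega
    · intro P hPc
      refine Or.inr ?_
      rw [ord_div P h00 hne]
      have h1 := (hhW.2 P hPc).resolve_left h00
      have h2 := ord_nonneg_of_mem P
        (sub_mem (x_mem_of_ord_pos G hPc) (P.algebraMap_mem' (α : K)))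
      by_cases hP : 0 < P.ord ((G.x : F) - algebraMap K F (α : K))
      · have := hover P hP
        rw [if_pos (Subtype.ext (eq_of_ord_pos G hP hPc))] at this
        omega
      · omega
  exact hlam0 (hD.eq_zero_of_combination hW hαa lam hw
    (show h = _ by field_simp))

omit [CharZero K] [IsFunctionFieldOne K F] in
theorem vecMul_pairing {y : Fb} {U : Fin (Module.finrank k⟮G.φ G.x⟯ Fb) → k[X]}
    (hC : IsLiftBasis G bC)
    (hM : ∀ i j, (Algebra.trace k⟮G.φ G.x⟯ Fb (G.φ (bC i) * G.φ (bD j)) : Fb) =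
      aeval (G.φ G.x) (X - C (G.π c)) * aeval (G.φ G.x) ((M i j).map G.π))
    (hU : ∀ j, (Algebra.trace k⟮G.φ G.x⟯ Fb (y * G.φ (bD j)) : Fb) =
      aeval (G.φ G.x) ((X - C (G.π c)) * U j)) :
    Matrix.vecMul (fun i => (hC.basisBar.repr y i : Fb))
      ((M.map (mapRingHom G.π)).map (aeval (R := k) (G.φ G.x))) =
      fun j => aeval (G.φ G.x) (U j) := by
  funext j
  apply mul_left_cancel₀ (aeval_X_sub_C_ne_zero (G := G) (G.π c))
  rw [← map_mul, ← hU j]
  conv_rhs => rw [← hC.basisBar.sum_repr y, Finset.sum_mul, map_sum,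
    AddSubmonoidClass.coe_finsetSum]
  simp only [Matrix.vecMul, dotProduct, Matrix.map_apply, Finset.mul_sum,
    IsLiftBasis.basisBar_apply, smul_mul_assoc, map_smul, smul_eq_mul]
  refine Finset.sum_congr rfl fun i _ => ?_
  rw [MulMemClass.coe_mul, hM i j, coe_mapRingHom]
  ring

/-- The traces against the second lattice of an element integral over `k[x̄]`. -/
theorem exists_trace_bar [Algebra.IsSeparable k⟮G.φ G.x⟯ Fb] {y : Fb}
    (hy : IntOver k (G.φ G.x) y) {d : G.V} (hd : IntVanish G (c : K) (d : F)) :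
    ∃ U : k[X], (Algebra.trace k⟮G.φ G.x⟯ Fb (y * G.φ d) : Fb) =
      aeval (G.φ G.x) ((X - C (G.π c)) * U) := by
  have := finiteDimensional_xBar G
  have hyd : IntOver k (G.φ G.x) (y * G.φ d) := IsIntegral.mul hy (intOver_φ G hd.1)
  obtain ⟨T, hT⟩ := exists_trace_eq hyd
  obtain ⟨N, hN0, hN⟩ := exists_exponent G (c : K)
  let u : G.V := tameEval G (X - C c)
  have hu : G.φ u ≠ 0 := φ_tameEval_ne_zero G (by
    rw [Polynomial.map_sub, map_X, map_C]; exact X_sub_C_ne_zero _)
  let w : G.V := d ^ N * ⟨_, tameGauss_inv_mem G hu⟩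
  have hw : IntOver K (G.x : F) (w : F) := by
    have := intOver_pow_div G hN0 hN hd
    show IntOver K (G.x : F) ((d : F) ^ N * (u : F)⁻¹)
    simpa [u, div_eq_mul_inv] using this
  have hsplit : d ^ N = u * w := by
    apply Subtype.ext
    push_cast
    show _ = (u : F) * ((d : F) ^ N * (u : F)⁻¹)
    rw [mul_comm (u : F), mul_assoc, inv_mul_cancel₀ (tameGauss_coe_ne_zero G hu), mul_one]
  have hpow : (y * G.φ d) ^ N =
      (G.φ G.x - algebraMap k Fb (G.π c)) * (y ^ N * G.φ w) := by
    have h := congrArg G.φ hsplit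
    rw [map_pow, map_mul, φ_tameEval] at h
    rw [mul_pow, h]
    simp
    ring
  have hroot := trace_eval_eq_zero G.x_transcendental hyd
    (IsIntegral.mul (IsIntegral.pow hy N) (intOver_φ G hw)) hpow hT
  obtain ⟨U, rfl⟩ := dvd_iff_isRoot.2 (show T.IsRoot (G.π c) from hroot)
  exact ⟨U, hT.symm⟩

variable (G)

/-- Near every residue disc, some polynomial non-vanishing there multiplies `y` into the image of
the chart. -/
theorem exists_multiplier [IsAlgClosed K] [Algebra.IsSeparable k⟮G.φ G.x⟯ Fb]
    (hB : G.BranchIsolated) {y : Fb} (hy : IntOver k (G.φ G.x) y) (a : A) :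
    ∃ p : k[X], (∃ f : G.V, IntOver K (G.x : F) (f : F) ∧ G.φ f = aeval (G.φ G.x) p * y) ∧
      p.eval (G.π a) ≠ 0 := by
  classical
  have := finiteDimensional_x G
  have := finiteDimensional_xBar G
  obtain ⟨c, hca, hbr⟩ := hB a
  obtain ⟨b₁, hb₁, hb₁int⟩ := exists_isLiftBasis_intOver G
  obtain ⟨bC, hbC⟩ := exists_isLocalBasis G (W := IntOver K (G.x : F)) isChartModule_intOver
    ⟨b₁, hb₁, hb₁int⟩ a
  have hXc : ((X : A[X]) - C c).map G.π ≠ 0 := by
    rw [Polynomial.map_sub, map_X, map_C]; exact X_sub_C_ne_zero _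
  obtain ⟨bD, hbD⟩ := exists_isLocalBasis G (W := IntVanish G (c : K))
    (isChartModule_intVanish G (c : K))
    ⟨_, hb₁.scale G (fun _ => X - C c) (fun _ => hXc), fun i => by
      have htc : (tameEval G (X - C c) : F) = (G.x : F) - algebraMap K F (c : K) := by simp
      have ht0 : (G.x : F) - algebraMap K F (c : K) ≠ 0 :=
        sub_algebraMap_ne_zero (transcendental_x G) _
      rw [MulMemClass.coe_mul, htc]
      refine ⟨(intOver_sub _).mul (hb₁int i), fun P hP => ?_⟩
      by_cases h0 : (b₁ i : F) = 0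
      · exact Or.inl (by rw [h0, mul_zero])
      refine Or.inr ?_
      rw [P.ord_mul ht0 h0]
      have := ord_nonneg_of_mem P (intOver_mem_place (hb₁int i) P (x_mem_of_ord_pos G hP))
      omega⟩ a
  choose M hM hMπ using fun i j => exists_pairing (hbC.mem i) (hbD.mem j)
  have hdet := pairing_det_ne_zero (M := Matrix.of M) hbC.basis hbD.basis hMπ
  have heval := pairing_eval_ne_zero (M := Matrix.of M) hca hbr hbC hbD hM hdet
  refine ⟨_, ?_, heval⟩
  choose U hU using fun j => exists_trace_bar hy (hbD.mem j)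
  have hcoord := aeval_det_mul_coord G _ U _
    (vecMul_pairing (M := Matrix.of M) hbC.basis hMπ hU)
  choose P hP using fun i => Polynomial.map_surjective G.π G.π_surjective
    (Matrix.vecMul U ((Matrix.of M).map (mapRingHom G.π)).adjugate i)
  refine ⟨∑ i, tameEval G (P i) * bC i, ?_, ?_⟩
  · rw [AddSubmonoidClass.coe_finsetSum]
    refine IsIntegral.sum _ fun i _ => ?_
    rw [MulMemClass.coe_mul, coe_tameEval]
    exact (intOver_aeval _).mul (hbC.mem i)
  · have hsum := hbC.basis.basisBar.sum_repr y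
    simp only [IsLiftBasis.basisBar_apply, Algebra.smul_def] at hsum
    conv_rhs => rw [← hsum, Finset.mul_sum]
    rw [map_sum]
    refine Finset.sum_congr rfl fun i _ => ?_
    rw [map_mul, φ_tameEval, hP, ← mul_assoc]
    show aeval (G.φ G.x) _ * _ = _
    rw [← hcoord i]
    rfl

theorem chartSurjective_of_branchIsolated [IsAlgClosed K] (G : GaussReduction A F k Fb)
    [Algebra.IsSeparable k⟮G.φ G.x⟯ Fb] (hB : G.BranchIsolated) : G.ChartSurjective := by
  classical
  intro y hy
  have := tameGauss_isAlgClosed G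
  -- the polynomials which multiply `y` into the image of the chart
  let I : Ideal k[X] :=
    { carrier := {p | ∃ f : G.V, IntOver K (G.x : F) (f : F) ∧ G.φ f = aeval (G.φ G.x) p * y}
      zero_mem' := ⟨0, isIntegral_zero, by simp⟩
      add_mem' := by
        rintro p q ⟨f, hf, hfp⟩ ⟨g, hg, hgq⟩
        exact ⟨f + g, hf.add hg, by rw [map_add, hfp, hgq, map_add, add_mul]⟩
      smul_mem' := by
        rintro r p ⟨f, hf, hfp⟩
        obtain ⟨R, rfl⟩ : ∃ R : A[X], R.map G.π = r :=
          Polynomial.map_surjective G.π G.π_surjective r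
        refine ⟨tameEval G R * f, ?_, ?_⟩
        · push_cast
          rw [coe_tameEval]
          exact (intOver_aeval _).mul hf
        · rw [map_mul, φ_tameEval, hfp, smul_eq_mul, map_mul, mul_assoc] }
  have htop : (1 : k[X]) ∈ I := by
    obtain ⟨g, hg⟩ := (IsPrincipalIdealRing.principal I).principal
    have hdvd : ∀ p ∈ I, g ∣ p := fun p hp => Ideal.mem_span_singleton.1 (by rw [hg] at hp; exact hp)
    have hgI : g ∈ I := by rw [hg]; exact Submodule.mem_span_singleton_self g
    by_cases hd : g.degree = 0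
    · obtain ⟨g', hg'⟩ := (isUnit_iff_degree_eq_zero.2 hd).exists_left_inv
      rw [← hg']
      exact I.mul_mem_left g' hgI
    obtain ⟨r, hr⟩ := IsAlgClosed.exists_root g hd
    obtain ⟨a, rfl⟩ := G.π_surjective r
    obtain ⟨p, hp, hpe⟩ := exists_multiplier G hB hy a
    exact absurd (IsRoot.dvd hr (hdvd p hp)) hpe
  obtain ⟨f, hf, hfy⟩ := htop
  exact ⟨f, hf, by rw [hfy, map_one, one_mul]⟩

end Fermat.Agent.Igusa

end
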