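/-
Good reduction of `X₀(M)` along `x = j` (`ℓ ≥ 5`), `x = t₂` (`ℓ = 3`, `2 ∣ M`) and `x = t₃`
(`ℓ = 2`, `3 ∣ M`), and the resulting slices for `X₀(N)`, `ℓ ∤ N`.
-/
import Fermat.Agent.Igusa.GaussX0
import Fermat.Agent.Igusa.BranchValues
import Fermat.Agent.Igusa.TameChart
import Fermat.Agent.Curve.ModelGenus
import Fermat.Prelude.Def_FLTPrelim_Ramification
import Mathlib.FieldTheory.SeparableClosure

set_option autoImplicit false
set_option linter.style.haveILetI false

noncomputable section

namespace Fermat.Agent.Igusa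

open AlgebraicCurve ModularCurve IntermediateField Polynomial

set_option synthInstance.maxHeartbeats 400000

section Branch

variable {K F k Fb : Type*} [Field K] [Field F] [Algebra K F] [Field k] [Field Fb] [Algebra k Fb]
  {A : ValuationSubring K}

/-- Branch values only at `0` and at one value with non-zero residue are isolated in the residue
discs, also for `1/x`. -/
theorem branchIsolated_pair (G : Curve.GaussReduction A F k Fb) (b : A) (hb : G.π b ≠ 0)
    (hbr : ∀ α : K, α ≠ 0 → α ≠ (b : K) → ∀ P : Place K F,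
      0 < P.ord ((G.x : F) - algebraMap K F α) → P.ord ((G.x : F) - algebraMap K F α) = 1) :
    G.BranchIsolated := by
  intro a
  by_cases h0 : G.π a = 0
  · refine ⟨0, by rw [map_zero, h0], fun α hα hne P hP => ?_⟩
    refine hbr α (fun h => hne (Subtype.ext h)) (fun h => hb ?_) P hP
    rw [← Subtype.ext h, hα, h0]
  by_cases h1 : G.π a = G.π b
  · refine ⟨b, h1.symm, fun α hα hne P hP => ?_⟩
    refine hbr α (fun h => h0 ?_) (fun h => hne (Subtype.ext h)) P hP
    rw [← hα, show α = 0 from Subtype.ext h, map_zero]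
  · refine ⟨a, rfl, fun α hα _ P hP => ?_⟩
    refine hbr α (fun h => h0 ?_) (fun h => h1 ?_) P hP
    · rw [← hα, show α = 0 from Subtype.ext h, map_zero]
    · rw [← hα, Subtype.ext h]

/-- If `x` is only branched at `0`, `b`, so is `1/x` at `0`, `1/b`. -/
theorem ord_inv_sub_eq_one {x : F} {b : K}
    (hbr : ∀ α : K, α ≠ 0 → α ≠ b → ∀ P : Place K F,
      0 < P.ord (x - algebraMap K F α) → P.ord (x - algebraMap K F α) = 1)
    {γ : K} (h0 : γ ≠ 0) (hb : γ ≠ b⁻¹) (P : Place K F)
    (hP : 0 < P.ord (x⁻¹ - algebraMap K F γ)) : P.ord (x⁻¹ - algebraMap K F γ) = 1 := by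
  have hx : x ≠ 0 := by
    intro h
    rw [h, inv_zero, zero_sub, Curve.ord_neg, Curve.ord_algebraMap] at hP
    omega
  have hγ : algebraMap K F γ ≠ 0 := by simpa using h0
  have hinv : P.ord x⁻¹ = 0 := by
    rw [← add_sub_cancel (algebraMap K F γ) x⁻¹,
      Curve.ord_add_eq_left P hγ (fun _ => by rw [Curve.ord_algebraMap]; exact hP),
      Curve.ord_algebraMap]
  have hne : x⁻¹ - algebraMap K F γ ≠ 0 := fun h => by rw [h, Place.ord_zero] at hP; omega
  have hx0 : P.ord x = 0 := by
    have h := P.ord_mul hx (inv_ne_zero hx)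
    rw [mul_inv_cancel₀ hx, hinv, add_zero] at h
    rw [← h, ← map_one (algebraMap K F), Curve.ord_algebraMap]
  have hid : x - algebraMap K F γ⁻¹ = algebraMap K F (-γ⁻¹) * (x * (x⁻¹ - algebraMap K F γ)) := by
    rw [map_neg, map_inv₀]
    field_simp
    ring
  have heq : P.ord (x - algebraMap K F γ⁻¹) = P.ord (x⁻¹ - algebraMap K F γ) := by
    rw [hid, P.ord_mul (by simpa using h0) (mul_ne_zero hx hne), Curve.ord_algebraMap,
      P.ord_mul hx hne, hx0, zero_add, zero_add]
  rw [← heq] at hP ⊢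
  exact hbr _ (inv_ne_zero h0) (fun h => hb (by rw [← h, inv_inv])) P hP

theorem branchIsolated_swap_pair (G : Curve.GaussReduction A F k Fb) (b : A) (hb : G.π b ≠ 0)
    (hbr : ∀ α : K, α ≠ 0 → α ≠ (b : K) → ∀ P : Place K F,
      0 < P.ord ((G.x : F) - algebraMap K F α) → P.ord ((G.x : F) - algebraMap K F α) = 1) :
    G.swap.BranchIsolated := by
  have hu : IsUnit b := by
    by_contra hu
    apply hb
    have hker := IsLocalRing.eq_maximalIdeal
      (RingHom.ker_isMaximal_of_surjective G.π G.π_surjective)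
    rw [← RingHom.mem_ker, hker]
    exact (IsLocalRing.mem_maximalIdeal b).2 hu
  obtain ⟨u, rfl⟩ := hu
  refine branchIsolated_pair G.swap ((↑u⁻¹ : A)) ?_ fun γ h0 hne P hP => ?_
  · exact (u⁻¹.isUnit.map G.π).ne_zero
  · have hval : ((↑u⁻¹ : A) : K) = ((u : A) : K)⁻¹ :=
      eq_inv_of_mul_eq_one_left (congrArg Subtype.val u.inv_mul)
    exact ord_inv_sub_eq_one hbr h0 (hval ▸ hne) P hP

end Branch

section Separable

variable {k E : Type*} [Field k] [Field E] [Algebra k E]

/-- Separability passes to a larger subfield. -/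
theorem isSeparable_of_adjoin_le {x y : E} (h : k⟮x⟯ ≤ k⟮y⟯) [Algebra.IsSeparable k⟮x⟯ E] :
    Algebra.IsSeparable k⟮y⟯ E := by
  refine ⟨fun z => ?_⟩
  have hz : IsSeparable k⟮x⟯ z := Algebra.IsSeparable.isSeparable k⟮x⟯ z
  letI : Algebra k⟮x⟯ k⟮y⟯ := (IntermediateField.inclusion h).toRingHom.toAlgebra
  haveI : IsScalarTower k⟮x⟯ k⟮y⟯ E := IsScalarTower.of_algebraMap_eq fun a => rfl
  exact hz.tower_top k⟮y⟯

/-- A simple root of a polynomial is separable. -/
theorem isSeparable_of_simple_root {L : Type*} [Field L] [Algebra L E] {p : L[X]} {y : E}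
    (hp : p ≠ 0) (h0 : aeval y p = 0) (h1 : aeval y (derivative p) ≠ 0) : IsSeparable L y := by
  have hint : IsIntegral L y :=
    (show IsAlgebraic L y from ⟨p, hp, h0⟩).isIntegral
  obtain ⟨q, hq⟩ := minpoly.dvd L y h0
  rw [IsSeparable, separable_iff_derivative_ne_zero (minpoly.irreducible hint)]
  intro h
  apply h1
  rw [hq, derivative_mul, h, zero_mul, zero_add, map_mul, minpoly.aeval, zero_mul]

/-- A field generated by elements separable over `k (j)` is separable over `k (j)`. -/
theorem isSeparable_adjoin (Fb : IntermediateField k E) (S : Set E)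
    (hFb : Fb = IntermediateField.adjoin k S) (j : Fb)
    (h : ∀ y : Fb, (y : E) ∈ S → IsSeparable k⟮j⟯ y) : Algebra.IsSeparable k⟮j⟯ Fb := by
  refine ⟨fun z => mem_separableClosure_iff.1 ?_⟩
  have hle : Fb ≤ ((separableClosure k⟮j⟯ Fb).restrictScalars k).map Fb.val := by
    conv_lhs => rw [hFb]
    rw [IntermediateField.adjoin_le_iff]
    intro x hx
    have hxF : x ∈ Fb := by rw [hFb]; exact IntermediateField.subset_adjoin k S hx
    exact ⟨⟨x, hxF⟩, mem_separableClosure_iff.2 (h ⟨x, hxF⟩ hx), rfl⟩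
  obtain ⟨w, hw, hwz⟩ := hle z.2
  rw [show w = z from Subtype.ext hwz] at hw
  exact hw

/-- `j (d τ)` is separable over `k (j)`. -/
theorem isSeparable_jqNModC {k : Type*} [Field k] {Fb : IntermediateField k (LaurentSeries k)}
    (j y : Fb) (hj : (j : LaurentSeries k) = jqModC k) {d : ℕ} [NeZero d]
    (hy : (y : LaurentSeries k) = jqNModC k d) : IsSeparable k⟮j⟯ y := by
  obtain ⟨data⟩ := Fermat.Agent.ModFun.nonempty_modularPolynomialData d
  let ev : ℤ[X] →+* k⟮j⟯ :=
    eval₂RingHom (Int.castRingHom _) ⟨j, mem_adjoin_simple_self k _⟩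
  have hev : ((Fb.val.toRingHom).comp (algebraMap k⟮j⟯ Fb)).comp ev = evalJR k := by
    refine Polynomial.ringHom_ext' (Subsingleton.elim _ _) ?_
    simp only [ev, evalJR, RingHom.comp_apply, coe_eval₂RingHom, eval₂_X]
    exact hj
  have hval : ∀ p : ℤ[X][X], Fb.val.toRingHom (aeval y (p.map ev)) =
      p.eval₂ (evalJR k) (jqNModC k d) := fun p => by
    rw [aeval_def, Polynomial.hom_eval₂, Polynomial.eval₂_map, hev]
    exact eval₂_congr rfl hy rfl
  refine isSeparable_of_simple_root (p := data.Φ.map ev) (data.monic.map ev).ne_zero ?_ ?_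
  · apply Fb.val.toRingHom.injective
    rw [map_zero, hval]
    exact Curve.eval₂_modularPolynomial_eq_zero k data
  · intro h
    apply derivAtJ_ne_zero k data
    rw [derivative_map] at h
    rw [derivAtJ, ← hval, h, map_zero]

end Separable

namespace GaussX0

local notation "Qb" => AlgebraicClosure ℚ
local notation "kk" A => IsLocalRing.ResidueField A

variable {M : ℕ} [NeZero M] {A : ValuationSubring (AlgebraicClosure ℚ)} (hM : IsUnit (M : A))

/-- The special fibre is separable over `k(j)`. -/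
theorem isSeparable_jRed :
    Algebra.IsSeparable (kk A)⟮jRed hM⟯ (modularFunctionFieldFullC (kk A) M) := by
  refine isSeparable_adjoin _ (divisorExpansionsC (kk A) M) rfl (jRed hM) fun y hy => ?_
  obtain ⟨d, hne, -, hy⟩ := hy
  haveI := hne
  exact isSeparable_jqNModC (jRed hM) y (coe_φ_jBar hM) hy

/-- `j` is the Gauss coordinate, or a rational function of it. -/
theorem relfinrank_val {K L : Type*} [Field K] [Field L] [Algebra K L]
    {F : IntermediateField K L} {x y : F} (h : (x : L) ∈ K⟮(y : L)⟯) :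
    K⟮x⟯ ≤ K⟮y⟯ ∧ relfinrank K⟮x⟯ K⟮y⟯ = relfinrank K⟮(x : L)⟯ K⟮(y : L)⟯ := by
  have hm : ∀ z : F, (K⟮z⟯).map F.val = K⟮(z : L)⟯ := fun z => by
    rw [adjoin_map, Set.image_singleton]; rfl
  refine ⟨adjoin_simple_le_iff.2 ?_, ?_⟩
  · rw [← hm] at h
    obtain ⟨z, hz, hzx⟩ := h
    exact (Subtype.ext hzx : z = x) ▸ hz
  · rw [← relfinrank_map_map K⟮x⟯ K⟮y⟯ F.val, hm, hm]

/-- What is needed of a coordinate `t` of degree `e` over `j`. -/
structure Coord (hM : IsUnit (M : A)) where
  /-- the function -/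
  t : modularFunctionFieldBar M
  /-- its integral expansion -/
  tA : LaurentSeries A
  coe_t : (t : LaurentSeries Qb) = coeffMap A.subtype tA
  /-- the degree over `j` -/
  e : ℕ
  e_pos : 0 < e
  transcendental_red : Transcendental (kk A) (coeffMap (IsLocalRing.residue A) tA)
  j_mem : jqModC Qb ∈ Qb⟮coeffMap A.subtype tA⟯
  j_mem_red : jqModC (kk A) ∈ (kk A)⟮coeffMap (IsLocalRing.residue A) tA⟯
  degree : relfinrank Qb⟮jqModC Qb⟯ Qb⟮coeffMap A.subtype tA⟯ = e
  degree_red : relfinrank (kk A)⟮jqModC (kk A)⟯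
    (kk A)⟮coeffMap (IsLocalRing.residue A) tA⟯ = e

namespace Coord

variable {hM} (T : Coord hM)

theorem t_mem : T.t ∈ V hM := (φ_coeffMap hM T.tA T.t T.coe_t).1

/-- the reduction of the coordinate -/
abbrev tRed : modularFunctionFieldFullC (kk A) M := φ hM ⟨T.t, T.t_mem⟩

theorem coe_tRed : (T.tRed : LaurentSeries (kk A)) = coeffMap (IsLocalRing.residue A) T.tA :=
  (φ_coeffMap hM T.tA T.t T.coe_t).2

theorem jRed_le : (kk A)⟮jRed hM⟯ ≤ (kk A)⟮T.tRed⟯ :=
  (relfinrank_val (by rw [T.coe_tRed, coe_φ_jBar]; exact T.j_mem_red)).1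

theorem e_mul_finrank :
    T.e * Module.finrank Qb⟮T.t⟯ (modularFunctionFieldBar M) = dedekindPsi M := by
  obtain ⟨hle, hr⟩ := relfinrank_val (x := jBar M) (y := T.t)
    (by rw [T.coe_t, coe_jBar']; exact T.j_mem)
  rw [← finrank_jField (M := M), JField, ← relfinrank_mul_finrank_top hle, hr, T.coe_t, coe_jBar',
    T.degree]

set_option maxHeartbeats 800000 in
theorem e_mul_finrank_red :
    T.e * Module.finrank (kk A)⟮T.tRed⟯ (modularFunctionFieldFullC (kk A) M) = dedekindPsi M := by
  obtain ⟨hle, hr⟩ := relfinrank_val (x := jRed hM) (y := T.tRed)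
    (by rw [T.coe_tRed, coe_φ_jBar]; exact T.j_mem_red)
  rw [← finrank_res hM, ← relfinrank_mul_finrank_top hle, hr, T.coe_tRed, coe_φ_jBar, T.degree_red]

/-- The Gauss reduction along the coordinate. -/
def gauss : Curve.GaussReduction A (modularFunctionFieldBar M) (kk A)
    (modularFunctionFieldFullC (kk A) M) where
  π := IsLocalRing.residue A
  π_surjective := IsLocalRing.residue_surjective
  V := V hM
  mem_V_iff := algebraMap_mem_iff hM
  φ := φ hM
  φ_surjective := φ_surjective hM
  φ_algebraMap := φ_algebraMap hM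
  x := ⟨T.t, T.t_mem⟩
  x_transcendental := fun h => by
    have := h.algHom (modularFunctionFieldFullC (kk A) M).val
    rw [show (modularFunctionFieldFullC (kk A) M).val T.tRed = _ from T.coe_tRed] at this
    exact T.transcendental_red this
  degree_eq := Nat.eq_of_mul_eq_mul_left T.e_pos (T.e_mul_finrank.trans T.e_mul_finrank_red.symm)
  degree_pos := by
    refine Nat.pos_of_ne_zero fun h => (Gamma0.dedekindPsi_pos M).ne' ?_
    rw [← T.e_mul_finrank_red, h, mul_zero]

@[simp] theorem gauss_x : (T.gauss.x : modularFunctionFieldBar M) = T.t := rfl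

/-- Isolated branch values give good reduction. -/
theorem chartSurjective (b : A) (hb : IsLocalRing.residue A b ≠ 0)
    (hbr : ∀ α : Qb, α ≠ 0 → α ≠ (b : Qb) → ∀ P : Place Qb (modularFunctionFieldBar M),
      0 < P.ord (T.t - algebraMap _ _ α) → P.ord (T.t - algebraMap _ _ α) = 1) :
    T.gauss.ChartSurjective ∧ T.gauss.swap.ChartSurjective := by
  haveI := isSeparable_jRed hM
  have h0 : Algebra.IsSeparable (kk A)⟮T.gauss.φ T.gauss.x⟯
      (modularFunctionFieldFullC (kk A) M) := isSeparable_of_adjoin_le T.jRed_le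
  have h1 : Algebra.IsSeparable (kk A)⟮T.gauss.swap.φ T.gauss.swap.x⟯
      (modularFunctionFieldFullC (kk A) M) := by
    refine @isSeparable_of_adjoin_le _ _ _ _ _ _ _ ?_ h0
    rw [adjoin_simple_le_iff]
    have := inv_mem (mem_adjoin_simple_self (kk A) (T.gauss.swap.φ T.gauss.swap.x))
    rw [show T.gauss.swap.φ T.gauss.swap.x = (T.gauss.φ T.gauss.x)⁻¹ from T.gauss.φ_x_inv,
      inv_inv] at this
    rwa [show T.gauss.swap.φ T.gauss.swap.x = (T.gauss.φ T.gauss.x)⁻¹ from T.gauss.φ_x_inv]
  haveI := h0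
  haveI := h1
  exact ⟨chartSurjective_of_branchIsolated T.gauss (branchIsolated_pair T.gauss b hb hbr),
    chartSurjective_of_branchIsolated T.gauss.swap (branchIsolated_swap_pair T.gauss b hb hbr)⟩

/-- Good reduction along the coordinate. -/
def good (b : A) (hb : IsLocalRing.residue A b ≠ 0)
    (hbr : ∀ α : Qb, α ≠ 0 → α ≠ (b : Qb) → ∀ P : Place Qb (modularFunctionFieldBar M),
      0 < P.ord (T.t - algebraMap _ _ α) → P.ord (T.t - algebraMap _ _ α) = 1) :
    Curve.GoodReduction A (modularFunctionFieldBar M) (kk A)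
      (modularFunctionFieldFullC (kk A) M) :=
  T.gauss.goodReductionOfChartSurjective (T.chartSurjective b hb hbr).1
    (T.chartSurjective b hb hbr).2

end Coord

/-- the coordinate `j` -/
def coordJ : Coord hM where
  t := jBar M
  tA := jqModC A
  coe_t := by rw [coeffMap_jqModC]; exact coe_jBar' M
  e := 1
  e_pos := one_pos
  transcendental_red := by rw [coeffMap_jqModC]; exact transcendental_jqModC _
  j_mem := by rw [coeffMap_jqModC]; exact mem_adjoin_simple_self _ _
  j_mem_red := by rw [coeffMap_jqModC]; exact mem_adjoin_simple_self _ _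
  degree := by rw [coeffMap_jqModC]; exact relfinrank_self _
  degree_red := by rw [coeffMap_jqModC]; exact relfinrank_self _

/-- the coordinate `t₂` -/
def coordT2 (h2M : 2 ∣ M) (h2 : (2 : kk A) ≠ 0) : Coord hM where
  t := t2Bar M h2M
  tA := t2Series A
  coe_t := by rw [coeffMap_t2Series, coe_t2Bar]
  e := 3
  e_pos := by norm_num
  transcendental_red := by rw [coeffMap_t2Series]; exact transcendental_t2Series _
  j_mem := by
    rw [coeffMap_t2Series]
    exact adjoin_jq_le_adjoin_t2Series Qb (mem_adjoin_simple_self _ _)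
  j_mem_red := by
    rw [coeffMap_t2Series]
    exact adjoin_jq_le_adjoin_t2Series (kk A) (mem_adjoin_simple_self _ _)
  degree := by rw [coeffMap_t2Series]; exact relfinrank_t2Series Qb two_ne_zero
  degree_red := by rw [coeffMap_t2Series]; exact relfinrank_t2Series (kk A) h2

/-- the coordinate `t₃` -/
def coordT3 (h3M : 3 ∣ M) (h3 : (3 : kk A) ≠ 0) : Coord hM where
  t := t3Bar M h3M
  tA := t3Series A
  coe_t := by rw [coeffMap_t3Series, coe_t3Bar]
  e := 4
  e_pos := by norm_num
  transcendental_red := by rw [coeffMap_t3Series]; exact transcendental_t3Series _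
  j_mem := by
    rw [coeffMap_t3Series]
    exact adjoin_jq_le_adjoin_t3Series Qb (mem_adjoin_simple_self _ _)
  j_mem_red := by
    rw [coeffMap_t3Series]
    exact adjoin_jq_le_adjoin_t3Series (kk A) (mem_adjoin_simple_self _ _)
  degree := by rw [coeffMap_t3Series]; exact relfinrank_t3Series Qb three_ne_zero
  degree_red := by rw [coeffMap_t3Series]; exact relfinrank_t3Series (kk A) h3

end GaussX0

section Slice

variable {N : ℕ} [NeZero N] {ℓ : ℕ} [Fact ℓ.Prime] {A : ValuationSubring (AlgebraicClosure ℚ)}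

theorem residue_natCast_ne_zero (hA : A.LiesOverPrime ℓ) {m : ℕ} (hm : ¬ ℓ ∣ m) :
    IsLocalRing.residue A (m : A) ≠ 0 := by
  haveI : CharP (IsLocalRing.ResidueField A) ℓ := by
    rw [CharP.charP_iff_prime_eq_zero (Fact.out (p := ℓ.Prime)),
      ← map_natCast (IsLocalRing.residue A) ℓ, IsLocalRing.residue_eq_zero_iff]
    refine ValuationSubring.coe_mem_nonunits_iff.mp ?_
    simpa [ValuationSubring.LiesOverPrime] using hA
  rw [map_natCast, ne_eq, CharP.cast_eq_zero_iff (IsLocalRing.ResidueField A) ℓ]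
  exact hm

theorem isUnit_natCast_of_not_dvd (hA : A.LiesOverPrime ℓ) {m : ℕ} (hm : ¬ ℓ ∣ m) :
    IsUnit (m : A) :=
  (IsLocalRing.residue_ne_zero_iff_isUnit _).1 (residue_natCast_ne_zero hA hm)

omit [Fact ℓ.Prime] in
theorem coe_natCast_val (n : ℕ) :
    (((n : A)) : AlgebraicClosure ℚ) = n := map_natCast A.subtype n

/-- the forgetful map from level `M` to level `N ∣ M` -/
def forgetBar {N M : ℕ} [NeZero N] [NeZero M] (h : N ∣ M) :
    modularFunctionFieldBar N →ₐ[AlgebraicClosure ℚ] modularFunctionFieldBar M :=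
  IntermediateField.inclusion (by
    rw [modularFunctionFieldBar, laurentBaseChange, IntermediateField.adjoin_le_iff]
    rintro _ ⟨y, hy, rfl⟩
    exact coeffEmb_mem_laurentBaseChange _ (full_degeneracy_le h hy))

set_option maxHeartbeats 800000 in
/-- A good reduction of `X₀(M)` along a coordinate is a slice for `X₀(N)`, `N ∣ M`. -/
theorem nonempty_x0Slice_of_coord {M : ℕ} [NeZero M] (h : N ∣ M) {hM : IsUnit (M : A)}
    (T : GaussX0.Coord hM) (b : A) (hb : IsLocalRing.residue A b ≠ 0)
    (hbr : ∀ α : AlgebraicClosure ℚ, α ≠ 0 → α ≠ (b : AlgebraicClosure ℚ) →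
      ∀ P : Place (AlgebraicClosure ℚ) (modularFunctionFieldBar M),
      0 < P.ord (T.t - algebraMap _ _ α) → P.ord (T.t - algebraMap _ _ α) = 1) :
    Nonempty (X0Slice N A) := by
  haveI : IsAlgClosed (IsLocalRing.ResidueField A) := T.gauss.isAlgClosed_k
  have hj : forgetBar h (jBar N) = jBar M := Subtype.ext rfl
  have hmem : forgetBar h (jBar N) ∈ (T.good b hb hbr).V := by
    rw [hj]; exact GaussX0.jBar_mem hM
  have hφ : (T.good b hb hbr).φ ⟨_, hmem⟩ = GaussX0.jRed hM :=
    congrArg (GaussX0.φ hM) (Subtype.ext hj)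
  exact ⟨{
    F' := modularFunctionFieldBar M
    Fb' := modularFunctionFieldFullC (IsLocalRing.ResidueField A) M
    good := T.good b hb hbr
    good_π := rfl
    ι := forgetBar h
    j_mem := hmem
    j_transcendental := by rw [hφ]; exact GaussX0.φ_jBar_transcendental hM
    j_degree_eq := by rw [hφ, hj, GaussX0.finrank_res hM]; exact GaussX0.finrank_jField
    j_degree_pos := by
      rw [hj]
      show 0 < Module.finrank (JField M) (modularFunctionFieldBar M)
      rw [GaussX0.finrank_jField]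
      exact Gamma0.dedekindPsi_pos M }⟩

/-- Slices exist for every `ℓ ∤ N`. -/
theorem nonempty_x0Slice (hℓN : ¬ ℓ ∣ N) (hA : A.LiesOverPrime ℓ) : Nonempty (X0Slice N A) := by
  have hℓ : ℓ.Prime := Fact.out
  by_cases h3 : ℓ = 3
  · subst h3
    haveI : NeZero (2 * N) := ⟨mul_ne_zero two_ne_zero (NeZero.ne N)⟩
    have hMd : ¬ 3 ∣ 2 * N := hℓ.not_dvd_mul (by norm_num) hℓN
    refine nonempty_x0Slice_of_coord (dvd_mul_left N 2)
      (GaussX0.coordT2 (isUnit_natCast_of_not_dvd hA hMd) (dvd_mul_right 2 N)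
        (by have h := residue_natCast_ne_zero hA (m := 2) (by decide); rwa [map_natCast, Nat.cast_ofNat] at h))
      (-(64 : ℕ) : A) ?_ fun α h0 h1 P hP =>
        ord_t2Bar_sub_eq_one P (dvd_mul_right 2 N) h0 (fun h => h1 (h.trans (by
          rw [NegMemClass.coe_neg, coe_natCast_val, Nat.cast_ofNat]))) hP
    rw [map_neg, neg_ne_zero]
    exact residue_natCast_ne_zero hA (by norm_num)
  by_cases h2 : ℓ = 2
  · subst h2
    haveI : NeZero (3 * N) := ⟨mul_ne_zero three_ne_zero (NeZero.ne N)⟩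
    have hMd : ¬ 2 ∣ 3 * N := hℓ.not_dvd_mul (by norm_num) hℓN
    refine nonempty_x0Slice_of_coord (dvd_mul_left N 3)
      (GaussX0.coordT3 (isUnit_natCast_of_not_dvd hA hMd) (dvd_mul_right 3 N)
        (by have h := residue_natCast_ne_zero hA (m := 3) (by decide); rwa [map_natCast, Nat.cast_ofNat] at h))
      (-(27 : ℕ) : A) ?_ fun α h0 h1 P hP =>
        ord_t3Bar_sub_eq_one P (dvd_mul_right 3 N) h0 (fun h => h1 (h.trans (by
          rw [NegMemClass.coe_neg, coe_natCast_val, Nat.cast_ofNat]))) hP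
    rw [map_neg, neg_ne_zero]
    exact residue_natCast_ne_zero hA (by norm_num)
  refine nonempty_x0Slice_of_coord (dvd_refl N)
    (GaussX0.coordJ (isUnit_natCast_of_not_dvd hA hℓN)) ((1728 : ℕ) : A) ?_
    fun α h0 h1 P hP => ord_jBar_sub_eq_one P h0 (fun h => h1 (h.trans (by
          rw [coe_natCast_val, Nat.cast_ofNat]))) hP
  refine residue_natCast_ne_zero hA fun h => ?_
  rw [show 1728 = 2 ^ 6 * 3 ^ 3 by norm_num] at h
  rcases (Nat.Prime.dvd_mul hℓ).1 h with h | h
  · exact h2 ((Nat.prime_dvd_prime_iff_eq hℓ Nat.prime_two).1 (hℓ.dvd_of_dvd_pow h))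
  · exact h3 ((Nat.prime_dvd_prime_iff_eq hℓ Nat.prime_three).1 (hℓ.dvd_of_dvd_pow h))

end Slice

end Fermat.Agent.Igusa

end
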