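/-
Auxiliary facts for the descent of good reduction: functions with exact orders, constants in
residue fields, push forward of divisors over algebraically closed constants, and compatibility
of norms with reduction.
-/
import Fermat.Agent.Igusa.JacobianGauss
import Fermat.Agent.Curve.RiemannRochFunctions
import Fermat.Agent.Curve.BasicExtension
import Mathlib.RingTheory.Norm.Basic

set_option autoImplicit false

noncomputable section

namespace Fermat.Agent.Igusa

open AlgebraicCurve

section Field

variable {K F : Type*} [Field K] [Field F] [Algebra K F] [IsAlgClosed K]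
  [Curve.IsFunctionFieldOne K F]

/-- a regular function takes a constant value -/
theorem exists_const_sub (v : Place K F) {x : F} (hx : 0 ≤ v.ord x) :
    ∃ c : K, x - algebraMap K F c = 0 ∨ 1 ≤ v.ord (x - algebraMap K F c) := by
  haveI := Curve.finite_residueField (K := K) v
  have hbij : Function.Bijective (algebraMap K v.ResidueField) :=
    IsAlgClosed.algebraMap_bijective_of_isIntegral
  set a : v.toValuationSubring := ⟨x, Curve.mem_of_ord_nonneg v hx⟩ with ha
  obtain ⟨c, hc⟩ := hbij.2 (IsLocalRing.residue _ a)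
  refine ⟨c, ?_⟩
  have h0 : IsLocalRing.residue _ (a - algebraMap K v.toValuationSubring c) = 0 := by
    rw [map_sub, sub_eq_zero, ← hc]
    rfl
  rcases (Curve.residue_eq_zero_iff v _).mp h0 with h | h
  · exact Or.inl h
  · exact Or.inr h

/-- a function with exact orders at finitely many places -/
theorem exists_exact_ord {D : Divisor K F} (hD : 2 * (genusFF K F : ℤ) ≤ Divisor.degree D)
    (S : Finset (Place K F)) :
    ∃ f ∈ riemannRochSpace D, f ≠ 0 ∧ ∀ R ∈ S, R.ord f = -D R := by
  classical
  obtain ⟨v₀, -⟩ := Curve.exists_place (K := K) (F := F)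
  set T := insert v₀ S with hT
  let p : Place K F → Submodule K ↥(riemannRochSpace D) := fun v =>
    (riemannRochSpace (D - Finsupp.single v 1)).comap (Submodule.subtype _)
  have htop : (⊤ : Submodule K ↥(riemannRochSpace D)) ∉ T.image p := by
    intro h
    obtain ⟨v, -, hpv⟩ := Finset.mem_image.mp h
    have hle : riemannRochSpace D ≤ riemannRochSpace (D - Finsupp.single v 1) :=
      Submodule.comap_subtype_eq_top.mp hpv
    have h1 : Curve.ellDim D ≤ Curve.ellDim (D - Finsupp.single v 1) := Submodule.finrank_mono hle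
    have h4 := Curve.ellDim_eq_of_degree_ge (D := D) (by omega)
    have h5 := Curve.ellDim_eq_of_degree_ge (D := D - Finsupp.single v 1)
      (by rw [map_sub, Divisor.degree_single, Curve.deg_eq_one]; push_cast; omega)
    rw [map_sub, Divisor.degree_single, Curve.deg_eq_one] at h5
    push_cast at h5
    omega
  obtain ⟨f, hf⟩ := (Set.ne_univ_iff_exists_notMem _).mp
    (Subspace.biUnion_ne_univ_of_top_notMem htop)
  simp only [Set.mem_iUnion, SetLike.mem_coe, not_exists, Finset.mem_image] at hf
  have hnot : ∀ v ∈ T, (f : F) ∉ riemannRochSpace (D - Finsupp.single v 1) :=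
    fun v hv h => hf (p v) ⟨v, hv, rfl⟩ h
  have hf0 : (f : F) ≠ 0 := fun h => hnot v₀ (Finset.mem_insert_self _ _) (h ▸ zero_mem _)
  refine ⟨f, f.2, hf0, fun R hR => ?_⟩
  have h1 := (mem_riemannRochSpace_iff.mp f.2 R).resolve_left hf0
  refine le_antisymm ?_ h1
  by_contra hlt
  push Not at hlt
  refine hnot R (Finset.mem_insert_of_mem hR) (mem_riemannRochSpace_iff.mpr fun w => Or.inr ?_)
  rcases eq_or_ne w R with rfl | hw
  · rw [Finsupp.sub_apply, Finsupp.single_eq_same]
    omega
  · rw [Finsupp.sub_apply, Finsupp.single_eq_of_ne hw, sub_zero]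
    exact (mem_riemannRochSpace_iff.mp f.2 w).resolve_left hf0

end Field

section Extension

variable {K F F' : Type*} [Field K] [Field F] [Field F'] [Algebra K F] [Algebra K F']
  [Algebra F F'] [IsScalarTower K F F'] [Algebra.IsIntegral F F'] [IsAlgClosed K]
  [Curve.IsFunctionFieldOne K F] [Curve.IsFunctionFieldOne K F']

theorem inertiaDeg_eq_one (w : Place K F') : w.inertiaDeg F = 1 := by
  have h := w.deg_restrict_mul_inertiaDeg (F := F)
  rwa [Curve.deg_eq_one, Curve.deg_eq_one, one_mul] at h

theorem pushforward_apply_one [DecidableEq (Place K F)] (D : Divisor K F') (v : Place K F) :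
    Divisor.pushforward F D v = ∑ w ∈ D.support, if w.restrict F = v then D w else 0 := by
  rw [Divisor.pushforward_apply]
  refine Finset.sum_congr rfl fun w _ => ?_
  rw [inertiaDeg_eq_one, Nat.cast_one, mul_one]

theorem pushforward_apply_eq_single (D : Divisor K F') {v : Place K F} {w : Place K F'}
    (hw : w.restrict F = v) (h : ∀ w', w'.restrict F = v → w' ≠ w → D w' = 0) :
    Divisor.pushforward F D v = D w := by
  classical
  rw [pushforward_apply_one, Finset.sum_eq_single w, if_pos hw]
  · intro w' _ hne
    split_ifs with hr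
    · exact h w' hr hne
    · rfl
  · intro hns
    rw [if_pos hw, Finsupp.notMem_support_iff.mp hns]

theorem pushforward_apply_eq_zero (D : Divisor K F') {v : Place K F}
    (h : ∀ w', w'.restrict F = v → D w' = 0) : Divisor.pushforward F D v = 0 := by
  classical
  rw [pushforward_apply_one]
  refine Finset.sum_eq_zero fun w' _ => ?_
  split_ifs with hr
  · exact h w' hr
  · rfl

theorem pushforward_apply_nonneg (D : Divisor K F') {v : Place K F}
    (h : ∀ w', w'.restrict F = v → 0 ≤ D w') : 0 ≤ Divisor.pushforward F D v := by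
  classical
  rw [pushforward_apply_one]
  refine Finset.sum_nonneg fun w' _ => ?_
  split_ifs with hr
  · exact h w' hr
  · rfl

variable [Module.Finite F F']

theorem ord_norm {f : F'} (hf : f ≠ 0) (v : Place K F) :
    v.ord (Algebra.norm F f) = Divisor.pushforward F (Curve.divisorOf K f) v :=
  (Curve.pushforwardNormFormula_of_isFunctionFieldOne (K := K) (F := F) (F' := F') f hf _
    (Curve.divisorOf_apply f) v).symm

end Extension

section Norm

open Module

variable {L F Lb Fb : Type*} [Field L] [Field F] [Field Lb] [Field Fb] [Algebra L F]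
  [Algebra Lb Fb] [Module.Finite L F] [Module.Finite Lb Fb]
  {V₀ : ValuationSubring L} {φ₀ : V₀ →+* Lb} {V : ValuationSubring F} {φ : V →+* Fb}
  (hV : ∀ a : L, a ∈ V₀ ↔ algebraMap L F a ∈ V)
  (hcomp : ∀ a : V₀, φ ⟨algebraMap L F (a : L), (hV _).1 a.2⟩ = algebraMap Lb Fb (φ₀ a))

include hcomp

/-- reduction commutes with the norm when the residual degree is the degree -/
theorem norm_reduction (hker : ∀ g : V, ¬ IsUnit g → φ g = 0) (hφ : Function.Surjective φ)
    (hdeg : Module.finrank Lb Fb = Module.finrank L F) (f : V) :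
    ∃ h : Algebra.norm L (f : F) ∈ V₀,
      φ₀ ⟨Algebra.norm L (f : F), h⟩ = Algebra.norm Lb (φ f) := by
  classical
  set n := Module.finrank L F with hn
  haveI : Nonempty (Fin n) := ⟨⟨0, Module.finrank_pos⟩⟩
  have hcompat : ∀ a : L, ∀ h : algebraMap L F a ∈ V,
      φ ⟨algebraMap L F a, h⟩ ∈ (algebraMap Lb Fb).range :=
    fun a h => ⟨φ₀ ⟨a, (hV a).2 h⟩, (hcomp ⟨a, (hV a).2 h⟩).symm⟩
  let bE := Module.finBasisOfFinrankEq Lb Fb hdeg
  choose bV hbV using fun i : Fin n => hφ (bE i)
  have hind' : LinearIndependent Lb fun i => φ (bV i) := by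
    simp only [hbV]
    exact bE.linearIndependent
  let bK := basisOfLinearIndependentOfCardEqFinrank
    (linearIndependent_of_reduction hcompat bV hind') (Fintype.card_fin n)
  have hbK : ∀ i, bK i = (bV i : F) := fun i => by simp [bK]
  have hcoef : ∀ i j, bK.repr ((f : F) * bK j) i ∈ V₀ := by
    intro i j
    rw [hV]
    refine coeff_mem_of_reduction hcompat hker bV hind' (fun i => bK.repr ((f : F) * bK j) i) ?_ i
    have hsum : ∑ i, bK.repr ((f : F) * bK j) i • (bV i : F) = (f : F) * bK j := by
      simp_rw [← hbK]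
      exact bK.sum_repr _
    rw [hsum, hbK]
    exact mul_mem f.2 (bV j).2
  let M : Matrix (Fin n) (Fin n) V₀ := Matrix.of fun i j => ⟨_, hcoef i j⟩
  have hMK : M.map V₀.subtype = Algebra.leftMulMatrix bK (f : F) := by
    ext i j
    rw [Algebra.leftMulMatrix_eq_repr_mul]
    rfl
  have hME : M.map φ₀ = Algebra.leftMulMatrix bE (φ f) := by
    ext i j
    rw [Algebra.leftMulMatrix_eq_repr_mul]
    suffices h : ∑ i, φ₀ (M i j) • bE i = φ f * bE j by
      rw [← h, bE.repr_sum_self]
      rfl
    have hid : ∑ i, ⟨algebraMap L F (M i j : L), (hV _).1 (M i j).2⟩ * bV i = f * bV j := by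
      apply Subtype.ext
      push_cast
      have h' : ∑ i, bK.repr ((f : F) * bK j) i • bK i = (f : F) * bK j := bK.sum_repr _
      simp_rw [hbK, Algebra.smul_def] at h'
      simp only [M, Matrix.of_apply]
      simp_rw [hbK]
      exact h'
    have h2 := congrArg φ hid
    rw [map_sum, map_mul, hbV] at h2
    rw [← h2]
    refine Finset.sum_congr rfl fun i _ => ?_
    rw [map_mul, hcomp, hbV, Algebra.smul_def]
  have hdet : V₀.subtype M.det = Algebra.norm L (f : F) := by
    rw [Algebra.norm_eq_matrix_det bK, ← hMK, ← RingHom.mapMatrix_apply, RingHom.map_det]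
  refine ⟨hdet ▸ M.det.2, ?_⟩
  have e : (⟨Algebra.norm L (f : F), hdet ▸ M.det.2⟩ : V₀) = M.det := Subtype.ext hdet.symm
  rw [e, Algebra.norm_eq_matrix_det bE, ← hME, ← RingHom.mapMatrix_apply, RingHom.map_det]

end Norm

end Fermat.Agent.Igusa

end
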