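/-
If `F ⊆ F'` and `F'` has good reduction, the reduction of the Riemann-Roch lattices of `F` at
multiples of a point fills the Riemann-Roch spaces of the reduced field: the genus is preserved.
-/
import Fermat.Agent.Igusa.JacobianDescentBasic
import Fermat.Agent.Curve.ReductionMap

set_option autoImplicit false

noncomputable section

namespace Fermat.Agent.Igusa.Descent

open AlgebraicCurve

variable {K : Type*} [Field K] {A : ValuationSubring K}
  {F : Type*} [Field F] [Algebra K F] {F' : Type*} [Field F'] [Algebra K F']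
  [Algebra F F'] [IsScalarTower K F F']
  {k : Type*} [Field k] {Fb : Type*} [Field Fb] [Algebra k Fb]
  {Fb' : Type*} [Field Fb'] [Algebra k Fb'] [Algebra Fb Fb'] [IsScalarTower k Fb Fb']
  [IsAlgClosed K] [IsAlgClosed k]
  [IsCurveOver K F'] [Algebra.EssFiniteType K F'] [IsCurveOver k Fb'] [Algebra.EssFiniteType k Fb']
  [Curve.IsFunctionFieldOne K F] [Curve.IsFunctionFieldOne K F']
  [Curve.IsFunctionFieldOne k Fb] [Curve.IsFunctionFieldOne k Fb']
  [Module.Finite F F'] [Algebra.IsIntegral F F'] [Module.Finite Fb Fb'] [Algebra.IsIntegral Fb Fb']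
  (G' : Curve.GoodReduction A F' k Fb') (V : ValuationSubring F) (φ : V →+* Fb)

/-- the reduction of a space of functions of `F` -/
def redSpace (U : Submodule K F) : Submodule k Fb :=
  (G'.reduceSubspace (U.map (IsScalarTower.toAlgHom K F F').toLinearMap)).comap
    (IsScalarTower.toAlgHom k Fb Fb').toLinearMap

theorem redSpace_mono {U U' : Submodule K F} (h : U ≤ U') :
    redSpace G' (Fb := Fb) U ≤ redSpace G' U' :=
  Submodule.comap_mono (G'.reduceSubspace_mono (Submodule.map_mono h))

variable (hV : ∀ f : F, f ∈ V ↔ algebraMap F F' f ∈ G'.V)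
  (hcomp : ∀ f : V, G'.φ ⟨algebraMap F F' (f : F), (hV _).1 f.2⟩ = algebraMap Fb Fb' (φ f))

include hcomp

theorem mem_redSpace {U : Submodule K F} {y : Fb} :
    y ∈ redSpace G' U ↔ ∃ f : V, (f : F) ∈ U ∧ φ f = y := by
  rw [redSpace, Submodule.mem_comap, Curve.GoodReduction.mem_reduceSubspace]
  constructor
  · rintro ⟨g, hg, hgy⟩
    obtain ⟨f, hf, hfg⟩ := Submodule.mem_map.mp hg
    have hfg' : algebraMap F F' f = (g : F') := hfg
    have hfV : f ∈ V := (hV f).2 (hfg' ▸ g.2)
    refine ⟨⟨f, hfV⟩, hf, (algebraMap Fb Fb').injective ?_⟩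
    rw [← hcomp ⟨f, hfV⟩]
    refine Eq.trans ?_ hgy
    exact congrArg G'.φ (Subtype.ext hfg')
  · rintro ⟨f, hf, rfl⟩
    exact ⟨⟨_, (hV _).1 f.2⟩, Submodule.mem_map.mpr ⟨f, hf, rfl⟩, hcomp f⟩

theorem finrank_redSpace (U : Submodule K F) [FiniteDimensional K U] :
    Module.finrank k (redSpace G' (Fb := Fb) U) = Module.finrank K U := by
  set T := U.map (IsScalarTower.toAlgHom K F F').toLinearMap with hT
  haveI : FiniteDimensional K T := Module.Finite.map _ _
  have hle : G'.reduceSubspace T ≤ LinearMap.range (IsScalarTower.toAlgHom k Fb Fb').toLinearMap := by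
    rintro y ⟨g, hg, rfl⟩
    obtain ⟨f, hf, hfg⟩ := Submodule.mem_map.mp hg
    have hfg' : algebraMap F F' f = (g : F') := hfg
    have hfV : f ∈ V := (hV f).2 (hfg' ▸ g.2)
    refine ⟨φ ⟨f, hfV⟩, ?_⟩
    refine (hcomp ⟨f, hfV⟩).symm.trans ?_
    exact congrArg G'.φ (Subtype.ext hfg')
  have hinj : Function.Injective (IsScalarTower.toAlgHom k Fb Fb').toLinearMap :=
    (algebraMap Fb Fb').injective
  have hmap : (redSpace G' (Fb := Fb) U).map (IsScalarTower.toAlgHom k Fb Fb').toLinearMap =
      G'.reduceSubspace T := Submodule.map_comap_eq_of_le hle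
  rw [(Submodule.equivMapOfInjective _ hinj (redSpace G' (Fb := Fb) U)).finrank_eq, hmap,
    G'.finrank_reduceSubspace, hT]
  exact ((Submodule.equivMapOfInjective _ (algebraMap F F').injective U).finrank_eq).symm

theorem φ_ker (g : G'.V) (hg : ¬ IsUnit g) : G'.φ g = 0 := (G'.φ_eq_zero_iff g).2 hg

variable (hdeg : Module.finrank Fb Fb' = Module.finrank F F')

include hdeg

/-- a function of the reduced slice with poles at the reduction of `P'` only has its norm in the
reduced lattice at `P = P'|F` -/
theorem norm_mem_redSpace (P' : Place K F') {n : ℕ}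
    (hn : G'.reduceSubspace (riemannRochSpace (Finsupp.single P' (n : ℤ))) =
      riemannRochSpace (G'.divMap (Finsupp.single P' (n : ℤ))))
    {g : Fb'} (hg : g ∈ riemannRochSpace (Finsupp.single (G'.placeMap P') (n : ℤ))) :
    Algebra.norm Fb g ∈
      redSpace G' (riemannRochSpace (Finsupp.single (P'.restrict F) (n : ℤ))) := by
  classical
  rw [← G'.divMap_single, ← hn] at hg
  obtain ⟨f, hf, rfl⟩ := hg
  obtain ⟨h, he⟩ := norm_reduction hV hcomp (φ_ker G' V φ hV hcomp) G'.φ_surjective hdeg f
  rw [mem_redSpace G' V φ hV hcomp]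
  refine ⟨⟨_, h⟩, ?_, he⟩
  rw [mem_riemannRochSpace_iff]
  intro v
  rcases eq_or_ne (f : F') 0 with hf0 | hf0
  · exact Or.inl (by show Algebra.norm F (f : F') = 0; rw [hf0, Algebra.norm_zero])
  refine Or.inr ?_
  show -(Finsupp.single (P'.restrict F) (n : ℤ)) v ≤ v.ord (Algebra.norm F (f : F'))
  rw [ord_norm hf0]
  have hnn : 0 ≤ Divisor.pushforward F
      (Curve.divisorOf K (f : F') + Finsupp.single P' (n : ℤ)) v := by
    refine pushforward_apply_nonneg _ fun w _ => ?_
    have h1 := (mem_riemannRochSpace_iff.mp hf w).resolve_left hf0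
    rw [Finsupp.add_apply, Curve.divisorOf_apply]
    omega
  rw [map_add, Divisor.pushforward_single, inertiaDeg_eq_one, Nat.cast_one, mul_one,
    Finsupp.add_apply] at hnn
  omega

/-- norms of functions with exact orders -/
theorem exists_exact_pole (P' : Place K F') {n : ℕ}
    (hn : G'.reduceSubspace (riemannRochSpace (Finsupp.single P' (n : ℤ))) =
      riemannRochSpace (G'.divMap (Finsupp.single P' (n : ℤ))))
    (hg : 2 * genusFF k Fb' ≤ n) :
    ∃ y ∈ redSpace G' (riemannRochSpace (Finsupp.single (P'.restrict F) (n : ℤ))),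
      y ≠ 0 ∧ ((G'.placeMap P').restrict Fb).ord y = -(n : ℤ) := by
  classical
  set Q' := G'.placeMap P'
  obtain ⟨g, hgL, hg0, hord⟩ := exists_exact_ord
    (D := Finsupp.single Q' (n : ℤ)) (by
      rw [Divisor.degree_single, Curve.deg_eq_one]; push_cast; omega)
    ((Q'.restrict Fb).fiber Fb')
  refine ⟨_, norm_mem_redSpace G' V φ hV hcomp hdeg P' hn hgL,
    Algebra.norm_ne_zero_iff.mpr hg0, ?_⟩
  rw [ord_norm hg0, pushforward_apply_eq_single _ (w := Q') rfl]
  · rw [Curve.divisorOf_apply, hord _ (Place.restrict_mem_fiber Q'), Finsupp.single_eq_same]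
  · intro w' hw' hne
    rw [Curve.divisorOf_apply, hord _ (Place.mem_fiber.mpr hw'), Finsupp.single_eq_of_ne hne,
      neg_zero]

/-- all places over `P` reduce to places over the same place -/
theorem divMap_pullback_eq (P' : Place K F') {n : ℕ} (hn0 : 0 < n)
    (hn : G'.reduceSubspace (riemannRochSpace (Finsupp.single P' (n : ℤ))) =
      riemannRochSpace (G'.divMap (Finsupp.single P' (n : ℤ))))
    (hg : 2 * genusFF k Fb' ≤ n) :
    G'.divMap (Divisor.pullback F' (Finsupp.single (P'.restrict F) 1)) =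
      Divisor.pullback Fb' (Finsupp.single ((G'.placeMap P').restrict Fb) 1) := by
  classical
  set P := P'.restrict F
  set Q := (G'.placeMap P').restrict Fb
  have hnonneg : 0 ≤ Divisor.pullback F' (Finsupp.single P (1 : ℤ)) := Finsupp.le_def.mpr fun w => by
    rw [Finsupp.zero_apply, Divisor.pullback_apply]
    refine mul_nonneg (Int.natCast_nonneg _) ?_
    rw [Finsupp.single_apply]
    split_ifs <;> norm_num
  refine (Curve.eq_of_le_of_degree_le ?_ ?_).symm
  · refine Finsupp.le_def.mpr fun R => ?_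
    by_cases hR : R.restrict Fb = Q
    · rw [Divisor.pullback_single_apply_of_restrict_eq hR, one_mul]
      obtain ⟨y, hy, hy0, hord⟩ := exists_exact_pole G' V φ hV hcomp hdeg P' hn hg
      obtain ⟨h, hhL, rfl⟩ := (mem_redSpace G' V φ hV hcomp).mp hy
      have hh0 : (h : F) ≠ 0 := fun h0 => hy0 (by rw [show h = 0 from Subtype.ext h0, map_zero])
      have hne : G'.φ ⟨algebraMap F F' (h : F), (hV _).1 h.2⟩ ≠ 0 := by
        rw [hcomp]
        simpa using hy0
      have hD : ∀ w, Divisor.pullback F' (Curve.divisorOf K (h : F)) w =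
          w.ord (algebraMap F F' (h : F)) :=
        Divisor.pullback_apply_eq_ord (Curve.divisorOf_apply _)
      have heq := G'.divMap_apply_eq_ord ⟨_, (hV _).1 h.2⟩ hne hD R
      rw [hcomp, R.ord_restrict (F := Fb), hR, hord] at heq
      have hge : -((n : ℤ) • Divisor.pullback F' (Finsupp.single P (1 : ℤ))) ≤
          Divisor.pullback F' (Curve.divisorOf K (h : F)) := Finsupp.le_def.mpr fun w => by
        rw [Finsupp.neg_apply, Finsupp.smul_apply, Divisor.pullback_apply, Divisor.pullback_apply,
          Curve.divisorOf_apply, smul_eq_mul]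
        have h1 := (mem_riemannRochSpace_iff.mp hhL (w.restrict F)).resolve_left hh0
        have he : (0 : ℤ) ≤ (w.ramificationIndex F : ℤ) := Int.natCast_nonneg _
        have h2 := mul_le_mul_of_nonneg_left h1 he
        have h3 : (Finsupp.single P (n : ℤ)) (w.restrict F) =
            (n : ℤ) * (Finsupp.single P (1 : ℤ)) (w.restrict F) := by
          rw [Finsupp.single_apply, Finsupp.single_apply]
          split_ifs <;> simp
        rw [h3] at h2
        linarith
      have hle := Finsupp.le_def.mp (G'.divMap_mono hge) R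
      rw [map_neg, map_zsmul, Finsupp.neg_apply, Finsupp.smul_apply, smul_eq_mul, heq] at hle
      have hnpos : (0 : ℤ) < n := by exact_mod_cast hn0
      nlinarith [hle]
    · rw [Divisor.pullback_single_apply_of_restrict_ne hR]
      have h := Finsupp.le_def.mp (G'.divMap_mono hnonneg) R
      rwa [map_zero, Finsupp.zero_apply] at h
  · rw [G'.degree_divMap, Divisor.degree_pullback, Divisor.degree_pullback, Divisor.degree_single,
      Divisor.degree_single, Curve.deg_eq_one, Curve.deg_eq_one, hdeg]

/-- the reduced lattice at `nP` lies in the Riemann-Roch space at `nQ` -/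
theorem redSpace_le {P : Place K F} {Q : Place k Fb}
    (hPQ : G'.divMap (Divisor.pullback F' (Finsupp.single P 1)) =
      Divisor.pullback Fb' (Finsupp.single Q 1)) (n : ℕ) :
    redSpace G' (riemannRochSpace (Finsupp.single P (n : ℤ))) ≤
      riemannRochSpace (Finsupp.single Q (n : ℤ)) := by
  classical
  intro y hy
  obtain ⟨h, hhL, rfl⟩ := (mem_redSpace G' V φ hV hcomp).mp hy
  rw [mem_riemannRochSpace_iff]
  intro v
  rcases eq_or_ne (φ h) 0 with h0 | h0
  · exact Or.inl h0
  refine Or.inr ?_
  obtain ⟨R, rfl⟩ := Curve.exists_restrict_eq (K := k) (F := Fb) (F' := Fb') v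
  have hL : algebraMap F F' (h : F) ∈
      riemannRochSpace (Divisor.pullback F' (Finsupp.single P (n : ℤ))) := by
    rw [mem_riemannRochSpace_iff]
    intro w
    rcases eq_or_ne (algebraMap F F' (h : F)) 0 with h1 | h1
    · exact Or.inl h1
    refine Or.inr ?_
    have hh0 : (h : F) ≠ 0 := fun hz => h1 (by rw [hz, map_zero])
    rw [Divisor.pullback_apply, w.ord_restrict (F := F), ← mul_neg]
    exact mul_le_mul_of_nonneg_left
      ((mem_riemannRochSpace_iff.mp hhL (w.restrict F)).resolve_left hh0) (Int.natCast_nonneg _)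
  have hred := G'.φ_mem_riemannRochSpace ⟨_, (hV _).1 h.2⟩ hL
  have hn : Finsupp.single P (n : ℤ) = (n : ℤ) • Finsupp.single P (1 : ℤ) := by
    rw [Finsupp.smul_single, smul_eq_mul, mul_one]
  rw [hcomp, hn, map_zsmul, map_zsmul, hPQ] at hred
  have h2 := (mem_riemannRochSpace_iff.mp hred R).resolve_left (by simpa using h0)
  rw [Finsupp.smul_apply, Divisor.pullback_apply, R.ord_restrict (F := Fb), smul_eq_mul] at h2
  have he : (0 : ℤ) < (R.ramificationIndex Fb : ℤ) := by exact_mod_cast R.ramificationIndex_pos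
  have h3 : (Finsupp.single Q (n : ℤ)) (R.restrict Fb) =
      (n : ℤ) * (Finsupp.single Q (1 : ℤ)) (R.restrict Fb) := by
    rw [Finsupp.single_apply, Finsupp.single_apply]
    split_ifs <;> simp
  rw [h3]
  nlinarith [h2]

end Fermat.Agent.Igusa.Descent

end
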