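/-
A multiplicative system of subspaces of `L(nQ)` of constant codimension which has every large
pole order and separates points and tangents is everything: the gap is the genus.
-/
import Fermat.Agent.Igusa.JacobianDescentBasic

set_option autoImplicit false

noncomputable section

namespace Fermat.Agent.Igusa.Descent

open AlgebraicCurve

variable {k F : Type*} [Field k] [Field F] [Algebra k F] [IsAlgClosed k]
  [Curve.IsFunctionFieldOne k F]

/-- `L(nQ)` -/
abbrev LQ (Q : Place k F) (n : ℕ) : Submodule k F := riemannRochSpace (Finsupp.single Q (n : ℤ))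

theorem LQ_mono (Q : Place k F) {m n : ℕ} (h : m ≤ n) : LQ Q m ≤ LQ Q n :=
  Curve.riemannRochSpace_mono (Finsupp.single_le_single.mpr (by exact_mod_cast h))

omit [IsAlgClosed k] [Curve.IsFunctionFieldOne k F] in
theorem mem_LQ_iff (Q : Place k F) {n : ℕ} {b : F} (hb : b ≠ 0) :
    b ∈ LQ Q n ↔ -(n : ℤ) ≤ Q.ord b ∧ ∀ v, v ≠ Q → 0 ≤ v.ord b := by
  classical
  rw [LQ, mem_riemannRochSpace_iff]
  constructor
  · intro h
    refine ⟨?_, fun v hv => ?_⟩
    · simpa [Finsupp.single_eq_same] using (h Q).resolve_left hb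
    · simpa [Finsupp.single_eq_of_ne hv] using (h v).resolve_left hb
  · rintro ⟨h1, h2⟩ v
    refine Or.inr ?_
    rcases eq_or_ne v Q with rfl | hv
    · simpa [Finsupp.single_eq_same] using h1
    · simpa [Finsupp.single_eq_of_ne hv] using h2 v hv

omit [IsAlgClosed k] [Curve.IsFunctionFieldOne k F] in
theorem mem_LQ_of_regular (Q : Place k F) {b : F} (hb : ∀ v, v ≠ Q → b = 0 ∨ 0 ≤ v.ord b)
    {n : ℕ} (hn : -(n : ℤ) ≤ Q.ord b) : b ∈ LQ Q n := by
  rcases eq_or_ne b 0 with rfl | hb0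
  · exact zero_mem _
  · exact (mem_LQ_iff Q hb0).2 ⟨hn, fun v hv => (hb v hv).resolve_left hb0⟩

theorem sub_smul_mem_LQ (Q : Place k F) {m : ℕ} {b e : F} (hb : b ∈ LQ Q (m + 1))
    (he : e ∈ LQ Q (m + 1)) (he0 : e ≠ 0) (hord : Q.ord e = -((m + 1 : ℕ) : ℤ)) :
    ∃ c : k, b - c • e ∈ LQ Q m := by
  rcases eq_or_ne b 0 with rfl | hb0
  · exact ⟨0, by simp⟩
  have h1 := ((mem_LQ_iff Q hb0).1 hb).1
  have hx : 0 ≤ Q.ord (b / e) := by
    rw [Curve.ord_div Q hb0 he0, hord]
    omega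
  obtain ⟨c, hc⟩ := exists_const_sub Q hx
  refine ⟨c, ?_⟩
  rcases eq_or_ne (b - c • e) 0 with h0 | h0
  · rw [h0]; exact zero_mem _
  have hfac : b - c • e = (b / e - algebraMap k F c) * e := by
    rw [sub_mul, div_mul_cancel₀ _ he0, Algebra.smul_def]
  have hsub := Submodule.sub_mem _ hb (Submodule.smul_mem _ c he)
  refine (mem_LQ_iff Q h0).2 ⟨?_, ((mem_LQ_iff Q h0).1 hsub).2⟩
  have hne : b / e - algebraMap k F c ≠ 0 := fun h => h0 (by rw [hfac, h, zero_mul])
  rw [hfac, Q.ord_mul hne he0, hord]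
  have := hc.resolve_left hne
  push_cast
  omega

theorem ellDim_LQ (Q : Place k F) {n : ℕ} (hn : 2 * genusFF k F ≤ n) :
    (Module.finrank k (LQ Q n) : ℤ) = n + 1 - genusFF k F := by
  have h := Curve.ellDim_eq_of_degree_ge (D := Finsupp.single Q (n : ℤ))
    (by rw [Divisor.degree_single, Curve.deg_eq_one]; push_cast; omega)
  rw [Divisor.degree_single, Curve.deg_eq_one, Nat.cast_one, mul_one] at h
  exact h

variable (Q : Place k F) (W : ℕ → Submodule k F) (g₀ n₀ : ℕ)

/-- the gap theorem -/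
theorem genus_eq_of_system (hg : 2 * genusFF k F ≤ n₀)
    (hmono : ∀ m n, m ≤ n → W m ≤ W n) (hone : (1 : F) ∈ W 0)
    (hmul : ∀ m n, ∀ x ∈ W m, ∀ y ∈ W n, x * y ∈ W (m + n))
    (hle : ∀ n, W n ≤ LQ Q n)
    (hdim : ∀ n, n₀ ≤ n → (Module.finrank k (W n) : ℤ) = n + 1 - g₀)
    (hexact : ∀ n, n₀ ≤ n → ∃ y ∈ W n, y ≠ 0 ∧ Q.ord y = -(n : ℤ))
    (hsep : ∀ (R : Place k F) (T : Finset (Place k F)), R ≠ Q → R ∉ T → Q ∉ T →
      ∃ M, ∃ u ∈ W M, u ≠ 0 ∧ R.ord u = 1 ∧ ∀ S ∈ T, S.ord u = 0) :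
    g₀ = genusFF k F := by
  classical
  haveI hfinW : ∀ n, FiniteDimensional k (W n) := fun n =>
    Submodule.finiteDimensional_of_le (hle n)
  -- (b) no new small pole orders
  have hinter : ∀ m, n₀ ≤ m → ∀ M, m ≤ M → ∀ b ∈ W M, b ∈ LQ Q m → b ∈ W m := by
    intro m hm M hM
    induction M, hM using Nat.le_induction with
    | base => exact fun b hb _ => hb
    | succ M hM ih =>
      intro b hb hbm
      refine ih b ?_ hbm
      have hbM : b ∈ W (M + 1) ⊓ LQ Q M := ⟨hb, LQ_mono Q hM hbm⟩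
      obtain ⟨y, hyW, hy0, hyord⟩ := hexact (M + 1) (by omega)
      have hlt : W (M + 1) ⊓ LQ Q M < W (M + 1) := by
        refine lt_of_le_of_ne inf_le_left fun h => ?_
        have : y ∈ LQ Q M := (h.ge hyW).2
        have := ((mem_LQ_iff Q hy0).1 this).1
        omega
      have h1 := Submodule.finrank_lt_finrank_of_lt hlt
      have h2 : W M ≤ W (M + 1) ⊓ LQ Q M := le_inf (hmono _ _ (Nat.le_succ M)) (hle M)
      have h3 := hdim M (by omega)
      have h4 := hdim (M + 1) (by omega)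
      have h5 := Submodule.finrank_mono h2
      have heq : W M = W (M + 1) ⊓ LQ Q M :=
        Submodule.eq_of_le_of_finrank_le h2 (by push_cast at h4; omega)
      exact heq ▸ hbM
  -- (c) the reduced system generates up to `L(n₀ Q)`
  have hgen : ∀ m, n₀ ≤ m → ∀ b ∈ LQ Q m, ∃ w ∈ W m, b - w ∈ LQ Q n₀ := by
    intro m hm
    induction m, hm using Nat.le_induction with
    | base => exact fun b hb => ⟨0, zero_mem _, by simpa using hb⟩
    | succ m hm ih =>
      intro b hb
      obtain ⟨e, heW, he0, hord⟩ := hexact (m + 1) (by omega)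
      obtain ⟨c, hc⟩ := sub_smul_mem_LQ Q hb (hle _ heW) he0 hord
      obtain ⟨w, hw, hbw⟩ := ih _ hc
      refine ⟨c • e + w, add_mem (Submodule.smul_mem _ c heW) (hmono _ _ (Nat.le_succ m) hw), ?_⟩
      rwa [← sub_sub]
  -- the gap
  have hgap : genusFF k F ≤ g₀ := by
    have h1 := Submodule.finrank_mono (hle n₀)
    have h2 := hdim n₀ le_rfl
    have h3 := ellDim_LQ Q hg
    omega
  set c := g₀ - genusFF k F with hc
  -- (d) an element of the conductor
  set l := Module.finrank k (LQ Q n₀) with hl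
  let bs := Module.finBasis k (LQ Q n₀)
  set M := n₀ + g₀ + l * c + 1 with hM
  have hMn : n₀ ≤ M := by omega
  let U : Submodule k (LQ Q (M + n₀)) := (W (M + n₀)).comap (LQ Q (M + n₀)).subtype
  have hprod : ∀ (y : W M) (b : LQ Q n₀), (y : F) * (b : F) ∈ LQ Q (M + n₀) := by
    intro y b
    rcases eq_or_ne ((y : F) * (b : F)) 0 with h | h
    · rw [h]; exact zero_mem _
    obtain ⟨hy, hb⟩ := mul_ne_zero_iff.mp h
    have hy' := (mem_LQ_iff Q hy).1 (hle M y.2)
    have hb' := (mem_LQ_iff Q hb).1 b.2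
    refine (mem_LQ_iff Q h).2 ⟨?_, fun v hv => ?_⟩
    · rw [Q.ord_mul hy hb]; push_cast; omega
    · rw [v.ord_mul hy hb]; have := hy'.2 v hv; have := hb'.2 v hv; omega
  let Φ : W M →ₗ[k] (Fin l → LQ Q (M + n₀) ⧸ U) :=
    LinearMap.pi fun i => U.mkQ.comp (σ₁₂ := RingHom.id k)
      { toFun := fun y => ⟨(y : F) * (bs i : F), hprod y (bs i)⟩
        map_add' := fun y z => Subtype.ext (add_mul _ _ _)
        map_smul' := fun a y => Subtype.ext (by simp [smul_mul_assoc]) }
  have hUrank : Module.finrank k U = Module.finrank k (W (M + n₀)) :=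
    (Submodule.comapSubtypeEquivOfLe (hle (M + n₀))).finrank_eq
  have hcod : Module.finrank k (Fin l → LQ Q (M + n₀) ⧸ U) < Module.finrank k (W M) := by
    haveI : Module.Free k (LQ Q (M + n₀) ⧸ U) := Module.Free.of_divisionRing k _
    rw [Module.finrank_pi_fintype, Finset.sum_const, Finset.card_univ, Fintype.card_fin,
      smul_eq_mul]
    have h1 := Submodule.finrank_quotient_add_finrank U
    have h2 := hdim (M + n₀) (by omega)
    have h3 := ellDim_LQ Q (n := M + n₀) (by omega)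
    have h4 := hdim M hMn
    have hq : Module.finrank k (LQ Q (M + n₀) ⧸ U) = c := by omega
    rw [hq]
    omega
  obtain ⟨y, hy, hy0⟩ := Submodule.exists_mem_ne_zero_of_ne_bot
    (LinearMap.ker_ne_bot_of_finrank_lt (f := Φ) hcod)
  set h : F := (y : F) with hh
  have hh0 : h ≠ 0 := fun h0 => hy0 (Subtype.ext h0)
  have hhW : h ∈ W M := y.2
  have hbasis : ∀ i, h * (bs i : F) ∈ W (M + n₀) := by
    intro i
    have := congrFun (LinearMap.mem_ker.mp hy) i
    exact (Submodule.Quotient.mk_eq_zero U).mp this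
  have hsmall : ∀ b ∈ LQ Q n₀, h * b ∈ W (M + n₀) := by
    intro b hb
    have hsum := congrArg Subtype.val (bs.sum_repr ⟨b, hb⟩)
    simp only [Submodule.coe_sum, Submodule.coe_smul] at hsum
    rw [← hsum, Finset.mul_sum]
    refine sum_mem fun i _ => ?_
    rw [mul_smul_comm]
    exact Submodule.smul_mem _ _ (hbasis i)
  have hconductor : ∀ m, ∀ b ∈ LQ Q m, ∃ M', h * b ∈ W M' := by
    intro m b hb
    obtain ⟨w, hw, hbw⟩ := hgen (max m n₀) (le_max_right _ _) b (LQ_mono Q (le_max_left _ _) hb)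
    refine ⟨max (M + max m n₀) (M + n₀), ?_⟩
    rw [show h * b = h * w + h * (b - w) by ring]
    exact add_mem (hmono _ _ (le_max_left _ _) (hmul _ _ _ hhW _ hw))
      (hmono _ _ (le_max_right _ _) (hsmall _ hbw))
  -- (e) separation
  set T := (Curve.zeroDivisor k h).support.erase Q with hT
  have hTQ : Q ∉ T := Finset.notMem_erase _ _
  obtain ⟨B, hB⟩ : ∃ B : ℕ, ∀ R ∈ T, R.ord h ≤ B := by
    refine ⟨T.sup fun R => (R.ord h).toNat, fun R hR => ?_⟩
    have := Finset.le_sup (f := fun R : Place k F => (R.ord h).toNat) hR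
    omega
  have hsep' : ∀ R : T, ∃ M', ∃ u ∈ W M', u ≠ 0 ∧ (R : Place k F).ord u = 1 ∧
      ∀ S ∈ T.erase R, S.ord u = 0 := fun R =>
    hsep R _ (fun hR => hTQ (hR ▸ R.2)) (Finset.notMem_erase _ _)
      (fun hQ => hTQ (Finset.mem_of_mem_erase hQ))
  choose Mu u huW hu0 huR huS using hsep'
  let InW : F → Prop := fun x => ∃ M', x ∈ W M'
  have hInW_add : ∀ x z, InW x → InW z → InW (x + z) := fun x z ⟨a, ha⟩ ⟨b, hb⟩ =>
    ⟨max a b, add_mem (hmono _ _ (le_max_left _ _) ha) (hmono _ _ (le_max_right _ _) hb)⟩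
  have hInW_mul : ∀ x z, InW x → InW z → InW (x * z) := fun x z ⟨a, ha⟩ ⟨b, hb⟩ =>
    ⟨a + b, hmul _ _ _ ha _ hb⟩
  have hInW_pow : ∀ x (t : ℕ), InW x → InW (x ^ t) := fun x t hx => by
    induction t with
    | zero => exact ⟨0, by simpa using hone⟩
    | succ t ih => rw [pow_succ]; exact hInW_mul _ _ ih hx
  have hInW_prod : ∀ (s : Finset T) (f : T → F), (∀ i ∈ s, InW (f i)) → InW (∏ i ∈ s, f i) :=
    fun s f hf => Finset.prod_induction _ InW hInW_mul ⟨0, hone⟩ hf
  let e : T → ℕ → F := fun R t => u R ^ t * ∏ S ∈ Finset.univ.erase R, u S ^ B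
  have he0 : ∀ R t, e R t ≠ 0 := fun R t =>
    mul_ne_zero (pow_ne_zero _ (hu0 R)) (Finset.prod_ne_zero_iff.mpr fun S _ => pow_ne_zero _ (hu0 S))
  have heW : ∀ R t, InW (e R t) := fun R t =>
    hInW_mul _ _ (hInW_pow _ _ ⟨_, huW R⟩) (hInW_prod _ _ fun S _ => hInW_pow _ _ ⟨_, huW S⟩)
  have heord : ∀ (R : T) t (S : T), (S : Place k F).ord (e R t) = if S = R then (t : ℤ) else B := by
    intro R t S
    rw [Place.ord_mul _ (pow_ne_zero _ (hu0 R))
      (Finset.prod_ne_zero_iff.mpr fun S _ => pow_ne_zero _ (hu0 S)),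
      Curve.ord_pow, Curve.ord_prod _ _ (fun S _ => pow_ne_zero _ (hu0 S))]
    simp only [Curve.ord_pow]
    split_ifs with hSR
    · subst hSR
      rw [huR, mul_one, Finset.sum_eq_zero, add_zero]
      intro S' hS'
      rw [huS S' S (Finset.mem_erase.mpr
        ⟨fun h => (Finset.mem_erase.mp hS').1 (Subtype.ext h).symm, S.2⟩), mul_zero]
    · rw [huS R S (Finset.mem_erase.mpr ⟨fun h => hSR (Subtype.ext h), S.2⟩), mul_zero, zero_add,
        Finset.sum_eq_single_of_mem S (Finset.mem_erase.mpr ⟨hSR, Finset.mem_univ _⟩)]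
      · rw [huR, mul_one]
      · intro S' _ hne
        rw [huS S' S (Finset.mem_erase.mpr ⟨fun h => hne (Subtype.ext h).symm, S.2⟩), mul_zero]
  have hlocal : ∀ (a : F), (∀ v, v ≠ Q → a = 0 ∨ 0 ≤ v.ord a) → ∀ R : T, ∀ t : ℕ, t ≤ B →
      ∃ w, InW w ∧ (a - w = 0 ∨ (t : ℤ) ≤ (R : Place k F).ord (a - w)) ∧
        ∀ S : T, S ≠ R → w = 0 ∨ (B : ℤ) ≤ (S : Place k F).ord w := by
    intro a ha R t ht
    induction t with
    | zero =>
      refine ⟨0, ⟨0, zero_mem _⟩, ?_, fun S _ => Or.inl rfl⟩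
      rw [sub_zero]
      exact_mod_cast ha R (fun h => hTQ (h ▸ R.2))
    | succ t ih =>
      obtain ⟨w, hw, hwR, hwS⟩ := ih (by omega)
      rcases eq_or_ne (a - w) 0 with h0 | h0
      · exact ⟨w, hw, Or.inl h0, hwS⟩
      have hR := hwR.resolve_left h0
      have hx : 0 ≤ (R : Place k F).ord ((a - w) / e R t) := by
        rw [Curve.ord_div _ h0 (he0 R t), heord, if_pos rfl]
        omega
      obtain ⟨c, hc⟩ := exists_const_sub _ hx
      refine ⟨w + c • e R t, ?_, ?_, fun S hS => ?_⟩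
      · obtain ⟨M', hM'⟩ := heW R t
        exact hInW_add _ _ hw ⟨M', Submodule.smul_mem _ c hM'⟩
      · have hfac : a - (w + c • e R t) = ((a - w) / e R t - algebraMap k F c) * e R t := by
          rw [sub_mul, div_mul_cancel₀ _ (he0 R t), Algebra.smul_def]
          ring
        rw [hfac]
        rcases eq_or_ne ((a - w) / e R t - algebraMap k F c) 0 with h1 | h1
        · exact Or.inl (by rw [h1, zero_mul])
        refine Or.inr ?_
        rw [Place.ord_mul _ h1 (he0 R t), heord, if_pos rfl]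
        have := hc.resolve_left h1
        push_cast
        omega
      · rcases eq_or_ne (w + c • e R t) 0 with h1 | h1
        · exact Or.inl h1
        refine Or.inr (Curve.le_ord_add _ _ h1 (fun hw0 => (hwS S hS).resolve_left hw0) ?_)
        intro hce
        have hc0 : c ≠ 0 := fun h2 => hce (by rw [h2, zero_smul])
        rw [Algebra.smul_def, Place.ord_mul _ (by simpa using hc0) (he0 R t), heord, if_neg hS]
        have hu' : 0 ≤ (S : Place k F).ord (algebraMap k F c) :=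
          Curve.ord_nonneg_of_mem _ ((S : Place k F).algebraMap_mem' c)
        omega
  have hall : ∀ a ∈ LQ Q n₀, InW a := by
    intro a haL
    have ha : ∀ v, v ≠ Q → a = 0 ∨ 0 ≤ v.ord a := fun v hv => by
      rcases eq_or_ne a 0 with h | h
      · exact Or.inl h
      · exact Or.inr (((mem_LQ_iff Q h).1 haL).2 v hv)
    choose w hw hwR hwS using fun R : T => hlocal a ha R B le_rfl
    set W' := ∑ R : T, w R with hW'
    have hW'In : InW W' := Finset.sum_induction _ InW hInW_add ⟨0, zero_mem _⟩ fun R _ => hw R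
    obtain ⟨M', hM'⟩ := hW'In
    have hreg : ∀ v, v ≠ Q → (a - W') / h = 0 ∨ 0 ≤ v.ord ((a - W') / h) := by
      intro v hv
      rcases eq_or_ne (a - W') 0 with h0 | h0
      · exact Or.inl (by rw [h0, zero_div])
      refine Or.inr ?_
      rw [Curve.ord_div v h0 hh0]
      have hge : 0 ≤ v.ord (a - W') := by
        have hmem : a - W' ∈ LQ Q (max n₀ M') :=
          sub_mem (LQ_mono Q (le_max_left _ _) haL) (LQ_mono Q (le_max_right _ _) (hle _ hM'))
        exact ((mem_LQ_iff Q h0).1 hmem).2 v hv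
      by_cases hvT : v ∈ T
      · have hvB : (B : ℤ) ≤ v.ord (a - W') := by
          have hrw : a - W' = (a - w ⟨v, hvT⟩) +
              -(∑ S ∈ Finset.univ.erase (⟨v, hvT⟩ : T), w S) := by
            rw [hW', ← Finset.add_sum_erase _ _ (Finset.mem_univ (⟨v, hvT⟩ : T))]
            ring
          rw [hrw] at h0 ⊢
          refine Curve.le_ord_add v _ h0 (fun h1 => (hwR ⟨v, hvT⟩).resolve_left h1) fun h1 => ?_
          rw [Curve.ord_neg]
          have hne : ∑ S ∈ Finset.univ.erase (⟨v, hvT⟩ : T), w S ≠ 0 := fun h2 => h1 (by rw [h2, neg_zero])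
          refine Curve.le_ord_sum v _ _ (B : ℤ) (fun S hS hS0 => ?_) hne
          exact (hwS S ⟨v, hvT⟩ (fun h2 => (Finset.mem_erase.mp hS).1 h2.symm)).resolve_left hS0
        have := hB v hvT
        omega
      · have hzero : v.ord h ≤ 0 := by
          by_contra hpos
          push Not at hpos
          refine hvT (Finset.mem_erase.mpr ⟨hv, ?_⟩)
          rw [Finsupp.mem_support_iff, Curve.zeroDivisor_apply]
          omega
        omega
    obtain ⟨M'', hM''⟩ := hconductor (-(Q.ord ((a - W') / h))).toNat _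
      (mem_LQ_of_regular Q hreg (by omega))
    rw [mul_div_cancel₀ _ hh0] at hM''
    have hsum := hInW_add _ _ (⟨M'', hM''⟩ : InW (a - W')) ⟨M', hM'⟩
    rwa [sub_add_cancel] at hsum
  have hfull : LQ Q n₀ ≤ W n₀ := by
    intro a ha
    obtain ⟨M', hM'⟩ := hall a ha
    exact hinter n₀ le_rfl (max n₀ M') (le_max_left _ _) a (hmono _ _ (le_max_right _ _) hM') ha
  have h1 := Submodule.finrank_mono hfull
  have h2 := hdim n₀ le_rfl
  have h3 := ellDim_LQ Q hg
  omega

end Fermat.Agent.Igusa.Descent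

end
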