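/-
Genus is preserved by reduction for a function field dominated by one with good reduction.
-/
import Fermat.Agent.Igusa.JacobianDescentCore
import Fermat.Agent.Igusa.JacobianDescentGap
import Fermat.Prelude.Def_AlgebraicCurve_Correspondence

set_option autoImplicit false

noncomputable section

namespace Fermat.Agent.Igusa

open AlgebraicCurve IntermediateField

namespace Descent

variable {K : Type*} [Field K] {A : ValuationSubring K}
  {F : Type*} [Field F] [Algebra K F] {F' : Type*} [Field F'] [Algebra K F']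
  [Algebra F F'] [IsScalarTower K F F']
  {k : Type*} [Field k] {Fb : Type*} [Field Fb] [Algebra k Fb]
  {Fb' : Type*} [Field Fb'] [Algebra k Fb'] [Algebra Fb Fb'] [IsScalarTower k Fb Fb']
  [IsAlgClosed K] [IsAlgClosed k]
  [IsCurveOver K F'] [Algebra.EssFiniteType K F'] [IsCurveOver k Fb'] [Algebra.EssFiniteType k Fb']
  [Curve.IsFunctionFieldOne K F] [Curve.IsFunctionFieldOne K F']
  [Curve.IsFunctionFieldOne k Fb] [Curve.IsFunctionFieldOne k Fb']
  [Module.Finite F F'] [Algebra.IsIntegral F F'] [Module.Finite Fb Fb'] [Algebra.IsIntegral Fb Fb']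

theorem genusFF_eq (G' : Curve.GoodReduction A F' k Fb') (V : ValuationSubring F) (φ : V →+* Fb)
    (hV : ∀ f : F, f ∈ V ↔ algebraMap F F' f ∈ G'.V)
    (hcomp : ∀ f : V, G'.φ ⟨algebraMap F F' (f : F), (hV _).1 f.2⟩ = algebraMap Fb Fb' (φ f))
    (hdeg : Module.finrank Fb Fb' = Module.finrank F F') :
    genusFF k Fb = genusFF K F := by
  classical
  obtain ⟨P', -⟩ := Curve.exists_place (K := K) (F := F')
  obtain ⟨c, hc⟩ := G'.exists_bound_reduceSubspace_eq
  set Q' := G'.placeMap P' with hQ'
  set P := P'.restrict F with hP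
  set Q := Q'.restrict Fb with hQ
  set n₀ := c.toNat + 2 * genusFF K F + 2 * genusFF k Fb + 2 * genusFF k Fb' + 2 with hn₀
  have hn : ∀ n, n₀ ≤ n → G'.reduceSubspace (riemannRochSpace (Finsupp.single P' (n : ℤ))) =
      riemannRochSpace (G'.divMap (Finsupp.single P' (n : ℤ))) := fun n hn => by
    refine hc _ ?_
    rw [Divisor.degree_single, Curve.deg_eq_one]
    push_cast
    omega
  have hPQ := divMap_pullback_eq G' V φ hV hcomp hdeg P' (n := n₀) (by omega) (hn _ le_rfl)
    (by omega)
  have hle := redSpace_le G' V φ hV hcomp hdeg hPQ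
  set W : ℕ → Submodule k Fb := fun n =>
    redSpace G' (riemannRochSpace (Finsupp.single P (n : ℤ))) with hW
  refine (genus_eq_of_system Q W (genusFF K F) n₀ (by omega) ?_ ?_ ?_ hle ?_ ?_ ?_).symm
  · exact fun m n hmn => redSpace_mono G'
      (Curve.riemannRochSpace_mono (Finsupp.single_le_single.mpr (by exact_mod_cast hmn)))
  · rw [hW, mem_redSpace G' V φ hV hcomp]
    exact ⟨1, Curve.one_mem_riemannRochSpace (by simp), map_one φ⟩
  · intro m n x hx y hy
    obtain ⟨f, hf, rfl⟩ := (mem_redSpace G' V φ hV hcomp).mp hx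
    obtain ⟨g, hg, rfl⟩ := (mem_redSpace G' V φ hV hcomp).mp hy
    rw [hW, mem_redSpace G' V φ hV hcomp]
    refine ⟨f * g, ?_, map_mul φ f g⟩
    rw [mem_riemannRochSpace_iff]
    intro v
    rcases eq_or_ne ((f : F) * (g : F)) 0 with h | h
    · exact Or.inl h
    obtain ⟨hf0, hg0⟩ := mul_ne_zero_iff.mp h
    refine Or.inr ?_
    have h1 := (mem_riemannRochSpace_iff.mp hf v).resolve_left hf0
    have h2 := (mem_riemannRochSpace_iff.mp hg v).resolve_left hg0
    show _ ≤ v.ord ((f : F) * (g : F))
    rw [v.ord_mul hf0 hg0, Nat.cast_add, Finsupp.single_add, Finsupp.add_apply]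
    omega
  · intro n hn'
    rw [hW, finrank_redSpace G' V φ hV hcomp]
    exact ellDim_LQ P (by omega)
  · intro n hn'
    exact exists_exact_pole G' V φ hV hcomp hdeg P' (hn n hn') (by omega)
  · intro R T hRQ hRT hQT
    obtain ⟨R', hR'⟩ := Curve.exists_restrict_eq (K := k) (F := Fb) (F' := Fb') R
    have hR'Q : R' ≠ Q' := fun h => hRQ (by rw [← hR', h, hQ])
    set m := n₀ + 1 with hm
    set S : Finset (Place k Fb') := (insert R T).biUnion fun v => v.fiber Fb' with hS
    obtain ⟨g, hgL, hg0, hord⟩ := exists_exact_ord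
      (D := Finsupp.single Q' (m : ℤ) - Finsupp.single R' 1) (by
        rw [map_sub, Divisor.degree_single, Divisor.degree_single, Curve.deg_eq_one,
          Curve.deg_eq_one]
        push_cast
        omega) S
    have hgL' : g ∈ riemannRochSpace (Finsupp.single Q' (m : ℤ)) :=
      Curve.riemannRochSpace_mono (sub_le_self _ (Finsupp.single_nonneg.mpr zero_le_one)) hgL
    have hzero : ∀ w : Place k Fb', w.restrict Fb ∈ insert R T → w ≠ R' →
        Curve.divisorOf k g w = 0 := by
      intro w hw hne
      have hwQ : w ≠ Q' := by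
        intro h
        rw [h, ← hQ] at hw
        rcases Finset.mem_insert.mp hw with h1 | h1
        · exact hRQ h1.symm
        · exact hQT h1
      rw [Curve.divisorOf_apply, hord w (Finset.mem_biUnion.mpr ⟨_, hw, Place.restrict_mem_fiber w⟩),
        Finsupp.sub_apply, Finsupp.single_eq_of_ne hwQ, Finsupp.single_eq_of_ne hne]
      simp
    refine ⟨m, _, norm_mem_redSpace G' V φ hV hcomp hdeg P' (hn m (by omega)) hgL',
      Algebra.norm_ne_zero_iff.mpr hg0, ?_, fun S' hS' => ?_⟩
    · rw [ord_norm hg0, pushforward_apply_eq_single _ hR'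
        (fun w hw hne => hzero w (by rw [hw]; exact Finset.mem_insert_self _ _) hne),
        Curve.divisorOf_apply, hord R' (Finset.mem_biUnion.mpr
          ⟨R, Finset.mem_insert_self _ _, Place.mem_fiber.mpr hR'⟩),
        Finsupp.sub_apply, Finsupp.single_eq_of_ne hR'Q, Finsupp.single_eq_same]
      simp
    · rw [ord_norm hg0]
      refine pushforward_apply_eq_zero _ fun w hw => hzero w ?_ ?_
      · rw [hw]; exact Finset.mem_insert_of_mem hS'
      · intro h
        rw [h, hR'] at hw
        exact hRT (hw ▸ hS')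

end Descent

universe uK uF uF' uk uFb uFb'

variable {K : Type uK} [Field K] {A : ValuationSubring K}
  {F : Type uF} [Field F] [Algebra K F]
  {F' : Type uF'} [Field F'] [Algebra K F']
  {k : Type uk} [Field k]
  {Fb : Type uFb} [Field Fb] [Algebra k Fb]
  {Fb' : Type uFb'} [Field Fb'] [Algebra k Fb']
  [IsAlgClosed K]
  [IsCurveOver K F] [Algebra.EssFiniteType K F]
  [IsCurveOver K F'] [Algebra.EssFiniteType K F']
  [IsCurveOver k Fb] [Algebra.EssFiniteType k Fb]
  [IsCurveOver k Fb'] [Algebra.EssFiniteType k Fb']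

/-- If `F ⊆ F'`, if `F'` has good reduction and if the reduction of `F` (with respect to the
restricted valuation) is `Fb` with `[Fb' : Fb] = [F' : F]`, then `genus Fb = genus F`. -/
theorem genusFF_eq_of_goodReduction_extension
    (G' : Curve.GoodReduction A F' k Fb') (V : ValuationSubring F) (φ : V →+* Fb)
    (_hφ : Function.Surjective φ) (ι : F →ₐ[K] F') (ε : Fb →ₐ[k] Fb')
    (hV : ∀ f : F, f ∈ V ↔ ι f ∈ G'.V)
    (hcomp : ∀ f : V, G'.φ ⟨ι (f : F), (hV _).1 f.2⟩ = ε (φ f))
    (hfin : FiniteAlong K ι) (hdeg : finrankAlong K ι = finrankAlong k ε) :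
    genusFF k Fb = genusFF K F := by
  haveI := G'.isAlgClosed_residue
  haveI := Curve.isFunctionFieldOne_of_isCurveOver (K := K) (F := F)
  haveI := Curve.isFunctionFieldOne_of_isCurveOver (K := K) (F := F')
  haveI := Curve.isFunctionFieldOne_of_isCurveOver (K := k) (F := Fb)
  haveI := Curve.isFunctionFieldOne_of_isCurveOver (K := k) (F := Fb')
  letI := algebraAlong ι
  haveI := isScalarTower_along ι
  letI := algebraAlong ε
  haveI := isScalarTower_along ε
  haveI : Module.Finite F F' := hfin
  haveI : Module.Finite Fb Fb' := Curve.finite_of_isFunctionFieldOne (K := k)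
  exact Descent.genusFF_eq G' V φ hV hcomp hdeg.symm

end Fermat.Agent.Igusa

end
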