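/-
Good reduction of `X₀(N)` in the `q`-expansion normalisation, from a slice.
-/
import Fermat.Agent.Igusa.JacobianResidual
import Fermat.Agent.Igusa.JacobianDescent

set_option autoImplicit false

noncomputable section

namespace Fermat.Agent.Igusa.X0Slice

open AlgebraicCurve ModularCurve IntermediateField Polynomial

set_option synthInstance.maxHeartbeats 400000

local notation "Qb" => AlgebraicClosure ℚ
local notation "FN" N => modularFunctionFieldBar N
local notation "kk" A => IsLocalRing.ResidueField A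
local notation "FCk" => fun A N => modularFunctionFieldFullC (IsLocalRing.ResidueField A) N

variable {N : ℕ} [NeZero N] {A : ValuationSubring (AlgebraicClosure ℚ)} (S : X0Slice N A)

/-- `V₀` is spanned over the valuation subring of `ℚ̄(j)` by the powers of `j_N` -/
theorem exists_expansion (f : S.V₀) :
    ∃ a : Fin (Module.finrank (JField N) (FN N)) → S.O,
      f = ∑ i, S.inclO (a i) * S.jNV ^ (i : ℕ) := by
  set n := Module.finrank (JField N) (FN N) with hn
  haveI : Nonempty (Fin n) := ⟨⟨0, Module.finrank_pos⟩⟩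
  let b : Fin n → S.V₀ := fun i => S.jNV ^ (i : ℕ)
  have hind := S.linearIndependent_pow_jNRed
  let bK := basisOfLinearIndependentOfCardEqFinrank
    (linearIndependent_of_reduction S.hcompat b hind) (Fintype.card_fin n)
  have hbK : ∀ i, bK i = (b i : FN N) := fun i => by simp [bK]
  have hsum : ∑ i, bK.repr (f : FN N) i • (b i : FN N) = (f : FN N) := by
    simp_rw [← hbK]
    exact bK.sum_repr _
  have hmem : ∀ i, bK.repr (f : FN N) i ∈ S.O := fun i =>
    coeff_mem_of_reduction S.hcompat (fun g => S.φ₀_eq_zero_of_not_isUnit) b hind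
      (fun i => bK.repr (f : FN N) i) (hsum.symm ▸ f.2) i
  refine ⟨fun i => ⟨_, hmem i⟩, Subtype.ext ?_⟩
  conv_lhs => rw [← hsum]
  simp only [Algebra.smul_def]
  push_cast
  rfl

theorem qExp_mem (f : S.V₀) : qExp (f : FN N) ∈ quotSeries A := by
  obtain ⟨a, rfl⟩ := S.exists_expansion f
  push_cast
  rw [map_sum]
  refine sum_mem fun i _ => ?_
  rw [map_mul, map_pow]
  refine mul_mem (S.qExp_inclO_mem _) (pow_mem ?_ _)
  rw [qExp_apply]
  show ((jNBar N : FN N) : LaurentSeries Qb) ∈ _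
  rw [coe_jNBar, ← coeffMap_jqNModC A.subtype N]
  exact coeffMap_mem_quotSeries A _

/-- `q`-expansion of integral functions -/
def serV : S.V₀ →+* quotSeries A :=
  (qExp.comp S.V₀.subtype).codRestrict (quotSeries A) S.qExp_mem

/-- reduction of `q`-expansions -/
def φqL : S.V₀ →+* LaurentSeries (kk A) := (redSeries A).comp S.serV

theorem φqL_inclO (a : S.O) : S.φqL (S.inclO a) = S.ρO a := rfl

theorem φqL_of_coeffMap (f : S.V₀) (y : LaurentSeries A)
    (h : qExp (f : FN N) = coeffMap A.subtype y) :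
    S.φqL f = coeffMap (IsLocalRing.residue A) y :=
  redSeries_eq_div A (S.qExp_mem f) (u := y) (v := 1) (by rw [map_one]; exact one_ne_zero)
    (by rw [map_one, mul_one, h]) |>.trans (by rw [map_one, div_one])

theorem φqL_constV (c : A) :
    S.φqL (S.constV c) = algebraMap (kk A) (LaurentSeries (kk A)) (IsLocalRing.residue A c) := by
  rw [S.φqL_of_coeffMap (S.constV c) (HahnSeries.C c) (qExp_constV c),
    algebraMap_laurentSeries_eq_single]
  exact coeffMap_single _ _ _

theorem φqL_jNV : S.φqL S.jNV = jqNModC (kk A) N := by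
  rw [S.φqL_of_coeffMap S.jNV (jqNModC A N), coeffMap_jqNModC]
  rw [coeffMap_jqNModC]
  exact coe_jNBar N

theorem φqL_eq_zero_of_not_isUnit {f : S.V₀} (hf : ¬ IsUnit f) : S.φqL f = 0 := by
  have h0 := S.φ₀_eq_zero_of_not_isUnit hf
  obtain ⟨a, rfl⟩ := S.exists_expansion f
  rw [map_sum] at h0
  have hz : ∑ i, S.ψ (a i) • S.φ₀ (S.jNV ^ (i : ℕ)) = 0 := by
    rw [← h0]
    refine Finset.sum_congr rfl fun i _ => ?_
    rw [map_mul]
    rfl
  have hi := Fintype.linearIndependent_iff.mp S.linearIndependent_pow_jNRed _ hz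
  rw [map_sum]
  refine Finset.sum_eq_zero fun i _ => ?_
  rw [map_mul, φqL_inclO, S.ρO_eq_zero_of_ψ (hi i), zero_mul]

theorem φqL_mem (f : S.V₀) : S.φqL f ∈ modularFunctionFieldFullC (kk A) N := by
  obtain ⟨a, rfl⟩ := S.exists_expansion f
  rw [map_sum]
  refine sum_mem fun i _ => ?_
  rw [map_mul, map_pow, φqL_inclO, φqL_jNV]
  refine mul_mem ?_ (pow_mem (jqModCd_mem_full (kk A) N dvd_rfl) _)
  obtain ⟨c, P, Q, hQ, h⟩ := S.exists_normalForm_O (a i)
  rw [S.ρO_apply hQ h]
  have hle : Algebra.adjoin (kk A) {jqModC (kk A)} ≤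
      (modularFunctionFieldFullC (kk A) N).toSubalgebra :=
    Algebra.adjoin_le (Set.singleton_subset_iff.mpr (jqModC_mem_full (kk A) N))
  exact div_mem (hle (Polynomial.aeval_mem_adjoin_singleton _ _))
    (hle (Polynomial.aeval_mem_adjoin_singleton _ _))

/-- the reduction map of `X₀(N)` -/
def φq : S.V₀ →+* modularFunctionFieldFullC (kk A) N :=
  S.φqL.codRestrict (modularFunctionFieldFullC (kk A) N).toSubfield S.φqL_mem

theorem coe_φq (f : S.V₀) : (S.φq f : LaurentSeries (kk A)) = S.φqL f := rfl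

theorem φq_eq_zero_of_not_isUnit {f : S.V₀} (hf : ¬ IsUnit f) : S.φq f = 0 :=
  Subtype.ext (S.φqL_eq_zero_of_not_isUnit hf)

theorem isUnit_of_φq_ne_zero {f : S.V₀} (hf : S.φq f ≠ 0) : IsUnit f :=
  by_contra fun h => hf (S.φq_eq_zero_of_not_isUnit h)

theorem φq_constV (c : A) :
    S.φq (S.constV c) =
      algebraMap (kk A) (modularFunctionFieldFullC (kk A) N) (IsLocalRing.residue A c) :=
  Subtype.ext (S.φqL_constV c)

/-- `j (d τ)` is integral -/
theorem exists_jd {d : ℕ} [NeZero d] (hd : d ∣ N) :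
    ∃ f : S.V₀, qExp (f : FN N) = coeffMap A.subtype (jqNModC A d) := by
  obtain ⟨data⟩ := Fermat.Agent.ModFun.nonempty_modularPolynomialData d
  let z : FN N := ⟨coeffEmb Qb (qExpand ℚ d jq),
    coeffEmb_mem_laurentBaseChange _ (jqd_mem_full N hd)⟩
  have hz : qExp z = jqNModC Qb d := coeffEmb_qExpand_jq d
  have hint : IsIntegral S.V₀ z := by
    refine ⟨data.Φ.map (S.inclO.comp S.evalJO), data.monic.map _, ?_⟩
    apply (modularFunctionFieldBar N).val.toRingHom.injective
    rw [map_zero, Polynomial.eval₂_map, Polynomial.hom_eval₂]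
    refine Eq.trans ?_ (Fermat.Agent.ModFun.eval_modularPolynomial Qb data)
    refine Polynomial.eval₂_congr ?_ hz rfl
    refine Polynomial.ringHom_ext' (Subsingleton.elim _ _) ?_
    simp only [evalJO, RingHom.comp_apply, coe_eval₂RingHom, eval₂_X]
    exact coe_jBar' N
  obtain ⟨v, hv⟩ := IsIntegrallyClosed.isIntegral_iff.mp hint
  refine ⟨v, ?_⟩
  rw [coeffMap_jqNModC]
  exact (congrArg qExp hv).trans hz

theorem φq_surjective : Function.Surjective S.φq := by
  rintro ⟨x, hx⟩
  suffices h : ∃ f, S.φqL f = x by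
    obtain ⟨f, hf⟩ := h
    exact ⟨f, Subtype.ext hf⟩
  unfold modularFunctionFieldFullC at hx
  induction hx using IntermediateField.adjoin_induction with
  | mem x hx =>
    obtain ⟨d, hne, hdvd, rfl⟩ := hx
    obtain ⟨f, hf⟩ := @exists_jd N _ A S d hne hdvd
    exact ⟨f, by rw [S.φqL_of_coeffMap f _ hf, coeffMap_jqNModC]; rfl⟩
  | algebraMap c =>
    obtain ⟨a, rfl⟩ := IsLocalRing.residue_surjective c
    exact ⟨S.constV a, S.φqL_constV a⟩
  | add x y _ _ hx hy =>
    obtain ⟨f, rfl⟩ := hx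
    obtain ⟨g, rfl⟩ := hy
    exact ⟨f + g, map_add _ _ _⟩
  | mul x y _ _ hx hy =>
    obtain ⟨f, rfl⟩ := hx
    obtain ⟨g, rfl⟩ := hy
    exact ⟨f * g, map_mul _ _ _⟩
  | inv x _ hx =>
    obtain ⟨f, rfl⟩ := hx
    by_cases hu : IsUnit f
    · obtain ⟨u, rfl⟩ := hu
      exact ⟨↑u⁻¹, eq_inv_of_mul_eq_one_left (by rw [← map_mul, Units.inv_mul, map_one])⟩
    · exact ⟨0, by rw [map_zero, S.φqL_eq_zero_of_not_isUnit hu, inv_zero]⟩

theorem ker_φq_le : RingHom.ker S.φq ≤ RingHom.ker S.φ₀ := fun f hf => by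
  rw [RingHom.mem_ker] at hf ⊢
  exact S.φ₀_eq_zero_of_not_isUnit fun hu => (hu.map S.φq).ne_zero hf

/-- the embedding of the special fibre of `X₀(N)` in that of the slice -/
def εHom : modularFunctionFieldFullC (kk A) N →+* S.Fb' :=
  RingHom.liftOfSurjective S.φq S.φq_surjective ⟨S.φ₀, S.ker_φq_le⟩

theorem εHom_φq (f : S.V₀) : S.εHom (S.φq f) = S.φ₀ f :=
  RingHom.liftOfSurjective_comp_apply S.φq S.φq_surjective ⟨S.φ₀, S.ker_φq_le⟩ f

/-- the embedding of the special fibre of `X₀(N)` in that of the slice, linear over constants -/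
def ε : modularFunctionFieldFullC (kk A) N →ₐ[kk A] S.Fb' :=
  { S.εHom with
    commutes' := fun c => by
      obtain ⟨a, rfl⟩ := IsLocalRing.residue_surjective c
      show S.εHom _ = _
      rw [← S.φq_constV, εHom_φq, φ₀_constV] }

theorem ε_φq (f : S.V₀) : S.ε (S.φq f) = S.φ₀ f := S.εHom_φq f

theorem jq_transcendental : Transcendental (kk A) (S.φq S.jV) := by
  intro h
  have := h.algHom S.ε
  rw [ε_φq] at this
  exact S.jRed_transcendental this

/-- the special fibre, as the reduction inside the slice -/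
def resEquiv : modularFunctionFieldFullC (kk A) N ≃+* S.resFieldE :=
  RingEquiv.ofBijective
    (S.ε.toRingHom.codRestrict S.resFieldE.toSubfield fun x => by
      obtain ⟨f, rfl⟩ := S.φq_surjective x
      exact ⟨f, (S.ε_φq f).symm⟩)
    ⟨fun x y h => S.ε.injective (congrArg Subtype.val h), by
      rintro ⟨y, f, rfl⟩
      exact ⟨S.φq f, Subtype.ext (S.ε_φq f)⟩⟩

theorem coe_resEquiv (x : modularFunctionFieldFullC (kk A) N) :
    (S.resEquiv x : S.Fb') = S.ε x := rfl

theorem finrank_special :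
    Module.finrank (IntermediateField.adjoin (kk A) {S.φq S.jV})
        (modularFunctionFieldFullC (kk A) N) = Module.finrank (JField N) (FN N) := by
  rw [← S.finrank_eqs.1]
  let e₁ : (IntermediateField.adjoin (kk A) {S.φq S.jV}) ≃+* S.jRedField :=
    ((IntermediateField.equivMap _ S.ε).trans
      (IntermediateField.equivOfEq (by
        rw [IntermediateField.adjoin_map, Set.image_singleton, ε_φq]; rfl))).toRingEquiv
  exact Algebra.finrank_eq_of_equiv_equiv e₁ S.resEquiv (RingHom.ext fun _ => Subtype.ext rfl)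

theorem finrankAlong_ε : finrankAlong (kk A) S.ε = finrankAlong Qb S.ι := by
  rw [← S.finrank_eqs.2.1]
  letI := algebraAlong S.ε
  exact Algebra.finrank_eq_of_equiv_equiv S.resEquiv (RingEquiv.refl S.Fb')
    (RingHom.ext fun _ => rfl)

theorem exists_scale (f : FN N) (hf : f ≠ 0) :
    ∃ c : Qb, ∃ h : c • f ∈ S.V₀, S.φq ⟨c • f, h⟩ ≠ 0 := by
  classical
  set n := Module.finrank (JField N) (FN N) with hn
  haveI : Nonempty (Fin n) := ⟨⟨0, Module.finrank_pos⟩⟩
  let b : Fin n → S.V₀ := fun i => S.jNV ^ (i : ℕ)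
  have hind := S.linearIndependent_pow_jNRed
  let bK := basisOfLinearIndependentOfCardEqFinrank
    (linearIndependent_of_reduction S.hcompat b hind) (Fintype.card_fin n)
  have hbK : ∀ i, bK i = (b i : FN N) := fun i => by simp [bK]
  set a := fun i => bK.repr f i with ha
  have hsum : ∑ i, a i • (b i : FN N) = f := by
    simp_rw [← hbK]
    exact bK.sum_repr _
  have hne : ∃ i, a i ≠ 0 := by
    by_contra hall
    push Not at hall
    apply hf
    rw [← hsum]
    simp [hall]
  obtain ⟨m, hm0, hdiv⟩ := exists_max_div (V := S.V₀) a hne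
  obtain ⟨β, hβm, hV, hφ⟩ := exists_reduced_relation S.hcompat b a m hm0 hdiv
  have hunit : IsUnit (⟨_, hV⟩ : S.V₀) := by
    rw [S.isUnit_iff_φ₀_ne_zero, hφ]
    intro h0
    have := Fintype.linearIndependent_iff.mp hind β h0 m
    rw [hβm] at this
    exact one_ne_zero this
  have ham : ((a m : JField N) : FN N) ≠ 0 := fun h => hm0 (Subtype.ext h)
  obtain ⟨c, P, Q, hc, hP, hQ, hPQ⟩ := exists_normalForm A (a m).2 ham
  rw [← S.coe_evA, ← S.coe_evA] at hPQ
  obtain ⟨uP, huP⟩ := (S.isUnit_evA hP).exists_right_inv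
  have huP' : (S.evA P : FN N) * (uP : FN N) = 1 := congrArg Subtype.val huP
  obtain ⟨uQ, huQ⟩ := S.isUnit_evA hQ
  have key : c⁻¹ • f = ((⟨_, hV⟩ * (S.evA P * (↑uQ⁻¹ : S.V₀)) : S.V₀) : FN N) := by
    have hinv : ((↑uQ⁻¹ : S.V₀) : FN N) = (S.evA Q : FN N)⁻¹ := by
      refine eq_inv_of_mul_eq_one_left ?_
      rw [← huQ]
      exact congrArg Subtype.val uQ.inv_mul
    push_cast
    rw [hinv, ← div_eq_mul_inv, Algebra.smul_def, map_inv₀]
    rw [show algebraMap (JField N) (FN N) (a m) = ((a m : JField N) : FN N) from rfl, hPQ, hsum]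
    have hc' : algebraMap Qb (FN N) c ≠ 0 := by simpa using hc
    have hP' : (S.evA P : FN N) ≠ 0 := left_ne_zero_of_mul_eq_one huP'
    have hQ' : (S.evA Q : FN N) ≠ 0 := by
      intro h0
      have : S.evA Q = 0 := Subtype.ext h0
      exact S.φ₀_evA_ne_zero hQ (by rw [this, map_zero])
    field_simp
  refine ⟨c⁻¹, key ▸ SetLike.coe_mem _, ?_⟩
  have heq : (⟨c⁻¹ • f, key ▸ SetLike.coe_mem _⟩ : S.V₀) =
      ⟨_, hV⟩ * (S.evA P * (↑uQ⁻¹ : S.V₀)) := Subtype.ext key
  rw [heq]
  exact ((hunit.mul ((S.isUnit_evA hP).mul (uQ⁻¹).isUnit)).map S.φq).ne_zero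

theorem φq_coeffMap (y : LaurentSeries A) (hy : coeffMap A.subtype y ∈ FN N) :
    ∃ h : (⟨coeffMap A.subtype y, hy⟩ : FN N) ∈ S.V₀,
      (S.φq ⟨_, h⟩ : LaurentSeries (kk A)) = coeffMap (IsLocalRing.residue A) y := by
  set f : FN N := ⟨coeffMap A.subtype y, hy⟩ with hf
  have hmem : f ∈ S.V₀ := by
    by_contra hnot
    have hinv : f⁻¹ ∈ S.V₀ := (S.V₀.mem_or_inv_mem f).resolve_left hnot
    have hnu : ¬ IsUnit (⟨_, hinv⟩ : S.V₀) := by
      intro hu
      obtain ⟨w, hw⟩ := hu.exists_right_inv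
      have hw' : f⁻¹ * (w : FN N) = 1 := congrArg Subtype.val hw
      apply hnot
      rw [← inv_inv f, inv_eq_of_mul_eq_one_right hw']
      exact w.2
    have hf0 : f ≠ 0 := fun h => hnot (h ▸ S.V₀.zero_mem)
    have h1 : S.serV ⟨_, hinv⟩ * ⟨_, coeffMap_mem_quotSeries A y⟩ = 1 := by
      apply Subtype.ext
      show qExp f⁻¹ * coeffMap A.subtype y = 1
      rw [show coeffMap A.subtype y = qExp f from rfl, ← map_mul, inv_mul_cancel₀ hf0, map_one]
    have h2 := congrArg (redSeries A) h1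
    rw [map_mul, map_one] at h2
    rw [show redSeries A (S.serV ⟨_, hinv⟩) = 0 from S.φqL_eq_zero_of_not_isUnit hnu,
      zero_mul] at h2
    exact zero_ne_one h2
  exact ⟨hmem, S.φqL_of_coeffMap ⟨f, hmem⟩ y rfl⟩

/-- quotients, inside the function field, of integral series by series with non-zero reduction -/
def IsQuot (x : LaurentSeries Qb) : Prop :=
  ∃ u v : LaurentSeries A, coeffMap (IsLocalRing.residue A) v ≠ 0 ∧
    x * coeffMap A.subtype v = coeffMap A.subtype u ∧
    coeffMap A.subtype u ∈ modularFunctionFieldBar N ∧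
    coeffMap A.subtype v ∈ modularFunctionFieldBar N

theorem IsQuot.add {x y : LaurentSeries Qb} (hx : IsQuot (N := N) (A := A) x)
    (hy : IsQuot (N := N) (A := A) y) : IsQuot (N := N) (A := A) (x + y) := by
  obtain ⟨u, v, hv, h, hu', hv'⟩ := hx
  obtain ⟨s, t, ht, h2, hs', ht'⟩ := hy
  refine ⟨u * t + s * v, v * t, by rw [map_mul]; exact mul_ne_zero hv ht, ?_, ?_, ?_⟩
  · simp only [map_mul, map_add, ← h, ← h2]
    ring
  · rw [map_add, map_mul, map_mul]
    exact add_mem (mul_mem hu' ht') (mul_mem hs' hv')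
  · rw [map_mul]
    exact mul_mem hv' ht'

theorem IsQuot.mul {x y : LaurentSeries Qb} (hx : IsQuot (N := N) (A := A) x)
    (hy : IsQuot (N := N) (A := A) y) : IsQuot (N := N) (A := A) (x * y) := by
  obtain ⟨u, v, hv, h, hu', hv'⟩ := hx
  obtain ⟨s, t, ht, h2, hs', ht'⟩ := hy
  refine ⟨u * s, v * t, by rw [map_mul]; exact mul_ne_zero hv ht, ?_, ?_, ?_⟩
  · simp only [map_mul, ← h, ← h2]
    ring
  · rw [map_mul]
    exact mul_mem hu' hs'
  · rw [map_mul]
    exact mul_mem hv' ht'

theorem IsQuot.of_coeffMap (u : LaurentSeries A)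
    (hu : coeffMap A.subtype u ∈ modularFunctionFieldBar N) :
    IsQuot (N := N) (A := A) (coeffMap A.subtype u) :=
  ⟨u, 1, by rw [map_one]; exact one_ne_zero, by rw [map_one, mul_one], hu,
    by rw [map_one]; exact one_mem _⟩

include S in
theorem coeffMap_serA_mem (P : Polynomial A) :
    coeffMap A.subtype (serA P) ∈ modularFunctionFieldBar N := by
  rw [← S.qExp_evA P]
  exact (S.evA P : FN N).2

theorem isQuot (f : S.V₀) : IsQuot (N := N) (A := A) (qExp (f : FN N)) := by
  obtain ⟨a, rfl⟩ := S.exists_expansion f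
  push_cast
  rw [map_sum]
  refine Finset.sum_induction _ (fun x => IsQuot (N := N) (A := A) x) (fun _ _ => IsQuot.add) ?_ ?_
  · have := IsQuot.of_coeffMap (N := N) (A := A) 0 (by rw [map_zero]; exact zero_mem _)
    rwa [map_zero] at this
  intro i _
  rw [map_mul, map_pow]
  have hy : IsQuot (N := N) (A := A) (qExp (jNBar N)) := by
    rw [qExp_apply, coe_jNBar, ← coeffMap_jqNModC A.subtype N]
    refine IsQuot.of_coeffMap _ ?_
    rw [coeffMap_jqNModC, ← coe_jNBar]
    exact (jNBar N).2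
  refine IsQuot.mul ?_ ?_
  · obtain ⟨c, P, Q, hQ, h⟩ := S.exists_normalForm_O (a i)
    refine ⟨HahnSeries.C c * serA P, serA Q, residue_serA_ne_zero hQ, ?_, ?_,
      S.coeffMap_serA_mem Q⟩
    · rw [← S.qExp_evA Q, map_mul, ← qExp_constV (N := N), ← S.qExp_evA P, ← map_mul, ← map_mul,
        ← h]
      rfl
    · rw [map_mul, ← qExp_constV (N := N), ← S.qExp_evA P, ← map_mul]
      exact (algebraMap Qb (FN N) (c : Qb) * (S.evA P : FN N)).2
  · induction (i : ℕ) with
    | zero =>
      rw [pow_zero, ← map_one (coeffMap A.subtype)]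
      exact IsQuot.of_coeffMap 1 (by rw [map_one]; exact one_mem _)
    | succ m ih =>
      rw [pow_succ]
      exact IsQuot.mul ih hy

variable [IsCurveOver Qb (FN N)] [Algebra.EssFiniteType Qb (FN N)]
  [IsCurveOver (kk A) (modularFunctionFieldFullC (kk A) N)]
  [Algebra.EssFiniteType (kk A) (modularFunctionFieldFullC (kk A) N)]

/-- good reduction of `X₀(N)` -/
def goodReduction : Curve.GoodReduction A (FN N) (kk A) (modularFunctionFieldFullC (kk A) N) where
  π := IsLocalRing.residue A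
  π_surjective := IsLocalRing.residue_surjective
  V := S.V₀
  mem_V_iff _ := S.algebraMap_mem_iff
  φ := S.φq
  φ_surjective := S.φq_surjective
  φ_algebraMap a := S.φq_constV a
  exists_scale := S.exists_scale
  x := S.jV
  x_transcendental := S.jq_transcendental
  degree_eq := S.finrank_special.symm
  degree_pos := S.finrank_special.symm ▸ Module.finrank_pos
  genus_eq := genusFF_eq_of_goodReduction_extension S.good S.V₀ S.φq S.φq_surjective S.ι S.ε
    (fun _ => Iff.rfl) (fun f => (S.ε_φq f).symm) S.finrank_eqs.2.2 S.finrankAlong_ε.symm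

end Fermat.Agent.Igusa.X0Slice

end
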