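/-
Good reduction of `X₀(N)` at `ℓ ∤ N`, in the `q`-expansion normalisation, and the reduction
inputs for its Jacobian.
-/
import Fermat.Agent.Igusa.JacobianModel
import Fermat.Agent.Igusa.GoodX0
import Fermat.Agent.Curve.ReductionMap
import Fermat.Prelude.Def_ModularCurve_ReductionModL
import Fermat.Prelude.Def_EllipticCurve_FrobeniusTrace

set_option autoImplicit false

noncomputable section

namespace Fermat.Agent.Igusa

open AlgebraicCurve ModularCurve IntermediateField

set_option synthInstance.maxHeartbeats 400000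

variable {N : ℕ} [NeZero N] {ℓ : ℕ} [Fact ℓ.Prime] {A : ValuationSubring (AlgebraicClosure ℚ)}

/-- slices exist for every `ℓ ∤ N` -/
theorem nonempty_slice (hℓN : ¬ ℓ ∣ N) (hA : A.LiesOverPrime ℓ) : Nonempty (X0Slice N A) :=
  nonempty_x0Slice hℓN hA

/-- good reduction of `X₀(N)` from a slice -/
theorem exists_goodReduction (hℓN : ¬ ℓ ∣ N) (hA : A.LiesOverPrime ℓ) :
    ∃ G : Curve.GoodReduction A (modularFunctionFieldBar N) (IsLocalRing.ResidueField A)
        (modularFunctionFieldFullC (IsLocalRing.ResidueField A) N),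
      G.π = IsLocalRing.residue A ∧
      (∀ (y : LaurentSeries A)
        (hy : coeffMap A.subtype y ∈ modularFunctionFieldBar N),
        ∃ h : (⟨coeffMap A.subtype y, hy⟩ : modularFunctionFieldBar N) ∈ G.V,
          (G.φ ⟨_, h⟩ : LaurentSeries (IsLocalRing.ResidueField A)) =
            coeffMap (IsLocalRing.residue A) y) ∧
      (∀ f : G.V, ∃ u v : LaurentSeries A,
        coeffMap (IsLocalRing.residue A) v ≠ 0 ∧
        ((f : modularFunctionFieldBar N) : LaurentSeries (AlgebraicClosure ℚ)) *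
          coeffMap A.subtype v = coeffMap A.subtype u ∧
        coeffMap A.subtype u ∈ modularFunctionFieldBar N ∧
        coeffMap A.subtype v ∈ modularFunctionFieldBar N) := by
  obtain ⟨S⟩ := nonempty_slice hℓN hA
  haveI : IsAlgClosed (IsLocalRing.ResidueField A) := S.good.isAlgClosed_residue
  exact ⟨S.goodReduction, rfl, S.φq_coeffMap, S.isQuot⟩

/-- the good reduction of `X₀(N)` -/
def x0GoodReduction (hℓN : ¬ ℓ ∣ N) (hA : A.LiesOverPrime ℓ) :
    Curve.GoodReduction A (modularFunctionFieldBar N) (IsLocalRing.ResidueField A)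
      (modularFunctionFieldFullC (IsLocalRing.ResidueField A) N) :=
  (exists_goodReduction hℓN hA).choose

theorem x0GoodReduction_π (hℓN : ¬ ℓ ∣ N) (hA : A.LiesOverPrime ℓ) :
    (x0GoodReduction hℓN hA).π = IsLocalRing.residue A :=
  (exists_goodReduction hℓN hA).choose_spec.1

/-- series with integral coefficients are integral and reduce coefficientwise -/
theorem x0GoodReduction_φ_coeffMap (hℓN : ¬ ℓ ∣ N) (hA : A.LiesOverPrime ℓ) (y : LaurentSeries A)
    (hy : coeffMap A.subtype y ∈ modularFunctionFieldBar N) :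
    ∃ h : (⟨coeffMap A.subtype y, hy⟩ : modularFunctionFieldBar N) ∈ (x0GoodReduction hℓN hA).V,
      ((x0GoodReduction hℓN hA).φ ⟨_, h⟩ : LaurentSeries (IsLocalRing.ResidueField A)) =
        coeffMap (IsLocalRing.residue A) y :=
  (exists_goodReduction hℓN hA).choose_spec.2.1 y hy

/-- integral functions are quotients of integral series, the denominator with non-zero
reduction -/
theorem x0GoodReduction_exists_quotient (hℓN : ¬ ℓ ∣ N) (hA : A.LiesOverPrime ℓ)
    (f : (x0GoodReduction hℓN hA).V) :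
    ∃ u v : LaurentSeries A,
        coeffMap (IsLocalRing.residue A) v ≠ 0 ∧
        ((f : modularFunctionFieldBar N) : LaurentSeries (AlgebraicClosure ℚ)) *
          coeffMap A.subtype v = coeffMap A.subtype u ∧
        coeffMap A.subtype u ∈ modularFunctionFieldBar N ∧
        coeffMap A.subtype v ∈ modularFunctionFieldBar N :=
  (exists_goodReduction hℓN hA).choose_spec.2.2 f

theorem coeffMap_residue_mem (hℓN : ¬ ℓ ∣ N) (hA : A.LiesOverPrime ℓ) (y : LaurentSeries A)
    (hy : coeffMap A.subtype y ∈ modularFunctionFieldBar N) :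
    coeffMap (IsLocalRing.residue A) y ∈
      modularFunctionFieldFullC (IsLocalRing.ResidueField A) N := by
  obtain ⟨h, he⟩ := x0GoodReduction_φ_coeffMap hℓN hA y hy
  rw [← he]
  exact Subtype.coe_prop _

/-- the residue field is algebraically closed -/
theorem isAlgClosed_residueField (hℓN : ¬ ℓ ∣ N) (hA : A.LiesOverPrime ℓ) :
    IsAlgClosed (IsLocalRing.ResidueField A) :=
  (x0GoodReduction hℓN hA).isAlgClosed_residue

theorem ord_algebraMap_mul {K F : Type*} [Field K] [Field F] [Algebra K F] (P : Place K F) {c : K}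
    (hc : c ≠ 0) {f : F} (hf : f ≠ 0) : P.ord (algebraMap K F c * f) = P.ord f := by
  rw [P.ord_mul (by simpa using hc) hf]
  have hu : IsUnit (⟨algebraMap K F c, P.algebraMap_mem' c⟩ : P.toValuationSubring) := by
    refine IsUnit.of_mul_eq_one ⟨_, P.algebraMap_mem' c⁻¹⟩ (Subtype.ext ?_)
    show algebraMap K F c * algebraMap K F c⁻¹ = 1
    rw [← map_mul, mul_inv_cancel₀ hc, map_one]
  obtain ⟨u, hu⟩ := hu
  have := P.ord_coe_unit u
  rw [hu] at this
  rw [this, zero_add]

/-- the reduction inputs for `X₀(N)` hold at every place over `ℓ ∤ N` -/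
theorem reductionInputsModL (hℓN : ¬ ℓ ∣ N) (hA : A.LiesOverPrime ℓ) :
    ReductionInputsModL A N := by
  haveI := isAlgClosed_residueField hℓN hA
  set G := x0GoodReduction hℓN hA with hG
  refine ⟨G.placeMap, ⟨G.deg_placeMap, ?_⟩, ?_⟩
  · intro y hy hyk hne D hD Q
    obtain ⟨h, he⟩ := x0GoodReduction_φ_coeffMap hℓN hA y hy
    have hφ : G.φ ⟨_, h⟩ = ⟨coeffMap (IsLocalRing.residue A) y, hyk⟩ := Subtype.ext he
    have h' := G.isReductionMap_placeMap ⟨_, h⟩
      (fun h0 => hne (he.symm.trans (congrArg Subtype.val h0))) D hD Q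
    rw [hφ] at h'
    exact h'
  · intro D hD
    obtain ⟨f, hf, hDf⟩ := hD
    obtain ⟨c, hc, hne⟩ := G.exists_scale f hf
    have hc0 : c ≠ 0 := fun h0 => hne (by
      rw [show (⟨c • f, hc⟩ : G.V) = 0 from
        Subtype.ext ((congrArg (fun e => e • f) h0).trans (zero_smul _ f)), map_zero])
    obtain ⟨u, v, hv, huv, hu', hv'⟩ := x0GoodReduction_exists_quotient hℓN hA ⟨c • f, hc⟩
    obtain ⟨hvV, hvφ⟩ := x0GoodReduction_φ_coeffMap hℓN hA v hv'
    obtain ⟨huV, huφ⟩ := x0GoodReduction_φ_coeffMap hℓN hA u hu'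
    set vF : modularFunctionFieldBar N := ⟨coeffMap A.subtype v, hv'⟩ with hvF
    set uF : modularFunctionFieldBar N := ⟨coeffMap A.subtype u, hu'⟩ with huF
    have hprod : c • f * vF = uF := Subtype.ext huv
    have hV : (⟨c • f, hc⟩ : G.V) * ⟨vF, hvV⟩ = ⟨uF, huV⟩ := Subtype.ext hprod
    have hu : coeffMap (IsLocalRing.residue A) u ≠ 0 := by
      intro h0
      have h1 := congrArg G.φ hV
      rw [map_mul, show G.φ ⟨uF, huV⟩ = 0 from Subtype.ext (huφ.trans h0)] at h1
      rcases mul_eq_zero.mp h1 with h2 | h2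
      · exact hne h2
      · exact hv (hvφ.symm.trans (congrArg Subtype.val h2))
    have hu0 : uF ≠ 0 := fun h0 =>
      coeffMap_residue_ne_zero_imp A hu (by simpa [huF] using congrArg Subtype.val h0)
    have hv0 : vF ≠ 0 := fun h0 =>
      coeffMap_residue_ne_zero_imp A hv (by simpa [hvF] using congrArg Subtype.val h0)
    have hfeq : algebraMap (AlgebraicClosure ℚ) (modularFunctionFieldBar N) c * f * vF = uF := by
      rwa [← Algebra.smul_def]
    obtain ⟨Du, hDu, -⟩ := HasPrincipalDivisors.exists_divisor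
      (K := AlgebraicClosure ℚ) uF hu0
    obtain ⟨Dv, hDv, -⟩ := HasPrincipalDivisors.exists_divisor
      (K := AlgebraicClosure ℚ) vF hv0
    have hDeq : D = Du - Dv := by
      ext P
      rw [Finsupp.sub_apply, hDu, hDv, hDf, ← hfeq,
        P.ord_mul (mul_ne_zero (by simpa using hc0) hf) hv0, ord_algebraMap_mul P hc0 hf]
      ring
    rw [hDeq]
    refine sub_mem (AddSubgroup.subset_closure ?_) (AddSubgroup.subset_closure ?_)
    · exact ⟨u, hu', huφ ▸ Subtype.coe_prop _, hu, hDu⟩
    · exact ⟨v, hv', hvφ ▸ Subtype.coe_prop _, hv, hDv⟩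

end Fermat.Agent.Igusa

end
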