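/-
Reduction is injective on prime-to-`ℓ` torsion of the Jacobian of `X₀(N)`.
-/
import Fermat.Agent.Igusa.JacobianGood
import Fermat.Agent.Curve.ConnectedTorsion

set_option autoImplicit false

noncomputable section

namespace Fermat.Agent.Igusa

open AlgebraicCurve ModularCurve

set_option synthInstance.maxHeartbeats 400000

variable {N : ℕ} [NeZero N] {ℓ : ℕ} [Fact ℓ.Prime] {A : ValuationSubring (AlgebraicClosure ℚ)}

theorem natCast_residueField_ne_zero (hA : A.LiesOverPrime ℓ) {m : ℕ} (hm : ¬ ℓ ∣ m) :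
    (m : IsLocalRing.ResidueField A) ≠ 0 := by
  intro h0
  have hmem : ((ℓ : A) : AlgebraicClosure ℚ) ∈ A.nonunits := by
    simpa [ValuationSubring.LiesOverPrime] using hA
  have hℓ0 : (ℓ : IsLocalRing.ResidueField A) = 0 := by
    rw [← map_natCast (IsLocalRing.residue A) ℓ, IsLocalRing.residue_eq_zero_iff]
    exact ValuationSubring.coe_mem_nonunits_iff.mp hmem
  have hcop : Nat.Coprime ℓ m := (Nat.Prime.coprime_iff_not_dvd Fact.out).2 hm
  have hb := congrArg (fun z : ℤ => (z : IsLocalRing.ResidueField A)) (Nat.gcd_eq_gcd_ab ℓ m)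
  simp [hcop.gcd_eq_one, hℓ0, h0] at hb

/-- two place reductions agree on divisor classes of finite order -/
theorem mapDomain_eq_of_nsmul_principal {A' : ValuationSubring (AlgebraicClosure ℚ)}
    {r r' : Place (AlgebraicClosure ℚ) (modularFunctionFieldBar N) →
      Place (IsLocalRing.ResidueField A') (modularFunctionFieldFullC (IsLocalRing.ResidueField A') N)}
    (hr : IsPlaceReductionModL A' N r) (hr' : IsPlaceReductionModL A' N r')
    (hgen : PrincipalGeneratedByIntegral A' (IsLocalRing.residue A') N) {m : ℕ} (hm : m ≠ 0)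
    {D : Divisor (AlgebraicClosure ℚ) (modularFunctionFieldBar N)}
    (hD : m • D ∈ Divisor.principal (K := AlgebraicClosure ℚ) (F := modularFunctionFieldBar N)) :
    Finsupp.mapDomain r D = Finsupp.mapDomain r' D := by
  have key : ∀ E ∈ Divisor.principal (K := AlgebraicClosure ℚ) (F := modularFunctionFieldBar N),
      Finsupp.mapDomain r E = Finsupp.mapDomain r' E := by
    intro E hE
    have hE' := hgen hE
    clear hE
    induction hE' using AddSubgroup.closure_induction with
    | mem E hE =>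
      obtain ⟨y, hy, hyk, hne, hDy⟩ := hE
      ext Q
      rw [hr.2 y hy hyk hne E hDy Q, hr'.2 y hy hyk hne E hDy Q]
    | zero => simp
    | add E E' _ _ hE hE' => rw [Finsupp.mapDomain_add, Finsupp.mapDomain_add, hE, hE']
    | neg E _ hE =>
      rw [← Finsupp.mapDomain.addMonoidHom_apply r, ← Finsupp.mapDomain.addMonoidHom_apply r',
        map_neg, map_neg, Finsupp.mapDomain.addMonoidHom_apply, Finsupp.mapDomain.addMonoidHom_apply,
        hE]
  have h := key _ hD
  rw [← Finsupp.mapDomain.addMonoidHom_apply r, ← Finsupp.mapDomain.addMonoidHom_apply r',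
    map_nsmul, map_nsmul, Finsupp.mapDomain.addMonoidHom_apply,
    Finsupp.mapDomain.addMonoidHom_apply] at h
  ext Q
  have hQ := DFunLike.congr_fun h Q
  simp only [Finsupp.smul_apply, nsmul_eq_mul] at hQ
  exact mul_left_cancel₀ (by exact_mod_cast hm) hQ

/-- reduction mod `ℓ` is injective on the prime-to-`ℓ` torsion of `J₀(N)` -/
theorem eq_zero_of_reductionModL_eq_zero (hℓN : ¬ ℓ ∣ N) (hA : A.LiesOverPrime ℓ)
    (h : ReductionInputsModL A N) (m : ℕ) (hm : ¬ ℓ ∣ m) (z : JZero N)
    (hmz : m • z = 0) (hz : reductionModL A N z = 0) : z = 0 := by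
  haveI := isAlgClosed_residueField hℓN hA
  set G := x0GoodReduction hℓN hA with hG
  have hm0 : m ≠ 0 := fun h0 => hm (h0 ▸ dvd_zero ℓ)
  obtain ⟨D, rfl⟩ := Pic0.mk_surjective z
  have hgen := h.choose_spec.2
  have hr' : IsPlaceReductionModL A N G.placeMap := by
    refine ⟨G.deg_placeMap, ?_⟩
    intro y hy hyk hne E hE Q
    obtain ⟨hV, he⟩ := x0GoodReduction_φ_coeffMap hℓN hA y hy
    have hφ : G.φ ⟨_, hV⟩ = ⟨coeffMap (IsLocalRing.residue A) y, hyk⟩ := Subtype.ext he
    have h' := G.isReductionMap_placeMap ⟨_, hV⟩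
      (fun h0 => hne (he.symm.trans (congrArg Subtype.val h0))) E hE Q
    rw [hφ] at h'
    exact h'
  have hmD : m • (D : Divisor (AlgebraicClosure ℚ) (modularFunctionFieldBar N)) ∈
      Divisor.principal (K := AlgebraicClosure ℚ) (F := modularFunctionFieldBar N) := by
    have h0 : Pic0.mk (m • D) = 0 := hmz
    have := (QuotientAddGroup.eq_zero_iff _).mp h0
    rwa [AddSubgroup.mem_addSubgroupOf, AddSubgroupClass.coe_nsmul] at this
  have heq := mapDomain_eq_of_nsmul_principal (isPlaceReductionModL_placeReductionModL h) hr'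
    hgen hm0 hmD
  refine G.eq_zero_of_reductionPic0_eq_zero_of_nsmul_eq_zero
    (natCast_residueField_ne_zero hA hm) hmz ?_
  rw [reductionModL_mk h] at hz
  refine Eq.trans ?_ hz
  rw [G.reductionPic0_mk]
  exact congrArg Pic0.mk (Subtype.ext heq.symm)

end Fermat.Agent.Igusa

end
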