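/-
`ℤ_(ℓ)`, its reduction, and irreducibility over the prime field and in characteristic zero.
-/
import Fermat.Agent.Igusa.FibreIrred
import Fermat.Agent.Flat.HopfBasis
import Mathlib.RingTheory.Valuation.LocalSubring
import Mathlib.RingTheory.LocalRing.ResidueField.Basic
import Mathlib.FieldTheory.IntermediateField.Adjoin.Basic
import Mathlib.RingTheory.Polynomial.UniqueFactorization
import Mathlib.Algebra.Field.ZMod

set_option autoImplicit false
set_option linter.style.haveILetI false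

noncomputable section

open Polynomial ModularCurve IntermediateField

namespace Fermat.Agent.Igusa.Fibre

variable (ℓ : ℕ) [Fact ℓ.Prime]

set_option quotPrecheck false in
local notation "ℤℓ" => ↥(GaloisRep.ratLocalizedAt ℓ)

theorem den_ne_zero_zmod (x : ℤℓ) : ((x : ℚ).den : ZMod ℓ) ≠ 0 := fun h =>
  ((Fact.out : ℓ.Prime).coprime_iff_not_dvd.1 (Nat.Coprime.symm x.2))
    ((ZMod.natCast_eq_zero_iff _ _).1 h)

/-- Reduction modulo `ℓ`. -/
def redZ : ℤℓ →+* ZMod ℓ where
  toFun x := ((x : ℚ) : ZMod ℓ)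
  map_one' := by simp
  map_zero' := by simp
  map_add' x y := by
    push_cast
    exact Rat.cast_add_of_ne_zero (den_ne_zero_zmod ℓ x) (den_ne_zero_zmod ℓ y)
  map_mul' x y := by
    push_cast
    exact Rat.cast_mul_of_ne_zero (den_ne_zero_zmod ℓ x) (den_ne_zero_zmod ℓ y)

theorem redZ_eq_zero_iff (x : ℤℓ) : redZ ℓ x = 0 ↔ (ℓ : ℤℓ) ∣ x := by
  constructor
  · intro h
    have h' : (((x : ℚ).num : ZMod ℓ)) = 0 := by
      have : ((x : ℚ) : ZMod ℓ) = 0 := h
      rw [Rat.cast_def, div_eq_zero_iff] at this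
      exact this.resolve_right (den_ne_zero_zmod ℓ x)
    obtain ⟨m, hm⟩ := (ZMod.intCast_zmod_eq_zero_iff_dvd _ _).1 h'
    have hu : (1 / ((x : ℚ).den : ℚ)).den.Coprime ℓ := by
      rw [one_div, Rat.inv_natCast_den_of_pos (x : ℚ).pos]
      exact x.2
    refine ⟨(m : ℤℓ) * ⟨1 / ((x : ℚ).den : ℚ), hu⟩, ?_⟩
    apply Subtype.ext
    push_cast
    rw [← mul_assoc, mul_one_div, eq_div_iff (by exact_mod_cast (x : ℚ).den_nz),
      Rat.mul_den_eq_num, hm]
    push_cast
    rfl
  · rintro ⟨y, rfl⟩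
    rw [map_mul, map_natCast, ZMod.natCast_self, zero_mul]

theorem redZ_surjective : Function.Surjective (redZ ℓ) := fun z =>
  ⟨((z.val : ℕ) : ℤℓ), by rw [map_natCast, ZMod.natCast_zmod_val]⟩

theorem natCast_ne_zero_ratLocalizedAt : (ℓ : ℤℓ) ≠ 0 := fun h =>
  (Fact.out : ℓ.Prime).ne_zero (by exact_mod_cast congrArg Subtype.val h)

theorem prime_natCast_ratLocalizedAt : Prime (ℓ : ℤℓ) := by
  refine ⟨natCast_ne_zero_ratLocalizedAt ℓ, fun h => ?_, fun a b hab => ?_⟩
  · have := h.map (redZ ℓ)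
    rw [map_natCast, ZMod.natCast_self] at this
    exact not_isUnit_zero this
  · rwa [← redZ_eq_zero_iff, ← redZ_eq_zero_iff, ← mul_eq_zero, ← map_mul, redZ_eq_zero_iff]

theorem prime_C_natCast : Prime (C (ℓ : ℤℓ) : ℤℓ[X]) :=
  Polynomial.prime_C_iff.2 (prime_natCast_ratLocalizedAt ℓ)

theorem map_redZ_eq_zero_iff (r : ℤℓ[X]) : r.map (redZ ℓ) = 0 ↔ C (ℓ : ℤℓ) ∣ r := by
  rw [Polynomial.C_dvd_iff_dvd_coeff]
  simp [Polynomial.ext_iff, redZ_eq_zero_iff]

/-- Two homomorphisms from `ℤ_(ℓ)` to a field of characteristic `ℓ` agree. -/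
theorem ringHom_ext_ratLocalizedAt {L : Type*} [Field L] [CharP L ℓ] (f g : ℤℓ →+* L) : f = g := by
  ext x
  have hx : ((x : ℚ).den : ℤℓ) * x = ((x : ℚ).num : ℤℓ) := by
    apply Subtype.ext
    push_cast
    rw [mul_comm, Rat.mul_den_eq_num]
  have hne : ((x : ℚ).den : L) ≠ 0 := fun h =>
    den_ne_zero_zmod ℓ x ((ZMod.natCast_eq_zero_iff _ _).2 ((CharP.cast_eq_zero_iff L ℓ _).1 h))
  have h1 := congrArg f hx
  have h2 := congrArg g hx
  rw [map_mul, map_natCast, map_intCast] at h1 h2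
  exact mul_left_cancel₀ hne (h1.trans h2.symm)

theorem coeffMap_aeval {R S : Type*} [CommRing R] [CommRing S] (f : R →+* S) (s : LaurentSeries R)
    (P : R[X]) : coeffMap f (aeval s P) = aeval (coeffMap f s) (P.map f) := by
  have h : (coeffMap f).comp (algebraMap R (LaurentSeries R)) =
      (algebraMap S (LaurentSeries S)).comp f := by
    ext r i
    simp [algebraMap_eq_C, HahnSeries.C_apply, HahnSeries.coeff_single, apply_ite f]
  rw [aeval_def, aeval_def, eval₂_map, ← h, hom_eval₂]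

variable {ℓ}

theorem exists_valuationSubring :
    ∃ A : ValuationSubring ℂ, ((ℓ : A) : A) ∈ IsLocalRing.maximalIdeal A := by
  set R := (Int.castRingHom ℂ).range
  have hI : Ideal.span {(ℓ : R)} ≠ ⊤ := by
    rw [ne_eq, Ideal.span_singleton_eq_top, isUnit_iff_exists_inv]
    rintro ⟨⟨_, m, rfl⟩, hm⟩
    have h := congrArg Subtype.val hm
    simp at h
    have h' : (ℓ : ℤ) * m = 1 := by exact_mod_cast h
    have := Int.eq_one_of_mul_eq_one_right (Int.natCast_nonneg ℓ) h'
    exact (Fact.out : ℓ.Prime).one_lt.ne' (by exact_mod_cast this)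
  obtain ⟨A, hRA, hA⟩ := Ideal.image_subset_nonunits_valuationSubring _ hI
  refine ⟨A, ?_⟩
  rw [← ValuationSubring.coe_mem_nonunits_iff]
  exact hA ⟨(ℓ : R), Ideal.mem_span_singleton_self _, by simp⟩

variable {N : ℕ} [NeZero N] (hℓN : ¬ ℓ ∣ N)

include hℓN in
/-- Irreducibility over the prime field. -/
theorem independent_zmod (a : Fin (Fintype.card (Gamma0.Coset N)) → (ZMod ℓ)[X])
    (ha : ∑ i, aeval (jqModC (ZMod ℓ)) (a i) * jqNModC (ZMod ℓ) N ^ (i : ℕ) = 0) : a = 0 := by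
  obtain ⟨A, hA⟩ := exists_valuationSubring (ℓ := ℓ)
  let k := IsLocalRing.ResidueField A
  let f : A.toSubring →+* k := IsLocalRing.residue A
  have hℓ0 : (ℓ : k) = 0 := by
    rw [← map_natCast (IsLocalRing.residue A)]
    exact (IsLocalRing.residue_eq_zero_iff _).2 hA
  haveI : CharP k ℓ := by
    obtain ⟨p, hp⟩ := CharP.exists k
    obtain h | h := (Fact.out : ℓ.Prime).eq_one_or_self_of_dvd p
      ((CharP.cast_eq_zero_iff k p ℓ).1 hℓ0)
    · exact absurd h (CharP.char_ne_one k p)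
    · exact h ▸ hp
  have hNA : IsUnit (N : A.toSubring) := by
    show IsUnit (N : A)
    rw [← IsLocalRing.notMem_maximalIdeal, ← IsLocalRing.residue_eq_zero_iff, map_natCast,
      CharP.cast_eq_zero_iff k ℓ]
    exact hℓN
  let φ : ZMod ℓ →+* k := ZMod.castHom dvd_rfl k
  have h0 := independent_jqNModC
    (fun d hd => exists_unit_zetaU A (ne_zero_of_dvd_ne_zero (NeZero.ne N) hd)) hNA f
    (fun i => (a i).map φ) (by
      have h := congrArg (coeffMap φ) ha
      rw [map_sum, map_zero] at h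
      rw [← h]
      refine Finset.sum_congr rfl fun i _ => ?_
      rw [map_mul, map_pow, coeffMap_aeval, coeffMap_jqModC, coeffMap_jqNModC])
  funext i
  exact Polynomial.map_injective φ φ.injective (by rw [congrFun h0 i]; simp)

/-- Independence over `k[t]` gives independence over the field `k(t)`. -/
theorem independent_adjoin {k L : Type*} [Field k] [Field L] [Algebra k L] (t x : L) {n : ℕ}
    (h : ∀ a : Fin n → k[X], ∑ i, aeval t (a i) * x ^ (i : ℕ) = 0 → a = 0)
    (c : Fin n → L) (hc : ∀ i, c i ∈ k⟮t⟯) (h0 : ∑ i, c i * x ^ (i : ℕ) = 0) : c = 0 := by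
  classical
  have hc' : ∀ i, ∃ r s : k[X], aeval t s ≠ 0 ∧ c i = aeval t r / aeval t s := by
    intro i
    obtain ⟨r, s, hrs⟩ := (mem_adjoin_simple_iff k _).1 (hc i)
    by_cases hs : aeval t s = 0
    · exact ⟨0, 1, by simp, by rw [hrs, hs]; simp⟩
    · exact ⟨r, s, hs, hrs⟩
  choose r s hs hrs using hc'
  have ha := h (fun i => r i * ∏ j ∈ Finset.univ.erase i, s j) (by
    rw [← mul_zero (∏ j, aeval t (s j)), ← h0, Finset.mul_sum]
    refine Finset.sum_congr rfl fun i _ => ?_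
    rw [hrs i, map_mul, map_prod, ← Finset.mul_prod_erase _ _ (Finset.mem_univ i)]
    field_simp [hs i])
  funext i
  have hi := congrFun ha i
  simp only [Pi.zero_apply, mul_eq_zero] at hi
  rcases hi with hi | hi
  · rw [hrs i, hi]; simp
  · obtain ⟨j, -, hj⟩ := Finset.prod_eq_zero_iff.1 hi
    exact absurd (by rw [hj]; simp) (hs j)

include hℓN in
/-- Irreducibility in characteristic zero, deduced by reduction. -/
theorem independent_ratLocalizedAt (a : Fin (Fintype.card (Gamma0.Coset N)) → ℤℓ[X])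
    (ha : ∑ i, aeval (jqModC ℤℓ) (a i) * jqNModC ℤℓ N ^ (i : ℕ) = 0) : a = 0 := by
  haveI := FlatModel.ratLocalizedAt_isPrincipal ℓ
  have step : ∀ b : Fin (Fintype.card (Gamma0.Coset N)) → ℤℓ[X],
      ∑ i, aeval (jqModC ℤℓ) (b i) * jqNModC ℤℓ N ^ (i : ℕ) = 0 →
      ∀ i, C (ℓ : ℤℓ) ∣ b i := fun b hb i => by
    rw [← map_redZ_eq_zero_iff]
    refine congrFun (independent_zmod hℓN (fun i => (b i).map (redZ ℓ)) ?_) i
    have h := congrArg (coeffMap (redZ ℓ)) hb
    rw [map_sum, map_zero] at h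
    rw [← h]
    refine Finset.sum_congr rfl fun i _ => ?_
    rw [map_mul, map_pow, coeffMap_aeval, coeffMap_jqModC, coeffMap_jqNModC]
  have hp := prime_C_natCast ℓ
  have all : ∀ m : ℕ, ∀ b : Fin (Fintype.card (Gamma0.Coset N)) → ℤℓ[X],
      ∑ i, aeval (jqModC ℤℓ) (b i) * jqNModC ℤℓ N ^ (i : ℕ) = 0 →
      ∀ i, C (ℓ : ℤℓ) ^ m ∣ b i := by
    intro m
    induction m with
    | zero => exact fun b _ i => by simp
    | succ m ih =>
      intro b hb i
      choose b' hb' using step b hb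
      have h' : ∑ i, aeval (jqModC ℤℓ) (b' i) * jqNModC ℤℓ N ^ (i : ℕ) = 0 := by
        have hne : aeval (jqModC ℤℓ) (C (ℓ : ℤℓ)) ≠ 0 := by
          rw [aeval_C, algebraMap_eq_C]
          exact fun h => natCast_ne_zero_ratLocalizedAt ℓ
            (HahnSeries.C_injective (h.trans (map_zero HahnSeries.C).symm))
        refine (mul_eq_zero.1 ?_).resolve_left hne
        rw [Finset.mul_sum, ← hb]
        refine Finset.sum_congr rfl fun i _ => ?_
        rw [hb' i, map_mul, mul_assoc]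
      rw [hb' i, pow_succ']
      exact mul_dvd_mul_left _ (ih b' h' i)
  funext i
  by_contra hne
  obtain ⟨m, q, hq, hmq⟩ := WfDvdMonoid.max_power_factor hne hp.irreducible
  have := all (m + 1) a ha i
  rw [hmq, pow_succ, mul_dvd_mul_iff_left (pow_ne_zero _ hp.ne_zero)] at this
  exact hq this

end Fermat.Agent.Igusa.Fibre
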