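/-
The powers of `j (N τ)` form a basis of the modular function field over `ℚ(j)`.
-/
import Fermat.Agent.Igusa.FibreModPrime
import Mathlib.LinearAlgebra.Dual.Lemmas
import Mathlib.LinearAlgebra.Basis.VectorSpace

set_option autoImplicit false
set_option linter.style.haveILetI false

noncomputable section

open Polynomial ModularCurve IntermediateField

namespace Fermat.Agent.Igusa.Fibre

/-- Independence over a ring gives independence over fractions from it. -/
theorem independent_of_ratio {R L : Type*} [CommRing R] [IsDomain R] [Field L] (ev : R →+* L)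
    (x : L) {n : ℕ} (h : ∀ a : Fin n → R, ∑ i, ev (a i) * x ^ (i : ℕ) = 0 → a = 0)
    (c : Fin n → L) (hc : ∀ i, ∃ r q : R, ev q ≠ 0 ∧ c i = ev r / ev q)
    (h0 : ∑ i, c i * x ^ (i : ℕ) = 0) : c = 0 := by
  classical
  choose r q hq hrq using hc
  have ha := h (fun i => r i * ∏ j ∈ Finset.univ.erase i, q j) (by
    rw [← mul_zero (∏ j, ev (q j)), ← h0, Finset.mul_sum]
    refine Finset.sum_congr rfl fun i _ => ?_
    rw [hrq i, map_mul, map_prod, ← Finset.mul_prod_erase _ _ (Finset.mem_univ i)]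
    field_simp [hq i])
  funext i
  have hi := congrFun ha i
  simp only [Pi.zero_apply, mul_eq_zero] at hi
  rcases hi with hi | hi
  · rw [hrq i, hi]; simp
  · obtain ⟨j, -, hj⟩ := Finset.prod_eq_zero_iff.1 hi
    exact absurd (by rw [hj]; simp) (hq j)

section Ratio

variable (ℓ : ℕ) [Fact ℓ.Prime]

set_option quotPrecheck false in
local notation "ℤℓ" => ↥(GaloisRep.ratLocalizedAt ℓ)

/-- Evaluation of a polynomial with coefficients in `ℤ_(ℓ)` at a rational Laurent series. -/
def evQ (s : LaurentSeries ℚ) : ℤℓ[X] →+* LaurentSeries ℚ :=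
  (aeval (R := ℚ) s).toRingHom.comp (mapRingHom (GaloisRep.ratLocalizedAt ℓ).subtype)

theorem evQ_C (s : LaurentSeries ℚ) (c : ℤℓ) :
    evQ ℓ s (C c) = algebraMap ℚ (LaurentSeries ℚ) c := by simp [evQ]

theorem evQ_X (s : LaurentSeries ℚ) : evQ ℓ s X = s := by simp [evQ]

/-- Elements of `ℚ(s)` are ratios of polynomials in `s` over `ℤ_(ℓ)`. -/
theorem exists_ratio {s c : LaurentSeries ℚ} (hc : c ∈ ℚ⟮s⟯) :
    ∃ r q : ℤℓ[X], evQ ℓ s q ≠ 0 ∧ c = evQ ℓ s r / evQ ℓ s q := by
  have natC : ∀ m : ℕ, evQ ℓ s (C (m : ℤℓ)) = algebraMap ℚ (LaurentSeries ℚ) (m : ℚ) := fun m => by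
    rw [evQ_C]; simp
  refine adjoin_induction ℚ ?_ ?_ ?_ ?_ ?_ hc
  · rintro _ rfl
    exact ⟨X, 1, by simp, by simp [evQ_X]⟩
  · intro v
    have hden : algebraMap ℚ (LaurentSeries ℚ) (v.den : ℚ) ≠ 0 := by
      rw [ne_eq, map_eq_zero]; exact_mod_cast v.den_nz
    refine ⟨C ((v.num : ℤℓ)), C ((v.den : ℤℓ)), by rwa [natC], ?_⟩
    rw [natC, evQ_C, eq_div_iff hden, ← map_mul]
    congr 1
    push_cast
    exact Rat.mul_den_eq_num v
  · rintro y z - - ⟨r, q, hq, rfl⟩ ⟨r', q', hq', rfl⟩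
    refine ⟨r * q' + r' * q, q * q', by simp [hq, hq'], ?_⟩
    rw [div_add_div _ _ hq hq', map_add, map_mul, map_mul, map_mul]
    ring
  · rintro y - ⟨r, q, hq, rfl⟩
    by_cases hr : evQ ℓ s r = 0
    · exact ⟨0, 1, by simp, by simp [hr]⟩
    · exact ⟨q, r, hr, by rw [inv_div]⟩
  · rintro y z - - ⟨r, q, hq, rfl⟩ ⟨r', q', hq', rfl⟩
    exact ⟨r * r', q * q', by simp [hq, hq'], by rw [div_mul_div_comm, map_mul, map_mul]⟩

theorem evQ_jq_eq (a : ℤℓ[X]) :
    evQ ℓ jq a = coeffMap (GaloisRep.ratLocalizedAt ℓ).subtype (aeval (jqModC ℤℓ) a) := by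
  rw [coeffMap_aeval, coeffMap_jqModC, jqModC_rat]
  rfl

variable {ℓ} {N : ℕ} [NeZero N] (hℓN : ¬ ℓ ∣ N)

include hℓN in
theorem independent_ratFun (c : Fin (Fintype.card (Gamma0.Coset N)) → LaurentSeries ℚ)
    (hc : ∀ i, c i ∈ ℚ⟮jq⟯) (h0 : ∑ i, c i * qExpand ℚ N jq ^ (i : ℕ) = 0) : c = 0 := by
  refine independent_of_ratio (evQ ℓ jq) _ (fun a ha => independent_ratLocalizedAt hℓN a ?_) c
    (fun i => exists_ratio ℓ (hc i)) h0
  have hinj : Function.Injective (coeffMap (GaloisRep.ratLocalizedAt ℓ).subtype) := fun u v huv => by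
    ext k
    simpa using congrArg (fun s : LaurentSeries ℚ => s.coeff k) huv
  apply hinj
  rw [map_zero, ← ha, map_sum]
  refine Finset.sum_congr rfl fun i _ => ?_
  rw [map_mul, map_pow, evQ_jq_eq, coeffMap_jqNModC, jqNModC_rat]
  rfl

omit [NeZero N] in
theorem coeff_aeval_mul {k : Type*} [Field k] (s z : LaurentSeries k) {a : k[X]} {D : ℕ}
    (hD : a.natDegree < D) (m : ℤ) :
    (aeval s a * z).coeff m = ∑ l ∈ Finset.range D, a.coeff l * (s ^ l * z).coeff m := by
  rw [aeval_eq_sum_range' hD, Finset.sum_mul, HahnSeries.coeff_sum]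
  refine Finset.sum_congr rfl fun l _ => ?_
  rw [Algebra.smul_def, mul_assoc, algebraMap_eq_C, HahnSeries.C_mul_eq_smul,
    HahnSeries.coeff_smul, smul_eq_mul]

include hℓN in
/-- Every element of the modular function field is a combination of the powers of `j (N τ)` below
the index, with coefficients in `ℚ(j)`. -/
theorem exists_span {z : LaurentSeries ℚ} (hz : z ∈ modularFunctionFieldFull N) :
    ∃ c : Fin (Fintype.card (Gamma0.Coset N)) → LaurentSeries ℚ,
      (∀ i, c i ∈ ℚ⟮jq⟯) ∧ z = ∑ i, c i * qExpand ℚ N jq ^ (i : ℕ) := by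
  classical
  let n := Fintype.card (Gamma0.Coset N)
  let ι := algebraMap ℚ ℂ
  let v : Fin (n + 1) → LaurentSeries ℚ :=
    Fin.snoc (fun i : Fin n => qExpand ℚ N jq ^ (i : ℕ)) z
  have hv : ∀ i, v i ∈ modularFunctionFieldFull N := by
    refine Fin.lastCases ?_ (fun i => ?_)
    · simpa [v] using hz
    · simp only [v, Fin.snoc_castSucc]
      exact pow_mem (jqd_mem_full N dvd_rfl) _
  have hmem : ∀ w ∈ modularFunctionFieldFull N,
      coeffMap ι w ∈ modularFunctionFieldFullC ℂ N := by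
    intro w hw
    refine adjoin_induction ℚ ?_ ?_ ?_ ?_ ?_ hw
    · rintro _ ⟨d, hne, hd, rfl⟩
      haveI := hne
      rw [coeffMap_qExpand, ← jqModC_rat, coeffMap_jqModC]
      exact jqModCd_mem_full ℂ N hd
    · intro x
      rw [algebraMap_eq_C, show coeffMap ι (HahnSeries.C x : LaurentSeries ℚ) =
        algebraMap ℂ (LaurentSeries ℂ) (ι x) by
          rw [algebraMap_eq_C, HahnSeries.C_apply, coeffMap_single]; rfl]
      exact IntermediateField.algebraMap_mem _ _
    · intro x y _ _ hx hy; rw [map_add]; exact add_mem hx hy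
    · intro x _ hx; rw [map_inv₀]; exact inv_mem hx
    · intro x y _ _ hx hy; rw [map_mul]; exact mul_mem hx hy
  obtain ⟨a, ha, hsum⟩ := exists_dependence_fullC (N := N) (fun i => coeffMap ι (v i))
    fun i => hmem _ (hv i)
  -- project the coefficients to `ℚ`
  obtain ⟨i₀, hi₀⟩ : ∃ i, a i ≠ 0 := by
    by_contra h; push Not at h; exact ha (funext h)
  obtain ⟨l₀, hl₀⟩ : ∃ l, (a i₀).coeff l ≠ 0 := by
    by_contra h; push Not at h; exact hi₀ (Polynomial.ext (by simpa using h))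
  obtain ⟨φ, hφ⟩ : ∃ φ : ℂ →ₗ[ℚ] ℚ, φ ((a i₀).coeff l₀) ≠ 0 := by
    by_contra h
    push Not at h
    exact hl₀ ((Module.forall_dual_apply_eq_zero_iff ℚ _).1 h)
  set D := (Finset.univ.sup fun i => (a i).natDegree) + 1
  have hD : ∀ i, (a i).natDegree < D := fun i =>
    Nat.lt_succ_of_le (Finset.le_sup (f := fun i => (a i).natDegree) (Finset.mem_univ i))
  let b : Fin (n + 1) → ℚ[X] := fun i => ∑ l ∈ Finset.range D, monomial l (φ ((a i).coeff l))
  have hbc : ∀ i l, (b i).coeff l = φ ((a i).coeff l) := fun i l => by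
    simp only [b, finsetSum_coeff, coeff_monomial, Finset.sum_ite_eq', Finset.mem_range]
    split_ifs with h
    · rfl
    · rw [coeff_eq_zero_of_natDegree_lt (lt_of_lt_of_le (hD i) (not_lt.1 h)), map_zero]
  have hbD : ∀ i, (b i).natDegree < D := fun i =>
    Nat.lt_succ_of_le (natDegree_le_iff_coeff_eq_zero.2 fun l hl => by
      rw [hbc, coeff_eq_zero_of_natDegree_lt (lt_of_lt_of_le (hD i) (Nat.succ_le_of_lt hl)),
        map_zero])
  have hb : ∑ i, aeval jq (b i) * v i = 0 := by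
    ext m
    have h := congrArg (fun S : LaurentSeries ℂ => φ (S.coeff m)) hsum
    simp only [HahnSeries.coeff_sum, HahnSeries.coeff_zero, map_zero, map_sum] at h ⊢
    rw [← h]
    refine Finset.sum_congr rfl fun i _ => ?_
    rw [coeff_aeval_mul _ _ (hbD i), coeff_aeval_mul _ _ (hD i), map_sum]
    refine Finset.sum_congr rfl fun l _ => ?_
    rw [hbc, ← jqModC_rat, ← coeffMap_jqModC ι, ← map_pow, ← map_mul, coeffMap_coeff,
      mul_comm ((a i).coeff l), ← Algebra.smul_def, map_smul, smul_eq_mul, mul_comm]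
  have haev : ∀ p : ℚ[X], aeval jq p ∈ ℚ⟮jq⟯ := fun p =>
    algebra_adjoin_le_adjoin ℚ _ (aeval_mem_adjoin_singleton ℚ jq)
  rw [Fin.sum_univ_castSucc] at hb
  simp only [v, Fin.snoc_castSucc, Fin.snoc_last] at hb
  have hlast : aeval jq (b (Fin.last n)) ≠ 0 := by
    intro h0
    rw [h0, zero_mul, add_zero] at hb
    have h1 := independent_ratFun hℓN _ (fun i => haev _) hb
    have hb0 : ∀ i, b i = 0 := by
      have hinj : Function.Injective (aeval jq : ℚ[X] →ₐ[ℚ] LaurentSeries ℚ) :=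
        aeval_injective_of_order_neg (s := jq) (by
          rw [(show Lead jq (-1) 1 from ⟨coeff_jq_neg_one, fun _ h => coeff_jq_of_lt h⟩).order_eq
            one_ne_zero]
          decide)
      refine Fin.lastCases ?_ fun i => ?_
      · exact hinj (h0.trans (map_zero _).symm)
      · exact hinj ((congrFun h1 i).trans (map_zero _).symm)
    apply hφ
    rw [← hbc, hb0, coeff_zero]
  refine ⟨fun i => -(aeval jq (b i.castSucc)) / aeval jq (b (Fin.last n)),
    fun i => div_mem (neg_mem (haev _)) (haev _), ?_⟩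
  apply mul_left_cancel₀ hlast
  rw [Finset.mul_sum, eq_neg_of_add_eq_zero_right hb, ← Finset.sum_neg_distrib]
  refine Finset.sum_congr rfl fun i _ => ?_
  field_simp

end Ratio

end Fermat.Agent.Igusa.Fibre
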