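/-
`j (N τ)` is integral over `ℤ_(ℓ)[j]`: the product over the cosets has coefficients in `ℤ_(ℓ)`.
-/
import Fermat.Agent.Igusa.FibreSpan

set_option autoImplicit false
set_option linter.style.haveILetI false

noncomputable section

open Polynomial ModularCurve IntermediateField

namespace Fermat.Agent.Igusa.Fibre

variable {ℓ : ℕ} [Fact ℓ.Prime] {N : ℕ} [NeZero N]

omit [NeZero N] in
theorem exists_valuationSubring_natCast (hℓN : ¬ ℓ ∣ N) :
    ∃ A : ValuationSubring ℂ, ((ℓ : A) : A) ∈ IsLocalRing.maximalIdeal A ∧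
      IsUnit (N : A.toSubring) := by
  obtain ⟨A, hA⟩ := exists_valuationSubring (ℓ := ℓ)
  refine ⟨A, hA, ?_⟩
  show IsUnit (N : A)
  rw [← IsLocalRing.notMem_maximalIdeal]
  intro hN
  obtain ⟨u, v, huv⟩ := Int.isCoprime_iff_gcd_eq_one.2
    (show Int.gcd (ℓ : ℤ) (N : ℤ) = 1 from
      ((Fact.out : ℓ.Prime).coprime_iff_not_dvd.2 hℓN))
  have h := congrArg (fun z : ℤ => (z : A)) huv
  push_cast at h
  exact (IsLocalRing.maximalIdeal.isMaximal A).ne_top
    ((Ideal.eq_top_iff_one _).2 (h ▸ add_mem (Ideal.mul_mem_left _ _ hA) (Ideal.mul_mem_left _ _ hN)))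

/-- A rational number in a valuation ring over `ℓ` lies in `ℤ_(ℓ)`. -/
theorem mem_ratLocalizedAt_of_mem {A : ValuationSubring ℂ}
    (hA : ((ℓ : A) : A) ∈ IsLocalRing.maximalIdeal A) {v : ℚ} (hv : (v : ℂ) ∈ A) :
    v ∈ GaloisRep.ratLocalizedAt ℓ := by
  show v.den.Coprime ℓ
  rw [Nat.coprime_comm, (Fact.out : ℓ.Prime).coprime_iff_not_dvd]
  intro hdvd
  obtain ⟨u, w, huw⟩ := Int.isCoprime_iff_gcd_eq_one.2
    (show Int.gcd (ℓ : ℤ) v.num = 1 by
      rw [Int.gcd, Int.natAbs_natCast]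
      exact Nat.Coprime.coprime_dvd_left hdvd v.reduced.symm)
  obtain ⟨d, hd⟩ := hdvd
  have hnum : (v.num : A) = (ℓ : A) * ((d : A) * ⟨(v : ℂ), hv⟩) := by
    apply Subtype.ext
    have h := Rat.mul_den_eq_num v
    have h' : (v : ℂ) * (v.den : ℂ) = (v.num : ℂ) := by exact_mod_cast h
    rw [hd] at h'
    push_cast at h' ⊢
    show (v.num : ℂ) = (ℓ : ℂ) * ((d : ℂ) * (v : ℂ))
    rw [← h']; ring
  have h := congrArg (fun z : ℤ => (z : A)) huw
  push_cast at h
  exact (IsLocalRing.maximalIdeal.isMaximal A).ne_top ((Ideal.eq_top_iff_one _).2 (h ▸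
    add_mem (Ideal.mul_mem_left _ _ hA) (Ideal.mul_mem_left _ _ (hnum ▸ Ideal.mul_mem_right _ _ hA))))

/-- `j (N τ)` is a root of a monic polynomial with coefficients in `ℤ_(ℓ)[j]`. -/
theorem exists_monic_relation (hℓN : ¬ ℓ ∣ N) :
    ∃ Φ : (↥(GaloisRep.ratLocalizedAt ℓ))[X][X],
      Φ.Monic ∧ Φ.eval₂ (evQ ℓ jq) (qExpand ℚ N jq) = 0 := by
  classical
  obtain ⟨A, hA, hN⟩ := exists_valuationSubring_natCast (N := N) hℓN
  set V := A.toSubring
  have hroot : ∀ d, d ∣ N → ∃ z : Vˣ, Units.map V.subtype z = ModFun.zetaU d := fun d hd =>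
    exists_unit_zetaU A (ne_zero_of_dvd_ne_zero (NeZero.ne N) hd)
  set n := Fintype.card (Gamma0.Coset N) with hn
  -- the monic relation over `V`
  let x : Gamma0.Coset N → LaurentSeries V := fun q => jX hroot (dvd_refl N) q
  have hlifts : (∏ q, (X - C (x q))) ∈ lifts (aeval (R := V) (jt N V)).toRingHom :=
    prod_X_sub_C_mem_lifts _ x x
      (pairPoly_mem_range N V (fun q => jG hroot (dvd_refl N) q) (fun q => jG hroot (dvd_refl N) q)
        fun γ => ⟨MulAction.toPerm γ⁻¹,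
          fun q τ => ⟨jV_smul (dvd_refl N) γ q τ, jV_smul (dvd_refl N) γ q τ⟩⟩)
  obtain ⟨Q, hQ, hQd, hQm⟩ :=
    lifts_and_natDegree_eq_and_monic hlifts (monic_prod_of_monic _ _ fun q _ => monic_X_sub_C _)
  rw [natDegree_prod_of_monic _ _ fun q _ => monic_X_sub_C _] at hQd
  simp only [natDegree_X_sub_C, Finset.sum_const, Finset.card_univ, smul_eq_mul, mul_one] at hQd
  have hQ0 : Q.eval₂ (aeval (R := V) (jt N V)).toRingHom (qExpand V N (jqNModC V N)) = 0 := by
    rw [eval₂_eq_eval_map, hQ, eval_prod, ← jX_q₀ hroot (dvd_refl N)]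
    exact Finset.prod_eq_zero (Finset.mem_univ q₀) (by simp [x])
  -- over `ℂ`, in the variable `q`
  let QC : ℂ[X][X] := Q.map (mapRingHom V.subtype)
  have hQC : QC.eval₂ (aeval (R := ℂ) (jqModC ℂ)).toRingHom (jqNModC ℂ N) = 0 := by
    apply qExpand_injective N
    have h := congrArg (coeffMap V.subtype) hQ0
    rw [hom_eval₂, map_zero, coeffMap_qExpand, coeffMap_jqNModC] at h
    rw [hom_eval₂, map_zero, eval₂_map]
    refine Eq.trans ?_ h
    congr 1
    refine RingHom.ext fun p => ?_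
    show qExpand ℂ N (aeval (jqModC ℂ) (p.map V.subtype)) = coeffMap V.subtype (aeval (jt N V) p)
    rw [coeffMap_aeval_jt]
    exact (aeval_algHom_apply (qExpandAlgHomC ℂ N) (jqModC ℂ) _).symm
  have hQCd : QC.natDegree = n := by rw [hQm.natDegree_map, hQd]
  rw [eval₂_eq_sum_range, hQCd, Finset.sum_range_succ, ← Fin.sum_univ_eq_sum_range] at hQC
  have htop : QC.coeff n = 1 := by rw [← hQCd]; exact (hQm.map _).coeff_natDegree
  rw [htop, map_one, one_mul] at hQC
  -- compare with the relation over `ℚ(j)`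
  obtain ⟨c, hc, hcx⟩ := exists_span (N := N) hℓN
    (pow_mem (jqd_mem_full N dvd_rfl) n : qExpand ℚ N jq ^ n ∈ modularFunctionFieldFull N)
  let ι := algebraMap ℚ ℂ
  have hcx' := congrArg (coeffMap ι) hcx
  rw [map_pow, map_sum, coeffMap_qExpand, ← jqModC_rat, coeffMap_jqModC] at hcx'
  choose r q hq hrq using fun i => exists_ratio ℓ (hc i)
  let κ : ↥(GaloisRep.ratLocalizedAt ℓ) →+* ℂ := ι.comp (GaloisRep.ratLocalizedAt ℓ).subtype
  have hev : ∀ p, coeffMap ι (evQ ℓ jq p) = aeval (jqModC ℂ) (p.map κ) := fun p => by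
    rw [evQ_jq_eq, coeffMap_coeffMap, coeffMap_aeval, coeffMap_jqModC]
  have hcC : ∀ i, coeffMap ι (c i) =
      aeval (jqModC ℂ) ((r i).map κ) / aeval (jqModC ℂ) ((q i).map κ) := fun i => by
    rw [hrq i, map_div₀, hev, hev]
  have hmem : ∀ p : ℂ[X], aeval (jqModC ℂ) p ∈ ℂ⟮jqModC ℂ⟯ := fun p =>
    algebra_adjoin_le_adjoin ℂ _ (aeval_mem_adjoin_singleton ℂ _)
  have hind := independent_adjoin (jqModC ℂ) (jqNModC ℂ N)
    (fun b hb => independent_jqNModC hroot hN V.subtype b hb)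
    (fun i : Fin n => aeval (jqModC ℂ) (QC.coeff i) + coeffMap ι (c i))
    (fun i => add_mem (hmem _) (by rw [hcC]; exact div_mem (hmem _) (hmem _))) (by
      have h : jqNModC ℂ N ^ n =
          ∑ i : Fin n, coeffMap ι (c i) * jqNModC ℂ N ^ (i : ℕ) := by
        rw [jqNModC, hcx']
        refine Finset.sum_congr rfl fun i _ => ?_
        rw [map_mul, map_pow, coeffMap_qExpand, coeffMap_jqModC]
      rw [← hQC, h, ← Finset.sum_add_distrib]
      refine Finset.sum_congr rfl fun i _ => ?_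
      rw [add_mul]
      rfl)
  -- the coefficients are rational, hence in `ℤ_(ℓ)`
  have hcoef : ∀ i, QC.coeff i ∈ lifts κ := by
    intro i
    rcases lt_or_ge i n with hi | hi
    swap
    · rcases hi.eq_or_lt with h | h
      · rw [← h, htop]; exact ⟨1, map_one _⟩
      · rw [coeff_eq_zero_of_natDegree_lt (by rw [hQCd]; exact h)]; exact zero_mem _
    have hinj : Function.Injective (aeval (jqModC ℂ) : ℂ[X] →ₐ[ℂ] LaurentSeries ℂ) :=
      aeval_injective_of_order_neg (s := jqModC ℂ) (by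
        rw [(lead_jqModC (R := ℂ)).order_eq one_ne_zero]; decide)
    have hq' : aeval (jqModC ℂ) ((q ⟨i, hi⟩).map κ) ≠ 0 := by
      rw [← hev, _root_.map_ne_zero]; exact hq _
    have h0 : aeval (jqModC ℂ) (QC.coeff i) + coeffMap ι (c ⟨i, hi⟩) = 0 := congrFun hind ⟨i, hi⟩
    rw [hcC, add_eq_zero_iff_eq_neg, ← neg_div, eq_div_iff hq', ← map_mul, ← map_neg] at h0
    have heq := hinj h0
    let qQ := (q ⟨i, hi⟩).map (GaloisRep.ratLocalizedAt ℓ).subtype
    let rQ := (r ⟨i, hi⟩).map (GaloisRep.ratLocalizedAt ℓ).subtype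
    have hqm : qQ.map ι = (q ⟨i, hi⟩).map κ := Polynomial.map_map _ _ _
    have hrm : rQ.map ι = (r ⟨i, hi⟩).map κ := Polynomial.map_map _ _ _
    obtain ⟨w, hw⟩ : qQ ∣ rQ := by
      rw [← map_dvd_map' ι, hqm, hrm]
      exact ⟨-QC.coeff i, by rw [mul_neg, mul_comm, heq, neg_neg]⟩
    have hP : QC.coeff i = (-w).map ι := by
      have hne : (q ⟨i, hi⟩).map κ ≠ 0 := fun h => hq' (by rw [h, map_zero])
      apply mul_right_cancel₀ hne
      rw [heq, ← hrm, hw, Polynomial.map_mul, hqm, Polynomial.map_neg]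
      ring
    refine (lifts_iff_coeff_lifts _).2 fun l => ?_
    have hl : ((QC.coeff i).coeff l) ∈ A := by
      show ((Q.map (mapRingHom V.subtype)).coeff i).coeff l ∈ A
      rw [coeff_map, coe_mapRingHom, coeff_map]
      exact ((Q.coeff i).coeff l).2
    rw [hP, coeff_map] at hl ⊢
    exact ⟨⟨_, mem_ratLocalizedAt_of_mem hA hl⟩, rfl⟩
  obtain ⟨Φ, hΦ, -, hΦm⟩ := lifts_and_natDegree_eq_and_monic
    (show QC ∈ lifts (mapRingHom κ) from (lifts_iff_coeff_lifts _).2 fun i => by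
      obtain ⟨p, hp⟩ := hcoef i
      exact ⟨p, hp⟩) (hQm.map _)
  refine ⟨Φ, hΦm, ?_⟩
  apply (coeffMap ι).injective
  have hcomp : (coeffMap ι).comp (evQ ℓ jq) =
      (aeval (R := ℂ) (jqModC ℂ)).toRingHom.comp (mapRingHom κ) := RingHom.ext hev
  rw [hom_eval₂, map_zero, hcomp, coeffMap_qExpand, ← jqModC_rat, coeffMap_jqModC, ← eval₂_map, hΦ, eval₂_eq_sum_range, hQCd, Finset.sum_range_succ,
    ← Fin.sum_univ_eq_sum_range, htop, map_one, one_mul]
  exact hQC

end Fermat.Agent.Igusa.Fibre
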