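/-
Reduction of an integral closure modulo a prime element: a criterion in terms of
linear independence of the reductions of a set of integral generators.
-/
import Mathlib.RingTheory.IntegralClosure.IntegrallyClosed
import Mathlib.RingTheory.Polynomial.ScaleRoots
import Mathlib.FieldTheory.Minpoly.IsIntegrallyClosed
import Mathlib.RingTheory.Localization.FractionRing
import Mathlib.Algebra.Polynomial.Lifts
import Mathlib.RingTheory.UniqueFactorizationDomain.Basic

set_option autoImplicit false

open Polynomial

namespace Fermat.Agent.Igusa.Fibre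

section Minpoly

variable {K L : Type*} [Field K] [Field L] [Algebra K L]

theorem minpoly_algebraMap_mul {w : L} (hw : IsIntegral K w) {c : K} (hc : c ≠ 0) :
    minpoly K (algebraMap K L c * w) = (minpoly K w).scaleRoots c := by
  refine (minpoly.unique K _ ((monic_scaleRoots_iff c).2 (minpoly.monic hw)) ?_ ?_).symm
  · exact scaleRoots_aeval_eq_zero (minpoly.aeval K w)
  · intro q hq hq0
    rw [degree_scaleRoots]
    have h : aeval (algebraMap K L c⁻¹ * (algebraMap K L c * w)) (q.scaleRoots c⁻¹) = 0 :=
      scaleRoots_aeval_eq_zero hq0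
    have hcw : algebraMap K L c⁻¹ * (algebraMap K L c * w) = w := by
      rw [← mul_assoc, ← map_mul, inv_mul_cancel₀ hc, map_one, one_mul]
    rw [hcw] at h
    have := minpoly.min K w ((monic_scaleRoots_iff c⁻¹).2 hq) h
    rwa [degree_scaleRoots] at this

end Minpoly

section Reduction

variable {R F : Type*} [CommRing R] [IsDomain R] [IsIntegrallyClosed R] [Field F] [Algebra R F]

/-- An element is integral as soon as its multiples by two elements without common factor are. -/
theorem isIntegral_of_prime_mul (hinj : Function.Injective (algebraMap R F)) {p B : R}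
    (hp : Prime p) (hB : ¬ p ∣ B) {w : F} (h1 : IsIntegral R (algebraMap R F p * w))
    (h2 : IsIntegral R (algebraMap R F B * w)) : IsIntegral R w := by
  have : FaithfulSMul R F := (faithfulSMul_iff_algebraMap_injective R F).2 hinj
  let K := FractionRing R
  letI : Algebra K F := FractionRing.liftAlgebra R F
  have hB0 : B ≠ 0 := fun h => hB (h ▸ dvd_zero p)
  have hpK : algebraMap R K p ≠ 0 := by simpa using hp.ne_zero
  have hBK : algebraMap R K B ≠ 0 := by simpa using hB0
  have hw : IsIntegral K w := by
    have := (h1.tower_top (A := K)).smul (algebraMap R K p)⁻¹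
    rwa [Algebra.smul_def, IsScalarTower.algebraMap_apply R K F p, ← mul_assoc, ← map_mul,
      inv_mul_cancel₀ hpK, map_one, one_mul] at this
  have key : ∀ b : R, algebraMap R K b ≠ 0 → IsIntegral R (algebraMap R F b * w) → ∀ i,
      ∃ u : R, algebraMap R K u =
        (minpoly K w).coeff i * algebraMap R K b ^ ((minpoly K w).natDegree - i) := by
    intro b hb hint i
    refine ⟨(minpoly R (algebraMap R F b * w)).coeff i, ?_⟩
    rw [← coeff_scaleRoots, ← minpoly_algebraMap_mul hw hb,
      ← IsScalarTower.algebraMap_apply, minpoly.isIntegrallyClosed_eq_field_fractions' K hint,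
      coeff_map]
  have hlift : minpoly K w ∈ lifts (algebraMap R K) := by
    refine (lifts_iff_coeff_lifts _).2 fun i => ?_
    obtain ⟨u, hu⟩ := key p hpK h1 i
    obtain ⟨v, hv⟩ := key B hBK h2 i
    set m := (minpoly K w).natDegree - i
    have huv : u * B ^ m = v * p ^ m := by
      apply IsFractionRing.injective R K
      rw [map_mul, map_mul, hu, hv, map_pow, map_pow]
      ring
    have hdvd : p ^ m ∣ u :=
      hp.pow_dvd_of_dvd_mul_right m (fun h => hB (hp.dvd_of_dvd_pow h)) ⟨v, by rw [huv]; ring⟩
    obtain ⟨u', rfl⟩ := hdvd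
    refine ⟨u', mul_right_cancel₀ (pow_ne_zero m hpK) ?_⟩
    rw [← hu, map_mul, map_pow]
    ring
  obtain ⟨q, hq, -, hqm⟩ := lifts_and_natDegree_eq_and_monic hlift (minpoly.monic hw)
  refine ⟨q, hqm, ?_⟩
  rw [← aeval_def, ← aeval_map_algebraMap K w q, hq]
  exact minpoly.aeval K w

variable [WfDvdMonoid R] {O E Ω : Type*} [CommRing O] [Field E] [Field Ω] {n : ℕ}

omit [IsIntegrallyClosed R] in
/-- Clear the powers of `p` common to the denominator and all the coefficients. -/
theorem exists_normalised (hinj : Function.Injective (algebraMap R F)) {p : R} (hp : Prime p)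
    {y : Fin n → F} {z : F} {B : R} (hB : B ≠ 0) {a : Fin n → R}
    (h : algebraMap R F B * z = ∑ i, algebraMap R F (a i) * y i) :
    ∃ (B' : R) (a' : Fin n → R), algebraMap R F B' * z = ∑ i, algebraMap R F (a' i) * y i ∧
      (¬ p ∣ B' ∨ ∃ i, ¬ p ∣ a' i) := by
  obtain ⟨s, B₀, hB₀, rfl⟩ := WfDvdMonoid.max_power_factor hB hp.irreducible
  clear hB
  induction s generalizing a with
  | zero => exact ⟨B₀, a, by simpa using h, Or.inl hB₀⟩
  | succ s ih =>
    by_cases ha : ∀ i, p ∣ a i
    · choose a' ha' using ha
      refine ih (a := a') ?_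
      have hp0 : algebraMap R F p ≠ 0 := fun h => hp.ne_zero (hinj (by rw [h, map_zero]))
      apply mul_left_cancel₀ hp0
      calc algebraMap R F p * (algebraMap R F (p ^ s * B₀) * z)
          = algebraMap R F (p ^ (s + 1) * B₀) * z := by
            rw [pow_succ', map_mul, map_mul, map_mul]; ring
        _ = ∑ i, algebraMap R F (a i) * y i := h
        _ = algebraMap R F p * ∑ i, algebraMap R F (a' i) * y i := by
            rw [Finset.mul_sum]
            refine Finset.sum_congr rfl fun i _ => ?_
            rw [ha' i, map_mul, mul_assoc]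
    · push Not at ha
      exact ⟨_, a, h, Or.inr ha⟩

/-- If integral elements `y i` span `F` and have reductions in `E` independent over `R / p`,
then the integral closure of `R` in `F` has a reduction map to `E` with kernel generated by `p`. -/
theorem exists_reduction (hinj : Function.Injective (algebraMap R F)) {p : R} (hp : Prime p)
    (e : O →+* Ω) (he : Function.Injective e) (red : O →+* E) (ι : R →+* O) (φ : F →+* Ω)
    (hι : ∀ r, e (ι r) = φ (algebraMap R F r)) (hp0 : red (ι p) = 0)
    (hred : ∀ r, red (ι r) = 0 → p ∣ r)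
    (y : Fin n → F) (hy : ∀ i, IsIntegral R (y i)) (y₀ : Fin n → O)
    (hy₀ : ∀ i, e (y₀ i) = φ (y i))
    (hind : ∀ a : Fin n → R, ∑ i, red (ι (a i)) * red (y₀ i) = 0 → ∀ i, p ∣ a i)
    (hspan : ∀ z : F, ∃ (B : R) (a : Fin n → R), B ≠ 0 ∧
      algebraMap R F B * z = ∑ i, algebraMap R F (a i) * y i) :
    ∃ ρ : ↥(integralClosure R F) →+* E,
      (∀ z, ρ z = 0 → ∃ w, z = algebraMap R ↥(integralClosure R F) p * w) ∧
      ∀ (z : ↥(integralClosure R F)) (A B : O), red B ≠ 0 → φ z * e B = e A →
        ρ z = red A / red B := by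
  -- the main claim: a denominator prime to `p`
  have main : ∀ z : ↥(integralClosure R F), ∃ (B : R) (a : Fin n → R), ¬ p ∣ B ∧
      algebraMap R F B * z = ∑ i, algebraMap R F (a i) * y i := by
    intro z
    obtain ⟨B₁, a₁, hB₁, h₁⟩ := hspan z
    obtain ⟨B, a, h, hcase⟩ := exists_normalised hinj hp hB₁ h₁
    refine ⟨B, a, ?_, h⟩
    rcases hcase with hB | ⟨i, hi⟩
    · exact hB
    intro hpB
    refine hi (hind a ?_ i)
    set A := ∑ i, ι (a i) * y₀ i with hA
    suffices red A = 0 by simpa [hA, map_sum] using this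
    have heA : e A = φ (algebraMap R F B) * φ z := by
      rw [← map_mul, h, hA, map_sum, map_sum]
      simp [hι, hy₀]
    obtain ⟨q, hqm, hq⟩ := z.2
    have hroot : ((q.map ι).scaleRoots (ι B)).eval₂ e (e A) = 0 := by
      rw [heA, ← hι]
      refine scaleRoots_eval₂_eq_zero e ?_
      rw [eval₂_map, show e.comp ι = φ.comp (algebraMap R F) from RingHom.ext hι, ← hom_eval₂,
        hq, map_zero]
    rw [eval₂_hom] at hroot
    have hroot' : ((q.map ι).scaleRoots (ι B)).eval A = 0 := he (by rw [hroot, map_zero])
    have hredB : red (ι B) = 0 := by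
      obtain ⟨c, rfl⟩ := hpB
      rw [map_mul, map_mul, hp0, zero_mul]
    have := congrArg red hroot'
    rw [map_zero, ← eval₂_hom, ← eval_map] at this
    rw [map_scaleRoots _ _ _ (by rw [(hqm.map ι).leadingCoeff, map_one]; exact one_ne_zero),
      hredB, scaleRoots_zero, ((hqm.map ι).map red).leadingCoeff, one_smul, eval_pow,
      eval_X] at this
    exact eq_zero_of_pow_eq_zero this
  -- a well defined value of the reduction
  have uniq : ∀ (z : F) (A B A' B' : O), red B ≠ 0 → red B' ≠ 0 → φ z * e B = e A →
      φ z * e B' = e A' → red A / red B = red A' / red B' := by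
    intro z A B A' B' hB hB' h h'
    have : A * B' = A' * B := he (by rw [map_mul, map_mul, ← h, ← h']; ring)
    rw [div_eq_div_iff hB hB', ← map_mul, this, map_mul]
  have exi : ∀ z : ↥(integralClosure R F), ∃ (r : E) (A B : O),
      red B ≠ 0 ∧ φ z * e B = e A ∧ r = red A / red B := by
    intro z
    obtain ⟨B, a, hB, h⟩ := main z
    refine ⟨_, ∑ i, ι (a i) * y₀ i, ι B, fun h0 => hB (hred B h0), ?_, rfl⟩
    rw [hι, ← map_mul, mul_comm, h, map_sum, map_sum]
    simp [hι, hy₀]
  choose r A B hB hAB hr using exi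
  have val : ∀ z A' B', red B' ≠ 0 → φ (z : ↥(integralClosure R F)) * e B' = e A' →
      r z = red A' / red B' := fun z A' B' hB' h' => by
    rw [hr z]; exact uniq _ _ _ _ _ (hB z) hB' (hAB z) h'
  let ρ : ↥(integralClosure R F) →+* E :=
    { toFun := r
      map_one' := by rw [val 1 1 1 (by simp) (by simp)]; simp
      map_zero' := by rw [val 0 0 1 (by simp) (by simp)]; simp
      map_mul' := fun z w => by
        rw [val (z * w) (A z * A w) (B z * B w) (by simp [hB]) ?_, hr z, hr w, map_mul, map_mul,
          div_mul_div_comm]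
        rw [Subalgebra.coe_mul, map_mul, map_mul, map_mul, ← hAB z, ← hAB w]
        ring
      map_add' := fun z w => by
        rw [val (z + w) (A z * B w + A w * B z) (B z * B w) (by simp [hB]) ?_, hr z, hr w,
          map_add, map_mul, map_mul, map_mul, div_add_div _ _ (hB z) (hB w)]
        · ring
        rw [Subalgebra.coe_add, map_add, map_add, map_mul, map_mul, map_mul, ← hAB z, ← hAB w]
        ring }
  refine ⟨ρ, ?_, fun z A B hB h => val z A B hB h⟩
  intro z hz
  obtain ⟨B₀, a, hB₀, h⟩ := main z
  have hA : red (∑ i, ι (a i) * y₀ i) = 0 := by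
    have hv := val z (∑ i, ι (a i) * y₀ i) (ι B₀) (fun h0 => hB₀ (hred _ h0))
      (by rw [hι, ← map_mul, mul_comm, h, map_sum, map_sum]; simp [hι, hy₀])
    rw [show r z = 0 from hz] at hv
    exact (div_eq_zero_iff.1 hv.symm).resolve_right fun h0 => hB₀ (hred _ h0)
  have hpa : ∀ i, p ∣ a i := hind a (by simpa [map_sum] using hA)
  choose a' ha' using hpa
  have hpF : algebraMap R F p ≠ 0 := fun h => hp.ne_zero (hinj (by rw [h, map_zero]))
  have hBw : algebraMap R F B₀ * ((algebraMap R F p)⁻¹ * z) = ∑ i, algebraMap R F (a' i) * y i := by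
    rw [mul_left_comm, h, Finset.mul_sum]
    refine Finset.sum_congr rfl fun i _ => ?_
    rw [ha' i, map_mul]
    field_simp
  refine ⟨⟨(algebraMap R F p)⁻¹ * z, ?_⟩, Subtype.ext ?_⟩
  · refine isIntegral_of_prime_mul hinj hp hB₀ ?_ ?_
    · rw [← mul_assoc, mul_inv_cancel₀ hpF, one_mul]; exact z.2
    · rw [hBw]
      exact IsIntegral.sum _ fun i _ => isIntegral_algebraMap.mul (hy i)
  · rw [Subalgebra.coe_mul, Subalgebra.coe_algebraMap, ← mul_assoc, mul_inv_cancel₀ hpF, one_mul]

end Reduction

end Fermat.Agent.Igusa.Fibre
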