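/-
The reduction maps of the two chart algebras of the Igusa scheme.
-/
import Fermat.Agent.Igusa.FibreSpan
import Fermat.Agent.Igusa.FibreSaturation
import Fermat.Agent.Igusa.FibreIntegral
import Fermat.Prelude.Def_ModularCurve_IgusaScheme

set_option autoImplicit false
set_option linter.style.haveILetI false

noncomputable section

open Polynomial ModularCurve ModularCurve.IgusaScheme IntermediateField

namespace Fermat.Agent.Igusa.Fibre

variable {ℓ : ℕ} [Fact ℓ.Prime]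

set_option quotPrecheck false in
local notation "ℤℓ" => ↥(GaloisRep.ratLocalizedAt ℓ)

theorem coeffMap_injective {R S : Type*} [CommRing R] [CommRing S] {f : R →+* S}
    (hf : Function.Injective f) : Function.Injective (coeffMap f) := fun a b hab => by
  ext k
  exact hf (by simpa using congrArg (fun s : LaurentSeries S => s.coeff k) hab)

theorem aeval_injective_of_order_ne_zero {k : Type*} [Field k] {s : LaurentSeries k}
    (hs : s.order ≠ 0) : Function.Injective (aeval s : k[X] →ₐ[k] LaurentSeries k) := by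
  rcases lt_or_gt_of_ne hs with h | h
  · exact aeval_injective_of_order_neg h
  · have hs0 : s ≠ 0 := by rintro rfl; simp at h
    have hinv : s⁻¹.order < 0 := by
      have := HahnSeries.order_mul hs0 (inv_ne_zero hs0)
      rw [mul_inv_cancel₀ hs0, HahnSeries.order_one] at this
      omega
    have halg : ¬ IsAlgebraic k s := fun ha =>
      (transcendental_iff_injective.2 (aeval_injective_of_order_neg hinv)) ha.inv
    exact transcendental_iff_injective.1 halg

/-- The expansion of `1 / j`. -/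
def jInvS (R : Type*) [CommRing R] : LaurentSeries R :=
  HahnSeries.single (1 : ℤ) 1 *
    HahnSeries.ofPowerSeries ℤ R ((PowerSeries.invOfUnit jNum 1).map (Int.castRingHom R))

theorem jqModC_mul_jInvS (R : Type*) [CommRing R] : jqModC R * jInvS R = 1 := by
  rw [jqModC, jInvS, mul_mul_mul_comm, HahnSeries.single_mul_single, ← map_mul, ← map_mul,
    PowerSeries.mul_invOfUnit _ _ (by rw [constantCoeff_jNum]; rfl)]
  simp

theorem coeffMap_jInvS {R S : Type*} [CommRing R] [CommRing S] (f : R →+* S) :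
    coeffMap f (jInvS R) = jInvS S := by
  rw [jInvS, map_mul, coeffMap_single, map_one, coeffMap_ofPowerSeries,
    ← RingHom.comp_apply (PowerSeries.map f), ← PowerSeries.map_comp,
    RingHom.ext_int (f.comp (Int.castRingHom R)) (Int.castRingHom S)]
  rfl

theorem jInvS_eq_inv (k : Type*) [Field k] : jInvS k = (jqModC k)⁻¹ :=
  (inv_eq_of_mul_eq_one_right (jqModC_mul_jInvS k)).symm

theorem order_jqModC (k : Type*) [Field k] : (jqModC k).order = -1 :=
  (lead_jqModC (R := k)).order_eq one_ne_zero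

theorem order_jInvS (k : Type*) [Field k] : (jInvS k).order = 1 := by
  have hj : jqModC k ≠ 0 := (lead_jqModC (R := k)).ne_zero one_ne_zero
  have h := HahnSeries.order_mul hj (inv_ne_zero hj)
  rw [mul_inv_cancel₀ hj, HahnSeries.order_one, order_jqModC] at h
  rw [jInvS_eq_inv]
  omega

variable {N : ℕ} [NeZero N] (hℓN : ¬ ℓ ∣ N)

set_option quotPrecheck false in
local notation "F₀" => ↥(modularFunctionFieldFull N)

/-- `j (N τ)` in the modular function field. -/
def jNFull : F₀ := ⟨qExpand ℚ N jq, jqd_mem_full N dvd_rfl⟩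

include hℓN in
/-- The reduction of the normalisation of `ℤ_(ℓ)[s]`, for `s` generating `ℚ(j)`. -/
theorem exists_reduction_chart (s : F₀) (s₀ : LaurentSeries ℤℓ)
    (hs : coeffMap (GaloisRep.ratLocalizedAt ℓ).subtype s₀ = (s : LaurentSeries ℚ)) (D : ℕ)
    (hsj : jq ∈ ℚ⟮(s : LaurentSeries ℚ)⟯)
    (hs0 : (s : LaurentSeries ℚ).order ≠ 0) (hsb : (coeffMap (redZ ℓ) s₀).order ≠ 0)
    (hsbj : coeffMap (redZ ℓ) s₀ ∈ (ZMod ℓ)⟮jqModC (ZMod ℓ)⟯)
    (hw : IsIntegral (Algebra.adjoin ℤℓ ({s} : Set F₀)) (s ^ D * jNFull)) :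
    ∃ ρ : ↥(chartAlg N ℓ ({s} : Set F₀)) →+* LaurentSeries (ZMod ℓ),
      (∀ z, ρ z = 0 → ∃ w, z = (ℓ : ↥(chartAlg N ℓ ({s} : Set F₀))) * w) ∧
      ρ ⟨s, subset_chartAlg N ℓ _ rfl⟩ = coeffMap (redZ ℓ) s₀ := by
  classical
  haveI := FlatModel.ratLocalizedAt_isPrincipal ℓ
  letI alg : Algebra ℤℓ[X] F₀ := (aeval s).toRingHom.toAlgebra
  let sub := (GaloisRep.ratLocalizedAt ℓ).subtype
  let red : LaurentSeries ℤℓ →+* LaurentSeries (ZMod ℓ) := coeffMap (redZ ℓ)
  let ι : ℤℓ[X] →+* LaurentSeries ℤℓ := (aeval s₀).toRingHom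
  let φ : F₀ →+* LaurentSeries ℚ := SubsemiringClass.subtype (modularFunctionFieldFull N)
  let sb := coeffMap (redZ ℓ) s₀
  have hcomm : ∀ r : ℤℓ[X], coeffMap sub (ι r) = φ (algebraMap ℤℓ[X] F₀ r) ∧
      φ (algebraMap ℤℓ[X] F₀ r) = evQ ℓ (s : LaurentSeries ℚ) r := by
    intro r
    have h1 : φ (algebraMap ℤℓ[X] F₀ r) = evQ ℓ (s : LaurentSeries ℚ) r := by
      show φ (aeval s r) = _
      have : φ.comp (aeval s).toRingHom = evQ ℓ (s : LaurentSeries ℚ) := by
        refine Polynomial.ringHom_ext (fun c => ?_) ?_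
        · simp [φ, evQ]
          rfl
        · simp [φ, evQ]
      exact congrArg (fun f : ℤℓ[X] →+* LaurentSeries ℚ => f r) this
    refine ⟨?_, h1⟩
    rw [h1]
    show coeffMap sub (aeval s₀ r) = _
    rw [coeffMap_aeval, hs]
    rfl
  have hredι : ∀ r : ℤℓ[X], red (ι r) = aeval sb (r.map (redZ ℓ)) := fun r =>
    coeffMap_aeval (redZ ℓ) s₀ r
  have hsbinj := aeval_injective_of_order_ne_zero hsb
  have hsQinj := aeval_injective_of_order_ne_zero hs0
  have hinj : Function.Injective (algebraMap ℤℓ[X] F₀) := fun u v huv =>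
    Polynomial.map_injective sub Subtype.val_injective <| hsQinj <| by
      have := congrArg φ huv
      rwa [(hcomm u).2, (hcomm v).2] at this
  let w₀ : LaurentSeries ℤℓ := s₀ ^ D * jqNModC ℤℓ N
  have hw₀ : coeffMap sub w₀ = φ (s ^ D * jNFull) := by
    rw [map_mul, map_pow, hs, coeffMap_jqNModC, jqNModC_rat, map_mul, map_pow]
    rfl
  let n := Fintype.card (Gamma0.Coset N)
  have hint : IsIntegral ℤℓ[X] (s ^ D * jNFull) := by
    obtain ⟨p, hpm, hp⟩ := hw
    have hsurj : Function.Surjective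
        (((aeval s).codRestrict (Algebra.adjoin ℤℓ ({s} : Set F₀)) fun r =>
          aeval_mem_adjoin_singleton ℤℓ s).toRingHom) := by
      rintro ⟨z, hz⟩
      rw [Algebra.adjoin_singleton_eq_range_aeval] at hz
      obtain ⟨r, hr⟩ := hz
      exact ⟨r, Subtype.ext hr⟩
    obtain ⟨q, hqp, -, hqm⟩ := lifts_and_natDegree_eq_and_monic
      (show p ∈ lifts _ from Polynomial.map_surjective _ hsurj p) hpm
    refine ⟨q, hqm, ?_⟩
    rw [← hqp, eval₂_map] at hp
    exact hp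
  have hsb0 : sb ≠ 0 := fun h => hsb (by show sb.order = 0; rw [h, HahnSeries.order_zero])
  refine Exists.elim (exists_reduction (R := ℤℓ[X]) (F := F₀) hinj (prime_C_natCast ℓ)
    (coeffMap sub) (coeffMap_injective Subtype.val_injective) red ι φ (fun r => (hcomm r).1)
    (by rw [hredι, map_C, map_natCast, ZMod.natCast_self, map_zero, map_zero])
    (fun r hr => (map_redZ_eq_zero_iff ℓ r).1 (hsbinj (by rw [← hredι, hr, map_zero])))
    (fun i : Fin n => (s ^ D * jNFull) ^ (i : ℕ)) (fun i => hint.pow _)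
    (fun i : Fin n => w₀ ^ (i : ℕ)) (fun i => by rw [map_pow, map_pow, hw₀]) ?_ ?_) ?_
  · -- independence of the reductions
    intro a ha
    have hmemj : ∀ i : Fin n,
        aeval sb ((a i).map (redZ ℓ)) * sb ^ (D * (i : ℕ)) ∈ (ZMod ℓ)⟮jqModC (ZMod ℓ)⟯ := fun i =>
      mul_mem ((Algebra.adjoin_le (S := ((ZMod ℓ)⟮jqModC (ZMod ℓ)⟯).toSubalgebra)
        (Set.singleton_subset_iff.2 hsbj)) (aeval_mem_adjoin_singleton _ sb))
        (pow_mem hsbj _)
    have hc := independent_adjoin (jqModC (ZMod ℓ)) (jqNModC (ZMod ℓ) N)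
      (fun b hb => independent_zmod hℓN b hb) _ hmemj (by
        rw [← ha]
        refine Finset.sum_congr rfl fun i _ => ?_
        rw [hredι, map_pow]
        show _ = _ * (coeffMap (redZ ℓ) w₀) ^ (i : ℕ)
        rw [map_mul, map_pow, coeffMap_jqNModC, mul_pow, ← pow_mul, mul_assoc])
    intro i
    have hi := congrFun hc i
    rw [Pi.zero_apply, mul_eq_zero] at hi
    exact (map_redZ_eq_zero_iff ℓ _).1
      (hsbinj ((hi.resolve_right (pow_ne_zero _ hsb0)).trans (map_zero _).symm))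
  · -- spanning
    intro z
    obtain ⟨c, hc, hz⟩ := exists_span hℓN z.2
    have hsQ0 : (s : LaurentSeries ℚ) ≠ 0 := fun h => hs0 (by rw [h, HahnSeries.order_zero])
    have hle : ℚ⟮jq⟯ ≤ ℚ⟮(s : LaurentSeries ℚ)⟯ := by
      rw [adjoin_simple_le_iff]; exact hsj
    have hratio : ∀ i : Fin n, ∃ r q : ℤℓ[X], evQ ℓ (s : LaurentSeries ℚ) q ≠ 0 ∧
        c i / (s : LaurentSeries ℚ) ^ (D * (i : ℕ)) =
          evQ ℓ (s : LaurentSeries ℚ) r / evQ ℓ (s : LaurentSeries ℚ) q := fun i =>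
      exists_ratio ℓ (div_mem (hle (hc i)) (pow_mem (mem_adjoin_simple_self ℚ _) _))
    choose r q hq hrq using hratio
    refine ⟨∏ i, q i, fun i => r i * ∏ j ∈ Finset.univ.erase i, q j,
      Finset.prod_ne_zero_iff.2 fun i _ h => hq i (by rw [h, map_zero]), φ.injective ?_⟩
    rw [map_mul, (hcomm _).2, map_sum, show φ z = (z : LaurentSeries ℚ) from rfl, hz, Finset.mul_sum]
    refine Finset.sum_congr rfl fun i _ => ?_
    have hφw : φ (s ^ D * jNFull) = (s : LaurentSeries ℚ) ^ D * qExpand ℚ N jq := by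
      rw [map_mul, map_pow]; rfl
    rw [map_mul φ, (hcomm _).2, map_pow φ, hφw, mul_pow, ← pow_mul, map_mul, map_prod, map_prod,
      ← Finset.mul_prod_erase _ (fun j => evQ ℓ (s : LaurentSeries ℚ) (q j)) (Finset.mem_univ i)]
    have h := hrq i
    rw [div_eq_div_iff (pow_ne_zero _ hsQ0) (hq i)] at h
    linear_combination (∏ j ∈ Finset.univ.erase i, evQ ℓ (s : LaurentSeries ℚ) (q j)) *
      qExpand ℚ N jq ^ (i : ℕ) * h
  · -- transport to the chart algebra
    rintro ρ ⟨hker, hval⟩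
    have hmem : ∀ z : F₀, z ∈ chartAlg N ℓ ({s} : Set F₀) → z ∈ integralClosure ℤℓ[X] F₀ := by
      intro z hz
      obtain ⟨p, hpm, hp⟩ := (mem_chartAlg_iff N ℓ).1 hz
      have hsurj : Function.Surjective
          (((aeval s).codRestrict (Algebra.adjoin ℤℓ ({s} : Set F₀)) fun r =>
            aeval_mem_adjoin_singleton ℤℓ s).toRingHom) := by
        rintro ⟨z, hz⟩
        rw [Algebra.adjoin_singleton_eq_range_aeval] at hz
        obtain ⟨r, hr⟩ := hz
        exact ⟨r, Subtype.ext hr⟩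
      obtain ⟨q, hqp, -, hqm⟩ := lifts_and_natDegree_eq_and_monic
        (show p ∈ lifts _ from Polynomial.map_surjective _ hsurj p) hpm
      refine ⟨q, hqm, ?_⟩
      rw [← hqp, eval₂_map] at hp
      exact hp
    have hmem' : ∀ z : F₀, z ∈ integralClosure ℤℓ[X] F₀ → z ∈ chartAlg N ℓ ({s} : Set F₀) := by
      intro z hz
      obtain ⟨q, hqm, hq⟩ := hz
      rw [mem_chartAlg_iff]
      refine ⟨q.map ((aeval s).codRestrict (Algebra.adjoin ℤℓ ({s} : Set F₀)) fun r =>
          aeval_mem_adjoin_singleton ℤℓ s).toRingHom, hqm.map _, ?_⟩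
      rw [eval₂_map]
      exact hq
    let i₁ : ↥(chartAlg N ℓ ({s} : Set F₀)) →+* ↥(integralClosure ℤℓ[X] F₀) :=
      { toFun := fun z => ⟨z.1, hmem _ z.2⟩
        map_one' := rfl
        map_mul' := fun _ _ => rfl
        map_zero' := rfl
        map_add' := fun _ _ => rfl }
    refine ⟨ρ.comp i₁, fun z hz => ?_, ?_⟩
    · obtain ⟨w, hw'⟩ := hker (i₁ z) hz
      refine ⟨⟨w.1, hmem' _ w.2⟩, Subtype.ext ?_⟩
      have hzw := congrArg Subtype.val hw'
      rw [show (z : F₀) = (i₁ z : F₀) from rfl, hzw]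
      show algebraMap ℤℓ[X] F₀ (C (ℓ : ℤℓ)) * (w : F₀) = _
      rw [show algebraMap ℤℓ[X] F₀ (C (ℓ : ℤℓ)) = aeval s (C (ℓ : ℤℓ)) from rfl, aeval_C,
        map_natCast]
      simp
    · show ρ (i₁ _) = _
      rw [hval (i₁ _) s₀ 1 (by simp) (by rw [map_one, mul_one]; exact hs.symm), map_one, div_one]

theorem eval₂_mul_inv_pow_mem {R K : Type*} [CommRing R] [Field K] [Algebra R K] {x : K}
    (hx : x ≠ 0) (p : R[X]) {m : ℕ} (h : p.natDegree ≤ m) :
    aeval x p * x⁻¹ ^ m ∈ Algebra.adjoin R ({x⁻¹} : Set K) := by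
  rw [aeval_eq_sum_range, Finset.sum_mul]
  refine Subalgebra.sum_mem _ fun i hi => ?_
  obtain ⟨d, rfl⟩ := Nat.exists_eq_add_of_le ((Nat.lt_succ_iff.1 (Finset.mem_range.1 hi)).trans h)
  rw [Algebra.smul_def, pow_add, mul_assoc, ← mul_assoc (x ^ i), ← mul_pow, mul_inv_cancel₀ hx,
    one_pow, one_mul]
  exact Subalgebra.mul_mem _ (Subalgebra.algebraMap_mem _ _)
    (Subalgebra.pow_mem _ (Algebra.subset_adjoin (Set.mem_singleton _)) _)

variable (N) in
include hℓN in
theorem exists_monic_relation_full :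
    ∃ Φ : ℤℓ[X][X], Φ.Monic ∧ Φ.eval₂ (aeval (R := ℤℓ) (jFull N)).toRingHom jNFull = 0 := by
  obtain ⟨Φ, hΦ, h⟩ := exists_monic_relation (N := N) hℓN
  refine ⟨Φ, hΦ, Subtype.ext ?_⟩
  let φ : F₀ →+* LaurentSeries ℚ := SubsemiringClass.subtype (modularFunctionFieldFull N)
  show φ (Φ.eval₂ _ jNFull) = φ 0
  rw [hom_eval₂, map_zero, ← h]
  congr 1
  refine Polynomial.ringHom_ext (fun c => ?_) ?_
  · simp [φ, evQ]
    rfl
  · simp [φ, evQ]

variable (ℓ)

include hℓN

/-- The reduction of the chart at finite `j`. -/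
theorem exists_reduction_fin : ∃ ρ : ↥(chartAlgFin N ℓ) →+* LaurentSeries (ZMod ℓ),
    (∀ z, ρ z = 0 → ∃ w, z = (ℓ : ↥(chartAlgFin N ℓ)) * w) ∧ ρ (jChartFin N ℓ) ≠ 0 := by
  have hj : ((jFull N : F₀) : LaurentSeries ℚ) = jqModC ℚ := jqModC_rat.symm
  refine Exists.elim (exists_reduction_chart hℓN (jFull N) (jqModC ℤℓ)
    (by rw [coeffMap_jqModC, hj]) 0
    (by rw [hj, jqModC_rat]; exact mem_adjoin_simple_self ℚ _)
    (by rw [hj, order_jqModC]; decide) (by rw [coeffMap_jqModC, order_jqModC]; decide)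
    (by rw [coeffMap_jqModC]; exact mem_adjoin_simple_self _ _) ?_) ?_
  · obtain ⟨Φ, hΦm, hΦ⟩ := exists_monic_relation_full N hℓN
    rw [pow_zero, one_mul]
    set ev : ℤℓ[X] →+* ↥(Algebra.adjoin ℤℓ ({jFull N} : Set F₀)) :=
      (aeval (⟨jFull N, Algebra.subset_adjoin rfl⟩ : ↥(Algebra.adjoin ℤℓ ({jFull N} : Set F₀)))).toRingHom
    refine ⟨Φ.map ev, hΦm.map ev, ?_⟩
    rw [eval₂_map]
    refine Eq.trans ?_ hΦ
    congr 1
    refine RingHom.ext fun p => ?_
    exact (aeval_algHom_apply (Algebra.adjoin ℤℓ ({jFull N} : Set F₀)).val _ p).symm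
  · rintro ρ ⟨h1, h2⟩
    refine ⟨ρ, h1, ?_⟩
    rw [show jChartFin N ℓ = ⟨jFull N, subset_chartAlg N ℓ _ rfl⟩ from rfl, h2, coeffMap_jqModC]
    exact (lead_jqModC (R := ZMod ℓ)).ne_zero one_ne_zero

/-- The reduction of the chart at infinite `j`. -/
theorem exists_reduction_inf : ∃ ρ : ↥(chartAlgInf N ℓ) →+* LaurentSeries (ZMod ℓ),
    (∀ z, ρ z = 0 → ∃ w, z = (ℓ : ↥(chartAlgInf N ℓ)) * w) ∧ ρ (jInvChartInf N ℓ) ≠ 0 := by
  have hj : (((jFull N)⁻¹ : F₀) : LaurentSeries ℚ) = (jqModC ℚ)⁻¹ := by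
    rw [IntermediateField.coe_inv, coe_jFull, jqModC_rat]
  obtain ⟨Φ, hΦm, hΦ⟩ := exists_monic_relation_full N hℓN
  set D := (Finset.range (Φ.natDegree)).sup fun i => (Φ.coeff i).natDegree
  refine Exists.elim (exists_reduction_chart hℓN (jFull N)⁻¹ (jInvS ℤℓ)
    (by rw [coeffMap_jInvS, jInvS_eq_inv, hj]) D
    (by
      rw [hj, jqModC_rat]
      simpa using inv_mem (mem_adjoin_simple_self ℚ (jq⁻¹ : LaurentSeries ℚ)))
    (by rw [hj, ← jInvS_eq_inv, order_jInvS]; decide)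
    (by rw [coeffMap_jInvS, order_jInvS]; decide)
    (by rw [coeffMap_jInvS, jInvS_eq_inv]; exact inv_mem (mem_adjoin_simple_self _ _)) ?_) ?_
  · set P := (Φ.map ((aeval (R := ℤℓ) (jFull N)).toRingHom)).scaleRoots
      ((jFull N)⁻¹ ^ D) with hP
    have hPm : P.Monic := (monic_scaleRoots_iff _).2 (hΦm.map _)
    have hlift : P ∈ lifts (algebraMap ↥(Algebra.adjoin ℤℓ ({(jFull N)⁻¹} : Set F₀)) F₀) := by
      refine (lifts_iff_coeff_lifts _).2 fun i => ?_
      rw [hP, coeff_scaleRoots, coeff_map, hΦm.natDegree_map, ← pow_mul]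
      suffices h : ((aeval (R := ℤℓ) (jFull N)).toRingHom) (Φ.coeff i) *
          (jFull N)⁻¹ ^ (D * (Φ.natDegree - i)) ∈
            Algebra.adjoin ℤℓ ({(jFull N)⁻¹} : Set F₀) from ⟨⟨_, h⟩, rfl⟩
      rcases lt_or_ge i Φ.natDegree with hi | hi
      · refine eval₂_mul_inv_pow_mem (jFull_ne_zero N) _ ?_
        calc (Φ.coeff i).natDegree ≤ D * 1 := by
              rw [mul_one]
              exact Finset.le_sup (f := fun i => (Φ.coeff i).natDegree) (Finset.mem_range.2 hi)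
          _ ≤ D * (Φ.natDegree - i) := Nat.mul_le_mul_left D (by omega)
      · rw [Nat.sub_eq_zero_of_le hi, mul_zero, pow_zero, mul_one]
        rcases hi.eq_or_lt with h | h
        · rw [← h, hΦm.coeff_natDegree, map_one]; exact one_mem _
        · rw [coeff_eq_zero_of_natDegree_lt h, map_zero]; exact zero_mem _
    obtain ⟨Q, hQ, -, hQm⟩ := lifts_and_natDegree_eq_and_monic hlift hPm
    refine ⟨Q, hQm, ?_⟩
    rw [eval₂_eq_eval_map, hQ, hP, scaleRoots_eval_mul, eval_map, hΦ, mul_zero]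
  · rintro ρ ⟨h1, h2⟩
    refine ⟨ρ, h1, ?_⟩
    rw [show jInvChartInf N ℓ = ⟨(jFull N)⁻¹, subset_chartAlg N ℓ _ rfl⟩ from rfl, h2,
      coeffMap_jInvS, jInvS_eq_inv]
    exact inv_ne_zero ((lead_jqModC (R := ZMod ℓ)).ne_zero one_ne_zero)

end Fermat.Agent.Igusa.Fibre
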