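/-
The special fibres of the chart algebras are integral, hence so is the special fibre of the
Igusa scheme.
-/
import Fermat.Agent.Igusa.FibreCharts
import Mathlib.RingTheory.TensorProduct.Maps
import Mathlib.AlgebraicGeometry.Properties
import Mathlib.AlgebraicGeometry.Pullbacks

set_option autoImplicit false
set_option linter.style.haveILetI false

noncomputable section

open ModularCurve ModularCurve.IgusaScheme AlgebraicGeometry CategoryTheory CategoryTheory.Limits
open scoped TensorProduct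

namespace Fermat.Agent.Igusa.Fibre

section Tensor

variable {ℓ : ℕ} [Fact ℓ.Prime]


variable {C : Type} [CommRing C] [Algebra ↥(GaloisRep.ratLocalizedAt ℓ) C] {K : Type} [Field K] [CharP K ℓ] [Algebra ↥(GaloisRep.ratLocalizedAt ℓ) K]

/-- A reduction to Laurent series over the prime field with kernel `ℓ C` gives an injection of the
special fibre into a field. -/
theorem exists_injective_of_reduction (ρ : C →+* LaurentSeries (ZMod ℓ))
    (hker : ∀ z, ρ z = 0 → ∃ w, z = (ℓ : C) * w) :
    ∃ Ψ : C ⊗[↥(GaloisRep.ratLocalizedAt ℓ)] K →+* LaurentSeries K, Function.Injective Ψ ∧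
      ∀ c, Ψ (c ⊗ₜ 1) = coeffMap (ZMod.castHom dvd_rfl K) (ρ c) := by
  classical
  let φ : ZMod ℓ →+* K := ZMod.castHom dvd_rfl K
  haveI : CharP (LaurentSeries K) ℓ :=
    charP_of_injective_ringHom (HahnSeries.C_injective (Γ := ℤ) (R := K)) ℓ
  let f : C →ₐ[↥(GaloisRep.ratLocalizedAt ℓ)] LaurentSeries K :=
    { ((coeffMap φ).comp ρ) with
      commutes' := fun r => congrArg (fun h : ↥(GaloisRep.ratLocalizedAt ℓ) →+* LaurentSeries K => h r)
        (ringHom_ext_ratLocalizedAt ℓ (((coeffMap φ).comp ρ).comp (algebraMap ↥(GaloisRep.ratLocalizedAt ℓ) C))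
          (algebraMap ↥(GaloisRep.ratLocalizedAt ℓ) (LaurentSeries K))) }
  let g : K →ₐ[↥(GaloisRep.ratLocalizedAt ℓ)] LaurentSeries K :=
    { (HahnSeries.C : K →+* LaurentSeries K) with
      commutes' := fun r => congrArg (fun h : ↥(GaloisRep.ratLocalizedAt ℓ) →+* LaurentSeries K => h r)
        (ringHom_ext_ratLocalizedAt ℓ ((HahnSeries.C : K →+* LaurentSeries K).comp (algebraMap ↥(GaloisRep.ratLocalizedAt ℓ) K))
          (algebraMap ↥(GaloisRep.ratLocalizedAt ℓ) (LaurentSeries K))) }
  let Ψ := Algebra.TensorProduct.productMap f g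
  have hΨ : ∀ c a, Ψ (c ⊗ₜ a) = coeffMap φ (ρ c) * HahnSeries.C a := fun c a =>
    Algebra.TensorProduct.productMap_apply_tmul _ _ _ _
  refine ⟨Ψ.toRingHom, ?_, fun c => by simpa using hΨ c 1⟩
  have coeffΨ : ∀ c a (m : ℤ), (Ψ (c ⊗ₜ a)).coeff m = φ ((ρ c).coeff m) * a := fun c a m => by
    rw [hΨ, mul_comm, HahnSeries.C_mul_eq_smul, HahnSeries.coeff_smul, coeffMap_coeff,
      smul_eq_mul, mul_comm]
  have key : ∀ (n : ℕ) (c : Fin n → C) (a : Fin n → K),
      Ψ (∑ i, c i ⊗ₜ a i) = 0 → (∑ i, c i ⊗ₜ a i : C ⊗[↥(GaloisRep.ratLocalizedAt ℓ)] K) = 0 := by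
    intro n
    induction n with
    | zero => intro c a _; simp
    | succ n ih =>
      intro c a h
      by_cases hall : ∀ i, ρ (c i) = 0
      · refine Finset.sum_eq_zero fun i _ => ?_
        obtain ⟨w, hw⟩ := hker _ (hall i)
        rw [hw, show ((ℓ : C) * w) = (ℓ : ↥(GaloisRep.ratLocalizedAt ℓ)) • w by rw [Algebra.smul_def, map_natCast],
          TensorProduct.smul_tmul, Algebra.smul_def, map_natCast, CharP.cast_eq_zero, zero_mul,
          TensorProduct.tmul_zero]
      · push Not at hall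
        obtain ⟨i₀, hi₀⟩ := hall
        obtain ⟨m, hm⟩ : ∃ m, (ρ (c i₀)).coeff m ≠ 0 := by
          by_contra hne
          push Not at hne
          exact hi₀ (HahnSeries.ext (funext fun m => by simpa using hne m))
        have h0 : ∑ i, φ ((ρ (c i)).coeff m) * a i = 0 := by
          have := congrArg (fun s : LaurentSeries K => s.coeff m) h
          simpa [map_sum, HahnSeries.coeff_sum, coeffΨ] using this
        rw [Fin.sum_univ_succAbove _ i₀] at h0
        choose z hz using fun i => redZ_surjective ℓ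
          (-(ρ (c (i₀.succAbove i))).coeff m / (ρ (c i₀)).coeff m)
        have hzK : ∀ i, algebraMap ↥(GaloisRep.ratLocalizedAt ℓ) K (z i) =
            -φ ((ρ (c (i₀.succAbove i))).coeff m) / φ ((ρ (c i₀)).coeff m) := fun i => by
          rw [ringHom_ext_ratLocalizedAt ℓ (algebraMap ↥(GaloisRep.ratLocalizedAt ℓ) K) (φ.comp (redZ ℓ)), RingHom.comp_apply,
            hz, map_div₀, map_neg]
        have ha : a i₀ = ∑ i, z i • a (i₀.succAbove i) := by
          have hne : φ ((ρ (c i₀)).coeff m) ≠ 0 := (map_ne_zero φ).2 hm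
          apply mul_left_cancel₀ hne
          rw [Finset.mul_sum, eq_neg_of_add_eq_zero_left h0, ← Finset.sum_neg_distrib]
          refine Finset.sum_congr rfl fun i _ => ?_
          rw [Algebra.smul_def, hzK]
          field_simp
        have hsum : (∑ i, c i ⊗ₜ a i : C ⊗[↥(GaloisRep.ratLocalizedAt ℓ)] K) =
            ∑ i, (z i • c i₀ + c (i₀.succAbove i)) ⊗ₜ a (i₀.succAbove i) := by
          rw [Fin.sum_univ_succAbove _ i₀, ha, TensorProduct.tmul_sum, ← Finset.sum_add_distrib]
          refine Finset.sum_congr rfl fun i _ => ?_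
          rw [TensorProduct.add_tmul, TensorProduct.smul_tmul]
        rw [hsum] at h ⊢
        exact ih _ _ h
  refine (injective_iff_map_eq_zero _).2 fun t ht => ?_
  obtain ⟨S, hS⟩ := TensorProduct.exists_finset t
  have hS' : t = ∑ i : Fin S.card, (S.equivFin.symm i).1.1 ⊗ₜ[↥(GaloisRep.ratLocalizedAt ℓ)] (S.equivFin.symm i).1.2 := by
    rw [hS, ← Finset.sum_coe_sort]
    exact (Equiv.sum_comp S.equivFin.symm
      (fun x : S => x.1.1 ⊗ₜ[↥(GaloisRep.ratLocalizedAt ℓ)] x.1.2)).symm
  rw [hS'] at ht ⊢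
  exact key _ _ _ ht

end Tensor

end Fermat.Agent.Igusa.Fibre
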