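/-
The special fibre of the Igusa scheme is integral.
-/
import Fermat.Agent.Igusa.FibreTensor
import Mathlib.AlgebraicGeometry.PullbackCarrier
import Mathlib.RingTheory.Spectrum.Prime.Topology

set_option autoImplicit false
set_option linter.style.haveILetI false

noncomputable section

open ModularCurve ModularCurve.IgusaScheme AlgebraicGeometry CategoryTheory CategoryTheory.Limits
open scoped TensorProduct

namespace Fermat.Agent.Igusa.Fibre

variable {ℓ : ℕ} [Fact ℓ.Prime]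

/-- The special fibre of one chart is integral and contains a point off `t = 0`. -/
theorem chart_integral {C : Type} [CommRing C] [Algebra ↥(GaloisRep.ratLocalizedAt ℓ) C]
    {K : Type} [Field K] [CharP K ℓ] [Algebra ↥(GaloisRep.ratLocalizedAt ℓ) K]
    (ρ : C →+* LaurentSeries (ZMod ℓ)) (hker : ∀ z, ρ z = 0 → ∃ w, z = (ℓ : C) * w)
    (t : C) (ht : ρ t ≠ 0) :
    IsReduced (pullback
      (Spec.map (CommRingCat.ofHom (algebraMap ↥(GaloisRep.ratLocalizedAt ℓ) C)))
      (Spec.map (CommRingCat.ofHom (algebraMap ↥(GaloisRep.ratLocalizedAt ℓ) K)))) ∧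
    IrreducibleSpace ↥(pullback
      (Spec.map (CommRingCat.ofHom (algebraMap ↥(GaloisRep.ratLocalizedAt ℓ) C)))
      (Spec.map (CommRingCat.ofHom (algebraMap ↥(GaloisRep.ratLocalizedAt ℓ) K)))) ∧
    ∃ (q : PrimeSpectrum C) (p : ↥(pullback
      (Spec.map (CommRingCat.ofHom (algebraMap ↥(GaloisRep.ratLocalizedAt ℓ) C)))
      (Spec.map (CommRingCat.ofHom (algebraMap ↥(GaloisRep.ratLocalizedAt ℓ) K))))),
      pullback.fst (Spec.map (CommRingCat.ofHom (algebraMap ↥(GaloisRep.ratLocalizedAt ℓ) C)))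
        (Spec.map (CommRingCat.ofHom (algebraMap ↥(GaloisRep.ratLocalizedAt ℓ) K))) p = q ∧
      q ∈ PrimeSpectrum.basicOpen t := by
  obtain ⟨Ψ, hΨ, hΨc⟩ := exists_injective_of_reduction (K := K) ρ hker
  haveI : IsDomain (C ⊗[↥(GaloisRep.ratLocalizedAt ℓ)] K) := hΨ.isDomain Ψ
  let e := pullbackSpecIso ↥(GaloisRep.ratLocalizedAt ℓ) C K
  haveI : IsIntegral (Spec (CommRingCat.of (C ⊗[↥(GaloisRep.ratLocalizedAt ℓ)] K))) :=
    inferInstance
  refine ⟨isReduced_of_isOpenImmersion e.hom, ?_, ?_⟩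
  · exact (Function.Surjective.irreducibleSpace (Scheme.Hom.continuous e.inv)
      (Scheme.homeoOfIso e.symm).surjective)
  · let q₀ : PrimeSpectrum (C ⊗[↥(GaloisRep.ratLocalizedAt ℓ)] K) := ⟨⊥, Ideal.isPrime_bot⟩
    refine ⟨PrimeSpectrum.comap Algebra.TensorProduct.includeLeftRingHom q₀, e.inv q₀, ?_, ?_⟩
    · exact (Scheme.Hom.comp_apply _ _ _).symm.trans
        (congrArg (fun φ => φ q₀) (pullbackSpecIso_inv_fst ↥(GaloisRep.ratLocalizedAt ℓ) C K))
    · rw [PrimeSpectrum.mem_basicOpen]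
      intro h
      have h0 : t ⊗ₜ[↥(GaloisRep.ratLocalizedAt ℓ)] (1 : K) = 0 := by
        simpa [q₀] using h
      refine ht (coeffMap_injective (ZMod.castHom dvd_rfl K).injective ?_)
      rw [← hΨc, h0, map_zero, map_zero]

variable {N : ℕ} [NeZero N]

theorem isIntegral_special_fibre (hℓN : ¬ ℓ ∣ N) (K : Type) [Field K] [CharP K ℓ]
    [Algebra ↥(GaloisRep.ratLocalizedAt ℓ) K] :
    IsIntegral ↑(pullback (igusaTo N ℓ)
      (Spec.map (CommRingCat.ofHom (algebraMap ↥(GaloisRep.ratLocalizedAt ℓ) K)))) := by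
  obtain ⟨ρF, hkF, htF⟩ := exists_reduction_fin ℓ hℓN
  obtain ⟨ρI, hkI, htI⟩ := exists_reduction_inf ℓ hℓN
  set g := Spec.map (CommRingCat.ofHom (algebraMap ↥(GaloisRep.ratLocalizedAt ℓ) K))
  obtain ⟨redF, irrF, q, p, hpq, hp⟩ := chart_integral (K := K) ρF hkF (jChartFin N ℓ) htF
  obtain ⟨redI, irrI, -⟩ := chart_integral (K := K) ρI hkI (jInvChartInf N ℓ) htI
  let aF := Spec.map (CommRingCat.ofHom (algebraMap ↥(GaloisRep.ratLocalizedAt ℓ) (chartAlgFin N ℓ)))
  let aI := Spec.map (CommRingCat.ofHom (algebraMap ↥(GaloisRep.ratLocalizedAt ℓ) (chartAlgInf N ℓ)))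
  let mF : pullback aF g ⟶ pullback (igusaTo N ℓ) g :=
    pullback.map aF g (igusaTo N ℓ) g (ιFin N ℓ) (𝟙 _) (𝟙 _) (by simp [aF]) (by simp)
  let mI : pullback aI g ⟶ pullback (igusaTo N ℓ) g :=
    pullback.map aI g (igusaTo N ℓ) g (ιInf N ℓ) (𝟙 _) (𝟙 _) (by simp [aI]) (by simp)
  have hrF : Set.range mF = pullback.fst (igusaTo N ℓ) g ⁻¹' Set.range (ιFin N ℓ) := by
    rw [Scheme.Pullback.range_map]
    simp
  have hrI : Set.range mI = pullback.fst (igusaTo N ℓ) g ⁻¹' Set.range (ιInf N ℓ) := by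
    rw [Scheme.Pullback.range_map]
    simp
  have hcov : ∀ x, x ∈ Set.range mF ∨ x ∈ Set.range mI := fun x => by
    rw [hrF, hrI]
    exact mem_range_ιFin_or_mem_range_ιInf N ℓ (pullback.fst (igusaTo N ℓ) g x)
  -- a point in both charts
  have hpI : mF p ∈ Set.range mI := by
    letI := (inclFin N ℓ).toRingHom.toAlgebra
    haveI := isLocalization_away_inclFin N ℓ
    obtain ⟨y, hy⟩ : q ∈
        Set.range (PrimeSpectrum.comap (algebraMap (chartAlgFin N ℓ) (chartAlgMid N ℓ))) := by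
      rw [PrimeSpectrum.localization_away_comap_range (chartAlgMid N ℓ) (jChartFin N ℓ)]
      exact hp
    rw [hrI]
    refine ⟨fInf N ℓ y, ?_⟩
    have e1 : mF ≫ pullback.fst (igusaTo N ℓ) g = pullback.fst aF g ≫ ιFin N ℓ :=
      pullback.lift_fst _ _ _
    have h1 : pullback.fst (igusaTo N ℓ) g (mF p) = ιFin N ℓ (pullback.fst aF g p) := by
      rw [← Scheme.Hom.comp_apply, ← Scheme.Hom.comp_apply, e1]
    have h2 : ∀ z : ↥(XMid N ℓ), ιInf N ℓ (fInf N ℓ z) = ιFin N ℓ (fFin N ℓ z) := fun z => by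
      rw [← Scheme.Hom.comp_apply, ← Scheme.Hom.comp_apply, glue_condition]
    exact (h2 y).trans ((congrArg (ιFin N ℓ) (hy.trans hpq.symm)).trans h1.symm)
  -- reduced
  haveI : IsReduced (pullback (igusaTo N ℓ) g) := by
    haveI := redF
    haveI := redI
    have hst : ∀ x, _root_.IsReduced ((pullback (igusaTo N ℓ) g).presheaf.stalk x) := by
      intro x
      rcases hcov x with ⟨y, rfl⟩ | ⟨y, rfl⟩
      · exact isReduced_of_injective _ (asIso (mF.stalkMap y)).commRingCatIsoToRingEquiv.injective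
      · exact isReduced_of_injective _ (asIso (mI.stalkMap y)).commRingCatIsoToRingEquiv.injective
    exact isReduced_of_isReduced_stalk _
  -- irreducible
  haveI : IrreducibleSpace ↥(pullback (igusaTo N ℓ) g) := by
    have hA : IsIrreducible (Set.range mF) := by
      rw [← Set.image_univ]
      exact (@IrreducibleSpace.isIrreducible_univ _ _ irrF).image _ mF.continuous.continuousOn
    have hB : IsIrreducible (Set.range mI) := by
      rw [← Set.image_univ]
      exact (@IrreducibleSpace.isIrreducible_univ _ _ irrI).image _ mI.continuous.continuousOn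
    have hAo : IsOpen (Set.range mF) := mF.opensRange.2
    have hBo : IsOpen (Set.range mI) := mI.opensRange.2
    have meetsB : ∀ U, IsOpen U → U.Nonempty → (U ∩ Set.range mI).Nonempty := by
      intro U hU hne
      obtain ⟨x, hx⟩ := hne
      rcases hcov x with h | h
      · obtain ⟨z, -, hzU, hzB⟩ := hA.2 U (Set.range mI) hU hBo ⟨x, h, hx⟩
          ⟨mF p, ⟨p, rfl⟩, hpI⟩
        exact ⟨z, hzU, hzB⟩
      · exact ⟨x, hx, h⟩
    refine { toNonempty := ⟨mF p⟩, isPreirreducible_univ := fun U V hU hV hnU hnV => ?_ }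
    obtain ⟨x, hxU, hxB⟩ := meetsB U hU (by simpa using hnU)
    obtain ⟨y, hyV, hyB⟩ := meetsB V hV (by simpa using hnV)
    obtain ⟨z, -, hz⟩ := hB.2 U V hU hV ⟨x, hxB, hxU⟩ ⟨y, hyB, hyV⟩
    exact ⟨z, Set.mem_univ _, hz⟩
  exact isIntegral_of_irreducibleSpace_of_isReduced _

end Fermat.Agent.Igusa.Fibre
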