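/-
Elementary facts about a `GaussReduction`: coefficients, polynomials in `x`, lifted bases, traces.
-/
import Fermat.Agent.Curve.GaussReduction
import Mathlib.FieldTheory.IsAlgClosed.Basic
import Mathlib.RingTheory.Trace.Defs
import Mathlib.RingTheory.Valuation.ValuationSubring
import Mathlib.Algebra.Polynomial.Lifts
import Mathlib.Algebra.Polynomial.Div
import Mathlib.RingTheory.Valuation.Integral
import Mathlib.RingTheory.Valuation.LocalSubring

set_option autoImplicit false

noncomputable section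

namespace Fermat.Agent.Igusa

open IntermediateField Polynomial

universe uK uF uk uFb

variable {K : Type uK} [Field K] {A : ValuationSubring K}
  {F : Type uF} [Field F] [Algebra K F]
  {k : Type uk} [Field k] {Fb : Type uFb} [Field Fb] [Algebra k Fb]
  (G : Curve.GaussReduction A F k Fb)

/-! ### Units of `V` and the residue field of constants -/

theorem tameGauss_φ_eq_zero_iff (f : G.V) : G.φ f = 0 ↔ ¬ IsUnit f := by
  haveI := RingHom.ker_isMaximal_of_surjective G.φ G.φ_surjective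
  rw [← RingHom.mem_ker, IsLocalRing.eq_maximalIdeal (I := RingHom.ker G.φ) inferInstance,
    IsLocalRing.mem_maximalIdeal, mem_nonunits_iff]

theorem tameGauss_inv_mem {f : G.V} (hf : G.φ f ≠ 0) : ((f : F))⁻¹ ∈ G.V := by
  obtain ⟨u, hu⟩ : IsUnit f := not_not.1 (mt (tameGauss_φ_eq_zero_iff G f).2 hf)
  have h1 : ((u : G.V) : F) * ((↑u⁻¹ : G.V) : F) = 1 := by
    rw [← MulMemClass.coe_mul, ← Units.val_mul, mul_inv_cancel]
    rfl
  rw [← hu, inv_eq_of_mul_eq_one_right h1]
  exact (↑u⁻¹ : G.V).2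

theorem tameGauss_coe_ne_zero {f : G.V} (hf : G.φ f ≠ 0) : (f : F) ≠ 0 :=
  fun h => hf (by rw [show f = 0 from Subtype.ext h, map_zero])

theorem tameGauss_φ_inv {f : G.V} (hf : G.φ f ≠ 0) :
    G.φ ⟨((f : F))⁻¹, tameGauss_inv_mem G hf⟩ = (G.φ f)⁻¹ := by
  refine eq_inv_of_mul_eq_one_left ?_
  rw [← map_mul, ← map_one G.φ]
  exact congrArg _ (Subtype.ext (inv_mul_cancel₀ (tameGauss_coe_ne_zero G hf)))

theorem tameGauss_π_eq_zero_iff (a : A) : G.π a = 0 ↔ ¬ IsUnit a := by
  haveI := RingHom.ker_isMaximal_of_surjective G.π G.π_surjective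
  rw [← RingHom.mem_ker, IsLocalRing.eq_maximalIdeal (I := RingHom.ker G.π) inferInstance,
    IsLocalRing.mem_maximalIdeal, mem_nonunits_iff]

theorem tameGauss_π_inv_eq_zero {r : K} (hr : r ∉ A) :
    ∃ h : r⁻¹ ∈ A, G.π ⟨r⁻¹, h⟩ = 0 := by
  have h : r⁻¹ ∈ A := (A.mem_or_inv_mem r).resolve_left hr
  refine ⟨h, (tameGauss_π_eq_zero_iff G _).2 ?_⟩
  rintro ⟨u, hu⟩
  apply hr
  have h1 : ((u : A) : K) * ((↑u⁻¹ : A) : K) = 1 := by
    rw [← MulMemClass.coe_mul, ← Units.val_mul, mul_inv_cancel]; rfl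
  rw [hu] at h1
  have h1' : r⁻¹ * ((↑u⁻¹ : A) : K) = 1 := h1
  have : ((↑u⁻¹ : A) : K) = r := by rw [eq_inv_of_mul_eq_one_right h1', inv_inv]
  exact this ▸ (↑u⁻¹ : A).2

include G in
theorem tameGauss_isAlgClosed [IsAlgClosed K] : IsAlgClosed k := by
  refine IsAlgClosed.of_exists_root _ fun p hp hirr => ?_
  have hlift : p ∈ Polynomial.lifts G.π := by
    rw [Polynomial.lifts_iff_coeff_lifts]
    exact fun n => G.π_surjective _
  obtain ⟨q, hq, hdeg, hmon⟩ := Polynomial.lifts_and_degree_eq_and_monic hlift hp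
  have hd : (q.map (algebraMap A K)).degree ≠ 0 := by
    rw [hmon.degree_map, hdeg]
    exact (Polynomial.degree_pos_of_irreducible hirr).ne'
  obtain ⟨z, hz⟩ := IsAlgClosed.exists_root _ hd
  have hint : IsIntegral A z := ⟨q, hmon, by
    rwa [Polynomial.IsRoot.def, Polynomial.eval_map] at hz⟩
  obtain ⟨a, ha⟩ := IsIntegrallyClosed.isIntegral_iff.1 hint
  refine ⟨G.π a, ?_⟩
  rw [← hq, Polynomial.eval_map]
  have hqa : Polynomial.eval₂ (RingHom.id A) a q = 0 := by
    apply Subtype.coe_injective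
    have := hz
    rw [Polynomial.IsRoot.def, Polynomial.eval_map, ← ha,
      Polynomial.eval₂_at_apply] at this
    simpa using this
  have h := congrArg G.π hqa
  rw [map_zero, Polynomial.hom_eval₂, RingHom.comp_id] at h
  exact h

/-! ### Constants and polynomials in `x` -/

/-- The constants of `A` in `V`. -/
def tameConst : A →+* G.V :=
  ((algebraMap K F).comp A.subtype).codRestrict G.V.toSubring fun a => (G.mem_V_iff _).2 a.2

@[simp]
theorem coe_tameConst (a : A) : (tameConst G a : F) = algebraMap K F (a : K) := rfl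

theorem φ_tameConst (a : A) : G.φ (tameConst G a) = algebraMap k Fb (G.π a) := G.φ_algebraMap a

/-- An integral polynomial evaluated at `x`. -/
def tameEval : A[X] →+* G.V := Polynomial.eval₂RingHom (tameConst G) G.x

@[simp]
theorem coe_tameEval (p : A[X]) :
    (tameEval G p : F) = aeval (G.x : F) (p.map A.subtype) := by
  have h : G.V.toSubring.subtype.comp (tameEval G) =
      (aeval (R := K) (G.x : F)).toRingHom.comp (mapRingHom A.subtype) := by
    refine Polynomial.ringHom_ext (fun a => ?_) ?_ <;> simp [tameEval]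
  exact RingHom.congr_fun h p

theorem φ_tameEval (p : A[X]) : G.φ (tameEval G p) = aeval (G.φ G.x) (p.map G.π) := by
  have h : G.φ.comp (tameEval G) =
      (aeval (R := k) (G.φ G.x)).toRingHom.comp (mapRingHom G.π) := by
    refine Polynomial.ringHom_ext (fun a => ?_) ?_ <;> simp [tameEval, φ_tameConst]
  exact RingHom.congr_fun h p

/-- The maximum of a finite family, divided out: a combination of a family with independent
reductions is its maximal coefficient times a unit. -/
theorem exists_eq_mul_unit {I : Type*} (S : Subfield F) (Sb : Subfield Fb)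
    (hS : ∀ f : G.V, (f : F) ∈ S → G.φ f ∈ Sb) (e : I → G.V) (s : Finset I)
    (hind : ∀ r : I → Fb, (∀ i, r i ∈ Sb) → ∑ i ∈ s, r i * G.φ (e i) = 0 → ∀ i ∈ s, r i = 0)
    (c : I → F) (hc : ∀ i, c i ∈ S) (hne : ∃ i ∈ s, c i ≠ 0) :
    ∃ j ∈ s, c j ≠ 0 ∧ (∀ i ∈ s, c i / c j ∈ G.V) ∧
      ∃ u : G.V, G.φ u ≠ 0 ∧ ∑ i ∈ s, c i * (e i : F) = c j * (u : F) := by
  classical
  obtain ⟨i0, hi0, hi0ne⟩ := hne
  obtain ⟨j, hj, hmax⟩ := s.exists_max_image (fun l => G.V.valuation (c l)) ⟨i0, hi0⟩
  have hpos : G.V.valuation (c j) ≠ 0 := by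
    intro h0
    have := hmax i0 hi0
    rw [h0] at this
    exact hi0ne ((map_eq_zero _).1 (le_antisymm this zero_le))
  have hj0 : c j ≠ 0 := fun h => hpos (by rw [h, map_zero])
  have hall : ∀ l ∈ s, c l / c j ∈ G.V := fun l hl => by
    rw [← G.V.valuation_le_one_iff, map_div₀]
    exact div_le_one_of_le₀ (hmax l hl) zero_le
  let c' : I → G.V := fun l => if hl : l ∈ s then ⟨c l / c j, hall l hl⟩ else 0
  have hc' : ∀ l ∈ s, (c' l : F) = c l / c j := fun l hl => by simp [c', hl]
  refine ⟨j, hj, hj0, hall, ∑ l ∈ s, c' l * e l, ?_, ?_⟩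
  · intro h0
    rw [map_sum] at h0
    simp only [map_mul] at h0
    have hmem : ∀ l, G.φ (c' l) ∈ Sb := fun l => by
      by_cases hl : l ∈ s
      · exact hS _ (by rw [hc' l hl]; exact div_mem (hc l) (hc j))
      · simp [c', hl]
    have hz := hind _ hmem h0 j hj
    have h1 : c' j = 1 := Subtype.ext (by rw [hc' j hj, div_self hj0]; rfl)
    rw [h1, map_one] at hz
    exact one_ne_zero hz
  · push_cast
    rw [Finset.mul_sum]
    refine Finset.sum_congr rfl fun l hl => ?_
    rw [hc' l hl]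
    field_simp

theorem coeff_mem_V {I : Type*} (S : Subfield F) (Sb : Subfield Fb)
    (hS : ∀ f : G.V, (f : F) ∈ S → G.φ f ∈ Sb) (e : I → G.V) (s : Finset I)
    (hind : ∀ r : I → Fb, (∀ i, r i ∈ Sb) → ∑ i ∈ s, r i * G.φ (e i) = 0 → ∀ i ∈ s, r i = 0)
    (c : I → F) (hc : ∀ i, c i ∈ S) (hsum : ∑ i ∈ s, c i * (e i : F) ∈ G.V) :
    ∀ i ∈ s, c i ∈ G.V := by
  intro i hi
  by_cases h0 : c i = 0
  · rw [h0]; exact zero_mem _
  obtain ⟨j, -, hj0, hall, u, hu, heq⟩ := exists_eq_mul_unit G S Sb hS e s hind c hc ⟨i, hi, h0⟩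
  have hcj : c j ∈ G.V := by
    have h := mul_mem hsum (tameGauss_inv_mem G hu)
    rwa [heq, mul_assoc, mul_inv_cancel₀ (tameGauss_coe_ne_zero G hu), mul_one] at h
  have h2 := mul_mem (hall i hi) hcj
  rwa [div_mul_cancel₀ _ hj0] at h2

theorem coeff_eq_zero {I : Type*} (S : Subfield F) (Sb : Subfield Fb)
    (hS : ∀ f : G.V, (f : F) ∈ S → G.φ f ∈ Sb) (e : I → G.V) (s : Finset I)
    (hind : ∀ r : I → Fb, (∀ i, r i ∈ Sb) → ∑ i ∈ s, r i * G.φ (e i) = 0 → ∀ i ∈ s, r i = 0)
    (c : I → F) (hc : ∀ i, c i ∈ S) (hsum : ∑ i ∈ s, c i * (e i : F) = 0) :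
    ∀ i ∈ s, c i = 0 := by
  intro i hi
  by_contra h0
  obtain ⟨j, -, hj0, -, u, hu, heq⟩ := exists_eq_mul_unit G S Sb hS e s hind c hc ⟨i, hi, h0⟩
  rw [hsum] at heq
  exact mul_ne_zero hj0 (tameGauss_coe_ne_zero G hu) heq.symm

theorem φ_mem_const (f : G.V) (hf : (f : F) ∈ (algebraMap K F).fieldRange) :
    G.φ f ∈ (algebraMap k Fb).fieldRange := by
  obtain ⟨a, ha⟩ := hf
  have haA : a ∈ A := (G.mem_V_iff a).1 (by rw [ha]; exact f.2)
  exact ⟨G.π ⟨a, haA⟩, by rw [← G.φ_algebraMap]; exact congrArg _ (Subtype.ext ha)⟩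

theorem powers_independent (s : Finset ℕ) (r : ℕ → Fb)
    (hr : ∀ i, r i ∈ (algebraMap k Fb).fieldRange)
    (h : ∑ i ∈ s, r i * G.φ (G.x ^ i) = 0) : ∀ i ∈ s, r i = 0 := by
  classical
  choose a ha using hr
  let p : k[X] := ∑ i ∈ s, monomial i (a i)
  have hp : p = 0 := by
    refine (transcendental_iff.1 G.x_transcendental) p ?_
    rw [← h, map_sum]
    exact Finset.sum_congr rfl fun i _ => by rw [aeval_monomial, ha, map_pow]
  intro i hi
  have hco : p.coeff i = a i := by
    rw [finsetSum_coeff]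
    simp [coeff_monomial, hi]
  rw [hp, coeff_zero] at hco
  rw [← ha, ← hco, map_zero]

/-- A polynomial in `x` lies in `V` exactly when its coefficients lie in `A`. -/
theorem exists_of_aeval_mem {p : K[X]} (h : aeval (G.x : F) p ∈ G.V) :
    ∃ q : A[X], q.map A.subtype = p := by
  have hco : ∀ n, p.coeff n ∈ A := by
    intro n
    by_cases hn : n ∈ p.support
    · refine (G.mem_V_iff _).1 (coeff_mem_V G (algebraMap K F).fieldRange
        (algebraMap k Fb).fieldRange (φ_mem_const G) (fun i => G.x ^ i) p.support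
        (powers_independent G p.support) (fun i => algebraMap K F (p.coeff i))
        (fun i => ⟨_, rfl⟩) ?_ n hn)
      convert h using 1
      rw [aeval_def, eval₂_eq_sum, Polynomial.sum_def]
      simp
    · rw [Polynomial.notMem_support_iff.1 hn]; exact zero_mem _
  have hl : p ∈ Polynomial.lifts A.subtype := by
    rw [Polynomial.lifts_iff_coeff_lifts]
    exact fun n => ⟨⟨_, hco n⟩, rfl⟩
  exact hl

/-- A non-zero polynomial can be scaled to have non-zero reduction. -/
theorem exists_scaled {p : K[X]} (hp : p ≠ 0) :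
    ∃ (a : K) (q : A[X]), a ≠ 0 ∧ q.map A.subtype = C a * p ∧ q.map G.π ≠ 0 := by
  obtain ⟨n, hn⟩ : ∃ n, p.coeff n ≠ 0 := by
    by_contra hall
    push Not at hall
    exact hp (Polynomial.ext fun n => by simpa using hall n)
  obtain ⟨j, hj, hmax⟩ := p.support.exists_max_image (fun l => A.valuation (p.coeff l))
    ⟨n, Polynomial.mem_support_iff.2 hn⟩
  have hj0 : p.coeff j ≠ 0 := Polynomial.mem_support_iff.1 hj
  have hA : ∀ l, (C (p.coeff j)⁻¹ * p).coeff l ∈ A := fun l => by
    rw [coeff_C_mul, ← A.valuation_le_one_iff, map_mul, map_inv₀]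
    by_cases hl : l ∈ p.support
    · rw [mul_comm, ← div_eq_mul_inv]
      exact div_le_one_of_le₀ (hmax l hl) zero_le
    · rw [Polynomial.notMem_support_iff.1 hl, map_zero, mul_zero]; exact zero_le
  have hl : C (p.coeff j)⁻¹ * p ∈ Polynomial.lifts A.subtype := by
    rw [Polynomial.lifts_iff_coeff_lifts]
    exact fun n => ⟨⟨_, hA n⟩, rfl⟩
  obtain ⟨q, hq⟩ := hl
  refine ⟨_, q, inv_ne_zero hj0, hq, fun h0 => ?_⟩
  have hqj : q.coeff j = 1 := by
    apply Subtype.ext
    have := congrArg (fun r : K[X] => r.coeff j) hq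
    simp only [coe_mapRingHom, coeff_map, coeff_C_mul, inv_mul_cancel₀ hj0] at this
    exact this
  have := congrArg (fun r : k[X] => r.coeff j) h0
  simp [coeff_map, hqj] at this

theorem φ_tameEval_ne_zero {q : A[X]} (hq : q.map G.π ≠ 0) : G.φ (tameEval G q) ≠ 0 := by
  rw [φ_tameEval]
  exact fun h => hq (transcendental_iff.1 G.x_transcendental _ h)

theorem φ_mem_adjoin (f : G.V) (hf : (f : F) ∈ K⟮(G.x : F)⟯.toSubfield) :
    G.φ f ∈ k⟮G.φ G.x⟯.toSubfield := by
  obtain ⟨r, s, hrs⟩ := (mem_adjoin_simple_iff K _).1 hf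
  by_cases hs : aeval (G.x : F) s = 0
  · have : f = 0 := Subtype.ext (by rw [hrs, hs, div_zero]; rfl)
    rw [this, map_zero]; exact zero_mem _
  have hs0 : s ≠ 0 := fun h => hs (by rw [h, map_zero])
  obtain ⟨a, q, ha, hq, hqπ⟩ := exists_scaled G hs0
  have hqval : (tameEval G q : F) = algebraMap K F a * aeval (G.x : F) s := by
    rw [coe_tameEval, hq, map_mul, aeval_C]
  have hmem : aeval (G.x : F) (C a * r) ∈ G.V := by
    have : aeval (G.x : F) (C a * r) = (f : F) * (tameEval G q : F) := by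
      rw [hqval, hrs, map_mul, aeval_C]
      field_simp
    rw [this]
    exact mul_mem f.2 (tameEval G q).2
  obtain ⟨p, hp⟩ := exists_of_aeval_mem G hmem
  have heq : f * tameEval G q = tameEval G p := Subtype.ext (by
    rw [MulMemClass.coe_mul, hqval, coe_tameEval, hp, hrs, map_mul, aeval_C]
    field_simp)
  have h2 : G.φ f = G.φ (tameEval G p) / G.φ (tameEval G q) := by
    rw [eq_div_iff (φ_tameEval_ne_zero G hqπ), ← map_mul, heq]
  rw [h2, φ_tameEval, φ_tameEval]
  exact (mem_adjoin_simple_iff k _).2 ⟨_, _, rfl⟩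

/-! ### Lifted bases and traces -/

/-- A family in `V` whose reductions form a basis of `Fb` over `k(x̄)`. -/
structure IsLiftBasis (b : Fin (Module.finrank k⟮G.φ G.x⟯ Fb) → G.V) : Prop where
  indep : LinearIndependent k⟮G.φ G.x⟯ fun i => G.φ (b i)

theorem exists_isLiftBasis : ∃ b, IsLiftBasis G b := by
  haveI : Module.Finite k⟮G.φ G.x⟯ Fb := Module.finite_of_finrank_pos G.degree_pos
  choose b hb using fun i => G.φ_surjective (Module.finBasis k⟮G.φ G.x⟯ Fb i)
  exact ⟨b, ⟨by simp only [hb]; exact Module.Basis.linearIndependent _⟩⟩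

variable {G} {b : Fin (Module.finrank k⟮G.φ G.x⟯ Fb) → G.V} (hb : IsLiftBasis G b)

include hb in
theorem IsLiftBasis.hind (r : Fin (Module.finrank k⟮G.φ G.x⟯ Fb) → Fb)
    (hr : ∀ i, r i ∈ k⟮G.φ G.x⟯.toSubfield) (h : ∑ i, r i * G.φ (b i) = 0) : ∀ i, r i = 0 := by
  intro i
  have := Fintype.linearIndependent_iff.1 hb.indep (fun i => ⟨r i, hr i⟩) (by
    simpa [Algebra.smul_def] using h) i
  exact congrArg Subtype.val this

/-- The reductions of a lifted basis as a basis. -/
def IsLiftBasis.basisBar : Module.Basis (Fin (Module.finrank k⟮G.φ G.x⟯ Fb)) k⟮G.φ G.x⟯ Fb :=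
  haveI : Nonempty (Fin (Module.finrank k⟮G.φ G.x⟯ Fb)) := ⟨⟨0, G.degree_pos⟩⟩
  basisOfLinearIndependentOfCardEqFinrank hb.indep (Fintype.card_fin _)

@[simp]
theorem IsLiftBasis.basisBar_apply (i : Fin (Module.finrank k⟮G.φ G.x⟯ Fb)) :
    hb.basisBar i = G.φ (b i) := by
  simp [IsLiftBasis.basisBar]

include hb in
theorem IsLiftBasis.linearIndependent :
    LinearIndependent K⟮(G.x : F)⟯ fun i => (b i : F) := by
  rw [Fintype.linearIndependent_iff]
  intro g hg i
  have := coeff_eq_zero G K⟮(G.x : F)⟯.toSubfield k⟮G.φ G.x⟯.toSubfield (φ_mem_adjoin G) b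
    Finset.univ (fun r hr h => fun i _ => hb.hind r hr h i) (fun i => (g i : F))
    (fun i => (g i).2) (by simpa [Algebra.smul_def] using hg) i (Finset.mem_univ i)
  exact Subtype.ext this

/-- A lifted basis is a basis of `F` over `K(x)`. -/
def IsLiftBasis.basis : Module.Basis (Fin (Module.finrank k⟮G.φ G.x⟯ Fb)) K⟮(G.x : F)⟯ F :=
  haveI : Nonempty (Fin (Module.finrank k⟮G.φ G.x⟯ Fb)) := ⟨⟨0, G.degree_pos⟩⟩
  basisOfLinearIndependentOfCardEqFinrank hb.linearIndependent (by
    rw [Fintype.card_fin, G.degree_eq])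

@[simp]
theorem IsLiftBasis.basis_apply (i : Fin (Module.finrank k⟮G.φ G.x⟯ Fb)) :
    hb.basis i = (b i : F) := by
  simp [IsLiftBasis.basis]

theorem IsLiftBasis.repr_mem (f : G.V) (i : Fin (Module.finrank k⟮G.φ G.x⟯ Fb)) :
    (hb.basis.repr (f : F) i : F) ∈ G.V := by
  refine coeff_mem_V G K⟮(G.x : F)⟯.toSubfield k⟮G.φ G.x⟯.toSubfield (φ_mem_adjoin G) b
    Finset.univ (fun r hr h => fun i _ => hb.hind r hr h i)
    (fun i => (hb.basis.repr (f : F) i : F)) (fun i => (hb.basis.repr (f : F) i).2) ?_ i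
    (Finset.mem_univ i)
  have := hb.basis.sum_repr (f : F)
  simp only [IsLiftBasis.basis_apply, Algebra.smul_def] at this
  rw [show ∑ i, (hb.basis.repr (f : F) i : F) * (b i : F) = (f : F) from this]
  exact f.2

theorem IsLiftBasis.φ_repr (f : G.V) (i : Fin (Module.finrank k⟮G.φ G.x⟯ Fb)) :
    G.φ ⟨_, hb.repr_mem f i⟩ = (hb.basisBar.repr (G.φ f) i : Fb) := by
  let r : Fin (Module.finrank k⟮G.φ G.x⟯ Fb) → k⟮G.φ G.x⟯ := fun j =>
    ⟨G.φ ⟨_, hb.repr_mem f j⟩, φ_mem_adjoin G _ (hb.basis.repr (f : F) j).2⟩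
  have hsum : ∑ j, r j • hb.basisBar j = G.φ f := by
    have h1 : ∑ j, (⟨_, hb.repr_mem f j⟩ : G.V) * b j = f := by
      apply Subtype.ext
      have := hb.basis.sum_repr (f : F)
      simp only [IsLiftBasis.basis_apply, Algebra.smul_def] at this
      push_cast
      exact this
    conv_rhs => rw [← h1, map_sum]
    simp [r, Algebra.smul_def]
  have : hb.basisBar.repr (G.φ f) i = r i := by
    rw [← hsum, hb.basisBar.repr_sum_self]
  rw [this]

include hb in
/-- The trace commutes with reduction. -/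
theorem IsLiftBasis.exists_trace (f : G.V) :
    ∃ h : (Algebra.trace K⟮(G.x : F)⟯ F (f : F) : F) ∈ G.V,
      G.φ ⟨_, h⟩ = (Algebra.trace k⟮G.φ G.x⟯ Fb (G.φ f) : Fb) := by
  classical
  have h1 : (Algebra.trace K⟮(G.x : F)⟯ F (f : F) : F) =
      ((∑ i, ⟨_, hb.repr_mem (f * b i) i⟩ : G.V) : F) := by
    rw [Algebra.trace_eq_matrix_trace hb.basis, Matrix.trace]
    push_cast
    exact Finset.sum_congr rfl fun i _ => by
      rw [Matrix.diag, Algebra.leftMulMatrix_eq_repr_mul, IsLiftBasis.basis_apply]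
  refine ⟨h1 ▸ (_ : G.V).2, ?_⟩
  have h2 : (⟨_, h1 ▸ (_ : G.V).2⟩ : G.V) = ∑ i, ⟨_, hb.repr_mem (f * b i) i⟩ := Subtype.ext h1
  rw [h2, map_sum, Algebra.trace_eq_matrix_trace hb.basisBar, Matrix.trace]
  push_cast
  exact Finset.sum_congr rfl fun i _ => by
    rw [Matrix.diag, Algebra.leftMulMatrix_eq_repr_mul, IsLiftBasis.basisBar_apply, ← map_mul]
    exact hb.φ_repr (f * b i) i

/-! ### Roots in a residue disc -/

/-- A root of the reduction lifts to a root. -/
theorem exists_root_lift (G : Curve.GaussReduction A F k Fb) [IsAlgClosed K] :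
    ∀ (n : ℕ) (p : A[X]), p.natDegree ≤ n → p.map G.π ≠ 0 → ∀ a : A,
      (p.map G.π).eval (G.π a) = 0 → ∃ α : A, p.eval α = 0 ∧ G.π α = G.π a := by
  intro n
  induction n with
  | zero =>
    intro p hn hp a ha
    rw [Polynomial.eq_C_of_natDegree_le_zero hn] at hp ha
    simp only [map_C, eval_C] at ha
    exact absurd (by rw [map_C, ha, map_zero]) hp
  | succ n ih =>
    intro p hn hp a ha
    rcases Nat.lt_or_ge p.natDegree (n + 1) with h | h
    · exact ih p (by omega) hp a ha
    have hpd : (p.map A.subtype).natDegree = p.natDegree :=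
      Polynomial.natDegree_map_eq_of_injective Subtype.val_injective _
    obtain ⟨r, hr⟩ := IsAlgClosed.exists_root (p.map A.subtype) (by
      intro h0
      have := Polynomial.natDegree_eq_of_degree_eq_some (n := 0) h0
      omega)
    by_cases hrA : r ∈ A
    · have hroot : p.IsRoot ⟨r, hrA⟩ := by
        apply Subtype.val_injective
        have h' := hr
        rw [IsRoot.def, show r = A.subtype ⟨r, hrA⟩ from rfl, eval_map, eval₂_at_apply] at h'
        exact h'
      by_cases hπ : G.π ⟨r, hrA⟩ = G.π a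
      · exact ⟨_, hroot, hπ⟩
      obtain ⟨q, hq⟩ := Polynomial.dvd_iff_isRoot.2 hroot
      have hqd : q.natDegree ≤ n := by
        have : p.natDegree = 1 + q.natDegree := by
          rw [hq, Polynomial.Monic.natDegree_mul' (monic_X_sub_C _), natDegree_X_sub_C]
          intro h0
          rw [hq, h0, mul_zero, Polynomial.map_zero] at hp
          exact hp rfl
        omega
      have hqmap : p.map G.π = (X - C (G.π ⟨r, hrA⟩)) * q.map G.π := by
        rw [hq]; simp
      obtain ⟨α, h1, h2⟩ := ih q hqd (fun h0 => hp (by rw [hqmap, h0, mul_zero])) a (by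
        rw [hqmap, eval_mul, eval_sub, eval_X, eval_C] at ha
        exact (mul_eq_zero.1 ha).resolve_left (sub_ne_zero.2 (Ne.symm hπ)))
      exact ⟨α, by rw [hq, eval_mul, h1, mul_zero], h2⟩
    · obtain ⟨hs, hs0⟩ := tameGauss_π_inv_eq_zero G hrA
      have hr0 : r ≠ 0 := fun h0 => hrA (h0 ▸ zero_mem _)
      obtain ⟨q, hq⟩ := Polynomial.dvd_iff_isRoot.2 hr
      have hq0 : q ≠ 0 := fun h0 => by
        rw [h0, mul_zero] at hq
        have := congrArg Polynomial.natDegree hq
        rw [hpd, natDegree_zero] at this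
        omega
      obtain ⟨c, qA, hc, hqA, hqAπ⟩ := exists_scaled G hq0
      let sA : A := ⟨r⁻¹, hs⟩
      have hmul : (C (c * (-r)⁻¹)) * p.map A.subtype =
          (((1 : A[X]) - C sA * X) * qA).map A.subtype := by
        rw [Polynomial.map_mul, hqA, hq, Polynomial.map_sub, Polynomial.map_one,
          Polynomial.map_mul, map_C, map_X]
        have h1 : C (-r)⁻¹ * (X - C r) = 1 - C ((sA : A) : K) * X := by
          rw [mul_sub, ← map_mul, show (-r)⁻¹ * r = -1 by field_simp,
            show (-r)⁻¹ = -((sA : A) : K) by simp [sA, inv_neg], map_neg, map_neg, map_one]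
          ring
        calc C (c * (-r)⁻¹) * ((X - C r) * q) = (C (-r)⁻¹ * (X - C r)) * (C c * q) := by
              rw [map_mul]; ring
          _ = _ := by rw [h1]; rfl
      have hred : (((1 : A[X]) - C sA * X) * qA).map G.π = qA.map G.π := by
        simp [sA, hs0]
      by_cases hu : (c * (-r)⁻¹)⁻¹ ∈ A
      · have hp' : p = C (⟨_, hu⟩ : A) * (((1 : A[X]) - C sA * X) * qA) := by
          apply Polynomial.map_injective A.subtype Subtype.val_injective
          rw [Polynomial.map_mul, map_C, ← hmul]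
          show p.map A.subtype = C (c * (-r)⁻¹)⁻¹ * _
          rw [← mul_assoc, ← map_mul, inv_mul_cancel₀ (mul_ne_zero hc (inv_ne_zero
            (neg_ne_zero.2 hr0))), map_one, one_mul]
        have hq' : (C (⟨_, hu⟩ : A) * qA).map G.π = p.map G.π := by
          conv_rhs => rw [hp', Polynomial.map_mul, hred]
          rw [Polynomial.map_mul]
        have hdeg : (C (⟨_, hu⟩ : A) * qA).natDegree ≤ n := by
          refine (natDegree_C_mul_le _ _).trans ?_
          have e1 : qA.natDegree = q.natDegree := by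
            rw [← Polynomial.natDegree_map_eq_of_injective (f := A.subtype)
              Subtype.val_injective qA, hqA, natDegree_C_mul hc]
          have e2 : p.natDegree = 1 + q.natDegree := by
            rw [← hpd, hq, Polynomial.Monic.natDegree_mul' (monic_X_sub_C _) hq0,
              natDegree_X_sub_C]
          omega
        obtain ⟨α, h1, h2⟩ := ih (C (⟨_, hu⟩ : A) * qA) hdeg (hq' ▸ hp) a (hq'.symm ▸ ha)
        refine ⟨α, ?_, h2⟩
        rw [hp', eval_mul, eval_mul, ← mul_assoc, mul_comm (eval α (C _)), mul_assoc,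
          ← eval_mul, h1, mul_zero]
      · exfalso
        obtain ⟨hw, hw0⟩ := tameGauss_π_inv_eq_zero G hu
        rw [inv_inv] at hw
        have : C (⟨_, hw⟩ : A) * p = ((1 : A[X]) - C sA * X) * qA := by
          apply Polynomial.map_injective A.subtype Subtype.val_injective
          rw [Polynomial.map_mul, map_C]
          exact hmul
        have h3 := congrArg (Polynomial.map G.π) this
        rw [hred, Polynomial.map_mul, map_C] at h3
        have hw0' : G.π (⟨c * (-r)⁻¹, hw⟩ : A) = 0 := by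
          convert hw0 using 3
          rw [inv_inv]
        rw [hw0', map_zero, zero_mul] at h3
        exact hqAπ h3.symm

end Fermat.Agent.Igusa

end
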