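/-
Integrality over `K[x]` in a function field, and traces of integral elements modulo `x - a`.
-/
import Fermat.Agent.Curve.BasicPlace
import Mathlib.FieldTheory.IntermediateField.Adjoin.Algebra
import Mathlib.FieldTheory.IsAlgClosed.AlgebraicClosure
import Mathlib.RingTheory.Trace.Basic
import Mathlib.RingTheory.DedekindDomain.IntegralClosure
import Mathlib.RingTheory.DedekindDomain.AdicValuation
import Mathlib.RingTheory.Algebraic.Integral

set_option autoImplicit false

noncomputable section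

namespace Fermat.Agent.Igusa

open AlgebraicCurve IntermediateField Polynomial
open scoped IntermediateField.algebraAdjoinAdjoin

variable {K0 : Type*} [Field K0] {L : Type*} [Field L] [Algebra K0 L] {x : L}

/-- `y` is integral over `K0[x]`. -/
abbrev IntOver (K0 : Type*) [Field K0] {L : Type*} [Field L] [Algebra K0 L] (x y : L) : Prop :=
  IsIntegral (Algebra.adjoin K0 ({x} : Set L)) y

theorem intOver_aeval (p : K0[X]) : IntOver K0 x (aeval x p) :=
  isIntegral_algebraMap (x := (⟨aeval x p, aeval_mem_adjoin_singleton K0 x⟩ :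
    Algebra.adjoin K0 ({x} : Set L)))

theorem exists_aeval_eq (r : Algebra.adjoin K0 ({x} : Set L)) :
    ∃ p : K0[X], aeval x p = (r : L) := by
  have : (r : L) ∈ (Polynomial.aeval (R := K0) x).range := by
    rw [← Algebra.adjoin_singleton_eq_range_aeval]
    exact r.2
  exact this

theorem intOver_algebraMap (c : K0) : IntOver K0 x (algebraMap K0 L c) := by
  simpa using intOver_aeval (x := x) (C c)

theorem intOver_sub (a : K0) : IntOver K0 x (x - algebraMap K0 L a) := by
  have h := intOver_aeval (x := x) (X - C a : K0[X])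
  rwa [map_sub, aeval_X, aeval_C] at h

theorem isPrincipalIdealRing_adjoin :
    IsPrincipalIdealRing (Algebra.adjoin K0 ({x} : Set L)) :=
  IsPrincipalIdealRing.of_surjective
    ((aeval (R := K0) x).codRestrict (Algebra.adjoin K0 ({x} : Set L))
      (fun _ => aeval_mem_adjoin_singleton K0 x))
    fun r => (exists_aeval_eq r).imp fun _ h => Subtype.ext h

theorem exists_aeval_eq_of_intOver {r : L} (hr : r ∈ K0⟮x⟯) (h : IntOver K0 x r) :
    ∃ p : K0[X], aeval x p = r := by
  have := isPrincipalIdealRing_adjoin (K0 := K0) (x := x)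
  let r' : K0⟮x⟯ := ⟨r, hr⟩
  have hint : IsIntegral (Algebra.adjoin K0 ({x} : Set L)) r' :=
    (isIntegral_algebraMap_iff (B := L) (algebraMap K0⟮x⟯ L).injective).1 h
  obtain ⟨y, hy⟩ := IsIntegrallyClosed.isIntegral_iff.1 hint
  obtain ⟨p, hp⟩ := exists_aeval_eq y
  exact ⟨p, by rw [hp]; exact congrArg Subtype.val hy⟩

theorem exists_trace_eq [FiniteDimensional K0⟮x⟯ L] {y : L} (hy : IntOver K0 x y) :
    ∃ p : K0[X], aeval x p = (Algebra.trace K0⟮x⟯ L y : L) := by
  refine exists_aeval_eq_of_intOver (Algebra.trace K0⟮x⟯ L y).2 ?_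
  exact (isIntegral_algebraMap_iff (B := L) (algebraMap K0⟮x⟯ L).injective).2
    (Algebra.isIntegral_trace hy)

theorem exists_intOver_mul [FiniteDimensional K0⟮x⟯ L] (f : L) :
    ∃ q : K0[X], aeval x q ≠ 0 ∧ IntOver K0 x (aeval x q * f) := by
  have halg : IsAlgebraic (Algebra.adjoin K0 ({x} : Set L)) f :=
    (IsFractionRing.isAlgebraic_iff (Algebra.adjoin K0 ({x} : Set L)) K0⟮x⟯ L).2
      (Algebra.IsAlgebraic.isAlgebraic f)
  obtain ⟨y, hy0, hy⟩ := halg.exists_integral_multiple
  obtain ⟨q, hq⟩ := exists_aeval_eq y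
  refine ⟨q, ?_, ?_⟩
  · rw [hq]; exact fun h => hy0 (Subtype.ext h)
  · rw [hq]; exact hy

theorem intOver_mem_place {y : L} (hy : IntOver K0 x y) (P : Place K0 L)
    (hx : x ∈ P.toValuationSubring) : y ∈ P.toValuationSubring := by
  have hle : ∀ r : Algebra.adjoin K0 ({x} : Set L), (r : L) ∈ P.toValuationSubring := by
    intro r
    obtain ⟨p, hp⟩ := exists_aeval_eq r
    rw [← hp, aeval_eq_sum_range]
    refine sum_mem fun i _ => ?_
    rw [Algebra.smul_def]
    exact mul_mem (P.algebraMap_mem' _) (pow_mem hx _)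
  obtain ⟨p, hmon, hp⟩ := hy
  let ι : Algebra.adjoin K0 ({x} : Set L) →+* P.toValuationSubring :=
    (Algebra.adjoin K0 ({x} : Set L)).val.toRingHom.codRestrict P.toValuationSubring.toSubring hle
  have hint : IsIntegral P.toValuationSubring y := by
    refine ⟨p.map ι, hmon.map ι, ?_⟩
    rw [eval₂_map]
    exact hp
  obtain ⟨z, hz⟩ := IsIntegrallyClosed.isIntegral_iff.1 hint
  exact hz ▸ z.2

theorem intOver_of_forall_place [FiniteDimensional K0⟮x⟯ L] [Algebra.IsSeparable K0⟮x⟯ L] {y : L}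
    (h : ∀ P : Place K0 L, x ∈ P.toValuationSubring → y ∈ P.toValuationSubring) :
    IntOver K0 x y := by
  have := isPrincipalIdealRing_adjoin (K0 := K0) (x := x)
  let R := Algebra.adjoin K0 ({x} : Set L)
  let S := integralClosure R L
  have : IsDedekindDomain S := integralClosure.isDedekindDomain R K0⟮x⟯ L
  have : IsFractionRing S L := integralClosure.isFractionRing_of_finite_extension K0⟮x⟯ L
  obtain ⟨z, hz⟩ := IsDedekindDomain.HeightOneSpectrum.mem_integers_of_valuation_le_one L (R := S) y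
    fun w => by
      have hmem := h (Place.ofHeightOneSpectrum (K := K0) w) (by
        rw [Place.ofHeightOneSpectrum_toValuationSubring, Valuation.mem_valuationSubring_iff]
        exact w.valuation_le_one (⟨x, isIntegral_algebraMap
          (x := (⟨x, Algebra.subset_adjoin rfl⟩ : R))⟩ : S))
      rwa [Place.ofHeightOneSpectrum_toValuationSubring,
        Valuation.mem_valuationSubring_iff] at hmem
  rw [← hz]
  exact z.2

section Traces

variable [FiniteDimensional K0⟮x⟯ L]

local notation "Ω" => AlgebraicClosure L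

theorem sub_algebraMap_ne_zero (hx : Transcendental K0 x) (a : K0) :
    x - algebraMap K0 L a ≠ 0 := fun h => hx (by
  rw [sub_eq_zero.1 h]; exact isAlgebraic_algebraMap a)

theorem intOver_embedding {y : L} (hy : IntOver K0 x y) (σ : L →ₐ[K0⟮x⟯] Ω) :
    σ y ∈ integralClosure (Algebra.adjoin K0 ({x} : Set L)) Ω :=
  hy.map (σ.restrictScalars (Algebra.adjoin K0 ({x} : Set L)))

/-- If a power of the integral element `y` is divisible by `x - a`, the trace of `y` vanishes at
`a`. -/
theorem trace_eval_eq_zero [Algebra.IsSeparable K0⟮x⟯ L] (hx : Transcendental K0 x) {y w : L}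
    {a : K0} (hy : IntOver K0 x y) (hw : IntOver K0 x w) {m : ℕ}
    (hpow : y ^ m = (x - algebraMap K0 L a) * w) {T : K0[X]}
    (hT : aeval x T = (Algebra.trace K0⟮x⟯ L y : L)) : T.eval a = 0 := by
  classical
  set R := Algebra.adjoin K0 ({x} : Set L)
  let S := integralClosure R Ω
  let t : S := ⟨algebraMap L Ω (x - algebraMap K0 L a),
    (intOver_sub a).map (IsScalarTower.toAlgHom R L Ω)⟩
  have hmem : ∀ σ : L →ₐ[K0⟮x⟯] Ω,
      (⟨σ y, intOver_embedding hy σ⟩ : S) ∈ (Ideal.span {t}).radical := by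
    intro σ
    refine ⟨m, Ideal.mem_span_singleton'.2 ⟨⟨σ w, intOver_embedding hw σ⟩, ?_⟩⟩
    apply Subtype.ext
    show σ w * algebraMap L Ω (x - algebraMap K0 L a) = σ y ^ m
    rw [← map_pow, hpow, map_mul, mul_comm]
    congr 1
    have hxE : x - algebraMap K0 L a ∈ K0⟮x⟯ :=
      sub_mem (mem_adjoin_simple_self K0 x) (IntermediateField.algebraMap_mem _ a)
    exact ((σ.commutes ⟨_, hxE⟩).trans
      (IsScalarTower.algebraMap_apply K0⟮x⟯ L Ω ⟨_, hxE⟩)).symm
  obtain ⟨N, hN⟩ := Ideal.sum_mem _ (fun σ (_ : σ ∈ Finset.univ) => hmem σ)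
  obtain ⟨s, hs⟩ := Ideal.mem_span_singleton'.1 hN
  have hsum : ((∑ σ : L →ₐ[K0⟮x⟯] Ω, (⟨σ y, intOver_embedding hy σ⟩ : S) : S) : Ω) =
      algebraMap L Ω (aeval x T) := by
    rw [hT, AddSubmonoidClass.coe_finsetSum]
    exact (trace_eq_sum_embeddings Ω (K := K0⟮x⟯) (L := L) (x := y)).symm.trans
      (IsScalarTower.algebraMap_apply K0⟮x⟯ L Ω _)
  have hs' := congrArg Subtype.val hs
  simp only [MulMemClass.coe_mul, SubmonoidClass.coe_pow, hsum] at hs'
  have hne := sub_algebraMap_ne_zero hx a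
  have hs2 : (s : Ω) = algebraMap L Ω (aeval x T ^ N / (x - algebraMap K0 L a)) := by
    rw [map_div₀, map_pow, eq_div_iff ((_root_.map_ne_zero _).2 hne), ← hs']
  obtain ⟨U, hU⟩ := exists_aeval_eq_of_intOver
    (r := aeval x T ^ N / (x - algebraMap K0 L a))
    (div_mem (pow_mem (algebra_adjoin_le_adjoin K0 _ (aeval_mem_adjoin_singleton K0 x)) N)
      (sub_mem (mem_adjoin_simple_self K0 x) (IntermediateField.algebraMap_mem _ a)))
    ((isIntegral_algHom_iff (IsScalarTower.toAlgHom R L Ω)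
      (algebraMap L Ω).injective).1 (hs2 ▸ s.2))
  have hdvd : T ^ N = (X - C a) * U := by
    apply transcendental_iff_injective.1 hx
    rw [map_pow, map_mul, map_sub, aeval_X, aeval_C, hU]
    field_simp
  have h0 := congrArg (eval a) hdvd
  rw [eval_pow, eval_mul, eval_sub, eval_X, eval_C, sub_self, zero_mul] at h0
  exact eq_zero_of_pow_eq_zero h0

/-- The trace of an element which is idempotent and non-zero modulo `x - a` does not vanish
at `a`. -/
theorem trace_eval_ne_zero [CharZero K0] [Algebra.IsSeparable K0⟮x⟯ L]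
    (hx : Transcendental K0 x) {f w : L}
    {a : K0} (hf : IntOver K0 x f) (hw : IntOver K0 x w)
    (hidem : f ^ 2 - f = (x - algebraMap K0 L a) * w)
    (hnot : ∀ (n : ℕ) (z : L), IntOver K0 x z → f ^ n ≠ (x - algebraMap K0 L a) * z)
    {T : K0[X]} (hT : aeval x T = (Algebra.trace K0⟮x⟯ L f : L)) : T.eval a ≠ 0 := by
  classical
  set R := Algebra.adjoin K0 ({x} : Set L)
  let S := integralClosure R Ω
  have hne := sub_algebraMap_ne_zero hx a
  let t : S := ⟨algebraMap L Ω (x - algebraMap K0 L a),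
    (intOver_sub a).map (IsScalarTower.toAlgHom R L Ω)⟩
  have ht : ∀ σ : L →ₐ[K0⟮x⟯] Ω,
      σ (x - algebraMap K0 L a) = algebraMap L Ω (x - algebraMap K0 L a) := fun σ => by
    have hxE : x - algebraMap K0 L a ∈ K0⟮x⟯ :=
      sub_mem (mem_adjoin_simple_self K0 x) (IntermediateField.algebraMap_mem _ a)
    exact (σ.commutes ⟨_, hxE⟩).trans
      (IsScalarTower.algebraMap_apply K0⟮x⟯ L Ω ⟨_, hxE⟩)
  let g : (L →ₐ[K0⟮x⟯] Ω) → S := fun σ => ⟨σ f, intOver_embedding hf σ⟩
  -- some embedding of `f` avoids some prime over `x - a`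
  obtain ⟨σ₀, Q, hQ, htQ, hgQ⟩ : ∃ σ₀, ∃ Q : Ideal S, Q.IsPrime ∧ t ∈ Q ∧ g σ₀ ∉ Q := by
    by_contra hall
    push Not at hall
    obtain ⟨σ⟩ : Nonempty (L →ₐ[K0⟮x⟯] Ω) := ⟨IsAlgClosed.lift⟩
    have : g σ ∈ (Ideal.span {t}).radical := by
      rw [Ideal.radical_eq_sInf]
      refine Submodule.mem_sInf.2 fun Q hQ => ?_
      exact hall σ Q hQ.2 (hQ.1 (Ideal.mem_span_singleton_self t))
    obtain ⟨n, hn⟩ := this
    obtain ⟨s, hs⟩ := Ideal.mem_span_singleton'.1 hn
    have hs' := congrArg Subtype.val hs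
    simp only [MulMemClass.coe_mul, SubmonoidClass.coe_pow] at hs'
    refine hnot n (f ^ n / (x - algebraMap K0 L a)) ?_ (by field_simp)
    refine (isIntegral_algHom_iff (σ.restrictScalars R) σ.toRingHom.injective).1 ?_
    have : (σ.restrictScalars R) (f ^ n / (x - algebraMap K0 L a)) = (s : Ω) := by
      show σ _ = _
      rw [map_div₀, map_pow, ht, div_eq_iff ((_root_.map_ne_zero _).2 hne)]
      exact hs'.symm
    rw [this]
    exact s.2
  let s := Finset.univ.filter fun σ : L →ₐ[K0⟮x⟯] Ω => g σ ∉ Q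
  have hg1 : ∀ σ, g σ ∉ Q → g σ - 1 ∈ Q := fun σ hσ => by
    have hmul : g σ * (g σ - 1) ∈ Q := by
      have : g σ * (g σ - 1) = t * ⟨σ w, intOver_embedding hw σ⟩ := by
        apply Subtype.ext
        show σ f * (σ f - 1) = algebraMap L Ω (x - algebraMap K0 L a) * σ w
        rw [← ht σ, ← map_mul, ← hidem, map_sub, map_pow]
        ring
      rw [this]
      exact Ideal.mul_mem_right _ _ htQ
    exact (hQ.mem_or_mem hmul).resolve_left hσ
  have hcount : (∑ σ, g σ) - (s.card : S) ∈ Q := by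
    have : (∑ σ, g σ) - (s.card : S) = ∑ σ, (g σ - if g σ ∉ Q then 1 else 0) := by
      rw [Finset.sum_sub_distrib, Finset.sum_boole]
    rw [this]
    refine Ideal.sum_mem _ fun σ _ => ?_
    split_ifs with hσ
    · simpa using hσ
    · exact hg1 σ hσ
  obtain ⟨U, hU⟩ : X - C a ∣ T - C (T.eval a) := by
    rw [dvd_iff_isRoot]; simp
  have hTa : (∑ σ, g σ) - (⟨algebraMap L Ω (algebraMap K0 L (T.eval a)),
      (intOver_algebraMap (T.eval a)).map (IsScalarTower.toAlgHom R L Ω)⟩ : S) ∈ Q := by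
    have : (∑ σ, g σ) - (⟨algebraMap L Ω (algebraMap K0 L (T.eval a)),
      (intOver_algebraMap (T.eval a)).map (IsScalarTower.toAlgHom R L Ω)⟩ : S) =
        t * ⟨algebraMap L Ω (aeval x U),
          (intOver_aeval U).map (IsScalarTower.toAlgHom R L Ω)⟩ := by
      apply Subtype.ext
      show ((∑ σ, g σ : S) : Ω) - algebraMap L Ω (algebraMap K0 L (T.eval a)) =
        algebraMap L Ω (x - algebraMap K0 L a) * algebraMap L Ω (aeval x U)
      rw [AddSubmonoidClass.coe_finsetSum]
      show (∑ σ : L →ₐ[K0⟮x⟯] Ω, σ f) - _ = _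
      rw [← trace_eq_sum_embeddings Ω (K := K0⟮x⟯) (L := L) (x := f),
        IsScalarTower.algebraMap_apply K0⟮x⟯ L Ω]
      show algebraMap L Ω ((Algebra.trace K0⟮x⟯ L f : L)) - _ = _
      rw [← hT, ← map_mul, ← map_sub]
      congr 1
      have := congrArg (aeval x) hU
      simpa using this
    rw [this]
    exact Ideal.mul_mem_right _ _ htQ
  intro h0
  have h3 : ((s.card : ℕ) : S) ∈ Q := by
    have h4 := Ideal.sub_mem _ hTa hcount
    have : (⟨algebraMap L Ω (algebraMap K0 L (T.eval a)),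
      (intOver_algebraMap (T.eval a)).map (IsScalarTower.toAlgHom R L Ω)⟩ : S) = 0 :=
        Subtype.ext (by show algebraMap L Ω _ = 0; rw [h0, map_zero, map_zero])
    rw [this] at h4
    simpa using h4
  have hn : s.card ≠ 0 := Finset.card_ne_zero_of_mem (Finset.mem_filter.2
    ⟨Finset.mem_univ σ₀, hgQ⟩)
  refine hQ.ne_top (Ideal.eq_top_of_isUnit_mem _ h3 ?_)
  have hu : IsUnit ((s.card : ℕ) : K0) := isUnit_iff_ne_zero.2 (Nat.cast_ne_zero.2 hn)
  have := hu.map (algebraMap K0 S)
  rwa [map_natCast] at this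

end Traces

end Fermat.Agent.Igusa

end
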