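/-
Local bases of chart modules near a residue disc, for a Gauss reduction.
-/
import Fermat.Agent.Igusa.TameGauss
import Fermat.Agent.Igusa.TameIntegral
import Fermat.Agent.Curve.BasicFunctionField
import Mathlib.RingTheory.Discriminant
import Mathlib.LinearAlgebra.Matrix.Adjugate
import Mathlib.FieldTheory.Perfect

set_option autoImplicit false

noncomputable section

namespace Fermat.Agent.Igusa

open AlgebraicCurve IntermediateField Polynomial
open scoped IntermediateField.algebraAdjoinAdjoin

universe uK uF uk uFb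

variable {K : Type uK} [Field K] {A : ValuationSubring K}
  {F : Type uF} [Field F] [Algebra K F]
  {k : Type uk} [Field k] {Fb : Type uFb} [Field Fb] [Algebra k Fb]
  (G : Curve.GaussReduction A F k Fb)

theorem transcendental_x : Transcendental K (G.x : F) := by
  rw [transcendental_iff]
  intro p hp
  by_contra hp0
  obtain ⟨a, q, -, hq, hqπ⟩ := exists_scaled G hp0
  have := tameGauss_coe_ne_zero G (φ_tameEval_ne_zero G hqπ)
  rw [coe_tameEval, hq, map_mul, hp, mul_zero] at this
  exact this rfl

theorem finiteDimensional_x : FiniteDimensional K⟮(G.x : F)⟯ F :=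
  Module.finite_of_finrank_pos (G.degree_eq ▸ G.degree_pos)

theorem finiteDimensional_xBar : FiniteDimensional k⟮G.φ G.x⟯ Fb :=
  Module.finite_of_finrank_pos G.degree_pos

theorem isSeparable_x [CharZero K] : Algebra.IsSeparable K⟮(G.x : F)⟯ F := by
  have := finiteDimensional_x G
  infer_instance

/-- The trace of an integral element of `V` is an integral polynomial in `x`. -/
theorem exists_trace_poly {f : G.V} (hf : IntOver K (G.x : F) (f : F)) :
    ∃ T : A[X], (tameEval G T : F) = (Algebra.trace K⟮(G.x : F)⟯ F (f : F) : F) ∧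
      aeval (G.φ G.x) (T.map G.π) = (Algebra.trace k⟮G.φ G.x⟯ Fb (G.φ f) : Fb) := by
  have := finiteDimensional_x G
  obtain ⟨b, hb⟩ := exists_isLiftBasis G
  obtain ⟨p, hp⟩ := exists_trace_eq hf
  obtain ⟨hmem, hφ⟩ := hb.exists_trace f
  obtain ⟨T, hT⟩ := exists_of_aeval_mem G (p := p) (hp ▸ hmem)
  have h1 : (tameEval G T : F) = (Algebra.trace K⟮(G.x : F)⟯ F (f : F) : F) := by
    rw [coe_tameEval, hT, hp]
  refine ⟨T, h1, ?_⟩
  rw [← φ_tameEval, ← hφ]
  exact congrArg _ (Subtype.ext h1)

/-- A module over `K[x]` of functions integral over `K[x]`. -/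
structure IsChartModule (W : F → Prop) : Prop where
  int : ∀ f, W f → IntOver K (G.x : F) f
  zero : W 0
  add : ∀ f g, W f → W g → W (f + g)
  mul : ∀ (p : K[X]) f, W f → W (aeval (G.x : F) p * f)

namespace IsChartModule

variable {G} {W : F → Prop} (hW : IsChartModule G W)
include hW

theorem sum {ι : Type*} (s : Finset ι) (g : ι → F) (h : ∀ i ∈ s, W (g i)) :
    W (∑ i ∈ s, g i) := by
  classical
  induction s using Finset.induction_on with
  | empty => simpa using hW.zero
  | insert a t hat ih =>
    rw [Finset.sum_insert hat]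
    exact hW.add _ _ (h a (by simp)) (ih fun i hi => h i (Finset.mem_insert_of_mem hi))

theorem smul (c : K) {f : F} (hf : W f) : W (algebraMap K F c * f) := by
  simpa using hW.mul (C c) f hf

theorem sub {f g : F} (hf : W f) (hg : W g) : W (f - g) := by
  have := hW.add _ _ hf (hW.smul (-1) hg)
  simpa [sub_eq_add_neg] using this

end IsChartModule

/-- `b` is a basis of the special fibre of the chart module `W` near `ā = π a`. -/
structure IsLocalBasis (W : F → Prop) (a : A)
    (b : Fin (Module.finrank k⟮G.φ G.x⟯ Fb) → G.V) : Prop where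
  basis : IsLiftBasis G b
  mem : ∀ i, W (b i)
  span : ∀ f : G.V, W f → ∃ (q : k[X]) (p : Fin (Module.finrank k⟮G.φ G.x⟯ Fb) → k[X]),
    q.eval (G.π a) ≠ 0 ∧
      aeval (G.φ G.x) q * G.φ f = ∑ i, aeval (G.φ G.x) (p i) * G.φ (b i)

theorem aeval_xBar_injective : Function.Injective (aeval (R := k) (G.φ G.x)) :=
  transcendental_iff_injective.1 G.x_transcendental

/-- The polynomial discriminant of a family in `V` of integral elements. -/
theorem exists_discr_poly [Algebra.IsSeparable k⟮G.φ G.x⟯ Fb]
    {b : Fin (Module.finrank k⟮G.φ G.x⟯ Fb) → G.V} (hb : IsLiftBasis G b)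
    (hint : ∀ i, IntOver K (G.x : F) (b i : F)) :
    ∃ D : k[X], D ≠ 0 ∧ aeval (G.φ G.x) D =
      (Algebra.discr k⟮G.φ G.x⟯ (fun i => G.φ (b i)) : Fb) := by
  classical
  have := finiteDimensional_xBar G
  choose T _ hT using fun i j => exists_trace_poly G (f := b i * b j)
    (by push_cast; exact (hint i).mul (hint j))
  refine ⟨(Matrix.of fun i j => (T i j).map G.π).det, ?_, ?_⟩
  swap
  · rw [Algebra.discr_def]
    show _ = k⟮G.φ G.x⟯.val (Matrix.det _)
    rw [AlgHom.map_det, AlgHom.map_det]
    congr 1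
    ext i j
    simp [Algebra.traceMatrix_apply, Algebra.traceForm_apply, hT]
  · intro h0
    have hne : Algebra.discr k⟮G.φ G.x⟯ (fun i => G.φ (b i)) ≠ 0 := by
      have := Algebra.discr_not_zero_of_basis k⟮G.φ G.x⟯ hb.basisBar
      simpa [Function.comp_def, funext hb.basisBar_apply] using this
    apply hne
    apply Subtype.ext
    rw [ZeroMemClass.coe_zero]
    have h2 : (k⟮G.φ G.x⟯.val (Algebra.discr k⟮G.φ G.x⟯ (fun i => G.φ (b i)))) =
        aeval (G.φ G.x) (Matrix.of fun i j => (T i j).map G.π).det := by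
      rw [Algebra.discr_def, AlgHom.map_det, AlgHom.map_det]
      congr 1
      ext i j
      simp [Algebra.traceMatrix_apply, Algebra.traceForm_apply, hT]
    rw [h0, map_zero] at h2
    exact h2

open Classical in
/-- Local bases exist. -/
theorem exists_isLocalBasis [Algebra.IsSeparable k⟮G.φ G.x⟯ Fb] {W : F → Prop}
    (hW : IsChartModule G W) (hfull : ∃ b, IsLiftBasis G b ∧ ∀ i, W ((b i : G.V) : F)) (a : A) :
    ∃ b, IsLocalBasis G W a b := by
  have := finiteDimensional_xBar G
  have hex : ∃ n : ℕ, ∃ b, IsLiftBasis G b ∧ (∀ i, W ((b i : G.V) : F)) ∧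
      ∃ D : k[X], D ≠ 0 ∧ aeval (G.φ G.x) D =
        (Algebra.discr k⟮G.φ G.x⟯ (fun i => G.φ (b i)) : Fb) ∧
        D.rootMultiplicity (G.π a) = n := by
    obtain ⟨b, hb, hbW⟩ := hfull
    obtain ⟨D, hD0, hD⟩ := exists_discr_poly G hb fun i => hW.int _ (hbW i)
    exact ⟨_, b, hb, hbW, D, hD0, hD, rfl⟩
  obtain ⟨b, hb, hbW, D, hD0, hD, hDm⟩ := Nat.find_spec hex
  refine ⟨b, hb, hbW, fun f hf => ?_⟩
  -- each coordinate is regular at `ā`
  have key : ∀ i, ∃ num den : k[X], den.eval (G.π a) ≠ 0 ∧
      aeval (G.φ G.x) den * (hb.basisBar.repr (G.φ f) i : Fb) = aeval (G.φ G.x) num := by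
    intro i
    set r := hb.basisBar.repr (G.φ f) i with hr
    by_cases hr0 : r = 0
    · exact ⟨0, 1, by simp, by simp [hr0]⟩
    let b' := Function.update b i f
    let P : Matrix (Fin (Module.finrank k⟮G.φ G.x⟯ Fb)) (Fin (Module.finrank k⟮G.φ G.x⟯ Fb))
        k⟮G.φ G.x⟯ := (1 : Matrix _ _ _).updateCol i fun l => hb.basisBar.repr (G.φ f) l
    have hP : P.det = r := by
      have := Matrix.cramer_apply (1 : Matrix (Fin (Module.finrank k⟮G.φ G.x⟯ Fb))
        (Fin (Module.finrank k⟮G.φ G.x⟯ Fb)) k⟮G.φ G.x⟯)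
        (fun l => hb.basisBar.repr (G.φ f) l) i
      rw [Matrix.cramer_one] at this
      exact this.symm
    have hvec : Matrix.vecMul (fun l => G.φ (b l)) (P.map (algebraMap k⟮G.φ G.x⟯ Fb)) =
        fun l => G.φ (b' l) := by
      funext l
      rcases eq_or_ne l i with rfl | hl
      · have := hb.basisBar.sum_repr (G.φ f)
        simp only [IsLiftBasis.basisBar_apply, Algebra.smul_def] at this
        simp only [Matrix.vecMul, dotProduct, Matrix.map_apply, P, Matrix.updateCol_self, b',
          Function.update_self]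
        conv_rhs => rw [← this]
        exact Finset.sum_congr rfl fun m _ => mul_comm _ _
      · simp [Matrix.vecMul, dotProduct, P, b', Function.update_of_ne hl,
          Matrix.updateCol_ne hl, Matrix.one_apply, apply_ite (algebraMap k⟮G.φ G.x⟯ Fb)]
    have hdiscr : Algebra.discr k⟮G.φ G.x⟯ (fun l => G.φ (b' l)) =
        r ^ 2 * Algebra.discr k⟮G.φ G.x⟯ (fun l => G.φ (b l)) := by
      rw [← hvec, Algebra.discr_of_matrix_vecMul, hP]
    have hb'W : ∀ l, W (b' l : F) := fun l => by
      rcases eq_or_ne l i with rfl | hl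
      · simpa [b'] using hf
      · simpa [b', Function.update_of_ne hl] using hbW l
    have hb' : IsLiftBasis G b' := ⟨by
      by_contra hdep
      have h0 := Algebra.discr_zero_of_not_linearIndependent k⟮G.φ G.x⟯ hdep
      rw [hdiscr] at h0
      rcases mul_eq_zero.1 h0 with h | h
      · exact hr0 (eq_zero_of_pow_eq_zero h)
      · exact Algebra.discr_not_zero_of_basis k⟮G.φ G.x⟯ hb.basisBar
          (by simpa [Function.comp_def, funext hb.basisBar_apply] using h)⟩
    obtain ⟨D', hD'0, hD'⟩ := exists_discr_poly G hb' fun l => hW.int _ (hb'W l)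
    have hle : Nat.find hex ≤ D'.rootMultiplicity (G.π a) :=
      Nat.find_min' hex ⟨b', hb', hb'W, D', hD'0, hD', rfl⟩
    obtain ⟨num, den, hnd⟩ := (mem_adjoin_simple_iff k _).1 r.2
    have hden : aeval (G.φ G.x) den ≠ 0 := fun h => hr0 (Subtype.ext (by
      rw [hnd, h, div_zero]; rfl))
    have hden0 : den ≠ 0 := fun h => hden (by rw [h, map_zero])
    have hnum0 : num ≠ 0 := fun h => hr0 (Subtype.ext (by rw [hnd, h, map_zero, zero_div]; rfl))
    have heq : num ^ 2 * D = den ^ 2 * D' := by
      apply aeval_xBar_injective G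
      rw [map_mul, map_mul, map_pow, map_pow, hD, hD', hdiscr]
      push_cast
      rw [hnd, div_pow]
      field_simp
    have hmult := congrArg (rootMultiplicity (G.π a)) heq
    rw [rootMultiplicity_mul (mul_ne_zero (pow_ne_zero _ hnum0) hD0),
      rootMultiplicity_mul (mul_ne_zero (pow_ne_zero _ hden0) hD'0), sq, sq,
      rootMultiplicity_mul (mul_ne_zero hnum0 hnum0),
      rootMultiplicity_mul (mul_ne_zero hden0 hden0), hDm] at hmult
    obtain ⟨den', hden', hndvd⟩ := exists_eq_pow_rootMultiplicity_mul_and_not_dvd den hden0 (G.π a)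
    obtain ⟨num', hnum'⟩ : (X - C (G.π a)) ^ den.rootMultiplicity (G.π a) ∣ num :=
      (pow_dvd_pow _ (by omega)).trans (pow_rootMultiplicity_dvd num (G.π a))
    refine ⟨num', den', fun h => hndvd (dvd_iff_isRoot.2 h), ?_⟩
    have hpow : aeval (G.φ G.x) ((X - C (G.π a)) ^ den.rootMultiplicity (G.π a)) ≠ 0 := by
      refine fun h => hden ?_
      rw [hden', map_mul, h, zero_mul]
    have h3 : (r : Fb) * aeval (G.φ G.x) den = aeval (G.φ G.x) num := by
      rw [hnd, div_mul_cancel₀ _ hden]
    rw [hden', map_mul, hnum', map_mul] at h3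
    apply mul_left_cancel₀ hpow
    rw [← h3]; ring
  choose num den hden hrel using key
  refine ⟨∏ i, den i, fun i => num i * ∏ l ∈ Finset.univ.erase i, den l, ?_, ?_⟩
  · rw [eval_prod]
    exact Finset.prod_ne_zero_iff.2 fun i _ => hden i
  · have := hb.basisBar.sum_repr (G.φ f)
    simp only [IsLiftBasis.basisBar_apply, Algebra.smul_def] at this
    conv_lhs => rw [← this]
    rw [Finset.mul_sum]
    refine Finset.sum_congr rfl fun i _ => ?_
    rw [← Finset.mul_prod_erase Finset.univ den (Finset.mem_univ i), map_mul, map_mul,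
      ← hrel i]
    show _ * ((hb.basisBar.repr (G.φ f) i : Fb) * _) = _
    ring

variable {G} {W : F → Prop} {a : A} {b : Fin (Module.finrank k⟮G.φ G.x⟯ Fb) → G.V}

/-- A local basis stays independent modulo `x - α` for every `α` in the residue disc. -/
theorem IsLocalBasis.eq_zero_of_combination (hb : IsLocalBasis G W a b) (hW : IsChartModule G W)
    {α : A} (hα : G.π α = G.π a) (lam : Fin (Module.finrank k⟮G.φ G.x⟯ Fb) → K) {w : F}
    (hw : W w)
    (h : ∑ i, algebraMap K F (lam i) * (b i : F) =
      ((G.x : F) - algebraMap K F (α : K)) * w) : lam = 0 := by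
  classical
  by_contra hne
  obtain ⟨i0, hi0⟩ := Function.ne_iff.1 hne
  obtain ⟨j, -, hmax⟩ := Finset.univ.exists_max_image (fun l => A.valuation (lam l))
    ⟨i0, Finset.mem_univ _⟩
  have hj0 : lam j ≠ 0 := fun h0 => hi0 (by
    have := hmax i0 (Finset.mem_univ _)
    rw [h0, map_zero] at this
    exact (map_eq_zero A.valuation).1 (le_antisymm this zero_le))
  have hA : ∀ l, (lam j)⁻¹ * lam l ∈ A := fun l => by
    rw [← A.valuation_le_one_iff, map_mul, map_inv₀, mul_comm, ← div_eq_mul_inv]
    exact div_le_one_of_le₀ (hmax l (Finset.mem_univ _)) zero_le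
  let mu : Fin (Module.finrank k⟮G.φ G.x⟯ Fb) → A := fun l => ⟨_, hA l⟩
  let u : G.V := tameEval G (X - C α)
  have hu : G.φ u ≠ 0 := φ_tameEval_ne_zero G (by
    rw [Polynomial.map_sub, map_X, map_C]; exact X_sub_C_ne_zero _)
  have hucoe : (u : F) = (G.x : F) - algebraMap K F (α : K) := by simp [u]
  have hsum : ((∑ i, tameConst G (mu i) * b i : G.V) : F) =
      (u : F) * (algebraMap K F (lam j)⁻¹ * w) := by
    push_cast
    rw [hucoe, ← mul_assoc, mul_comm (_ - _) (algebraMap K F (lam j)⁻¹), mul_assoc, ← h,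
      Finset.mul_sum]
    refine Finset.sum_congr rfl fun i _ => ?_
    simp [mu, mul_assoc]
  let w' : G.V := (∑ i, tameConst G (mu i) * b i) * ⟨_, tameGauss_inv_mem G hu⟩
  have hw' : (w' : F) = algebraMap K F (lam j)⁻¹ * w := by
    show ((∑ i, tameConst G (mu i) * b i : G.V) : F) * (u : F)⁻¹ = _
    rw [hsum, mul_comm (u : F), mul_assoc, mul_inv_cancel₀ (tameGauss_coe_ne_zero G hu), mul_one]
  obtain ⟨q, p, hq, hqp⟩ := hb.span w' (by rw [hw']; exact hW.smul _ hw)
  have hrel : ∑ i, tameConst G (mu i) * b i = u * w' := by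
    apply Subtype.ext
    rw [MulMemClass.coe_mul, hw', hsum]
  have h2 := congrArg G.φ hrel
  rw [map_sum, map_mul] at h2
  simp only [map_mul, φ_tameConst] at h2
  have huφ : G.φ u = aeval (G.φ G.x) (X - C (G.π a)) := by
    rw [φ_tameEval, Polynomial.map_sub, map_X, map_C, hα]
  have h3 : ∑ i, aeval (G.φ G.x) (q * C (G.π (mu i)) - (X - C (G.π a)) * p i) * G.φ (b i) = 0 := by
    have h4 : ∑ i, aeval (G.φ G.x) (q * C (G.π (mu i))) * G.φ (b i) =
        ∑ i, aeval (G.φ G.x) ((X - C (G.π a)) * p i) * G.φ (b i) := by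
      calc ∑ i, aeval (G.φ G.x) (q * C (G.π (mu i))) * G.φ (b i)
          = aeval (G.φ G.x) q * ∑ i, algebraMap k Fb (G.π (mu i)) * G.φ (b i) := by
            rw [Finset.mul_sum]
            exact Finset.sum_congr rfl fun i _ => by rw [map_mul, aeval_C, mul_assoc]
        _ = G.φ u * (aeval (G.φ G.x) q * G.φ w') := by rw [h2]; ring
        _ = _ := by
            rw [hqp, huφ, Finset.mul_sum]
            exact Finset.sum_congr rfl fun i _ => by rw [map_mul (aeval _) _ (p i), mul_assoc]
    rw [← sub_eq_zero, ← Finset.sum_sub_distrib] at h4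
    rw [← h4]
    exact Finset.sum_congr rfl fun i _ => by rw [map_sub, sub_mul]
  have h5 := hb.basis.hind (fun i => aeval (G.φ G.x) (q * C (G.π (mu i)) -
    (X - C (G.π a)) * p i))
    (fun i => algebra_adjoin_le_adjoin k _ (aeval_mem_adjoin_singleton k _)) h3 j
  have h6 : q * C (G.π (mu j)) - (X - C (G.π a)) * p j = 0 :=
    aeval_xBar_injective G (by rw [h5, map_zero])
  have hmuj : mu j = 1 := Subtype.ext (inv_mul_cancel₀ hj0)
  rw [hmuj, map_one, map_one, mul_one, sub_eq_zero] at h6
  exact hq (by rw [h6]; simp)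

/-- Coordinates with respect to a local basis are regular on the residue disc. -/
theorem IsLocalBasis.exists_coords (hb : IsLocalBasis G W a b) (hW : IsChartModule G W)
    {α : A} (hα : G.π α = G.π a) {f : F} (hf : W f) :
    ∃ (q : K[X]) (p : Fin (Module.finrank k⟮G.φ G.x⟯ Fb) → K[X]), q.eval (α : K) ≠ 0 ∧
      aeval (G.x : F) q * f = ∑ i, aeval (G.x : F) (p i) * (b i : F) := by
  classical
  have := finiteDimensional_x G
  have hinj : Function.Injective (aeval (R := K) (G.x : F)) :=
    transcendental_iff_injective.1 (transcendental_x G)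
  have step : ∀ (n : ℕ) (q : K[X]) (p : Fin (Module.finrank k⟮G.φ G.x⟯ Fb) → K[X]),
      q.natDegree ≤ n → q ≠ 0 →
      aeval (G.x : F) q * f = ∑ i, aeval (G.x : F) (p i) * (b i : F) →
      ∃ (q : K[X]) (p : Fin (Module.finrank k⟮G.φ G.x⟯ Fb) → K[X]), q.eval (α : K) ≠ 0 ∧
        aeval (G.x : F) q * f = ∑ i, aeval (G.x : F) (p i) * (b i : F) := by
    intro n
    induction n with
    | zero =>
      intro q p hn hq hqp
      refine ⟨q, p, ?_, hqp⟩
      obtain ⟨c, rfl⟩ : ∃ c, q = C c := ⟨_, eq_C_of_natDegree_le_zero hn⟩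
      simpa using hq
    | succ n ih =>
      intro q p hn hq hqp
      by_cases hroot : q.eval (α : K) = 0
      swap
      · exact ⟨q, p, hroot, hqp⟩
      obtain ⟨q', hq'⟩ := dvd_iff_isRoot.2 hroot
      have hdvd : ∀ i, ∃ u, p i - C ((p i).eval (α : K)) = (X - C (α : K)) * u := fun i =>
        (dvd_iff_isRoot (p := p i - C ((p i).eval (α : K)))).2 (by simp)
      choose u hu using hdvd
      let w : F := aeval (G.x : F) q' * f - ∑ i, aeval (G.x : F) (u i) * (b i : F)
      have hwW : W w := hW.sub (hW.mul _ _ hf) (hW.sum _ _ fun i _ => hW.mul _ _ (hb.mem i))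
      have hx : (G.x : F) - algebraMap K F (α : K) = aeval (G.x : F) (X - C (α : K)) := by simp
      have hcomb : ∑ i, algebraMap K F ((p i).eval (α : K)) * (b i : F) =
          ((G.x : F) - algebraMap K F (α : K)) * w := by
        rw [mul_sub, ← mul_assoc, hx, ← map_mul, ← hq', hqp, Finset.mul_sum,
          ← Finset.sum_sub_distrib]
        refine Finset.sum_congr rfl fun i _ => ?_
        rw [← mul_assoc, ← sub_mul, ← map_mul, ← hu, ← map_sub, sub_sub_cancel, aeval_C]
      have hl := hb.eq_zero_of_combination hW hα _ hwW hcomb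
      have hw0 : w = 0 := by
        have hne : (G.x : F) - algebraMap K F (α : K) ≠ 0 := by
          rw [hx]
          exact fun h0 => X_sub_C_ne_zero (α : K) (hinj (by rw [h0, map_zero]))
        have : ((G.x : F) - algebraMap K F (α : K)) * w = 0 := by
          rw [← hcomb]
          exact Finset.sum_eq_zero fun i _ => by rw [congrFun hl i]; simp
        exact (mul_eq_zero.1 this).resolve_left hne
      have hq'0 : q' ≠ 0 := fun h0 => hq (by rw [hq', h0, mul_zero])
      refine ih q' u ?_ hq'0 (sub_eq_zero.1 hw0)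
      have := congrArg Polynomial.natDegree hq'
      rw [natDegree_mul (X_sub_C_ne_zero _) hq'0, natDegree_X_sub_C] at this
      omega
  choose num den hnd using fun i => (mem_adjoin_simple_iff K _).1 (hb.basis.basis.repr f i).2
  let den' : Fin (Module.finrank k⟮G.φ G.x⟯ Fb) → K[X] := fun i =>
    if den i = 0 then 1 else den i
  let num' : Fin (Module.finrank k⟮G.φ G.x⟯ Fb) → K[X] := fun i =>
    if den i = 0 then 0 else num i
  have hden' : ∀ i, den' i ≠ 0 := fun i => by
    simp only [den']; split_ifs with h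
    · exact one_ne_zero
    · exact h
  have hrel : ∀ i, aeval (G.x : F) (den' i) * (hb.basis.basis.repr f i : F) =
      aeval (G.x : F) (num' i) := fun i => by
    simp only [den', num']; split_ifs with h
    · rw [hnd i, h, map_zero, div_zero, mul_zero]
    · rw [hnd i, mul_div_cancel₀]
      exact fun h0 => h (hinj (by rw [h0, map_zero]))
  refine step _ (∏ i, den' i) (fun i => num' i * ∏ l ∈ Finset.univ.erase i, den' l) le_rfl
    (Finset.prod_ne_zero_iff.2 fun i _ => hden' i) ?_
  have := hb.basis.basis.sum_repr f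
  simp only [IsLiftBasis.basis_apply, Algebra.smul_def] at this
  conv_lhs => rw [← this]
  rw [Finset.mul_sum]
  refine Finset.sum_congr rfl fun i _ => ?_
  rw [← Finset.mul_prod_erase Finset.univ den' (Finset.mem_univ i), map_mul, map_mul, ← hrel i]
  show _ * ((hb.basis.basis.repr f i : F) * _) = _
  ring

end Fermat.Agent.Igusa

end
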