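/-
Regular functions over a residue disc, and the non-degeneracy criterion at a point of the disc.
-/
import Fermat.Agent.Igusa.TameLocal

set_option autoImplicit false

noncomputable section

namespace Fermat.Agent.Igusa

open AlgebraicCurve IntermediateField Polynomial Curve

universe uK uF uk uFb

variable {K : Type uK} [Field K] [CharZero K] {A : ValuationSubring K}
  {F : Type uF} [Field F] [Algebra K F] [IsFunctionFieldOne K F]
  {k : Type uk} [Field k] {Fb : Type uFb} [Field Fb] [Algebra k Fb]
  (G : Curve.GaussReduction A F k Fb)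

omit [CharZero K] [IsFunctionFieldOne K F] in
theorem x_mem_of_ord_pos {P : Place K F} {α : K}
    (h : 0 < P.ord ((G.x : F) - algebraMap K F α)) : (G.x : F) ∈ P.toValuationSubring := by
  have := add_mem (mem_of_ord_nonneg P h.le) (P.algebraMap_mem' α)
  simpa using this

omit [CharZero K] [IsFunctionFieldOne K F] in
theorem aeval_mem_place {P : Place K F} (hx : (G.x : F) ∈ P.toValuationSubring) (p : K[X]) :
    aeval (G.x : F) p ∈ P.toValuationSubring :=
  intOver_mem_place (intOver_aeval p) P hx

omit [CharZero K] [IsFunctionFieldOne K F] in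
theorem eq_of_ord_pos {P : Place K F} {α β : K}
    (hα : 0 < P.ord ((G.x : F) - algebraMap K F α))
    (hβ : 0 < P.ord ((G.x : F) - algebraMap K F β)) : α = β := by
  by_contra hne
  have h0 : algebraMap K F (β - α) ≠ 0 := by simpa [sub_eq_zero] using Ne.symm hne
  have heq : algebraMap K F (β - α) =
      ((G.x : F) - algebraMap K F α) + -((G.x : F) - algebraMap K F β) := by
    rw [map_sub]; ring
  have h1 := le_ord_add P 1 (f := (G.x : F) - algebraMap K F α)
    (g := -((G.x : F) - algebraMap K F β)) (by rw [← heq]; exact h0) (fun _ => by omega)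
    (fun _ => by rw [ord_neg]; omega)
  rw [← heq, ord_algebraMap] at h1
  omega

/-- Finitely many places lie over a value of `x`. -/
theorem finite_places_over (α : K) :
    {P : Place K F | 0 < P.ord ((G.x : F) - algebraMap K F α)}.Finite :=
  (finite_setOf_ord_ne_zero (K := K) _).subset fun _ hP => ne_of_gt hP

/-- An element integral off `x = α` and regular over `α` becomes integral after multiplication by
a polynomial with value one at `α`. -/
theorem exists_intOver_of_regular {f : F} {α : K}
    (hf : ∀ P : Place K F, 0 < P.ord ((G.x : F) - algebraMap K F α) → f ∈ P.toValuationSubring) :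
    ∃ q : K[X], q.eval α = 1 ∧ IntOver K (G.x : F) (aeval (G.x : F) q * f) := by
  have := finiteDimensional_x G
  have := isSeparable_x G
  obtain ⟨q, hq0, hq⟩ := exists_intOver_mul (K0 := K) (x := (G.x : F)) f
  have hqne : q ≠ 0 := fun h => hq0 (by rw [h, map_zero])
  obtain ⟨q', hq', hndvd⟩ := exists_eq_pow_rootMultiplicity_mul_and_not_dvd q hqne α
  have hev : q'.eval α ≠ 0 := fun h => hndvd (dvd_iff_isRoot.2 h)
  refine ⟨C (q'.eval α)⁻¹ * q', by simp [hev], ?_⟩
  have key : IntOver K (G.x : F) (aeval (G.x : F) q' * f) := by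
    refine intOver_of_forall_place fun P hxP => ?_
    by_cases hP : 0 < P.ord ((G.x : F) - algebraMap K F α)
    · exact mul_mem (aeval_mem_place G hxP _) (hf P hP)
    have h0 : P.ord ((G.x : F) - algebraMap K F α) = 0 := by
      have := ord_nonneg_of_mem P (sub_mem hxP (P.algebraMap_mem' α))
      omega
    have hne := sub_algebraMap_ne_zero (transcendental_x G) α
    have hinv : (((G.x : F) - algebraMap K F α) ^ (rootMultiplicity α q))⁻¹ ∈
        P.toValuationSubring := mem_of_ord_nonneg P (by rw [P.ord_inv, ord_pow, h0]; simp)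
    have hmem := mul_mem (intOver_mem_place hq P hxP) hinv
    convert hmem using 1
    generalize rootMultiplicity α q = r at hq'
    rw [hq', map_mul, map_pow, map_sub, aeval_X, aeval_C]
    field_simp
  rw [map_mul, aeval_C, mul_assoc]
  exact (intOver_algebraMap _).mul key

variable {G} {a : A} {b : Fin (Module.finrank k⟮G.φ G.x⟯ Fb) → G.V}

theorem isChartModule_intOver : IsChartModule G (IntOver K (G.x : F)) where
  int _ h := h
  zero := isIntegral_zero
  add _ _ := IsIntegral.add
  mul p _ h := (intOver_aeval p).mul h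

/-- If the traces of the products of a local basis with `h` vanish to order `> m` at `α`, then
`h` vanishes to order `> m e` at every place over `α`. -/
theorem ord_gt_of_trace_dvd (hb : IsLocalBasis G (IntOver K (G.x : F)) a b) {α : A}
    (hα : G.π α = G.π a) {h : F} (hh : IntOver K (G.x : F) h) (m : ℕ)
    (htr : ∀ i, ∃ U : K[X], (Algebra.trace K⟮(G.x : F)⟯ F ((b i : F) * h) : F) =
      aeval (G.x : F) ((X - C (α : K)) ^ (m + 1) * U))
    (P0 : Place K F) (hP0 : 0 < P0.ord ((G.x : F) - algebraMap K F (α : K))) (hh0 : h ≠ 0) :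
    (m : ℤ) * P0.ord ((G.x : F) - algebraMap K F (α : K)) < P0.ord h := by
  classical
  have := finiteDimensional_x G
  have := isSeparable_x G
  have hx := transcendental_x G
  have hinj : Function.Injective (aeval (R := K) (G.x : F)) := transcendental_iff_injective.1 hx
  by_contra hle
  push Not at hle
  set t : F := (G.x : F) - algebraMap K F (α : K) with ht
  have ht0 : t ≠ 0 := sub_algebraMap_ne_zero hx _
  have htX : aeval (G.x : F) (X - C (α : K)) = t := by simp [t]
  let s := (finite_places_over G (α : K)).toFinset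
  have hs : ∀ P, P ∈ s ↔ 0 < P.ord t := fun P => Set.Finite.mem_toFinset _
  obtain ⟨n, hn1, hn⟩ : ∃ n : ℕ, 1 ≤ n ∧ ∀ P ∈ s, P.ord t ≤ n ∧ P.ord h ≤ n := by
    refine ⟨1 + ∑ P ∈ s, ((P.ord t).natAbs + (P.ord h).natAbs), Nat.le_add_right _ _,
      fun P hP => ?_⟩
    have := Finset.single_le_sum (f := fun P : Place K F => (P.ord t).natAbs + (P.ord h).natAbs)
      (fun _ _ => Nat.zero_le _) hP
    omega
  let av : Place K F → F := fun P => if P = P0 then 1 else 0
  obtain ⟨f, hf⟩ := exists_approx s av n
  have hav : ∀ P, av P ∈ P.toValuationSubring := fun P => by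
    by_cases h : P = P0
    · simp [av, h]
    · simp [av, h]
  have hfreg : ∀ P : Place K F, 0 < P.ord t → f ∈ P.toValuationSubring := fun P hP => by
    have h1 : f - av P ∈ P.toValuationSubring := by
      rcases hf P ((hs P).2 hP) with h | h
      · rw [h]; exact zero_mem _
      · exact mem_of_ord_nonneg P (by omega)
    simpa using add_mem h1 (hav P)
  obtain ⟨q, hq1, hf1⟩ := exists_intOver_of_regular G hfreg
  set f1 := aeval (G.x : F) q * f with hf1def
  obtain ⟨U, hU⟩ : X - C (α : K) ∣ q - 1 := by
    rw [dvd_iff_isRoot]; simp [hq1]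
  have hq : aeval (G.x : F) q = 1 + t * aeval (G.x : F) U := by
    have := congrArg (aeval (G.x : F)) hU
    rw [map_sub, map_mul, map_one, htX] at this
    linear_combination this
  -- `f1` is idempotent modulo `t`
  have hidem : ∀ P : Place K F, 0 < P.ord t → (f ^ 2 - f) / t ∈ P.toValuationSubring := by
    intro P hP
    have hPs := (hs P).2 hP
    rcases eq_or_ne (f ^ 2 - f) 0 with h0 | h0
    · rw [h0, zero_div]; exact zero_mem _
    refine mem_of_ord_nonneg P ?_
    have hf0 : f ≠ 0 := fun h => h0 (by rw [h]; ring)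
    have hf10 : f - 1 ≠ 0 := fun h => h0 (by linear_combination f * h)
    have hge : (n : ℤ) ≤ P.ord f + P.ord (f - 1) := by
      rcases hf P hPs with h | h
      · by_cases hPP : P = P0
        · simp [av, hPP] at h; exact absurd h hf10
        · simp [av, hPP] at h; exact absurd h hf0
      · have hfnn := ord_nonneg_of_mem P (hfreg P hP)
        have h1nn := ord_nonneg_of_mem P (sub_mem (hfreg P hP) (one_mem _))
        by_cases hPP : P = P0
        · simp [av, hPP] at h
          rw [hPP] at hfnn h1nn ⊢
          omega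
        · simp [av, hPP] at h
          omega
    have hle' := (hn P hPs).1
    rw [show f ^ 2 - f = f * (f - 1) by ring, ord_div P (mul_ne_zero hf0 hf10) ht0,
      P.ord_mul hf0 hf10]
    omega
  let w1 : F := (f1 ^ 2 - f1) / t
  have hw1 : IntOver K (G.x : F) w1 := by
    refine intOver_of_forall_place fun P hxP => ?_
    by_cases hP : 0 < P.ord t
    · have : w1 = aeval (G.x : F) q ^ 2 * ((f ^ 2 - f) / t) +
          aeval (G.x : F) q * aeval (G.x : F) U * f := by
        simp only [w1, hf1def]
        field_simp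
        rw [hq]; ring
      rw [this]
      exact add_mem (mul_mem (pow_mem (aeval_mem_place G hxP _) _) (hidem P hP))
        (mul_mem (mul_mem (aeval_mem_place G hxP _) (aeval_mem_place G hxP _)) (hfreg P hP))
    · have h0 : P.ord t = 0 := by
        have := ord_nonneg_of_mem P (sub_mem hxP (P.algebraMap_mem' (α : K)))
        rw [← ht] at this
        omega
      have hi : t⁻¹ ∈ P.toValuationSubring := mem_of_ord_nonneg P (by rw [P.ord_inv, h0, neg_zero])
      simp only [w1, div_eq_mul_inv]
      exact mul_mem (sub_mem (pow_mem (intOver_mem_place hf1 P hxP) _)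
        (intOver_mem_place hf1 P hxP)) hi
  -- `f1` is a unit at `P0`
  have hxP0 := x_mem_of_ord_pos G hP0
  have hf0 : f ≠ 0 ∧ P0.ord f = 0 := by
    have hP0s := (hs P0).2 hP0
    have hne : f ≠ 0 := by
      intro h
      rcases hf P0 hP0s with h1 | h1 <;> simp [av, h, ord_neg] at h1
      omega
    refine ⟨hne, ?_⟩
    rcases hf P0 hP0s with h1 | h1
    · simp [av, sub_eq_zero] at h1; rw [h1]; exact P0.ord_one
    · simp [av] at h1
      have := ord_add_eq_left P0 (f := (1 : F)) (g := f - 1) one_ne_zero
        (fun _ => by rw [P0.ord_one]; omega)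
      rwa [add_sub_cancel, P0.ord_one] at this
  have hq0 : aeval (G.x : F) q ≠ 0 ∧ P0.ord (aeval (G.x : F) q) = 0 := by
    have h1 : (t * aeval (G.x : F) U ≠ 0 → P0.ord (1 : F) < P0.ord (t * aeval (G.x : F) U)) := by
      intro h
      rw [P0.ord_one, P0.ord_mul (left_ne_zero_of_mul h) (right_ne_zero_of_mul h)]
      have := ord_nonneg_of_mem P0 (aeval_mem_place G hxP0 U)
      omega
    refine ⟨fun h => ?_, by rw [hq, ord_add_eq_left P0 one_ne_zero h1, P0.ord_one]⟩
    have : q = 0 := hinj (by rw [h, map_zero])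
    rw [this, eval_zero] at hq1
    exact zero_ne_one hq1
  have hf1ne : f1 ≠ 0 := mul_ne_zero hq0.1 hf0.1
  have hf1ord : P0.ord f1 = 0 := by rw [hf1def, P0.ord_mul hq0.1 hf0.1, hq0.2, hf0.2, add_zero]
  obtain ⟨T, hT⟩ := exists_trace_eq hf1
  refine trace_eval_ne_zero (a := (α : K)) hx hf1 hw1 (by simp only [w1, ← ht]; field_simp) ?_ hT ?_
  · intro l z hz heq
    have hz0 : z ≠ 0 := fun h => pow_ne_zero l hf1ne (by rw [heq, h, mul_zero])
    have := congrArg P0.ord heq
    rw [ord_pow, hf1ord, mul_zero, P0.ord_mul ht0 hz0] at this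
    have := ord_nonneg_of_mem P0 (intOver_mem_place hz P0 hxP0)
    omega
  -- the test element `t ^ m * f1 / h`
  have hsreg : ∀ P : Place K F, 0 < P.ord t → t ^ m * f1 / h ∈ P.toValuationSubring := by
    intro P hP
    refine mem_of_ord_nonneg P ?_
    rw [ord_div P (mul_ne_zero (pow_ne_zero _ ht0) hf1ne) hh0,
      P.ord_mul (pow_ne_zero _ ht0) hf1ne, ord_pow]
    by_cases hPP : P = P0
    · rw [hPP, hf1ord]
      omega
    · have hPs := (hs P).2 hP
      have hxP : (G.x : F) ∈ P.toValuationSubring := x_mem_of_ord_pos G (α := (α : K)) hP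
      have hqnn := ord_nonneg_of_mem P (aeval_mem_place G hxP q)
      have hge : (n : ℤ) ≤ P.ord f := by
        rcases hf P hPs with h | h
        · simp [av, hPP] at h; exact absurd h hf0.1
        · simpa [av, hPP] using h
      have := (hn P hPs).2
      rw [hf1def, P.ord_mul hq0.1 hf0.1]
      have hm0 : (0 : ℤ) ≤ (m : ℤ) * P.ord t := mul_nonneg (Int.natCast_nonneg m) hP.le
      omega
  obtain ⟨q2, hq2, hs2⟩ := exists_intOver_of_regular G hsreg
  obtain ⟨q3, p, hq3, hqp⟩ := hb.exists_coords isChartModule_intOver hα hs2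
  choose V hV using htr
  have htrmul : ∀ (r : K[X]) (y : F),
      (Algebra.trace K⟮(G.x : F)⟯ F (aeval (G.x : F) r * y) : F) =
        aeval (G.x : F) r * (Algebra.trace K⟮(G.x : F)⟯ F y : F) := by
    intro r y
    let e : K⟮(G.x : F)⟯ := ⟨aeval (G.x : F) r,
      algebra_adjoin_le_adjoin K _ (aeval_mem_adjoin_singleton K _)⟩
    have he : aeval (G.x : F) r * y = e • y := (Algebra.smul_def e y).symm
    rw [he, map_smul, smul_eq_mul]
    rfl
  have hpoly : q3 * q2 * (X - C (α : K)) ^ m * T =
      (X - C (α : K)) ^ (m + 1) * ∑ i, p i * V i := by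
    apply hinj
    rw [map_mul, hT, ← htrmul]
    have : aeval (G.x : F) (q3 * q2 * (X - C (α : K)) ^ m) * f1 =
        ∑ i, aeval (G.x : F) (p i) * ((b i : F) * h) := by
      simp only [← mul_assoc]
      rw [← Finset.sum_mul, ← hqp, map_mul, map_mul, map_pow, htX]
      field_simp
    rw [this, map_sum, AddSubmonoidClass.coe_finsetSum, map_mul, map_sum, Finset.mul_sum]
    refine Finset.sum_congr rfl fun i _ => ?_
    rw [htrmul, hV, ← map_mul, ← map_mul]
    ring_nf
  rw [pow_succ, mul_assoc ((X - C (α : K)) ^ m), mul_comm (q3 * q2) ((X - C (α : K)) ^ m),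
    mul_assoc ((X - C (α : K)) ^ m)] at hpoly
  have h0 := congrArg (Polynomial.eval (α : K))
    (mul_left_cancel₀ (pow_ne_zero _ (X_sub_C_ne_zero _)) hpoly)
  rw [eval_mul, eval_mul, hq2, mul_one, eval_mul, eval_sub, eval_X, eval_C, sub_self,
    zero_mul] at h0
  exact (mul_eq_zero.1 h0).resolve_left hq3

end Fermat.Agent.Igusa

end
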