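/-
The trace pairing between the chart lattices near a residue disc, and reductions of integral
functions.
-/
import Fermat.Agent.Igusa.TameKey
import Mathlib.RingTheory.Trace.Basic

set_option autoImplicit false

noncomputable section

namespace Fermat.Agent.Igusa

open AlgebraicCurve IntermediateField Polynomial Curve
open scoped IntermediateField.algebraAdjoinAdjoin

universe uK uF uk uFb

variable {K : Type uK} [Field K] [CharZero K] {A : ValuationSubring K}
  {F : Type uF} [Field F] [Algebra K F] [IsFunctionFieldOne K F]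
  {k : Type uk} [Field k] {Fb : Type uFb} [Field Fb] [Algebra k Fb]
  (G : Curve.GaussReduction A F k Fb)

/-- Integral functions vanishing over `x = c`. -/
def IntVanish (c : K) (f : F) : Prop :=
  IntOver K (G.x : F) f ∧
    ∀ P : Place K F, 0 < P.ord ((G.x : F) - algebraMap K F c) → f = 0 ∨ 0 < P.ord f

theorem isChartModule_intVanish (c : K) : IsChartModule G (IntVanish G c) where
  int _ h := h.1
  zero := ⟨isIntegral_zero, fun _ _ => Or.inl rfl⟩
  add f g hf hg := ⟨hf.1.add hg.1, fun P hP => by
    by_cases h : f + g = 0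
    · exact Or.inl h
    refine Or.inr ?_
    have := le_ord_add P 1 h (fun h0 => by rcases hf.2 P hP with h' | h' <;> [exact absurd h' h0; omega])
      (fun h0 => by rcases hg.2 P hP with h' | h' <;> [exact absurd h' h0; omega])
    omega⟩
  mul p f hf := ⟨(intOver_aeval p).mul hf.1, fun P hP => by
    by_cases h : aeval (G.x : F) p * f = 0
    · exact Or.inl h
    refine Or.inr ?_
    rw [P.ord_mul (left_ne_zero_of_mul h) (right_ne_zero_of_mul h)]
    have h1 := ord_nonneg_of_mem P (aeval_mem_place G (x_mem_of_ord_pos G hP) p)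
    rcases hf.2 P hP with h' | h'
    · exact absurd h' (right_ne_zero_of_mul h)
    · omega⟩

omit [CharZero K] [IsFunctionFieldOne K F] in
theorem IsLiftBasis.scale {g : Fin (Module.finrank k⟮G.φ G.x⟯ Fb) → G.V} (hg : IsLiftBasis G g)
    (e : Fin (Module.finrank k⟮G.φ G.x⟯ Fb) → A[X]) (he : ∀ i, (e i).map G.π ≠ 0) :
    IsLiftBasis G (fun i => tameEval G (e i) * g i) := ⟨by
  rw [Fintype.linearIndependent_iff]
  intro r hr i
  have h := hg.hind (fun i => (r i : Fb) * aeval (G.φ G.x) ((e i).map G.π))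
    (fun i => mul_mem (r i).2
      (algebra_adjoin_le_adjoin k _ (aeval_mem_adjoin_singleton k _))) (by
        rw [← hr]
        exact Finset.sum_congr rfl fun i _ => by
          rw [Algebra.smul_def, map_mul, φ_tameEval, mul_assoc]; rfl) i
  exact Subtype.ext ((mul_eq_zero.1 h).resolve_right fun h0 =>
    he i (aeval_xBar_injective G (by rw [h0, map_zero])))⟩

theorem exists_isLiftBasis_intOver :
    ∃ b, IsLiftBasis G b ∧ ∀ i, IntOver K (G.x : F) (b i : F) := by
  have := finiteDimensional_x G
  obtain ⟨b₀, hb₀⟩ := exists_isLiftBasis G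
  choose q hq hqint using fun i => exists_intOver_mul (K0 := K) (x := (G.x : F)) (b₀ i : F)
  choose c qA hc hqA hqAπ using fun i =>
    exists_scaled G (p := q i) (fun h => hq i (by rw [h, map_zero]))
  refine ⟨_, hb₀.scale G qA hqAπ, fun i => ?_⟩
  rw [MulMemClass.coe_mul, coe_tameEval, hqA, map_mul, aeval_C, mul_assoc]
  exact (intOver_algebraMap _).mul (hqint i)

omit [CharZero K] [IsFunctionFieldOne K F] in
theorem aeval_det_mul_coord {n : ℕ} (M : Matrix (Fin n) (Fin n) k[X]) (U : Fin n → k[X])
    (r : Fin n → Fb)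
    (h : Matrix.vecMul r (M.map (aeval (R := k) (G.φ G.x))) = fun j => aeval (G.φ G.x) (U j))
    (i : Fin n) :
    aeval (G.φ G.x) M.det * r i = aeval (G.φ G.x) (Matrix.vecMul U M.adjugate i) := by
  have hcr := congrArg
    (fun v => Matrix.vecMul v (M.adjugate.map (aeval (R := k) (G.φ G.x)))) h
  simp only [Matrix.vecMul_vecMul, ← Matrix.map_mul, Matrix.mul_adjugate] at hcr
  have := congrFun hcr i
  rw [show (M.det • (1 : Matrix (Fin n) (Fin n) k[X])).map
      (aeval (R := k) (G.φ G.x)) = aeval (G.φ G.x) M.det • (1 : Matrix (Fin n) (Fin n) Fb) by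
    ext i j
    by_cases h : i = j <;> simp [h]] at this
  rw [Matrix.vecMul_smul, Matrix.vecMul_one] at this
  rw [show aeval (G.φ G.x) M.det * r i = (aeval (G.φ G.x) M.det • r) i from rfl, this]
  exact (RingHom.map_vecMul (aeval (R := k) (G.φ G.x)).toRingHom _ _ i).symm

/-- Reductions of integral functions are integral. -/
theorem intOver_φ [Algebra.IsSeparable k⟮G.φ G.x⟯ Fb] {f : G.V}
    (hf : IntOver K (G.x : F) (f : F)) : IntOver k (G.φ G.x) (G.φ f) := by
  classical
  have := finiteDimensional_x G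
  have := finiteDimensional_xBar G
  obtain ⟨b, hb, hbint⟩ := exists_isLiftBasis_intOver G
  choose T _ hT using fun i j => exists_trace_poly G (f := b i * b j)
    (by push_cast; exact (hbint i).mul (hbint j))
  let TM : Matrix (Fin (Module.finrank k⟮G.φ G.x⟯ Fb)) (Fin (Module.finrank k⟮G.φ G.x⟯ Fb)) k[X] :=
    Matrix.of fun i j => (T i j).map G.π
  have hTM : TM.map (aeval (R := k) (G.φ G.x)) =
      (Algebra.traceMatrix k⟮G.φ G.x⟯ fun i => G.φ (b i)).map k⟮G.φ G.x⟯.val := by
    ext i j; simp [TM, Algebra.traceMatrix_apply, Algebra.traceForm_apply, hT]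
  have hdet : TM.det ≠ 0 := by
    intro h0
    have h1 := congrArg (aeval (R := k) (G.φ G.x)) h0
    rw [AlgHom.map_det, AlgHom.mapMatrix_apply, hTM, map_zero,
      ← AlgHom.mapMatrix_apply, ← AlgHom.map_det] at h1
    refine Algebra.discr_not_zero_of_basis k⟮G.φ G.x⟯ hb.basisBar (Subtype.ext ?_)
    rw [Algebra.discr_def]
    simpa [funext hb.basisBar_apply] using h1
  -- all powers of `φ f` lie in `(1 / det) · Σ k[x̄] b̄ᵢ`
  have hspan : ∀ n : ℕ, ∃ p : Fin (Module.finrank k⟮G.φ G.x⟯ Fb) → k[X],
      aeval (G.φ G.x) TM.det * G.φ f ^ n = ∑ i, aeval (G.φ G.x) (p i) * G.φ (b i) := by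
    intro n
    choose S _ hS using fun j => exists_trace_poly G (f := f ^ n * b j)
      (by push_cast; exact (hf.pow n).mul (hbint j))
    let s : Fin (Module.finrank k⟮G.φ G.x⟯ Fb) → k[X] := fun j => (S j).map G.π
    refine ⟨Matrix.vecMul s TM.adjugate, ?_⟩
    let r : Fin (Module.finrank k⟮G.φ G.x⟯ Fb) → Fb := fun i =>
      (hb.basisBar.repr (G.φ f ^ n) i : Fb)
    have hr : ∑ i, r i * G.φ (b i) = G.φ f ^ n := by
      have := hb.basisBar.sum_repr (G.φ f ^ n)
      simpa [Algebra.smul_def] using this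
    have hrT : Matrix.vecMul r (TM.map (aeval (R := k) (G.φ G.x))) =
        fun j => aeval (G.φ G.x) (s j) := by
      funext j
      simp only [s, hS, map_mul, map_pow]
      conv_rhs => rw [← hb.basisBar.sum_repr (G.φ f ^ n), Finset.sum_mul, map_sum,
        AddSubmonoidClass.coe_finsetSum]
      simp only [Matrix.vecMul, dotProduct, Matrix.map_apply, IsLiftBasis.basisBar_apply,
        smul_mul_assoc, map_smul, smul_eq_mul]
      refine Finset.sum_congr rfl fun i _ => ?_
      simp [TM, hT, r]
    rw [← hr, Finset.mul_sum]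
    exact Finset.sum_congr rfl fun i _ => by
      rw [← mul_assoc, aeval_det_mul_coord G TM s r hrT i]
  refine intOver_of_forall_place fun Q hQ => mem_of_ord_nonneg Q ?_
  by_contra hneg
  push Not at hneg
  have hf0 : G.φ f ≠ 0 := fun h => by rw [h] at hneg; simp at hneg
  have hd0 : aeval (G.φ G.x) TM.det ≠ 0 := fun h =>
    hdet (aeval_xBar_injective G (by rw [h, map_zero]))
  let B : ℕ := ∑ i, (Q.ord (G.φ (b i))).natAbs
  let n : ℕ := B + (Q.ord (aeval (G.φ G.x) TM.det)).natAbs + 1
  obtain ⟨p, hp⟩ := hspan n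
  have hlow : -(B : ℤ) ≤ Q.ord (∑ i, aeval (G.φ G.x) (p i) * G.φ (b i)) := by
    refine le_ord_sum Q _ _ _ (fun i hi hne => ?_) (hp ▸ mul_ne_zero hd0 (pow_ne_zero _ hf0))
    rw [Q.ord_mul (left_ne_zero_of_mul hne) (right_ne_zero_of_mul hne)]
    have h1 := ord_nonneg_of_mem Q (intOver_mem_place (intOver_aeval (p i)) Q hQ)
    have h2 := Finset.single_le_sum (f := fun i => (Q.ord (G.φ (b i))).natAbs)
      (fun _ _ => Nat.zero_le _) hi
    omega
  rw [← hp, Q.ord_mul hd0 (pow_ne_zero _ hf0), ord_pow] at hlow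
  have : (n : ℤ) * Q.ord (G.φ f) ≤ (n : ℤ) * (-1) :=
    mul_le_mul_of_nonneg_left (by omega) (by positivity)
  omega

/-- A uniform exponent for the places over a value of `x`. -/
theorem exists_exponent (c : K) :
    ∃ N : ℕ, N ≠ 0 ∧ ∀ P : Place K F, 0 < P.ord ((G.x : F) - algebraMap K F c) →
      P.ord ((G.x : F) - algebraMap K F c) ≤ N := by
  refine ⟨1 + ∑ P ∈ (finite_places_over G c).toFinset,
    (P.ord ((G.x : F) - algebraMap K F c)).natAbs, by omega, fun P hP => ?_⟩
  have hle := Finset.single_le_sum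
    (f := fun P : Place K F => (P.ord ((G.x : F) - algebraMap K F c)).natAbs)
    (fun _ _ => Nat.zero_le _) ((Set.Finite.mem_toFinset (finite_places_over G c)).2 hP)
  omega

/-- A high power of a function vanishing over `c` is divisible by `x - c`. -/
theorem intOver_pow_div {c : K} {N : ℕ} (hN0 : N ≠ 0)
    (hN : ∀ P : Place K F, 0 < P.ord ((G.x : F) - algebraMap K F c) →
      P.ord ((G.x : F) - algebraMap K F c) ≤ N)
    {f : F} (hf : IntVanish G c f) :
    IntOver K (G.x : F) (f ^ N / ((G.x : F) - algebraMap K F c)) := by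
  have := finiteDimensional_x G
  have := isSeparable_x G
  have ht0 := sub_algebraMap_ne_zero (transcendental_x G) c
  refine intOver_of_forall_place fun P hxP => ?_
  by_cases hP : 0 < P.ord ((G.x : F) - algebraMap K F c)
  · rcases eq_or_ne f 0 with rfl | h0
    · rw [zero_pow hN0, zero_div]; exact zero_mem _
    refine mem_of_ord_nonneg P ?_
    rw [ord_div P (pow_ne_zero _ h0) ht0, ord_pow]
    have h2 : 0 < P.ord f := (hf.2 P hP).resolve_left h0
    have hmul : (N : ℤ) * 1 ≤ (N : ℤ) * P.ord f :=
      mul_le_mul_of_nonneg_left (by omega) (by positivity)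
    have := hN P hP
    omega
  · have h0 : P.ord ((G.x : F) - algebraMap K F c) = 0 := by
      have := ord_nonneg_of_mem P (sub_mem hxP (P.algebraMap_mem' c))
      omega
    rw [div_eq_mul_inv]
    exact mul_mem (pow_mem (intOver_mem_place hf.1 P hxP) _)
      (mem_of_ord_nonneg P (by rw [P.ord_inv, h0, neg_zero]))

variable {G}

/-- The pairing `(b, d) ↦ Tr (b d) / (x - c)` between the two lattices. -/
theorem exists_pairing {c : A} {b d : G.V} (hb : IntOver K (G.x : F) (b : F))
    (hd : IntVanish G (c : K) (d : F)) :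
    ∃ M : A[X], (Algebra.trace K⟮(G.x : F)⟯ F ((b : F) * (d : F)) : F) =
        ((G.x : F) - algebraMap K F (c : K)) * (tameEval G M : F) ∧
      (Algebra.trace k⟮G.φ G.x⟯ Fb (G.φ b * G.φ d) : Fb) =
        aeval (G.φ G.x) (X - C (G.π c)) * aeval (G.φ G.x) (M.map G.π) := by
  have := finiteDimensional_x G
  have := isSeparable_x G
  have hint : IntOver K (G.x : F) ((b * d : G.V) : F) := by
    push_cast; exact hb.mul hd.1
  obtain ⟨T, hT, hTπ⟩ := exists_trace_poly G hint
  obtain ⟨N, hN0, hN⟩ := exists_exponent G (c : K)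
  have hw : IntOver K (G.x : F)
      ((b : F) ^ N * ((d : F) ^ N / ((G.x : F) - algebraMap K F (c : K)))) :=
    (hb.pow N).mul (intOver_pow_div G hN0 hN hd)
  have hroot : (T.map A.subtype).eval (c : K) = 0 := by
    refine trace_eval_eq_zero (transcendental_x G) hint hw (m := N) ?_ ?_
    · have := sub_algebraMap_ne_zero (transcendental_x G) (c : K)
      push_cast
      rw [mul_pow]
      field_simp
    · rw [← coe_tameEval, hT]
  have hrootA : T.IsRoot c := by
    apply Subtype.val_injective
    rw [show (c : K) = A.subtype c from rfl, eval_map, eval₂_at_apply] at hroot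
    exact hroot
  obtain ⟨M, hM⟩ := dvd_iff_isRoot.2 hrootA
  refine ⟨M, ?_, ?_⟩
  · have := hT
    push_cast at this
    rw [← this, hM, map_mul, MulMemClass.coe_mul]
    simp
  · have := hTπ
    rw [map_mul] at this
    rw [← this, hM]
    simp

end Fermat.Agent.Igusa

end
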